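import Fermat.Agent.EC.Mult

set_option autoImplicit false

/-!
# Inertia acts trivially on `p`-torsion at a multiplicative place with `p ∣ v(Δ)`
-/

namespace Fermat.Agent.EC

open WeierstrassCurve WeierstrassCurve.Affine

variable {K : Type*} [Field K] {Γ₀ : Type*} [LinearOrderedCommGroupWithZero Γ₀]
  {v : Valuation K Γ₀}

/-! ### Principal units -/

lemma pu_mul {a b : K} (ha : v (a - 1) < 1) (hb : v (b - 1) < 1) : v (a * b - 1) < 1 := by
  have hb1 : v b ≤ 1 := by
    have : b = (b - 1) + 1 := by ring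
    rw [this]
    exact v_add_le hb.le (by simp)
  have : a * b - 1 = b * (a - 1) + (b - 1) := by ring
  rw [this]
  exact v_add_lt (v_lt_mul hb1 ha) hb

lemma pu_v {a : K} (ha : v (a - 1) < 1) : v a = 1 := by
  have : a = 1 + (a - 1) := by ring
  rw [this]
  exact v_one_add ha

lemma pu_inv {a : K} (ha : v (a - 1) < 1) : v (a⁻¹ - 1) < 1 := by
  have h1 := pu_v ha
  have ha0 : a ≠ 0 := by
    rintro rfl
    simp at h1
  have : a⁻¹ - 1 = -((a - 1) / a) := by field_simp; ring
  rw [this, Valuation.map_neg, map_div₀, h1, div_one]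
  exact ha

lemma pu_pow {a : K} (ha : v (a - 1) < 1) (n : ℕ) : v (a ^ n - 1) < 1 := by
  induction n with
  | zero => simp
  | succ n ih => rw [pow_succ]; exact pu_mul ih ha

lemma pu_zpow {a : K} (ha : v (a - 1) < 1) (n : ℤ) : v (a ^ n - 1) < 1 := by
  rcases n with n | n
  · simpa using pu_pow ha n
  · rw [zpow_negSucc]; exact pu_inv (pu_pow ha _)

lemma pu_of_coprime {u : K} (hu : v u = 1) {a b : ℕ} (hab : a.Coprime b)
    (ha : v (u ^ a - 1) < 1) (hb : v (u ^ b - 1) < 1) : v (u - 1) < 1 := by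
  have hu0 : u ≠ 0 := by
    rintro rfl
    simp at hu
  have hbez : (a : ℤ) * a.gcdA b + b * a.gcdB b = 1 := by
    rw [← Nat.gcd_eq_gcd_ab, hab]; rfl
  have : u = (u ^ a) ^ (a.gcdA b) * (u ^ b) ^ (a.gcdB b) := by
    rw [← zpow_natCast, ← zpow_natCast, ← zpow_mul, ← zpow_mul, ← zpow_add₀ hu0, hbez, zpow_one]
  rw [this]
  exact pu_mul (pu_zpow ha _) (pu_zpow hb _)

lemma monic_quad_integral {t b c : K} (hb : v b ≤ 1) (hc : v c ≤ 1) (h : t ^ 2 + b * t = c) :
    v t ≤ 1 := by
  by_contra ht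
  rw [not_le] at ht
  have h2 : v (b * t) < v (t ^ 2) := by
    refine (v_mul_le' hb le_rfl).trans_lt ?_
    rw [map_pow]
    simpa using pow_lt_pow_right₀ ht (show 1 < 2 by norm_num)
  have h3 : v (t ^ 2 + b * t) = v t ^ 2 := by
    rw [Valuation.map_add_eq_of_lt_left v h2, map_pow]
  rw [h] at h3
  rw [h3] at hc
  exact absurd hc (not_le.mpr (one_lt_pow₀ ht (by norm_num)))

/-- Iterates of an automorphism acting trivially on the residue field. -/
lemma iterate_ratio {σ : K →+* K} (hres : ∀ x : K, v x ≤ 1 → v (σ x - x) < 1)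
    {x u : K} (hu : σ x = u * x) (hu1 : v u = 1) (n : ℕ) :
    ∃ w, σ^[n] x = w * x ∧ v w = 1 ∧ v (w - u ^ n) < 1 := by
  induction n with
  | zero => exact ⟨1, by simp, by simp, by simp⟩
  | succ n ih =>
    obtain ⟨w, h1, h2, h3⟩ := ih
    refine ⟨σ w * u, ?_, ?_, ?_⟩
    · rw [Function.iterate_succ_apply', h1, map_mul, hu]; ring
    · have h4 := hres w h2.le
      have : σ w = w + (σ w - w) := by ring
      rw [map_mul, hu1, mul_one, this]
      exact v_eq_one_of_add h2 h4
    · have h4 := hres w h2.le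
      have : σ w * u - u ^ (n + 1) = u * ((σ w - w) + (w - u ^ n)) := by ring
      rw [this]
      exact v_lt_mul hu1.le (v_add_lt h4 h3)

variable [DecidableEq K] {W : WeierstrassCurve K} {σ : K →+* K}
  {φ : W.toAffine.Point →+ W.toAffine.Point}

lemma InertiaAction.iterate (H : InertiaAction v W σ φ) {x y : K}
    (h : W.toAffine.Nonsingular x y) (n : ℕ) :
    ∃ h', φ^[n] (.some x y h) = .some (σ^[n] x) (σ^[n] y) h' := by
  induction n with
  | zero => exact ⟨h, rfl⟩
  | succ n ih =>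
    obtain ⟨h1, h2⟩ := ih
    obtain ⟨h3, h4⟩ := H.action _ _ h1
    refine ⟨?_, ?_⟩
    · rw [Function.iterate_succ_apply', Function.iterate_succ_apply']; exact h3
    · rw [Function.iterate_succ_apply', h2, h4]
      simp only [Function.iterate_succ_apply']

/-- Local computation for a point on a non-identity, non-middle component: either it is fixed, or
the difference `φ P - P` has a unit `X`-coordinate and `σ x / x` is not a principal unit. -/
lemma InertiaAction.local_step (H : InertiaAction v W σ φ) (hiso : ∀ x, v (σ x) = v x)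
    (hM : MultForm v W) {n : ℕ} (hn : v (n : K) = 1) {x y : K} {h : W.toAffine.Nonsingular x y}
    (hP : n • (.some x y h : W.toAffine.Point) = 0) (hx0 : x ≠ 0) (hx1 : v x < 1)
    (hx2 : v W.a₆ < v x ^ 2) (hne : φ (.some x y h) ≠ .some x y h) :
    (∃ X Y H', φ (.some x y h) - .some x y h = .some X Y H' ∧ v X = 1) ∧
      ¬ v (σ x / x - 1) < 1 := by
  have hW := hM.vint
  have hvx0 : v x ≠ 0 := (Valuation.ne_zero_iff v).mpr hx0
  have ha₆x : v (W.a₆ / x ^ 2) < 1 := by
    rw [map_div₀, map_pow, div_lt_one₀ (zero_lt_iff.mpr (pow_ne_zero 2 hvx0))]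
    exact hx2
  have hx2x : v x ^ 2 ≤ v x := by
    rw [sq]
    calc v x * v x ≤ v x * 1 := mul_le_mul_right hx1.le _
      _ = v x := mul_one _
  have ha₃x : v (W.a₃ / x) < 1 := by
    rw [map_div₀, div_lt_one₀ (zero_lt_iff.mpr hvx0)]
    exact hM.a₃.trans_lt (hx2.trans_le hx2x)
  have ha₄x : v (W.a₄ / x) < 1 := by
    rw [map_div₀, div_lt_one₀ (zero_lt_iff.mpr hvx0)]
    exact hM.a₄.trans_lt (hx2.trans_le hx2x)
  have heq := (equation_iff _ _).mp h.1
  obtain ⟨τ, hτ⟩ : ∃ τ, τ = y / x := ⟨_, rfl⟩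
  have hy : y = τ * x := by rw [hτ]; field_simp
  have hq : τ ^ 2 + (W.a₁ + W.a₃ / x) * τ = W.a₂ + (x + W.a₄ / x + W.a₆ / x ^ 2) := by
    rw [hτ]
    field_simp
    linear_combination heq
  have hκ : v (x + W.a₄ / x + W.a₆ / x ^ 2) < 1 := v_add_lt (v_add_lt hx1 ha₄x) ha₆x
  have hτ1 : v τ ≤ 1 := monic_quad_integral (v_add_le hW.a₁ ha₃x.le) (v_add_le hW.a₂ hκ.le) hq
  -- `τ² + a₁ τ - a₂` is in the maximal ideal
  obtain ⟨κ, hκdef⟩ : ∃ κ, κ = τ ^ 2 + W.a₁ * τ - W.a₂ := ⟨_, rfl⟩
  have hκ2 : v κ < 1 := by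
    have : κ = (x + W.a₄ / x + W.a₆ / x ^ 2) - τ * (W.a₃ / x) := by
      rw [hκdef]; linear_combination hq
    rw [this]
    exact v_sub_lt hκ (v_lt_mul hτ1 ha₃x)
  have h4le : v (4 : K) ≤ 1 := by exact_mod_cast v_nat_le (v := v) 4
  -- `2τ + a₁` is a unit
  have h2τ : v (2 * τ + W.a₁) = 1 := by
    have h1 : v ((2 * τ + W.a₁) ^ 2) = 1 := by
      have : (2 * τ + W.a₁) ^ 2 = W.b₂ + 4 * κ := by
        rw [hκdef]; simp only [WeierstrassCurve.b₂]; ring
      rw [this]
      exact v_eq_one_of_add hM.b₂ (v_lt_mul h4le hκ2)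
    rw [map_pow] at h1
    exact (pow_eq_one_iff_of_nonneg zero_le (by norm_num)).mp h1
  -- the conjugate
  obtain ⟨ε, hε⟩ : ∃ ε, ε = σ τ - τ := ⟨_, rfl⟩
  have hεv : v ε < 1 := by rw [hε]; exact H.residue τ hτ1
  obtain ⟨u, hu⟩ : ∃ u, u = σ x / x := ⟨_, rfl⟩
  have hσx : σ x = u * x := by rw [hu]; field_simp
  have hu1 : v u = 1 := by
    rw [hu, map_div₀, hiso, div_self hvx0]
  have hσy : σ y = (τ + ε) * u * x := by
    rw [hy, map_mul, hσx, hε]; ring
  obtain ⟨h', hφ⟩ := H.action x y h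
  rw [hφ] at hne ⊢
  have hT : n • ((.some (σ x) (σ y) h' : W.toAffine.Point) - .some x y h) = 0 := by
    rw [smul_sub, hP, ← hφ, ← map_nsmul, hP, map_zero, sub_zero]
  have hxy : ¬ (σ x = x ∧ σ y = W.toAffine.negY x (W.toAffine.negY x y)) := by
    rw [negY_negY]
    rintro ⟨h1, h2⟩
    apply hne
    rw [Point.some.injEq]
    exact ⟨h1, h2⟩
  rw [sub_eq_add_neg, Point.neg_some, Point.add_some hxy] at hT ⊢
  have hXint := integral_of_torsion hW hn hT
  obtain ⟨l, hl⟩ : ∃ l, l = W.toAffine.slope (σ x) x (σ y) (W.toAffine.negY x y) := ⟨_, rfl⟩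
  rw [← hl] at hXint
  have hlint : v l ≤ 1 := by
    by_contra hcon
    rw [not_le] at hcon
    exact absurd hXint (not_le.mpr (addX_not_integral hW (by rw [hiso]; exact hx1.le) hx1.le hcon))
  have hσxx : σ x ≠ x := by
    intro hxx
    rcases Y_eq_of_X_eq h'.1 h.1 hxx with h1 | h1
    · exact hxy ⟨hxx, by rw [h1, negY_negY]⟩
    · have hu2 : u = 1 := by rw [hu, hxx]; field_simp
      rw [hσy, hu2, hy] at h1
      simp only [negY] at h1
      have h3 : 2 * τ + W.a₁ = -(ε + W.a₃ / x) := by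
        field_simp
        linear_combination h1
      rw [h3, Valuation.map_neg] at h2τ
      exact absurd (v_add_lt hεv ha₃x) (by rw [h2τ]; exact lt_irrefl _)
  have hu0 : u - 1 ≠ 0 := by
    intro h0
    apply hσxx
    rw [hσx, sub_eq_zero.mp h0, one_mul]
  have hlu : l * (u - 1) = (τ * u + τ + W.a₁) + (ε * u + W.a₃ / x) := by
    rw [hl, slope_of_X_ne hσxx]
    have : σ x - x = (u - 1) * x := by rw [hσx]; ring
    rw [this, hσy, hy]
    simp only [negY]
    field_simp
    ring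
  have hεu : v (ε * u + W.a₃ / x) < 1 := by
    refine v_add_lt ?_ ha₃x
    rw [mul_comm]; exact v_lt_mul hu1.le hεv
  have hupu : ¬ v (u - 1) < 1 := by
    intro hlt
    have h1 : v (l * (u - 1)) = 1 := by
      rw [hlu]
      refine v_eq_one_of_add ?_ hεu
      have : τ * u + τ + W.a₁ = (2 * τ + W.a₁) + τ * (u - 1) := by ring
      rw [this]
      exact v_eq_one_of_add h2τ (v_lt_mul hτ1 hlt)
    have h2 : 1 < v l := one_lt_of_mul_eq rfl h1 hlt
    exact absurd hlint (not_le.mpr h2)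
  have hu1' : v (u - 1) = 1 := by
    refine le_antisymm (v_sub_le hu1.le (by simp)) (not_lt.mp hupu)
  refine ⟨⟨_, _, _, rfl, ?_⟩, by rw [← hu]; exact hupu⟩
  rw [← hl]
  -- compute the `X`-coordinate
  obtain ⟨ε', hε'⟩ : ∃ ε', ε' = ε * u + W.a₃ / x := ⟨_, rfl⟩
  rw [← hε'] at hlu hεu
  have hXu : W.toAffine.addX (σ x) x l * (u - 1) ^ 2 = u * (2 * τ + W.a₁) ^ 2 +
      (κ * (u - 1) ^ 2 + ε' * (2 * (τ * u + τ + W.a₁) + ε' + W.a₁ * (u - 1))
        - (u * x + x) * (u - 1) ^ 2) := by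
    have e1 : W.toAffine.addX (σ x) x l * (u - 1) ^ 2 = (l * (u - 1)) ^ 2 +
      W.a₁ * (l * (u - 1)) * (u - 1) - W.a₂ * (u - 1) ^ 2 - (u * x + x) * (u - 1) ^ 2 := by
      simp only [addX, hσx]; ring
    rw [e1, hlu]
    have e2 : W.a₂ = τ ^ 2 + W.a₁ * τ - κ := by rw [hκdef]; ring
    rw [e2]
    ring
  have hmain : v (W.toAffine.addX (σ x) x l * (u - 1) ^ 2) = 1 := by
    rw [hXu]
    refine v_eq_one_of_add (by rw [map_mul, map_pow, hu1, h2τ]; simp) ?_
    have hu12 : v ((u - 1) ^ 2) ≤ 1 := v_pow_le_one hu1'.le 2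
    refine v_sub_lt (v_add_lt ?_ ?_) ?_
    · rw [mul_comm]; exact v_lt_mul hu12 hκ2
    · rw [mul_comm]
      refine v_lt_mul ?_ hεu
      refine v_add_le (v_add_le (v_mul_le' v_two_le ?_) hεu.le) (v_mul_le' hW.a₁ hu1'.le)
      exact v_add_le (v_add_le (v_mul_le' hτ1 hu1.le) hτ1) hW.a₁
    · rw [mul_comm]
      refine v_lt_mul hu12 (v_add_lt (v_lt_mul hu1.le hx1) hx1)
  rw [map_mul, map_pow, hu1', one_pow, mul_one] at hmain
  exact hmain

omit [DecidableEq K] in
/-- If a multiple prime to the order is fixed then the point itself is fixed. -/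
lemma fixed_of_multiple {G : Type*} [AddCommGroup G] (ψ : G →+ G) {P : G} {p m : ℕ}
    (hP : p • P = 0) (hm : m.Coprime p) (h : ψ (m • P) = m • P) : ψ P = P := by
  have hbez : (m : ℤ) * m.gcdA p + p * m.gcdB p = 1 := by
    rw [← Nat.gcd_eq_gcd_ab, hm]; rfl
  have hPe : P = (m.gcdA p) • (m • P) := by
    calc P = (1 : ℤ) • P := (one_zsmul P).symm
      _ = ((m : ℤ) * m.gcdA p + p * m.gcdB p) • P := by rw [hbez]
      _ = (m.gcdA p) • (m • P) + (m.gcdB p) • (p • P) := by
        rw [add_smul, mul_comm (m : ℤ), mul_comm (p : ℤ), mul_smul, mul_smul, natCast_zsmul,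
          natCast_zsmul]
      _ = (m.gcdA p) • (m • P) := by rw [hP, smul_zero, add_zero]
  rw [hPe, map_zsmul, h]

/-- Points on the middle component, or with unit `X`-coordinate, are fixed. -/
lemma InertiaAction.fixed_easy (H : InertiaAction v W σ φ) (hM : MultForm v W) {p : ℕ}
    (hp : p.Prime) (hp2 : p ≠ 2) (hn : v (p : K) = 1) {P : W.toAffine.Point}
    (hP : p • P = 0) (hP0 : P ≠ 0) (hx : ¬ (v (xc P) < 1 ∧ v W.a₆ < v (xc P) ^ 2)) :
    φ P = P := by
  have hW := hM.vint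
  have key : ∀ Q : W.toAffine.Point, Q ≠ 0 → p • Q = 0 → 1 ≤ v (xc Q) → φ Q = Q := by
    intro Q hQ0 hQ hxQ
    rcases Q with _ | ⟨x, y, h⟩
    · exact absurd rfl hQ0
    rw [xc_some] at hxQ
    have hx1 : v x = 1 := le_antisymm (integral_of_torsion hW hn hQ) hxQ
    exact H.fixed_of_nonsing hW hn hQ (hM.nonsing h.1 hx1)
  by_cases h1 : 1 ≤ v (xc P)
  · exact key P hP0 hP h1
  rw [not_le] at h1
  have h2 : v (xc P) ^ 2 ≤ v W.a₆ := by
    by_contra hcon
    exact hx ⟨h1, not_le.mp hcon⟩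
  have hcop : Nat.Coprime 2 p := (Nat.coprime_primes Nat.prime_two hp).mpr (Ne.symm hp2)
  have h2P : P + P ≠ 0 := by
    intro h0
    apply hP0
    have h20 : (2 : ℕ) • P = 0 := by rw [two_nsmul]; exact h0
    have hbez : (2 : ℤ) * Nat.gcdA 2 p + p * Nat.gcdB 2 p = 1 := by
      have := Nat.gcd_eq_gcd_ab 2 p
      rw [hcop] at this
      exact_mod_cast this.symm
    calc P = (1 : ℤ) • P := (one_zsmul P).symm
      _ = ((2 : ℤ) * Nat.gcdA 2 p + p * Nat.gcdB 2 p) • P := by rw [hbez]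
      _ = (Nat.gcdA 2 p) • ((2 : ℤ) • P) + (Nat.gcdB 2 p) • ((p : ℤ) • P) := by
        rw [add_smul, mul_comm (2 : ℤ), mul_comm (p : ℤ), mul_smul, mul_smul]
      _ = 0 := by
        rw [natCast_zsmul, hP, smul_zero, add_zero]
        have : (2 : ℤ) • P = (2 : ℕ) • P := by rw [← natCast_zsmul]; rfl
        rw [this, h20, smul_zero]
  have h3 := hM.two_nsmul_big hP0 h2P h1 h2
  refine fixed_of_multiple φ hP hcop ?_
  rw [two_nsmul]
  exact key (P + P) h2P (by rw [smul_add, hP, add_zero]) h3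

/-- Inertia acts unipotently on the `p`-torsion at a multiplicative place. -/
theorem InertiaAction.unipotent_of_mult (H : InertiaAction v W σ φ) (hiso : ∀ x, v (σ x) = v x)
    (hM : MultForm v W) {p : ℕ} (hp : p.Prime) (hp2 : p ≠ 2) (hn : v (p : K) = 1)
    {P : W.toAffine.Point} (hP : p • P = 0) : φ (φ P - P) = φ P - P := by
  by_cases hfix : φ P = P
  · rw [hfix, sub_self, map_zero]
  rcases P with _ | ⟨x, y, h⟩
  · exact absurd (map_zero φ) hfix
  have hx : v x < 1 ∧ v W.a₆ < v x ^ 2 := by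
    by_contra hcon
    exact hfix (H.fixed_easy hM hp hp2 hn hP (Point.some_ne_zero h) hcon)
  have hx0 : x ≠ 0 := by
    rintro rfl
    have := hx.2
    rw [map_zero, zero_pow (by norm_num)] at this
    exact absurd this (not_lt.mpr zero_le)
  obtain ⟨⟨X, Y, H', h1, h2⟩, -⟩ := H.local_step hiso hM hn hP hx0 hx.1 hx.2 hfix
  rw [h1]
  have hT : p • (.some X Y H' : W.toAffine.Point) = 0 := by
    rw [← h1, smul_sub, ← map_nsmul, hP, map_zero, sub_zero]
  exact H.fixed_of_nonsing hM.vint hn hT (hM.nonsing H'.1 h2)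

/-- The main theorem: inertia acts trivially on the `p`-torsion if `p ∣ v(a₆) = v(Δ)`. -/
theorem InertiaAction.fixed_of_mult (H : InertiaAction v W σ φ) (hiso : ∀ x, v (σ x) = v x)
    (hM : MultForm v W) {val : K → ℚ} (hval : RatVal v val) {π : K} (hπ0 : π ≠ 0)
    (hπ : val π = 1) (hσπ : σ π = π) {p : ℕ} (hp : p.Prime) (hp2 : p ≠ 2) (hn : v (p : K) = 1)
    {k : ℤ} (hk : val W.a₆ = p * k) {P : W.toAffine.Point} (hP : p • P = 0) : φ P = P := by
  by_contra hfix
  have hP0 : P ≠ 0 := by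
    rintro rfl
    exact hfix (map_zero φ)
  have hcop : ∀ m : ℕ, 1 ≤ m → m < p → m.Coprime p := fun t h1 h2 =>
    (Nat.coprime_comm.mp ((Nat.Prime.coprime_iff_not_dvd hp).mpr
      (fun h => absurd (Nat.le_of_dvd (by omega) h) (by omega))))
  have hord : addOrderOf P = p := by
    have h1 := addOrderOf_dvd_of_nsmul_eq_zero hP
    rcases (Nat.dvd_prime hp).mp h1 with h2 | h2
    · rw [AddMonoid.addOrderOf_eq_one_iff] at h2
      exact absurd h2 hP0
    · exact h2
  have hne0 : ∀ m : ℕ, 1 ≤ m → m < p → m • P ≠ 0 := by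
    intro m h1 h2 h3
    have := addOrderOf_dvd_of_nsmul_eq_zero h3
    rw [hord] at this
    exact absurd (Nat.le_of_dvd (by omega) this) (by omega)
  have htor : ∀ m : ℕ, p • (m • P) = 0 := by
    intro m
    rw [smul_comm, hP, smul_zero]
  -- all multiples are on intermediate components
  have hmid : ∀ m : ℕ, 1 ≤ m → m < p →
      v (xc (m • P)) < 1 ∧ v W.a₆ < v (xc (m • P)) ^ 2 := by
    intro m h1 h2
    by_contra hcon
    exact hfix (fixed_of_multiple φ hP (hcop m h1 h2)
      (H.fixed_easy hM hp hp2 hn (htor m) (hne0 m h1 h2) hcon))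
  have hx0 : ∀ m : ℕ, 1 ≤ m → m < p → xc (m • P) ≠ 0 := by
    intro m h1 h2 h0
    have := (hmid m h1 h2).2
    rw [h0, map_zero, zero_pow (by norm_num)] at this
    exact absurd this (not_lt.mpr zero_le)
  have ha₆ : 0 < val W.a₆ := (hval.lt_one_iff hM.a₆0).mp hM.a₆
  have hvx : ∀ m : ℕ, 1 ≤ m → m < p → 0 < val (xc (m • P)) ∧
      2 * val (xc (m • P)) < val W.a₆ := by
    intro m h1 h2
    have h3 := hmid m h1 h2
    have h4 := hx0 m h1 h2
    refine ⟨(hval.lt_one_iff h4).mp h3.1, ?_⟩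
    have h5 := h3.2
    rw [← map_pow, hval.lt_iff hM.a₆0 (pow_ne_zero 2 h4), hval.pow h4] at h5
    exact_mod_cast h5
  have hp3 : 3 ≤ p := by
    have := hp.two_le
    omega
  -- the valuation of `x(P)` times something prime to `p` is an integer
  obtain ⟨t, s, hts, htp⟩ : ∃ t : ℕ, ∃ s : ℤ, t * val (xc P) = s ∧ t.Coprime p := by
    obtain ⟨t, s, hts, htp⟩ := tropical_scaled hp hp2 (w := fun m => val (xc (m • P))) ha₆ hvx
      (by
        intro hne
        have h1 := hvx 1 le_rfl (by omega)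
        have h2 := hM.val_dbl hval (hne0 1 le_rfl (by omega))
          (by rw [← add_smul]; exact hne0 2 (by omega) (by omega)) (hx0 1 le_rfl (by omega))
          h1.1 h1.2 hne (by rw [← add_smul]; exact hx0 2 (by omega) (by omega))
        rw [← add_smul] at h2
        exact h2)
      (by
        intro m hm hmp hne hne2
        have h1 := hvx 1 le_rfl (by omega)
        have hm1 := hvx m (by omega) (by omega)
        have e1 : (m + 1) • P = m • P + 1 • P := add_smul _ _ _
        have e2 : (m - 1) • P = m • P - 1 • P := by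
          rw [eq_sub_iff_add_eq, ← add_smul]
          congr 1
          omega
        have h3 := hM.val_add_sub hval (hne0 m (by omega) (by omega)) (hne0 1 le_rfl (by omega))
          (hx0 m (by omega) (by omega)) (hx0 1 le_rfl (by omega)) hm1.1 h1.1 hne hne2
          (by rw [← e1]; exact hx0 (m + 1) (by omega) (by omega))
          (by rw [← e2]; exact hx0 (m - 1) (by omega) (by omega))
        rw [← e1, ← e2] at h3
        exact h3)
      (by
        have e : (p - 1) • P = - (1 • P) := by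
          rw [eq_neg_iff_add_eq_zero, ← add_smul]
          have : p - 1 + 1 = p := by omega
          rw [this, hP]
        change val (xc ((p - 1) • P)) = val (xc (1 • P))
        rw [e, one_smul]
        rcases P with _ | ⟨x, y, h⟩
        · rfl
        · rfl)
    simp only [one_smul] at hts
    rcases htp with rfl | htp
    · refine ⟨1, s * k, ?_, Nat.coprime_one_left _⟩
      rw [hk] at hts
      have ht0 : (t : ℚ) ≠ 0 := by exact_mod_cast hp.ne_zero
      have h5 : (t : ℚ) * val (xc P) = t * (s * k) := by rw [hts]; ring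
      have := mul_left_cancel₀ ht0 h5
      push_cast
      rw [one_mul]
      exact this
    · exact ⟨t, s * (p * k), by rw [hts, hk]; push_cast; ring, htp⟩
  rcases P with _ | ⟨x, y, h⟩
  · exact hP0 rfl
  rw [xc_some] at hts
  have hmid1 := hmid 1 le_rfl (by omega)
  have hx01 := hx0 1 le_rfl (by omega)
  rw [one_smul, xc_some] at hmid1 hx01
  obtain ⟨⟨X, Y, H', h1, h2⟩, h3⟩ := H.local_step hiso hM hn hP hx01 hmid1.1 hmid1.2 hfix
  obtain ⟨u, hu⟩ : ∃ u, u = σ x / x := ⟨_, rfl⟩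
  have hσx : σ x = u * x := by rw [hu]; field_simp
  have hvx0 : v x ≠ 0 := (Valuation.ne_zero_iff v).mpr hx01
  have hu1 : v u = 1 := by
    rw [hu, map_div₀, hiso, div_self hvx0]
  rw [← hu] at h3
  -- `T = φ P - P` is fixed
  obtain ⟨T, hTdef⟩ : ∃ T, T = φ (.some x y h) - .some x y h := ⟨_, rfl⟩
  have hTfix : φ T = T := by
    rw [hTdef]
    exact H.unipotent_of_mult hiso hM hp hp2 hn hP
  have hTtor : p • T = 0 := by
    rw [hTdef, smul_sub, ← map_nsmul, hP, map_zero, sub_zero]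
  have hφP : φ (.some x y h) = .some x y h + T := by rw [hTdef]; abel
  have hiter : ∀ m : ℕ, φ^[m] (.some x y h) = .some x y h + m • T := by
    intro m
    induction m with
    | zero => simp
    | succ m ih =>
      rw [Function.iterate_succ_apply', ih, map_add, map_nsmul, hTfix, hφP, succ_nsmul]
      abel
  have hiterp := hiter p
  rw [hTtor, add_zero] at hiterp
  obtain ⟨h'', h4⟩ := H.iterate h p
  rw [hiterp, Point.some.injEq] at h4
  obtain ⟨w, hw1, hw2, hw3⟩ := iterate_ratio H.residue hσx hu1 p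
  rw [← h4.1] at hw1
  have hw : w = 1 := by
    have : (w - 1) * x = 0 := by rw [sub_mul, ← hw1, one_mul, sub_self]
    rcases mul_eq_zero.mp this with h5 | h5
    · exact sub_eq_zero.mp h5
    · exact absurd h5 hx01
  rw [hw] at hw3
  have hup : v (u ^ p - 1) < 1 := by
    have : u ^ p - 1 = -(1 - u ^ p) := by ring
    rw [this, Valuation.map_neg]
    exact hw3
  -- `u ^ t` is a principal unit
  obtain ⟨e, he⟩ : ∃ e, e = x ^ t / π ^ s := ⟨_, rfl⟩
  have hπs : π ^ s ≠ 0 := zpow_ne_zero s hπ0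
  have he0 : e ≠ 0 := by rw [he]; exact div_ne_zero (pow_ne_zero t hx01) hπs
  have hev : v e = 1 := by
    rw [hval.eq_one_iff he0, he, hval.div (pow_ne_zero t hx01) hπs, hval.pow hx01,
      hval.zpow hπ0, hts, hπ]
    ring
  have hσe : σ e = u ^ t * e := by
    rw [he, map_div₀, map_pow, map_zpow₀, hσπ, hσx]
    ring
  have hut : v (u ^ t - 1) < 1 := by
    have h5 := H.residue e hev.le
    have : σ e - e = (u ^ t - 1) * e := by rw [hσe]; ring
    rw [this, map_mul, hev, mul_one] at h5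
    exact h5
  exact h3 (pu_of_coprime hu1 htp hut hup)

end Fermat.Agent.EC
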