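import Mathlib

set_option autoImplicit false

/-!
# Points of Weierstrass curves under variable changes

`pointEquiv W C : (C • W).Point ≃+ W.Point` is the additive equivalence
`(x, y) ↦ (u² x + r, u³ y + u² s x + t)`.
-/

namespace Fermat.Agent.EC

open WeierstrassCurve WeierstrassCurve.Affine

variable {K : Type*} [Field K]

/-- `X`-coordinate of the image of a point under a variable change. -/
def vcX (C : VariableChange K) (x : K) : K := (C.u : K) ^ 2 * x + C.r

/-- `Y`-coordinate of the image of a point under a variable change. -/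
def vcY (C : VariableChange K) (x y : K) : K :=
  (C.u : K) ^ 3 * y + (C.u : K) ^ 2 * C.s * x + C.t

lemma vc_equation_iff (W : WeierstrassCurve K) (C : VariableChange K) (x y : K) :
    W.toAffine.Equation (vcX C x) (vcY C x y) ↔ (C • W).toAffine.Equation x y := by
  obtain ⟨u, r, s, t⟩ := C
  rw [equation_iff', equation_iff']
  simp only [variableChange_def, vcX, vcY]
  have hu : (u : K) ≠ 0 := u.ne_zero
  rw [Units.val_inv_eq_inv_val]
  constructor
  · intro h
    rw [← mul_right_inj' (pow_ne_zero 6 hu), mul_zero, ← h]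
    field_simp
    ring
  · intro h
    rw [← mul_right_inj' (pow_ne_zero 6 hu), mul_zero] at h
    rw [← h]
    field_simp
    ring

lemma vc_polyY (W : WeierstrassCurve K) (C : VariableChange K) (x y : K) :
    2 * vcY C x y + W.a₁ * vcX C x + W.a₃ =
      (C.u : K) ^ 3 * (2 * y + (C • W).a₁ * x + (C • W).a₃) := by
  obtain ⟨u, r, s, t⟩ := C
  simp only [variableChange_def, vcX, vcY]
  have hu : (u : K) ≠ 0 := u.ne_zero
  rw [Units.val_inv_eq_inv_val]
  field_simp
  ring

lemma vc_polyX (W : WeierstrassCurve K) (C : VariableChange K) (x y : K) :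
    W.a₁ * vcY C x y - (3 * vcX C x ^ 2 + 2 * W.a₂ * vcX C x + W.a₄) =
      (C.u : K) ^ 4 * ((C • W).a₁ * y - (3 * x ^ 2 + 2 * (C • W).a₂ * x + (C • W).a₄))
        - C.s * ((C.u : K) ^ 3 * (2 * y + (C • W).a₁ * x + (C • W).a₃)) := by
  obtain ⟨u, r, s, t⟩ := C
  simp only [variableChange_def, vcX, vcY]
  have hu : (u : K) ≠ 0 := u.ne_zero
  rw [Units.val_inv_eq_inv_val]
  field_simp
  ring

lemma vc_nonsingular_iff (W : WeierstrassCurve K) (C : VariableChange K) (x y : K) :
    W.toAffine.Nonsingular (vcX C x) (vcY C x y) ↔ (C • W).toAffine.Nonsingular x y := by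
  have hu : (C.u : K) ≠ 0 := C.u.ne_zero
  rw [nonsingular_iff', nonsingular_iff', vc_equation_iff]
  refine and_congr_right fun _ => ?_
  rw [vc_polyX, vc_polyY, ← not_and_or, ← not_and_or]
  refine not_congr ⟨fun ⟨h1, h2⟩ => ?_, fun ⟨h1, h2⟩ => ?_⟩
  · have h2' : 2 * y + (C • W).a₁ * x + (C • W).a₃ = 0 := by
      simpa [hu] using h2
    rw [h2'] at h1
    refine ⟨?_, h2'⟩
    simpa [hu] using h1
  · rw [h1, h2]; simp

lemma vc_negY (W : WeierstrassCurve K) (C : VariableChange K) (x y : K) :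
    W.toAffine.negY (vcX C x) (vcY C x y) = vcY C x ((C • W).toAffine.negY x y) := by
  obtain ⟨u, r, s, t⟩ := C
  simp only [variableChange_def, vcX, vcY, negY]
  have hu : (u : K) ≠ 0 := u.ne_zero
  rw [Units.val_inv_eq_inv_val]
  field_simp
  ring

lemma vcX_injective (C : VariableChange K) {x x' : K} (h : vcX C x = vcX C x') : x = x' := by
  have hu : (C.u : K) ≠ 0 := C.u.ne_zero
  simpa [vcX, hu] using h

lemma vcY_injective (C : VariableChange K) (x : K) {y y' : K} (h : vcY C x y = vcY C x y') :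
    y = y' := by
  have hu : (C.u : K) ≠ 0 := C.u.ne_zero
  simpa [vcY, hu] using h

variable [DecidableEq K]

lemma vc_slope (W : WeierstrassCurve K) (C : VariableChange K) {x₁ x₂ y₁ y₂ : K}
    (h₁ : (C • W).toAffine.Equation x₁ y₁) (h₂ : (C • W).toAffine.Equation x₂ y₂)
    (h : ¬ (x₁ = x₂ ∧ y₁ = (C • W).toAffine.negY x₂ y₂)) :
    W.toAffine.slope (vcX C x₁) (vcX C x₂) (vcY C x₁ y₁) (vcY C x₂ y₂) =
      (C.u : K) * (C • W).toAffine.slope x₁ x₂ y₁ y₂ + C.s := by
  have hu : (C.u : K) ≠ 0 := C.u.ne_zero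
  by_cases hx : x₁ = x₂
  · subst hx
    have hy : y₁ ≠ (C • W).toAffine.negY x₁ y₂ := fun h' => h ⟨rfl, h'⟩
    have hyy : y₁ = y₂ := Y_eq_of_Y_ne h₁ h₂ rfl hy
    subst hyy
    have hy' : vcY C x₁ y₁ ≠ W.toAffine.negY (vcX C x₁) (vcY C x₁ y₁) := by
      rw [vc_negY]
      exact fun h' => hy (vcY_injective C x₁ h')
    rw [slope_of_Y_ne rfl hy', slope_of_Y_ne rfl hy]
    have e1 : vcY C x₁ y₁ - W.toAffine.negY (vcX C x₁) (vcY C x₁ y₁) =
        (C.u : K) ^ 3 * (2 * y₁ + (C • W).a₁ * x₁ + (C • W).a₃) := by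
      rw [← vc_polyY]; simp only [negY]; ring
    have e2 : y₁ - (C • W).toAffine.negY x₁ y₁ = 2 * y₁ + (C • W).a₁ * x₁ + (C • W).a₃ := by
      simp only [negY]; ring
    have e3 : 3 * vcX C x₁ ^ 2 + 2 * W.a₂ * vcX C x₁ + W.a₄ - W.a₁ * vcY C x₁ y₁ =
      (C.u : K) ^ 4 * (3 * x₁ ^ 2 + 2 * (C • W).a₂ * x₁ + (C • W).a₄ - (C • W).a₁ * y₁)
        + C.s * ((C.u : K) ^ 3 * (2 * y₁ + (C • W).a₁ * x₁ + (C • W).a₃)) := by
      linear_combination - vc_polyX W C x₁ y₁
    have hne : 2 * y₁ + (C • W).a₁ * x₁ + (C • W).a₃ ≠ 0 := by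
      rw [← e2]; exact sub_ne_zero.mpr hy
    rw [e1, e2]
    change (3 * vcX C x₁ ^ 2 + 2 * W.a₂ * vcX C x₁ + W.a₄ - W.a₁ * vcY C x₁ y₁) / _ = _
    rw [e3]
    generalize 2 * y₁ + (C • W).a₁ * x₁ + (C • W).a₃ = D at *
    field_simp
  · have hx' : vcX C x₁ ≠ vcX C x₂ := fun h' => hx (vcX_injective C h')
    rw [slope_of_X_ne hx', slope_of_X_ne hx]
    have h1 : vcX C x₁ - vcX C x₂ = (C.u : K) ^ 2 * (x₁ - x₂) := by simp only [vcX]; ring
    have h2 : x₁ - x₂ ≠ 0 := sub_ne_zero.mpr hx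
    rw [h1]
    simp only [vcY]
    field_simp
    ring

omit [DecidableEq K] in
lemma vc_addX (W : WeierstrassCurve K) (C : VariableChange K) (x₁ x₂ l : K) :
    W.toAffine.addX (vcX C x₁) (vcX C x₂) ((C.u : K) * l + C.s) =
      vcX C ((C • W).toAffine.addX x₁ x₂ l) := by
  obtain ⟨u, r, s, t⟩ := C
  simp only [variableChange_def, vcX, addX]
  have hu : (u : K) ≠ 0 := u.ne_zero
  rw [Units.val_inv_eq_inv_val]
  field_simp
  ring

omit [DecidableEq K] in
lemma vc_addY (W : WeierstrassCurve K) (C : VariableChange K) (x₁ x₂ y₁ l : K) :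
    W.toAffine.addY (vcX C x₁) (vcX C x₂) (vcY C x₁ y₁) ((C.u : K) * l + C.s) =
      vcY C ((C • W).toAffine.addX x₁ x₂ l) ((C • W).toAffine.addY x₁ x₂ y₁ l) := by
  rw [addY, vc_addX, addY, ← vc_negY]
  congr 1
  rw [negAddY, vc_addX, negAddY]
  simp only [vcX, vcY]
  ring

/-- The additive map `(C • W).Point → W.Point`. -/
def pointMap (W : WeierstrassCurve K) (C : VariableChange K) :
    (C • W).toAffine.Point →+ W.toAffine.Point where
  toFun P := match P with
    | .zero => .zero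
    | .some x y h => .some (vcX C x) (vcY C x y) ((vc_nonsingular_iff W C x y).mpr h)
  map_zero' := rfl
  map_add' := by
    rintro (_ | ⟨x₁, y₁, h₁⟩) (_ | ⟨x₂, y₂, h₂⟩)
    any_goals rfl
    by_cases hxy : x₁ = x₂ ∧ y₁ = (C • W).toAffine.negY x₂ y₂
    · rw [Point.add_of_Y_eq hxy.1 hxy.2]
      symm
      apply Point.add_of_Y_eq
      · rw [hxy.1]
      · rw [hxy.1, hxy.2, vc_negY]
    · rw [Point.add_some hxy]
      have hxy' : ¬ (vcX C x₁ = vcX C x₂ ∧
          vcY C x₁ y₁ = W.toAffine.negY (vcX C x₂) (vcY C x₂ y₂)) := by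
        rintro ⟨h1, h2⟩
        have h3 := vcX_injective C h1
        subst h3
        rw [vc_negY] at h2
        exact hxy ⟨rfl, vcY_injective C _ h2⟩
      simp only [Point.add_some hxy', Point.some.injEq]
      rw [vc_slope W C h₁.1 h₂.1 hxy, vc_addX, vc_addY]
      exact ⟨rfl, rfl⟩

@[simp] lemma pointMap_zero (W : WeierstrassCurve K) (C : VariableChange K) :
    pointMap W C 0 = 0 := rfl

lemma pointMap_some (W : WeierstrassCurve K) (C : VariableChange K) {x y : K}
    (h : (C • W).toAffine.Nonsingular x y) :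
    pointMap W C (.some x y h) =
      .some (vcX C x) (vcY C x y) ((vc_nonsingular_iff W C x y).mpr h) := rfl

lemma pointMap_injective (W : WeierstrassCurve K) (C : VariableChange K) :
    Function.Injective (pointMap W C) := by
  rintro (_ | ⟨x₁, y₁, h₁⟩) (_ | ⟨x₂, y₂, h₂⟩) h
  · rfl
  · exact absurd h (by rw [pointMap_some]; intro h'; exact absurd h' (by rintro ⟨⟩))
  · exact absurd h (by rw [pointMap_some]; intro h'; exact absurd h' (by rintro ⟨⟩))
  · rw [pointMap_some, pointMap_some, Point.some.injEq] at h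
    have h3 := vcX_injective C h.1
    subst h3
    have h4 := vcY_injective C _ h.2
    subst h4
    rfl

lemma pointMap_surjective (W : WeierstrassCurve K) (C : VariableChange K) :
    Function.Surjective (pointMap W C) := by
  have hu : (C.u : K) ≠ 0 := C.u.ne_zero
  rintro (_ | ⟨X, Y, h⟩)
  · exact ⟨0, rfl⟩
  · obtain ⟨x, hx⟩ : ∃ x, vcX C x = X := ⟨(X - C.r) / (C.u : K) ^ 2, by
      simp only [vcX]; field_simp; ring⟩
    obtain ⟨y, hy⟩ : ∃ y, vcY C x y = Y :=
      ⟨(Y - (C.u : K) ^ 2 * C.s * x - C.t) / (C.u : K) ^ 3, by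
      simp only [vcY]; field_simp; ring⟩
    subst hx
    subst hy
    exact ⟨.some x y ((vc_nonsingular_iff W C x y).mp h), rfl⟩

/-- The additive equivalence `(C • W).Point ≃+ W.Point`. -/
noncomputable def pointEquiv (W : WeierstrassCurve K) (C : VariableChange K) :
    (C • W).toAffine.Point ≃+ W.toAffine.Point :=
  AddEquiv.ofBijective (pointMap W C) ⟨pointMap_injective W C, pointMap_surjective W C⟩

@[simp] lemma pointEquiv_apply (W : WeierstrassCurve K) (C : VariableChange K)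
    (P : (C • W).toAffine.Point) : pointEquiv W C P = pointMap W C P := rfl

end Fermat.Agent.EC
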