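import Fermat.Agent.EC.Mult
import Fermat.Agent.EC.VarChange

set_option autoImplicit false

/-!
# Moving the node to the origin
-/

namespace Fermat.Agent.EC

open WeierstrassCurve

variable {K : Type*} [Field K]

/-- The `x`-coordinate of the (approximate) node. -/
def nodeX (W : WeierstrassCurve K) : K := (18 * W.b₆ - W.b₂ * W.b₄) / W.c₄

/-- The `y`-coordinate of the (approximate) node. -/
def nodeY (W : WeierstrassCurve K) : K :=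
  (W.b₂ * (W.a₁ * W.a₄ - 2 * W.a₂ * W.a₃) + 3 * W.a₁ * W.b₂ * nodeX W ^ 2 +
    12 * W.b₄ * (W.a₁ * nodeX W + W.a₃)) / W.c₄

/-- The translation moving the node to the origin. -/
def nodeVC (W : WeierstrassCurve K) : VariableChange K := ⟨1, nodeX W, 0, nodeY W⟩

lemma node_D (W : WeierstrassCurve K) (hc : W.c₄ ≠ 0) :
    W.b₄ + nodeX W * W.b₂ + 6 * nodeX W ^ 2 = -72 * W.Δ / W.c₄ ^ 2 := by
  have h8 := W.b_relation
  rw [nodeX]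
  rw [eq_div_iff (pow_ne_zero 2 hc)]
  have : (W.b₄ + (18 * W.b₆ - W.b₂ * W.b₄) / W.c₄ * W.b₂ +
      6 * ((18 * W.b₆ - W.b₂ * W.b₄) / W.c₄) ^ 2) * W.c₄ ^ 2 =
      W.b₄ * W.c₄ ^ 2 + (18 * W.b₆ - W.b₂ * W.b₄) * W.b₂ * W.c₄ +
        6 * (18 * W.b₆ - W.b₂ * W.b₄) ^ 2 := by
    field_simp
  rw [this, WeierstrassCurve.c₄, WeierstrassCurve.Δ]
  linear_combination (-18 * W.b₂ ^ 2) * h8

lemma node_b₄ (W : WeierstrassCurve K) (hc : W.c₄ ≠ 0) :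
    (nodeVC W • W).b₄ = -72 * W.Δ / W.c₄ ^ 2 := by
  rw [← node_D W hc, variableChange_b₄]
  simp [nodeVC]

lemma node_b₆ (W : WeierstrassCurve K) (hc : W.c₄ ≠ 0) :
    (nodeVC W • W).b₆ = 4 * W.c₆ * W.Δ / W.c₄ ^ 3 := by
  have h8 := W.b_relation
  rw [variableChange_b₆]
  simp only [nodeVC, inv_one, Units.val_one, one_pow, one_mul]
  rw [eq_div_iff (pow_ne_zero 3 hc), nodeX]
  have : (W.b₆ + 2 * ((18 * W.b₆ - W.b₂ * W.b₄) / W.c₄) * W.b₄ +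
      ((18 * W.b₆ - W.b₂ * W.b₄) / W.c₄) ^ 2 * W.b₂ +
      4 * ((18 * W.b₆ - W.b₂ * W.b₄) / W.c₄) ^ 3) * W.c₄ ^ 3 =
      W.b₆ * W.c₄ ^ 3 + 2 * (18 * W.b₆ - W.b₂ * W.b₄) * W.b₄ * W.c₄ ^ 2 +
        (18 * W.b₆ - W.b₂ * W.b₄) ^ 2 * W.b₂ * W.c₄ + 4 * (18 * W.b₆ - W.b₂ * W.b₄) ^ 3 := by
    field_simp
  rw [this, WeierstrassCurve.c₆, WeierstrassCurve.c₄, WeierstrassCurve.Δ]
  linear_combination (W.b₂ ^ 2 * (-W.b₂ ^ 3 + 36 * W.b₂ * W.b₄ - 216 * W.b₆)) * h8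

lemma node_a₃ (W : WeierstrassCurve K) (hc : W.c₄ ≠ 0) :
    (nodeVC W • W).a₃ = W.a₁ * W.b₂ * (-72 * W.Δ / W.c₄ ^ 2) / W.c₄ := by
  rw [← node_D W hc, variableChange_a₃]
  simp only [nodeVC, inv_one, Units.val_one, one_pow, one_mul]
  rw [eq_div_iff hc]
  have : (W.a₃ + nodeX W * W.a₁ + 2 * nodeY W) * W.c₄ = (W.a₃ + nodeX W * W.a₁) * W.c₄ +
    2 * (W.b₂ * (W.a₁ * W.a₄ - 2 * W.a₂ * W.a₃) + 3 * W.a₁ * W.b₂ * nodeX W ^ 2 +
    12 * W.b₄ * (W.a₁ * nodeX W + W.a₃)) := by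
    rw [nodeY]; field_simp
  rw [this]
  simp only [WeierstrassCurve.c₄, WeierstrassCurve.b₂, WeierstrassCurve.b₄]
  ring

lemma node_a₄ (W : WeierstrassCurve K) (hc : W.c₄ ≠ 0) :
    (nodeVC W • W).a₄ =
      (2 * W.a₂ * W.b₂ - 12 * W.b₄) * (-72 * W.Δ / W.c₄ ^ 2) / W.c₄ := by
  rw [← node_D W hc, variableChange_a₄]
  simp only [nodeVC, inv_one, Units.val_one, one_pow, one_mul]
  rw [eq_div_iff hc]
  have : (W.a₄ - 0 * W.a₃ + 2 * nodeX W * W.a₂ - (nodeY W + nodeX W * 0) * W.a₁ +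
      3 * nodeX W ^ 2 - 2 * 0 * nodeY W) * W.c₄ =
      (W.a₄ + 2 * nodeX W * W.a₂ + 3 * nodeX W ^ 2) * W.c₄ -
    (W.b₂ * (W.a₁ * W.a₄ - 2 * W.a₂ * W.a₃) + 3 * W.a₁ * W.b₂ * nodeX W ^ 2 +
    12 * W.b₄ * (W.a₁ * nodeX W + W.a₃)) * W.a₁ := by
    rw [nodeY]; field_simp; ring
  rw [this]
  simp only [WeierstrassCurve.c₄, WeierstrassCurve.b₂, WeierstrassCurve.b₄]
  ring

lemma nodeX_map {F : Type*} [Field F] (W : WeierstrassCurve F) (f : F →+* K) :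
    nodeX (W.map f) = f (nodeX W) := by
  have h18 : f 18 = 18 := map_ofNat f 18
  rw [nodeX, nodeX, map_b₆, map_b₂, map_b₄, map_c₄, map_div₀, map_sub, map_mul, map_mul, h18]

lemma nodeY_map {F : Type*} [Field F] (W : WeierstrassCurve F) (f : F →+* K) :
    nodeY (W.map f) = f (nodeY W) := by
  have h2 : f 2 = 2 := map_ofNat f 2
  have h3 : f 3 = 3 := map_ofNat f 3
  have h12 : f 12 = 12 := map_ofNat f 12
  rw [nodeY, nodeY, map_b₂, map_b₄, map_c₄, map_div₀, nodeX_map]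
  simp only [map_a₁, map_a₂, map_a₃, map_a₄, map_add, map_mul, map_sub, map_pow, h2, h3, h12]

variable {Γ₀ : Type*} [LinearOrderedCommGroupWithZero Γ₀] {v : Valuation K Γ₀}

namespace VInt

variable {W : WeierstrassCurve K} (hW : VInt v W)
include hW

lemma b₂_le : v W.b₂ ≤ 1 := by
  have h4 : v (4 : K) ≤ 1 := by exact_mod_cast v_nat_le (v := v) 4
  exact v_add_le (v_pow_le_one hW.a₁ 2) (v_mul_le' h4 hW.a₂)

lemma b₄_le : v W.b₄ ≤ 1 := v_add_le (v_mul_le' v_two_le hW.a₄) (v_mul_le' hW.a₁ hW.a₃)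

lemma b₆_le : v W.b₆ ≤ 1 := by
  have h4 : v (4 : K) ≤ 1 := by exact_mod_cast v_nat_le (v := v) 4
  exact v_add_le (v_pow_le_one hW.a₃ 2) (v_mul_le' h4 hW.a₆)

lemma c₆_le : v W.c₆ ≤ 1 := by
  have h36 : v (36 : K) ≤ 1 := by exact_mod_cast v_nat_le (v := v) 36
  have h216 : v (216 : K) ≤ 1 := by exact_mod_cast v_nat_le (v := v) 216
  rw [WeierstrassCurve.c₆]
  refine v_sub_le (v_add_le ?_ ?_) (v_mul_le' h216 hW.b₆_le)
  · rw [Valuation.map_neg]; exact v_pow_le_one hW.b₂_le 3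
  · exact v_mul_le' (v_mul_le' h36 hW.b₂_le) hW.b₄_le

lemma nodeX_le (hc : v W.c₄ = 1) : v (nodeX W) ≤ 1 := by
  have h18 : v (18 : K) ≤ 1 := by exact_mod_cast v_nat_le (v := v) 18
  exact v_div_unit_le (v_sub_le (v_mul_le' h18 hW.b₆_le) (v_mul_le' hW.b₂_le hW.b₄_le)) hc

lemma nodeY_le (hc : v W.c₄ = 1) : v (nodeY W) ≤ 1 := by
  have h12 : v (12 : K) ≤ 1 := by exact_mod_cast v_nat_le (v := v) 12
  have hX := hW.nodeX_le hc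
  refine v_div_unit_le (v_add_le (v_add_le ?_ ?_) ?_) hc
  · exact v_mul_le' hW.b₂_le (v_sub_le (v_mul_le' hW.a₁ hW.a₄)
      (v_mul_le' (v_mul_le' v_two_le hW.a₂) hW.a₃))
  · exact v_mul_le' (v_mul_le' (v_mul_le' v_three_le hW.a₁) hW.b₂_le) (v_pow_le_one hX 2)
  · exact v_mul_le' (v_mul_le' h12 hW.b₄_le) (v_add_le (v_mul_le' hW.a₁ hX) hW.a₃)

theorem multForm (hc : v W.c₄ = 1) (hΔ : v W.Δ < 1) (hΔ0 : W.Δ ≠ 0) :
    MultForm v (nodeVC W • W) ∧ v (nodeVC W • W).a₆ = v W.Δ := by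
  have hc0 : W.c₄ ≠ 0 := by
    intro h0; rw [h0, map_zero] at hc; exact zero_ne_one hc
  have hX := hW.nodeX_le hc
  have hY := hW.nodeY_le hc
  have h72 : v (-72 : K) ≤ 1 := by
    rw [Valuation.map_neg]; exact_mod_cast v_nat_le (v := v) 72
  have h4 : v (4 : K) ≤ 1 := by exact_mod_cast v_nat_le (v := v) 4
  have h8 : v (8 : K) ≤ 1 := by exact_mod_cast v_nat_le (v := v) 8
  have h9 : v (9 : K) ≤ 1 := by exact_mod_cast v_nat_le (v := v) 9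
  have h12 : v (12 : K) ≤ 1 := by exact_mod_cast v_nat_le (v := v) 12
  have h24 : v (24 : K) ≤ 1 := by exact_mod_cast v_nat_le (v := v) 24
  have h27 : v (27 : K) ≤ 1 := by exact_mod_cast v_nat_le (v := v) 27
  have hD : v (-72 * W.Δ / W.c₄ ^ 2) ≤ v W.Δ :=
    v_div_unit_le (v_mul_le' h72 le_rfl) (by rw [map_pow, hc, one_pow])
  set W' := nodeVC W • W with hW'
  have ha₁ : W'.a₁ = W.a₁ := by
    rw [hW', variableChange_a₁]; simp [nodeVC]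
  have ha₂ : W'.a₂ = W.a₂ + 3 * nodeX W := by
    rw [hW', variableChange_a₂]; simp [nodeVC]
  have va₁ : v W'.a₁ ≤ 1 := by rw [ha₁]; exact hW.a₁
  have va₂ : v W'.a₂ ≤ 1 := by rw [ha₂]; exact v_add_le hW.a₂ (v_mul_le' v_three_le hX)
  have va₃ : v W'.a₃ ≤ v W.Δ := by
    rw [hW', node_a₃ W hc0]
    exact v_div_unit_le (v_mul_le' (v_mul_le' hW.a₁ hW.b₂_le) hD) hc
  have va₄ : v W'.a₄ ≤ v W.Δ := by
    rw [hW', node_a₄ W hc0]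
    refine v_div_unit_le (v_mul_le' ?_ hD) hc
    exact v_sub_le (v_mul_le' (v_mul_le' v_two_le hW.a₂) hW.b₂_le) (v_mul_le' h12 hW.b₄_le)
  have vb₄ : v W'.b₄ ≤ v W.Δ := by rw [hW', node_b₄ W hc0]; exact hD
  have vb₆ : v W'.b₆ ≤ v W.Δ := by
    rw [hW', node_b₆ W hc0]
    exact v_div_unit_le (v_mul_le' (v_mul_le' h4 hW.c₆_le) le_rfl)
      (by rw [map_pow, hc, one_pow])
  have hΔ' : W'.Δ = W.Δ := by
    rw [hW', variableChange_Δ]; simp [nodeVC]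
  have hc₄' : W'.c₄ = W.c₄ := by
    rw [hW', variableChange_c₄]; simp [nodeVC]
  have vb₂ : v W'.b₂ = 1 := by
    have h1 : W'.b₂ ^ 2 = W.c₄ + 24 * W'.b₄ := by
      rw [← hc₄', WeierstrassCurve.c₄]; ring
    have h2 : v (W'.b₂ ^ 2) = 1 := by
      rw [h1]
      exact v_eq_one_of_add hc (v_lt_mul h24 (vb₄.trans_lt hΔ))
    rw [map_pow] at h2
    exact (pow_eq_one_iff_of_nonneg zero_le (by norm_num)).mp h2
  have vΔ0 : v W.Δ ≠ 0 := (Valuation.ne_zero_iff v).mpr hΔ0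
  have vb₄' := vb₄.trans_lt hΔ
  have vb₆' := vb₆.trans_lt hΔ
  -- `b₈'`
  have vb₈ : v W'.b₈ = v W.Δ := by
    have e : -(W'.b₂ ^ 2 * W'.b₈) = W.Δ + (8 * W'.b₄ ^ 2 * W'.b₄ + 27 * W'.b₆ * W'.b₆
        - 9 * W'.b₂ * W'.b₄ * W'.b₆) := by
      rw [← hΔ', WeierstrassCurve.Δ]; ring
    have hlt : v (8 * W'.b₄ ^ 2 * W'.b₄ + 27 * W'.b₆ * W'.b₆ - 9 * W'.b₂ * W'.b₄ * W'.b₆) <
        v W.Δ := by
      refine v_sub_lt (v_add_lt ?_ ?_) ?_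
      · rw [mul_comm]
        refine v_mul_lt_of_lt vΔ0 vb₄ (v_lt_mul h8 ?_)
        rw [map_pow]; exact pow_lt_one₀ zero_le vb₄' (by norm_num)
      · rw [mul_comm]
        exact v_mul_lt_of_lt vΔ0 vb₆ (v_lt_mul h27 vb₆')
      · rw [mul_comm]
        exact v_mul_lt_of_lt vΔ0 vb₆ (v_lt_mul (v_mul_le' h9 vb₂.le) vb₄')
    have h1 : v (-(W'.b₂ ^ 2 * W'.b₈)) = v W.Δ := by
      rw [e, Valuation.map_add_eq_of_lt_left v hlt]
    rw [Valuation.map_neg, map_mul, map_pow, vb₂, one_pow, one_mul] at h1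
    exact h1
  have va₃' := va₃.trans_lt hΔ
  have va₄' := va₄.trans_lt hΔ
  have va₆ : v W'.a₆ = v W.Δ := by
    have e : W'.b₂ * W'.a₆ = W'.b₈ + (W'.a₁ * W'.a₃ * W'.a₄ - W'.a₂ * W'.a₃ * W'.a₃
        + W'.a₄ * W'.a₄) := by
      simp only [WeierstrassCurve.b₈, WeierstrassCurve.b₂]; ring
    have hlt : v (W'.a₁ * W'.a₃ * W'.a₄ - W'.a₂ * W'.a₃ * W'.a₃ + W'.a₄ * W'.a₄) < v W.Δ := by
      refine v_add_lt (v_sub_lt ?_ ?_) ?_
      · exact v_mul_lt_of_lt vΔ0 (v_mul_le' va₁ va₃) va₄'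
      · exact v_mul_lt_of_lt vΔ0 (v_mul_le' va₂ va₃) va₃'
      · exact v_mul_lt_of_lt vΔ0 va₄ va₄'
    have h1 : v (W'.b₂ * W'.a₆) = v W.Δ := by
      rw [e, Valuation.map_add_eq_of_lt_left v (by rw [vb₈]; exact hlt), vb₈]
    rw [map_mul, vb₂, one_mul] at h1
    exact h1
  refine ⟨⟨va₁, va₂, by rw [va₆]; exact va₃, by rw [va₆]; exact va₄, by rw [va₆]; exact hΔ, ?_,
    vb₂⟩, va₆⟩
  intro h0
  rw [h0, map_zero] at va₆
  exact vΔ0 va₆.symm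

end VInt

end Fermat.Agent.EC
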