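import Fermat.Agent.EC.QbarVal
import Fermat.Agent.EC.NormalForm
import Fermat.Agent.EC.MultInertia
import Fermat.Prelude.Def_FLTPrelim_Ramification

set_option autoImplicit false

/-!
# Inertia groups acting on torsion points of elliptic curves over `ℚ`
-/

namespace Fermat.Agent.EC

open WeierstrassCurve WeierstrassCurve.Affine

section inertia

variable {F K : Type*} [Field F] [Field K] [Algebra F K]

lemma inertia_residue {A : ValuationSubring K} {σ : K ≃ₐ[F] K}
    (hσ : σ ∈ A.inertiaSubgroupIn F) {x : K} (hx : A.valuation x ≤ 1) :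
    A.valuation (σ x - x) < 1 := by
  rw [ValuationSubring.inertiaSubgroupIn, Subgroup.mem_map] at hσ
  obtain ⟨g, hg, rfl⟩ := hσ
  have hxA : x ∈ A := (A.valuation_le_one_iff x).mp hx
  rw [ValuationSubring.inertiaSubgroup, MonoidHom.mem_ker] at hg
  have h1 : g • (IsLocalRing.residue A ⟨x, hxA⟩) = IsLocalRing.residue A ⟨x, hxA⟩ := by
    have := congrArg (fun f : RingAut (IsLocalRing.ResidueField A) =>
      f (IsLocalRing.residue A ⟨x, hxA⟩)) hg
    simpa using this
  rw [← IsLocalRing.ResidueField.residue_smul] at h1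
  have h2 : g • (⟨x, hxA⟩ : A) - ⟨x, hxA⟩ ∈ IsLocalRing.maximalIdeal A := by
    rw [← IsLocalRing.residue_eq_zero_iff, map_sub, h1, sub_self]
  rw [ValuationSubring.valuation_lt_one_iff] at h2
  exact h2

lemma inertia_iso [CharZero K] [Algebra.IsAlgebraic ℚ K] {A : ValuationSubring K} {q : ℕ}
    (hq : q.Prime) (hA : A.LiesOverPrime q) {σ : K ≃ₐ[F] K}
    (hσ : σ ∈ A.inertiaSubgroupIn F) (x : K) : A.valuation (σ x) = A.valuation x := by
  have hvq : A.valuation (q : K) < 1 := hA
  by_cases hx : x = 0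
  · rw [hx, map_zero]
  have hunit : ∀ y : K, A.valuation y = 1 → A.valuation (σ y) = 1 := by
    intro y hy
    have : σ y = y + (σ y - y) := by ring
    rw [this]
    exact v_eq_one_of_add hy (inertia_residue hσ hy.le)
  have hq0 : (q : K) ≠ 0 := by exact_mod_cast hq.ne_zero
  have hvq0 : A.valuation (q : K) ≠ 0 := (Valuation.ne_zero_iff _).mpr hq0
  obtain ⟨t, ht, s, h⟩ := exists_pow_val hq hvq hx
  have h1 : A.valuation (x ^ t / (q : K) ^ s) = 1 := by
    rw [map_div₀, map_pow, map_zpow₀, h, div_self (zpow_ne_zero s hvq0)]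
  have h2 := hunit _ h1
  rw [map_div₀ σ, map_pow σ, map_zpow₀ σ, map_natCast, map_div₀, map_pow, map_zpow₀,
    div_eq_one_iff_eq (zpow_ne_zero s hvq0), ← h] at h2
  exact (pow_left_inj₀ zero_le zero_le ht.ne').mp h2

end inertia

section transport

variable {K : Type*} [Field K] [DecidableEq K] {Γ₀ : Type*} [LinearOrderedCommGroupWithZero Γ₀]
  {v : Valuation K Γ₀} {W : WeierstrassCurve K} {σ : K →+* K}
  {φ : W.toAffine.Point →+ W.toAffine.Point}

/-- The transported endomorphism of `(C • W).Point`. -/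
noncomputable def transport (φ : W.toAffine.Point →+ W.toAffine.Point) (C : VariableChange K) :
    (C • W).toAffine.Point →+ (C • W).toAffine.Point :=
  ((pointEquiv W C).symm.toAddMonoidHom.comp φ).comp (pointEquiv W C).toAddMonoidHom

lemma pointEquiv_transport (φ : W.toAffine.Point →+ W.toAffine.Point) (C : VariableChange K)
    (P : (C • W).toAffine.Point) :
    pointEquiv W C (transport φ C P) = φ (pointEquiv W C P) := by
  simp [transport]

lemma InertiaAction.transport (H : InertiaAction v W σ φ) {C : VariableChange K}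
    (hu : σ (C.u : K) = C.u) (hr : σ C.r = C.r) (hs : σ C.s = C.s) (ht : σ C.t = C.t) :
    InertiaAction v (C • W) σ (transport φ C) where
  residue := H.residue
  action := by
    intro x y h
    have hns := (vc_nonsingular_iff W C x y).mpr h
    obtain ⟨h', hφ⟩ := H.action _ _ hns
    have hX : σ (vcX C x) = vcX C (σ x) := by
      simp only [vcX, map_add, map_mul, map_pow, hu, hr]
    have hY : σ (vcY C x y) = vcY C (σ x) (σ y) := by
      simp only [vcY, map_add, map_mul, map_pow, hu, hs, ht]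
    have h'' : (C • W).toAffine.Nonsingular (σ x) (σ y) := by
      rw [← vc_nonsingular_iff, ← hX, ← hY]
      exact h'
    refine ⟨h'', ?_⟩
    apply (pointEquiv W C).injective
    rw [pointEquiv_transport, pointEquiv_apply, pointEquiv_apply, pointMap_some, pointMap_some, hφ,
      Point.some.injEq]
    exact ⟨hX, hY⟩

end transport

section main

variable {F K : Type*} [Field F] [Field K] [Algebra F K] [DecidableEq K]

/-- The Galois action on points as an `InertiaAction`. -/
lemma inertiaAction_of_mem {A : ValuationSubring K} {σ : K ≃ₐ[F] K}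
    (hσ : σ ∈ A.inertiaSubgroupIn F) (W : WeierstrassCurve F) :
    InertiaAction A.valuation (W⁄K) (σ : K →+* K) (Point.map (W' := W) σ.toAlgHom) where
  residue := fun _ hx => inertia_residue hσ hx
  action := fun _ _ h => ⟨(W.toAffine.baseChange_nonsingular σ.toAlgHom.injective _ _).mpr h, rfl⟩

theorem map_eq_of_inertia_of_good {A : ValuationSubring K} {σ : K ≃ₐ[F] K}
    (hσ : σ ∈ A.inertiaSubgroupIn F) (W : WeierstrassCurve F)
    (hW : VInt A.valuation (W⁄K)) (hΔ : A.valuation (W⁄K).Δ = 1)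
    {n : ℕ} (hn : A.valuation (n : K) = 1) {P : (W⁄K).toAffine.Point} (hP : n • P = 0) :
    Point.map (W' := W) σ.toAlgHom P = P :=
  (inertiaAction_of_mem hσ W).fixed_of_good hW hΔ hn hP

variable [CharZero K] [Algebra.IsAlgebraic ℚ K]

theorem map_eq_of_inertia_of_mult {A : ValuationSubring K} {q : ℕ} (hq : q.Prime)
    (hA : A.valuation (q : K) < 1) {σ : K ≃ₐ[F] K}
    (hσ : σ ∈ A.inertiaSubgroupIn F) (W : WeierstrassCurve F)
    (hW : VInt A.valuation (W⁄K)) (hc₄ : A.valuation (W⁄K).c₄ = 1)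
    (hΔ : A.valuation (W⁄K).Δ < 1) (hΔ0 : (W⁄K).Δ ≠ 0) {p : ℕ} (hp : p.Prime) (hp2 : p ≠ 2)
    (hpv : A.valuation (p : K) = 1) {k : ℤ} (hk : qval hq hA (W⁄K).Δ = p * k)
    {P : (W⁄K).toAffine.Point} (hP : p • P = 0) :
    Point.map (W' := W) σ.toAlgHom P = P := by
  obtain ⟨hM, ha₆⟩ := hW.multForm hc₄ hΔ hΔ0
  set C := nodeVC (W⁄K) with hC
  have hH := inertiaAction_of_mem hσ W
  have hcomm : ∀ c : F, (σ : K →+* K) (algebraMap F K c) = algebraMap F K c :=
    fun c => σ.commutes c
  have hX : nodeX (W⁄K) = algebraMap F K (nodeX W) := nodeX_map W _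
  have hY : nodeY (W⁄K) = algebraMap F K (nodeY W) := nodeY_map W _
  have hH' := hH.transport (C := C) (by simp [hC, nodeVC])
    (by rw [hC]; change (σ : K →+* K) (nodeX (W⁄K)) = nodeX (W⁄K); rw [hX]; exact hcomm _)
    (by simp [hC, nodeVC])
    (by rw [hC]; change (σ : K →+* K) (nodeY (W⁄K)) = nodeY (W⁄K); rw [hY]; exact hcomm _)
  have hq0 : (q : K) ≠ 0 := by exact_mod_cast hq.ne_zero
  obtain ⟨Q, rfl⟩ := (pointEquiv (W⁄K) C).surjective P
  have hQ : p • Q = 0 := by
    apply (pointEquiv (W⁄K) C).injective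
    rw [map_nsmul, hP, map_zero]
  have hval := qval_ratVal (v := A.valuation) (K := K) hq hA
  have hπ : qval hq hA (q : K) = 1 := by
    have := Fact.mk hq
    have h1 := qval_rat (v := A.valuation) (K := K) hq hA (c := (q : ℚ))
      (by exact_mod_cast hq.ne_zero)
    rw [padicValRat.self hq.one_lt] at h1
    simpa using h1
  have hk' : qval hq hA (C • (W⁄K)).a₆ = p * k := by
    rw [← hk, ← hval.eq_iff hM.a₆0 hΔ0]
    exact ha₆
  have key := hH'.fixed_of_mult (fun x => inertia_iso hq hA hσ x) hM hval hq0 hπ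
    (map_natCast _ q) hp hp2 hpv hk' hQ
  rw [← pointEquiv_transport, key]

/-- Unipotence of inertia at a multiplicative place. -/
theorem unipotent_of_inertia_of_mult {A : ValuationSubring K} {q : ℕ} (hq : q.Prime)
    (hA : A.valuation (q : K) < 1) {σ : K ≃ₐ[F] K}
    (hσ : σ ∈ A.inertiaSubgroupIn F) (W : WeierstrassCurve F)
    (hW : VInt A.valuation (W⁄K)) (hc₄ : A.valuation (W⁄K).c₄ = 1)
    (hΔ : A.valuation (W⁄K).Δ < 1) (hΔ0 : (W⁄K).Δ ≠ 0) {p : ℕ} (hp : p.Prime) (hp2 : p ≠ 2)
    (hpv : A.valuation (p : K) = 1) {P : (W⁄K).toAffine.Point} (hP : p • P = 0) :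
    Point.map (W' := W) σ.toAlgHom (Point.map (W' := W) σ.toAlgHom P - P) =
      Point.map (W' := W) σ.toAlgHom P - P := by
  obtain ⟨hM, ha₆⟩ := hW.multForm hc₄ hΔ hΔ0
  set C := nodeVC (W⁄K) with hC
  have hH := inertiaAction_of_mem hσ W
  have hcomm : ∀ c : F, (σ : K →+* K) (algebraMap F K c) = algebraMap F K c :=
    fun c => σ.commutes c
  have hX : nodeX (W⁄K) = algebraMap F K (nodeX W) := nodeX_map W _
  have hY : nodeY (W⁄K) = algebraMap F K (nodeY W) := nodeY_map W _
  have hH' := hH.transport (C := C) (by simp [hC, nodeVC])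
    (by rw [hC]; change (σ : K →+* K) (nodeX (W⁄K)) = nodeX (W⁄K); rw [hX]; exact hcomm _)
    (by simp [hC, nodeVC])
    (by rw [hC]; change (σ : K →+* K) (nodeY (W⁄K)) = nodeY (W⁄K); rw [hY]; exact hcomm _)
  obtain ⟨Q, rfl⟩ := (pointEquiv (W⁄K) C).surjective P
  have hQ : p • Q = 0 := by
    apply (pointEquiv (W⁄K) C).injective
    rw [map_nsmul, hP, map_zero]
  have key := hH'.unipotent_of_mult (fun x => inertia_iso hq hA hσ x) hM hp hp2 hpv hQ
  have key2 := congrArg (pointEquiv (W⁄K) C) key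
  rw [pointEquiv_transport, map_sub, pointEquiv_transport] at key2
  exact key2

end main

end Fermat.Agent.EC
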