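import Fermat.Agent.EC.Reducible

set_option autoImplicit false

/-!
# One of the two isogeny characters is trivial
-/

noncomputable section

namespace Fermat.Agent.EC

open WeierstrassCurve WeierstrassCurve.Affine WeierstrassCurve.Affine.Point Polynomial

/-- The field of algebraic numbers. -/
local notation "Kb" => AlgebraicClosure ℚ
/-- The absolute Galois group. -/
local notation "GQ" => (AlgebraicClosure ℚ ≃ₐ[ℚ] AlgebraicClosure ℚ)

variable {E : WeierstrassCurve ℚ} {p : ℕ}

/-- Stabilisers of torsion points are open. -/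
lemma isOpen_stabilizer_torsion (x : TorsP E p) :
    IsOpen (MulAction.stabilizer GQ x : Set GQ) := by
  obtain ⟨P, hP⟩ := x
  rcases P with _ | ⟨a, b, h⟩
  · have : MulAction.stabilizer GQ (⟨0, hP⟩ : TorsP E p) = ⊤ := by
      rw [eq_top_iff]
      intro σ _
      rw [MulAction.mem_stabilizer_iff]
      rfl
    change IsOpen (MulAction.stabilizer GQ (⟨0, hP⟩ : TorsP E p) : Set GQ)
    rw [this]
    exact isOpen_univ
  · have h1 : IsOpen ((MulAction.stabilizer GQ a ⊓ MulAction.stabilizer GQ b : Subgroup GQ) :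
        Set GQ) := by
      rw [Subgroup.coe_inf]
      exact (stabilizer_isOpen_of_isIntegral (K := ℚ) (L := Kb) a).inter
        (stabilizer_isOpen_of_isIntegral (K := ℚ) (L := Kb) b)
    refine Subgroup.isOpen_mono ?_ h1
    intro σ hσ
    rw [Subgroup.mem_inf, MulAction.mem_stabilizer_iff, MulAction.mem_stabilizer_iff] at hσ
    rw [MulAction.mem_stabilizer_iff]
    apply Subtype.ext
    rw [coe_smul_torsion]
    change Point.some (σ a) (σ b) _ = Point.some a b h
    rw [Point.some.injEq]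
    exact hσ

lemma isOpen_of_fixing [Finite (TorsP E p)] {H : Subgroup GQ}
    (h : ∀ σ : GQ, (∀ x : TorsP E p, σ • x = x) → σ ∈ H) : IsOpen (H : Set GQ) := by
  have h1 : IsOpen ((⨅ x : TorsP E p, MulAction.stabilizer GQ x : Subgroup GQ) : Set GQ) := by
    rw [Subgroup.coe_iInf]
    exact isOpen_iInter_of_finite fun x => isOpen_stabilizer_torsion x
  refine Subgroup.isOpen_mono ?_ h1
  intro σ hσ
  rw [Subgroup.mem_iInf] at hσ
  exact h σ fun x => MulAction.mem_stabilizer_iff.mp (hσ x)

/-- Elements acting trivially on `N`. -/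
def actTrivOn (N : Submodule (ZMod p) (TorsP E p)) : Subgroup GQ where
  carrier := {σ | ∀ x ∈ N, σ • x = x}
  mul_mem' := fun {a b} ha hb x hx => by rw [mul_smul, hb x hx, ha x hx]
  one_mem' := fun x _ => one_smul _ x
  inv_mem' := fun {a} ha x hx => by rw [inv_smul_eq_iff, ha x hx]

/-- Elements acting trivially modulo `N`. -/
def actTrivMod (N : Submodule (ZMod p) (TorsP E p)) (hN : IsGaloisStable ℚ N) : Subgroup GQ where
  carrier := {σ | ∀ x, σ • x - x ∈ N}
  mul_mem' := fun {a b} ha hb x => by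
    have : (a * b) • x - x = a • (b • x - x) + (a • x - x) := by
      rw [mul_smul, smul_sub]; abel
    rw [this]
    exact N.add_mem (hN a _ (hb x)) (ha x)
  one_mem' := fun x => by rw [one_smul, sub_self]; exact N.zero_mem
  inv_mem' := fun {a} ha x => by
    have : a⁻¹ • x - x = -(a⁻¹ • (a • x - x)) := by
      rw [smul_sub, inv_smul_smul]; abel
    rw [this]
    exact N.neg_mem (hN a⁻¹ _ (ha x))

theorem dichotomy [E.IsElliptic] [hp : Fact p.Prime] (hp2 : p ≠ 2)
    (hunip : ∀ q : ℕ, q.Prime → q ≠ p → ∃ A : ValuationSubring Kb, A.LiesOverPrime q ∧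
      ∀ σ ∈ A.inertiaSubgroupIn ℚ, ∀ x : TorsP E p, σ • (σ • x - x) = σ • x - x)
    {A : ValuationSubring Kb} (hA : A.LiesOverPrime p) (hW : VInt A.valuation (E⁄Kb))
    (hker : ∀ σ ∈ A.inertiaSubgroupIn ℚ, ∀ x : TorsP E p,
      InKer A.valuation ((σ • x - x : TorsP E p) : (E⁄Kb).Point))
    {N : Submodule (ZMod p) (TorsP E p)}
    (hN : IsGaloisStable ℚ N) (hNb : N ≠ ⊥) (hNt : N ≠ ⊤) :
    (∀ σ : GQ, ∀ x, σ • x - x ∈ N) ∨ (∀ σ : GQ, ∀ x ∈ N, σ • x = x) := by
  have hfin := finite_torsion' (E := E) hp.out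
  have hV := finrank_torsion (E := E) (p := p)
  have ho1 : IsOpen (actTrivOn N : Set GQ) := isOpen_of_fixing fun σ h x _ => h x
  have ho2 : IsOpen (actTrivMod N hN : Set GQ) := isOpen_of_fixing fun σ h x => by
    rw [h x, sub_self]; exact N.zero_mem
  have hn1 : (actTrivOn N).Normal := by
    refine ⟨fun σ hσ g x hx => ?_⟩
    have h1 := hσ (g⁻¹ • x) (hN g⁻¹ x hx)
    rw [mul_smul, mul_smul, h1, smul_inv_smul]
  have hn2 : (actTrivMod N hN).Normal := by
    refine ⟨fun σ hσ g x => ?_⟩
    have h1 := hN g _ (hσ (g⁻¹ • x))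
    rw [smul_sub, smul_inv_smul] at h1
    rw [mul_smul, mul_smul]
    exact h1
  have hL := kerSub_ne_top hp2 hA hW hN hNb hNt
  rcases inf_eq_bot_or (N := N) (M := kerSub A hW) hV hNt with h | h
  · right
    have htop := Inertia.eq_top_of_inertia_le (actTrivOn N) ho1 hn1 (by
      intro q hq
      by_cases hqp : q = p
      · subst hqp
        refine ⟨A, hA, fun σ hσ x hx => ?_⟩
        have h1 : σ • x - x ∈ N ⊓ kerSub A hW :=
          ⟨N.sub_mem (hN σ x hx) hx, hker σ hσ x⟩
        rw [h, Submodule.mem_bot] at h1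
        exact sub_eq_zero.mp h1
      · obtain ⟨A', hA', h'⟩ := hunip q hq hqp
        exact ⟨A', hA', fun σ hσ => (fixed_of_unipotent (h' σ hσ) (hN σ) hNb hNt).1⟩)
    intro σ
    have : σ ∈ actTrivOn N := by rw [htop]; exact Subgroup.mem_top σ
    exact this
  · left
    have hNL := eq_of_line_le hV hNb hL h
    have htop := Inertia.eq_top_of_inertia_le (actTrivMod N hN) ho2 hn2 (by
      intro q hq
      by_cases hqp : q = p
      · subst hqp
        refine ⟨A, hA, fun σ hσ x => ?_⟩
        rw [hNL]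
        exact hker σ hσ x
      · obtain ⟨A', hA', h'⟩ := hunip q hq hqp
        exact ⟨A', hA', fun σ hσ => (fixed_of_unipotent (h' σ hσ) (hN σ) hNb hNt).2⟩)
    intro σ
    have : σ ∈ actTrivMod N hN := by rw [htop]; exact Subgroup.mem_top σ
    exact this

end Fermat.Agent.EC
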