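import Mathlib

set_option autoImplicit false

/-!
# A combinatorial lemma on the "tropical" multiples of a point
-/

namespace Fermat.Agent.EC

/-- One step of the recursion. -/
lemma trop_step {a b e f M : ℚ} {c c' : ℤ} (ha : 0 < a) (ha2 : a < 1 / 2)
    (hb : 0 < b) (hb2 : b < 1 / 2) (he : 0 < e) (he2 : e < 1 / 2)
    (h1 : |M - c| = b) (h2 : |M - a - c'| = e)
    (hf : f + e + 2 * min b a = min (2 * b + 2 * a) 1) :
    ∃ c'' : ℤ, |M + a - c''| = f := by
  obtain ⟨d, hd⟩ : ∃ d : ℤ, d = c - c' := ⟨_, rfl⟩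
  have hd' : (d : ℚ) = (c : ℚ) - c' := by rw [hd]; push_cast; ring
  have hd1 : (d : ℚ) < 2 := by
    rw [hd']
    rcases abs_cases (M - c) with h | h <;> rcases abs_cases (M - a - c') with h' | h' <;> linarith
  have hd2 : (-2 : ℚ) < d := by
    rw [hd']
    rcases abs_cases (M - c) with h | h <;> rcases abs_cases (M - a - c') with h' | h' <;> linarith
  have hd3 : d < 2 := by exact_mod_cast hd1
  have hd4 : -2 < d := by exact_mod_cast hd2
  have hM : M - a - c' = M - c - a + d := by rw [hd']; ring
  rw [hM] at h2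
  have hcases : d = -1 ∨ d = 0 ∨ d = 1 := by omega
  rcases abs_cases (M - c) with ⟨g, hg⟩ | ⟨g, hg⟩
  · -- M - c = b
    have hMb : M - c = b := by linarith
    rcases hcases with rfl | rfl | rfl
    · exfalso
      rcases abs_cases (M - c - a + ((-1 : ℤ) : ℚ)) with h' | h' <;> push_cast at * <;> linarith
    · push_cast at h2
      have he3 : e + 2 * min b a = a + b := by
        rcases abs_cases (M - c - a + 0) with h' | h' <;> rcases min_cases b a with h'' | h'' <;>
          linarith
      rcases min_cases (2 * b + 2 * a) 1 with h | h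
      · refine ⟨c, ?_⟩
        rw [abs_of_nonneg (by linarith)]
        linarith
      · refine ⟨c + 1, ?_⟩
        push_cast
        rw [abs_of_nonpos (by linarith)]
        linarith
    · exfalso
      rcases abs_cases (M - c - a + ((1 : ℤ) : ℚ)) with h' | h' <;> push_cast at * <;> linarith
  · have hMb : M - c = -b := by linarith
    rcases hcases with rfl | rfl | rfl
    · exfalso
      rcases abs_cases (M - c - a + ((-1 : ℤ) : ℚ)) with h' | h' <;> push_cast at * <;> linarith
    · push_cast at h2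
      have he3 : e = a + b := by
        rcases abs_cases (M - c - a + 0) with h' | h' <;> linarith
      refine ⟨c, ?_⟩
      rcases min_cases (2 * b + 2 * a) 1 with h | h <;> rcases min_cases b a with h'' | h''
      · rw [abs_of_nonneg (by linarith)]; linarith
      · rw [abs_of_nonpos (by linarith)]; linarith
      · exfalso; linarith
      · exfalso; linarith
    · push_cast at h2
      have he3 : e = 1 - a - b := by
        rcases abs_cases (M - c - a + 1) with h' | h' <;> linarith
      refine ⟨c, ?_⟩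
      rcases min_cases (2 * b + 2 * a) 1 with h | h <;> rcases min_cases b a with h'' | h''
      · exfalso; linarith
      · exfalso; linarith
      · rw [abs_of_nonneg (by linarith)]; linarith
      · rw [abs_of_nonpos (by linarith)]; linarith

theorem tropical {p : ℕ} (hp : p.Prime) (hp2 : p ≠ 2) {u : ℕ → ℚ}
    (hu : ∀ m, 1 ≤ m → m < p → 0 < u m ∧ u m < 1 / 2)
    (h2 : 4 * u 1 ≠ 1 → u 2 + 2 * u 1 = min (4 * u 1) 1)
    (hrec : ∀ m, 2 ≤ m → m + 1 < p → u m ≠ u 1 → 2 * u m + 2 * u 1 ≠ 1 →
      u (m + 1) + u (m - 1) + 2 * min (u m) (u 1) = min (2 * u m + 2 * u 1) 1)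
    (hlast : u (p - 1) = u 1) :
    ∃ t : ℕ, ∃ s : ℤ, t * u 1 = s ∧ (t = p ∨ t.Coprime p) := by
  by_contra hcon
  push Not at hcon
  have hp3 : 3 ≤ p := by
    have := hp.two_le
    omega
  have hcop : ∀ t : ℕ, 1 ≤ t → t < p → t.Coprime p := fun t h1 h2 =>
    (Nat.coprime_comm.mp ((Nat.Prime.coprime_iff_not_dvd hp).mpr
      (fun h => absurd (Nat.le_of_dvd (by omega) h) (by omega))))
  have h2cop : Nat.Coprime 2 p := hcop 2 (by omega) (by omega)
  have hu1 := hu 1 le_rfl (by omega)
  -- no small multiple is an integer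
  have hno : ∀ t : ℕ, ∀ s : ℤ, 1 ≤ t → t < p → (t : ℚ) * u 1 ≠ s := fun t s h1 h2 h3 =>
    (hcon t s h3).2 (hcop t h1 h2)
  have hno2 : ∀ t : ℕ, ∀ s : ℤ, 1 ≤ t → t < p → ((2 * t : ℕ) : ℚ) * u 1 ≠ s := fun t s h1 h2 h3 =>
    (hcon (2 * t) s h3).2 (Nat.Coprime.mul_left h2cop (hcop t h1 h2))
  have H : ∀ m : ℕ, 1 ≤ m → m + 1 < p →
      (∃ c : ℤ, |(m : ℚ) * u 1 - c| = u m) ∧ (∃ c : ℤ, |((m + 1 : ℕ) : ℚ) * u 1 - c| = u (m + 1)) := by
    intro m hm
    induction m, hm using Nat.le_induction with
    | base =>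
      intro _
      refine ⟨⟨0, ?_⟩, ?_⟩
      · push_cast
        rw [one_mul, sub_zero, abs_of_pos hu1.1]
      · have h4 : 4 * u 1 ≠ 1 := by
          intro h
          apply hno2 2 1 (by omega) (by omega)
          push_cast
          linarith
        have h5 := h2 h4
        rcases min_cases (4 * u 1) 1 with h | h
        · refine ⟨0, ?_⟩
          push_cast
          norm_num
          rw [abs_of_nonneg (by linarith)]
          linarith
        · refine ⟨1, ?_⟩
          push_cast
          have := (hu 2 (by omega) (by omega))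
          rw [abs_of_nonpos (by linarith)]
          linarith
    | succ m hm ih =>
      intro hmp
      obtain ⟨⟨c', hc'⟩, ⟨c, hc⟩⟩ := ih (by omega)
      refine ⟨⟨c, hc⟩, ?_⟩
      have hum := hu m hm (by omega)
      have hum1 := hu (m + 1) (by omega) (by omega)
      have hne : u (m + 1) ≠ u 1 := by
        intro h
        rw [h] at hc
        rcases abs_cases (((m + 1 : ℕ) : ℚ) * u 1 - c) with h' | h'
        · apply hno m c hm (by omega)
          push_cast at *
          linarith
        · apply hno (m + 2) c (by omega) (by omega)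
          push_cast at *
          linarith
      have hne2 : 2 * u (m + 1) + 2 * u 1 ≠ 1 := by
        intro h
        rcases abs_cases (((m + 1 : ℕ) : ℚ) * u 1 - c) with h' | h'
        · apply hno2 (m + 2) (2 * c + 1) (by omega) (by omega)
          push_cast at *
          linarith
        · apply hno2 m (2 * c - 1) (by omega) (by omega)
          push_cast at *
          linarith
      have hr := hrec (m + 1) (by omega) hmp hne hne2
      rw [Nat.add_sub_cancel] at hr
      have hM : ((m + 1 : ℕ) : ℚ) * u 1 - u 1 - c' = (m : ℚ) * u 1 - c' := by push_cast; ring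
      obtain ⟨c'', h''⟩ := trop_step (M := ((m + 1 : ℕ) : ℚ) * u 1) hu1.1 hu1.2 hum1.1 hum1.2
        hum.1 hum.2 hc (by rw [hM]; exact hc') hr
      refine ⟨c'', ?_⟩
      rw [← h'']
      congr 1
      push_cast
      ring
  obtain ⟨-, ⟨c, hc⟩⟩ := H (p - 2) (by omega) (by omega)
  have hp1 : p - 2 + 1 = p - 1 := by omega
  rw [hp1, hlast] at hc
  have hcast : ((p - 1 : ℕ) : ℚ) = p - 1 := by
    rw [Nat.cast_sub (by omega)]; simp
  rw [hcast] at hc
  rcases abs_cases (((p : ℚ) - 1) * u 1 - c) with h' | h'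
  · apply hno (p - 2) c (by omega) (by omega)
    rw [Nat.cast_sub (by omega)]
    push_cast
    linarith
  · apply (hcon p c ?_).1 rfl
    linarith

/-- Scaled version of `tropical`. -/
theorem tropical_scaled {p : ℕ} (hp : p.Prime) (hp2 : p ≠ 2) {w : ℕ → ℚ} {n : ℚ} (hn : 0 < n)
    (hw : ∀ m, 1 ≤ m → m < p → 0 < w m ∧ 2 * w m < n)
    (h2 : 4 * w 1 ≠ n → w 2 + 2 * w 1 = min (4 * w 1) n)
    (hrec : ∀ m, 2 ≤ m → m + 1 < p → w m ≠ w 1 → 2 * w m + 2 * w 1 ≠ n →
      w (m + 1) + w (m - 1) + 2 * min (w m) (w 1) = min (2 * w m + 2 * w 1) n)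
    (hlast : w (p - 1) = w 1) :
    ∃ t : ℕ, ∃ s : ℤ, t * w 1 = s * n ∧ (t = p ∨ t.Coprime p) := by
  have hmin : ∀ a b : ℚ, min (a / n) (b / n) = min a b / n := fun a b => by
    rcases le_total a b with h | h
    · rw [min_eq_left h, min_eq_left (div_le_div_of_nonneg_right h hn.le)]
    · rw [min_eq_right h, min_eq_right (div_le_div_of_nonneg_right h hn.le)]
  have hn1 : (1 : ℚ) = n / n := (div_self hn.ne').symm
  obtain ⟨t, s, h1, h3⟩ := tropical hp hp2 (u := fun m => w m / n)
    (fun m h1 h2 => ⟨div_pos (hw m h1 h2).1 hn, by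
      rw [div_lt_div_iff₀ hn (by norm_num)]; linarith [(hw m h1 h2).2]⟩)
    (fun hne => by
      have hne' : 4 * w 1 ≠ n := fun h => hne (by
        change 4 * (w 1 / n) = 1
        rw [← mul_div_assoc, h, div_self hn.ne'])
      have := h2 hne'
      change w 2 / n + 2 * (w 1 / n) = min (4 * (w 1 / n)) 1
      rw [hn1, ← mul_div_assoc, ← mul_div_assoc, hmin, ← this]
      ring)
    (fun m hm hmp hne hne2 => by
      have hne' : w m ≠ w 1 := fun h => hne (by
        change w m / n = w 1 / n
        rw [h])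
      have hne2' : 2 * w m + 2 * w 1 ≠ n := fun h => hne2 (by
        change 2 * (w m / n) + 2 * (w 1 / n) = 1
        rw [← mul_div_assoc, ← mul_div_assoc, ← add_div, h, div_self hn.ne'])
      have := hrec m hm hmp hne' hne2'
      change w (m + 1) / n + w (m - 1) / n + 2 * min (w m / n) (w 1 / n) =
        min (2 * (w m / n) + 2 * (w 1 / n)) 1
      have e1 : 2 * (w m / n) + 2 * (w 1 / n) = (2 * w m + 2 * w 1) / n := by ring
      rw [e1, hn1, hmin, hmin, ← this]
      ring)
    (by
      change w (p - 1) / n = w 1 / n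
      rw [hlast])
  refine ⟨t, s, ?_, h3⟩
  have h1' : (t : ℚ) * (w 1 / n) = s := h1
  rw [← h1']
  field_simp

end Fermat.Agent.EC
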