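import Mathlib

set_option autoImplicit false

/-!
# Formulas for the `X`-coordinates of `P + Q`, `P - Q` and `2P`
-/

namespace Fermat.Agent.EC

open WeierstrassCurve WeierstrassCurve.Affine

variable {K : Type*} [Field K] [DecidableEq K] {W : WeierstrassCurve K}

omit [DecidableEq K] in
lemma addX_mul_subX_aux {a₁ a₂ a₃ a₄ a₆ x₁ x₂ y₁ y₂ A B d G : K} (hd : d ≠ 0)
    (h₁ : y₁ ^ 2 + a₁ * x₁ * y₁ + a₃ * y₁ = x₁ ^ 3 + a₂ * x₁ ^ 2 + a₄ * x₁ + a₆)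
    (h₂ : y₂ ^ 2 + a₁ * x₂ * y₂ + a₃ * y₂ = x₂ ^ 3 + a₂ * x₂ ^ 2 + a₄ * x₂ + a₆)
    (hA : A = y₁ - y₂) (hB : B = y₁ - (-y₂ - a₁ * x₂ - a₃)) (hdd : d = x₁ - x₂)
    (hG : G = x₁ ^ 2 + x₁ * x₂ + x₂ ^ 2 + a₂ * (x₁ + x₂) + a₄ - a₁ * y₁) :
    d ^ 2 * (((A / d) ^ 2 + a₁ * (A / d) - a₂ - x₁ - x₂) *
      ((B / d) ^ 2 + a₁ * (B / d) - a₂ - x₁ - x₂)) =
      x₁ ^ 2 * x₂ ^ 2 - (2 * a₄ + a₁ * a₃) * (x₁ * x₂) - (a₃ ^ 2 + 4 * a₆) * (x₁ + x₂) -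
        (a₁ ^ 2 * a₆ + 4 * a₂ * a₆ - a₁ * a₃ * a₄ + a₂ * a₃ ^ 2 - a₄ ^ 2) := by
  have e1 : A * B = d * G := by
    rw [hA, hB, hG, hdd]
    linear_combination h₁ - h₂
  have e2 : d ^ 2 * (((A / d) ^ 2 + a₁ * (A / d) - a₂ - x₁ - x₂) *
      ((B / d) ^ 2 + a₁ * (B / d) - a₂ - x₁ - x₂)) =
      G ^ 2 + a₁ * G * (A + B) + a₁ ^ 2 * d * G - (a₂ + x₁ + x₂) * (A ^ 2 + B ^ 2)
        - a₁ * (a₂ + x₁ + x₂) * d * (A + B) + (a₂ + x₁ + x₂) ^ 2 * d ^ 2 := by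
    field_simp
    linear_combination (A * B + d * G + a₁ * d * (A + B) + a₁ ^ 2 * d ^ 2) * e1
  have e3 : A ^ 2 + B ^ 2 = (A + B) ^ 2 - 2 * (d * G) := by rw [← e1]; ring
  have e4 : A + B = 2 * y₁ + a₁ * x₂ + a₃ := by rw [hA, hB]; ring
  rw [e2, e3, e4, hG, hdd]
  linear_combination -(a₁ ^ 2 + 4 * (a₂ + x₁ + x₂)) * h₁

lemma addX_mul_subX {x₁ x₂ y₁ y₂ : K} (h₁ : W.toAffine.Equation x₁ y₁)
    (h₂ : W.toAffine.Equation x₂ y₂) (hx : x₁ ≠ x₂) :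
    (x₁ - x₂) ^ 2 * (W.toAffine.addX x₁ x₂ (W.toAffine.slope x₁ x₂ y₁ y₂) *
      W.toAffine.addX x₁ x₂ (W.toAffine.slope x₁ x₂ y₁ (W.toAffine.negY x₂ y₂))) =
      x₁ ^ 2 * x₂ ^ 2 - W.b₄ * (x₁ * x₂) - W.b₆ * (x₁ + x₂) - W.b₈ := by
  rw [slope_of_X_ne hx, slope_of_X_ne hx]
  rw [equation_iff] at h₁ h₂
  exact addX_mul_subX_aux (sub_ne_zero.mpr hx) h₁ h₂ rfl rfl rfl rfl

lemma dblX_mul {x y : K} (h : W.toAffine.Equation x y) (hy : y ≠ W.toAffine.negY x y) :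
    W.toAffine.addX x x (W.toAffine.slope x x y y) *
      (4 * x ^ 3 + W.b₂ * x ^ 2 + 2 * W.b₄ * x + W.b₆) =
      x ^ 4 - W.b₄ * x ^ 2 - 2 * W.b₆ * x - W.b₈ := by
  rw [slope_of_Y_ne rfl hy]
  have hD : y - W.toAffine.negY x y ≠ 0 := sub_ne_zero.mpr hy
  rw [equation_iff] at h
  have hD2 : (y - W.toAffine.negY x y) ^ 2 = 4 * x ^ 3 + W.b₂ * x ^ 2 + 2 * W.b₄ * x + W.b₆ := by
    simp only [negY, WeierstrassCurve.b₂, WeierstrassCurve.b₄, WeierstrassCurve.b₆]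
    linear_combination 4 * h
  rw [← hD2]
  have hDy : y - W.toAffine.negY x y = 2 * y + W.a₁ * x + W.a₃ := by simp only [negY]; ring
  rw [hDy] at hD ⊢
  simp only [addX, WeierstrassCurve.b₄, WeierstrassCurve.b₆, WeierstrassCurve.b₈]
  obtain ⟨D, hDD⟩ : ∃ D, D = 2 * y + W.a₁ * x + W.a₃ := ⟨_, rfl⟩
  rw [← hDD] at hD ⊢
  field_simp
  rw [hDD]
  linear_combination (-(W.a₁ ^ 2 + 4 * (W.a₂ + 2 * x))) * h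

end Fermat.Agent.EC
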