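import Fermat.Agent.EC.NonsingRed
import Fermat.Agent.EC.XFormulas
import Fermat.Agent.EC.Tropical

set_option autoImplicit false

/-!
# Inertia acts trivially on `p`-torsion at a multiplicative place with `p ∣ v(Δ)`
-/

namespace Fermat.Agent.EC

open WeierstrassCurve WeierstrassCurve.Affine

variable {K : Type*} [Field K] {Γ₀ : Type*} [LinearOrderedCommGroupWithZero Γ₀]
  {v : Valuation K Γ₀}

/-- A rational additive valuation equivalent to `v`. -/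
structure RatVal (v : Valuation K Γ₀) (val : K → ℚ) : Prop where
  mul : ∀ {x y : K}, x ≠ 0 → y ≠ 0 → val (x * y) = val x + val y
  le_iff : ∀ {x y : K}, x ≠ 0 → y ≠ 0 → (v x ≤ v y ↔ val y ≤ val x)

namespace RatVal

variable {val : K → ℚ} (H : RatVal v val)
include H

lemma lt_iff {x y : K} (hx : x ≠ 0) (hy : y ≠ 0) : v x < v y ↔ val y < val x := by
  rw [← not_le, ← not_le, H.le_iff hy hx]

lemma eq_iff {x y : K} (hx : x ≠ 0) (hy : y ≠ 0) : v x = v y ↔ val x = val y := by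
  rw [le_antisymm_iff, le_antisymm_iff, H.le_iff hy hx, H.le_iff hx hy]
  tauto

lemma one : val 1 = 0 := by
  have := H.mul (one_ne_zero (α := K)) one_ne_zero
  rw [mul_one] at this
  linarith

lemma pow {x : K} (hx : x ≠ 0) (n : ℕ) : val (x ^ n) = n * val x := by
  induction n with
  | zero => simp [H.one]
  | succ n ih => rw [pow_succ, H.mul (pow_ne_zero n hx) hx, ih]; push_cast; ring

lemma inv {x : K} (hx : x ≠ 0) : val x⁻¹ = - val x := by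
  have := H.mul hx (inv_ne_zero hx)
  rw [mul_inv_cancel₀ hx, H.one] at this
  linarith

lemma div {x y : K} (hx : x ≠ 0) (hy : y ≠ 0) : val (x / y) = val x - val y := by
  rw [div_eq_mul_inv, H.mul hx (inv_ne_zero hy), H.inv hy]; ring

lemma zpow {x : K} (hx : x ≠ 0) (n : ℤ) : val (x ^ n) = n * val x := by
  rcases n with n | n
  · simp only [Int.ofNat_eq_natCast, zpow_natCast, Int.cast_natCast]
    exact H.pow hx n
  · rw [zpow_negSucc, H.inv (pow_ne_zero _ hx), H.pow hx]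
    push_cast
    ring

lemma lt_one_iff {x : K} (hx : x ≠ 0) : v x < 1 ↔ 0 < val x := by
  rw [← H.one, ← H.lt_iff hx one_ne_zero, map_one]

lemma le_one_iff {x : K} (hx : x ≠ 0) : v x ≤ 1 ↔ 0 ≤ val x := by
  rw [← H.one, ← H.le_iff hx one_ne_zero, map_one]

lemma eq_one_iff {x : K} (hx : x ≠ 0) : v x = 1 ↔ val x = 0 := by
  rw [← H.one, ← H.eq_iff hx one_ne_zero, map_one]

lemma add_of_ne {x y : K} (hx : x ≠ 0) (hy : y ≠ 0) (h : val x ≠ val y) :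
    x + y ≠ 0 ∧ val (x + y) = min (val x) (val y) := by
  have hne : v x ≠ v y := fun h' => h ((H.eq_iff hx hy).mp h')
  have hxy : x + y ≠ 0 := by
    intro h0
    apply hne
    rw [eq_neg_of_add_eq_zero_left h0, Valuation.map_neg]
  refine ⟨hxy, ?_⟩
  rcases lt_or_gt_of_ne h with h1 | h1
  · rw [min_eq_left h1.le, ← H.eq_iff hxy hx]
    exact Valuation.map_add_eq_of_lt_left v ((H.lt_iff hy hx).mpr h1)
  · rw [min_eq_right h1.le, ← H.eq_iff hxy hy]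
    exact Valuation.map_add_eq_of_lt_right v ((H.lt_iff hx hy).mpr h1)

lemma neg {x : K} (hx : x ≠ 0) : val (-x) = val x := by
  rw [← H.eq_iff (neg_ne_zero.mpr hx) hx, Valuation.map_neg]

end RatVal

/-- Multiplicative reduction with the node at the origin, in a normal form where `v(a₆)` is the
valuation of the discriminant. -/
structure MultForm (v : Valuation K Γ₀) (W : WeierstrassCurve K) : Prop where
  a₁ : v W.a₁ ≤ 1
  a₂ : v W.a₂ ≤ 1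
  a₃ : v W.a₃ ≤ v W.a₆
  a₄ : v W.a₄ ≤ v W.a₆
  a₆ : v W.a₆ < 1
  a₆0 : W.a₆ ≠ 0
  b₂ : v W.b₂ = 1

lemma v_lt_mul {a b : K} {s : Γ₀} (ha : v a ≤ 1) (hb : v b < s) : v (a * b) < s :=
  (v_mul_le' ha le_rfl).trans_lt hb

lemma v_add_lt {a b : K} {s : Γ₀} (ha : v a < s) (hb : v b < s) : v (a + b) < s :=
  (v.map_add _ _).trans_lt (max_lt ha hb)

lemma v_sub_lt {a b : K} {s : Γ₀} (ha : v a < s) (hb : v b < s) : v (a - b) < s :=
  (Valuation.map_sub _ _ _).trans_lt (max_lt ha hb)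

/-- product of something `≤ δ` with something `< 1` is `< δ`. -/
lemma v_mul_lt_of_lt {a b : K} {δ : Γ₀} (hδ : δ ≠ 0) (ha : v a ≤ δ) (hb : v b < 1) :
    v (a * b) < δ := by
  rw [map_mul]
  calc v a * v b ≤ δ * v b := mul_le_mul_left ha _
    _ < δ * 1 := mul_lt_mul_of_pos_left hb (zero_lt_iff.mpr hδ)
    _ = δ := mul_one _

namespace MultForm

variable {W : WeierstrassCurve K} (hM : MultForm v W)
include hM

lemma vint : VInt v W where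
  a₁ := hM.a₁
  a₂ := hM.a₂
  a₃ := hM.a₃.trans hM.a₆.le
  a₄ := hM.a₄.trans hM.a₆.le
  a₆ := hM.a₆.le

lemma va₆0 : v W.a₆ ≠ 0 := (Valuation.ne_zero_iff v).mpr hM.a₆0

lemma b₄_le : v W.b₄ ≤ v W.a₆ :=
  v_add_le (v_mul_le' v_two_le hM.a₄) (v_mul_le' hM.a₁ hM.a₃)

lemma b₆_le : v W.b₆ ≤ v W.a₆ := by
  have h4 : v (4 : K) ≤ 1 := by exact_mod_cast v_nat_le (v := v) 4
  refine v_add_le ?_ (v_mul_le' h4 le_rfl)
  rw [sq]
  exact v_mul_le' hM.vint.a₃ hM.a₃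

lemma b₈_eq : v W.b₈ = v W.a₆ := by
  have e : W.b₈ = W.b₂ * W.a₆ + (-(W.a₁ * W.a₃ * W.a₄) + W.a₂ * W.a₃ ^ 2 - W.a₄ ^ 2) := by
    simp only [WeierstrassCurve.b₈, WeierstrassCurve.b₂]; ring
  have h1 : v (W.b₂ * W.a₆) = v W.a₆ := by rw [map_mul, hM.b₂, one_mul]
  have ha₃ : v W.a₃ < 1 := hM.a₃.trans_lt hM.a₆
  have ha₄ : v W.a₄ < 1 := hM.a₄.trans_lt hM.a₆
  have h2 : v (-(W.a₁ * W.a₃ * W.a₄) + W.a₂ * W.a₃ ^ 2 - W.a₄ ^ 2) < v W.a₆ := by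
    refine v_sub_lt (v_add_lt ?_ ?_) ?_
    · rw [Valuation.map_neg]
      exact v_mul_lt_of_lt hM.va₆0 (v_mul_le' hM.a₁ hM.a₃) ha₄
    · rw [sq]
      exact v_lt_mul hM.a₂ (v_mul_lt_of_lt hM.va₆0 hM.a₃ ha₃)
    · rw [sq]
      exact v_mul_lt_of_lt hM.va₆0 hM.a₄ ha₄
  rw [e, Valuation.map_add_eq_of_lt_left v (by rw [h1]; exact h2), h1]

/-- Points with unit `X`-coordinate have nonsingular reduction. -/
lemma nonsing {x y : K} (h : W.toAffine.Equation x y) (hx : v x = 1) :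
    v (2 * y + W.a₁ * x + W.a₃) = 1 ∨
      v (3 * x ^ 2 + 2 * W.a₂ * x + W.a₄ - W.a₁ * y) = 1 := by
  have hW := hM.vint
  have hy := y_integral hW h hx.le
  by_contra hcon
  rw [not_or] at hcon
  have hb3 : v (2 * y + W.a₁ * x + W.a₃) ≤ 1 :=
    v_add_le (v_add_le (v_mul_le' v_two_le hy) (v_mul_le' hW.a₁ hx.le)) hW.a₃
  have hb4 : v (3 * x ^ 2 + 2 * W.a₂ * x + W.a₄ - W.a₁ * y) ≤ 1 :=
    v_sub_le (v_add_le (v_add_le (v_mul_le' v_three_le (v_pow_le_one hx.le 2))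
      (v_mul_le' (v_mul_le' v_two_le hW.a₂) hx.le)) hW.a₄) (v_mul_le' hW.a₁ hy)
  have h3 := lt_of_le_of_ne hb3 hcon.1
  have h4 := lt_of_le_of_ne hb4 hcon.2
  rw [equation_iff] at h
  set ψ := 2 * y + W.a₁ * x + W.a₃ with hψ
  set G := 3 * x ^ 2 + 2 * W.a₂ * x + W.a₄ - W.a₁ * y with hG
  have e1 : ψ * ψ - (2 * W.b₄ * x + W.b₆) = (4 * x + W.b₂) * x ^ 2 := by
    rw [hψ]
    simp only [WeierstrassCurve.b₂, WeierstrassCurve.b₄, WeierstrassCurve.b₆]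
    linear_combination 4 * h
  have e2 : 2 * G + W.a₁ * ψ - W.b₄ = (6 * x + W.b₂) * x := by
    rw [hψ, hG]
    simp only [WeierstrassCurve.b₂, WeierstrassCurve.b₄]
    ring
  have hb4' : v W.b₄ < 1 := hM.b₄_le.trans_lt hM.a₆
  have hb6' : v W.b₆ < 1 := hM.b₆_le.trans_lt hM.a₆
  have f1 : v (4 * x + W.b₂) < 1 := by
    have : v ((4 * x + W.b₂) * x ^ 2) < 1 := by
      rw [← e1]
      refine v_sub_lt (v_lt_mul h3.le h3) (v_add_lt ?_ hb6')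
      rw [mul_assoc, mul_comm W.b₄ x]
      exact v_lt_mul v_two_le (v_lt_mul hx.le hb4')
    rwa [map_mul, map_pow, hx, one_pow, mul_one] at this
  have f2 : v (6 * x + W.b₂) < 1 := by
    have : v ((6 * x + W.b₂) * x) < 1 := by
      rw [← e2]
      exact v_sub_lt (v_add_lt (v_lt_mul v_two_le h4) (v_lt_mul hW.a₁ h3)) hb4'
    rwa [map_mul, hx, mul_one] at this
  have f3 : v W.b₂ < 1 := by
    have : W.b₂ = 3 * (4 * x + W.b₂) - 2 * (6 * x + W.b₂) := by ring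
    rw [this]
    exact v_sub_lt (v_lt_mul v_three_le f1) (v_lt_mul v_two_le f2)
  rw [hM.b₂] at f3
  exact lt_irrefl _ f3

end MultForm

/-- The `X`-coordinate of a point (`0` at infinity). -/
def xc {W : WeierstrassCurve K} : W.toAffine.Point → K
  | .zero => 0
  | .some x _ _ => x

lemma xc_some {W : WeierstrassCurve K} {x y : K} (h : W.toAffine.Nonsingular x y) :
    xc (.some x y h : W.toAffine.Point) = x := rfl

section

variable [DecidableEq K] {W : WeierstrassCurve K}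

omit [DecidableEq K] in
lemma eq_or_eq_neg_of_xc {A B : W.toAffine.Point} (hA : A ≠ 0) (hB : B ≠ 0) (h : xc A = xc B) :
    A = B ∨ A = -B := by
  rcases A with _ | ⟨x₁, y₁, h₁⟩
  · exact absurd rfl hA
  rcases B with _ | ⟨x₂, y₂, h₂⟩
  · exact absurd rfl hB
  exact Point.X_eq_iff.mp h

lemma xc_mul {A B : W.toAffine.Point} (hA : A ≠ 0) (hB : B ≠ 0) (hne : xc A ≠ xc B) :
    (xc A - xc B) ^ 2 * (xc (A + B) * xc (A - B)) =
      xc A ^ 2 * xc B ^ 2 - W.b₄ * (xc A * xc B) - W.b₆ * (xc A + xc B) - W.b₈ := by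
  rcases A with _ | ⟨x₁, y₁, h₁⟩
  · exact absurd rfl hA
  rcases B with _ | ⟨x₂, y₂, h₂⟩
  · exact absurd rfl hB
  rw [xc_some, xc_some] at *
  rw [sub_eq_add_neg (Point.some x₁ y₁ h₁), Point.neg_some, Point.add_of_X_ne hne,
    Point.add_of_X_ne hne, xc_some, xc_some]
  exact addX_mul_subX h₁.1 h₂.1 hne

lemma xc_dbl {A : W.toAffine.Point} (hA : A ≠ 0) (h2 : A + A ≠ 0) :
    xc (A + A) * (4 * xc A ^ 3 + W.b₂ * xc A ^ 2 + 2 * W.b₄ * xc A + W.b₆) =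
      xc A ^ 4 - W.b₄ * xc A ^ 2 - 2 * W.b₆ * xc A - W.b₈ := by
  rcases A with _ | ⟨x, y, h⟩
  · exact absurd rfl hA
  rw [xc_some]
  have hy : y ≠ W.toAffine.negY x y := by
    intro hy
    exact h2 (Point.add_self_of_Y_eq hy)
  rw [Point.add_self_of_Y_ne hy, xc_some]
  exact dblX_mul h.1 hy

lemma MultForm.two_nsmul_big (hM : MultForm v W) {A : W.toAffine.Point} (hA : A ≠ 0)
    (h2 : A + A ≠ 0) (hx : v (xc A) < 1) (hx2 : v (xc A) ^ 2 ≤ v W.a₆) :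
    1 ≤ v (xc (A + A)) := by
  have key := xc_dbl hA h2
  set x := xc A
  have h4 : v (4 : K) ≤ 1 := by exact_mod_cast v_nat_le (v := v) 4
  have hb8 := hM.b₈_eq
  have hN : v (x ^ 4 - W.b₄ * x ^ 2 - 2 * W.b₆ * x - W.b₈) = v W.a₆ := by
    have e : x ^ 4 - W.b₄ * x ^ 2 - 2 * W.b₆ * x - W.b₈ =
      -W.b₈ + (x ^ 4 - W.b₄ * x ^ 2 - 2 * W.b₆ * x) := by ring
    have hlt : v (x ^ 4 - W.b₄ * x ^ 2 - 2 * W.b₆ * x) < v W.a₆ := by
      refine v_sub_lt (v_sub_lt ?_ ?_) ?_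
      · have : x ^ 4 = x ^ 2 * x * x := by ring
        rw [this]
        refine v_mul_lt_of_lt hM.va₆0 ?_ hx
        exact v_mul_le'' (by rw [map_pow]; exact hx2) hx.le
      · rw [sq, ← mul_assoc]
        exact v_mul_lt_of_lt hM.va₆0 (v_mul_le'' hM.b₄_le hx.le) hx
      · exact v_mul_lt_of_lt hM.va₆0 (v_mul_le' v_two_le hM.b₆_le) hx
    rw [e, Valuation.map_add_eq_of_lt_left v, Valuation.map_neg, hb8]
    rw [Valuation.map_neg, hb8]
    exact hlt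
  have hD : v (4 * x ^ 3 + W.b₂ * x ^ 2 + 2 * W.b₄ * x + W.b₆) ≤ v W.a₆ := by
    refine v_add_le (v_add_le (v_add_le ?_ ?_) ?_) hM.b₆_le
    · rw [pow_succ]
      exact v_mul_le' h4 (v_mul_le'' (by rw [map_pow]; exact hx2) hx.le)
    · exact v_mul_le' hM.b₂.le (by rw [map_pow]; exact hx2)
    · exact v_mul_le'' (v_mul_le' v_two_le hM.b₄_le) hx.le
  rw [← key, map_mul] at hN
  by_contra hlt
  rw [not_le] at hlt
  have : v (xc (A + A)) * v (4 * x ^ 3 + W.b₂ * x ^ 2 + 2 * W.b₄ * x + W.b₆) < v W.a₆ := by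
    calc _ ≤ v (xc (A + A)) * v W.a₆ := mul_le_mul_right hD _
      _ < 1 * v W.a₆ := mul_lt_mul_of_pos_right hlt (zero_lt_iff.mpr hM.va₆0)
      _ = v W.a₆ := one_mul _
  rw [hN] at this
  exact lt_irrefl _ this

variable {val : K → ℚ}

lemma MultForm.val_dbl (hM : MultForm v W) (H : RatVal v val) {A : W.toAffine.Point}
    (hA : A ≠ 0) (h2 : A + A ≠ 0) (hx0 : xc A ≠ 0) (hx1 : 0 < val (xc A))
    (hx2 : 2 * val (xc A) < val W.a₆) (hne : 4 * val (xc A) ≠ val W.a₆)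
    (hx20 : xc (A + A) ≠ 0) :
    val (xc (A + A)) + 2 * val (xc A) = min (4 * val (xc A)) (val W.a₆) := by
  have key := xc_dbl hA h2
  set x := xc A
  have h4 : v (4 : K) ≤ 1 := by exact_mod_cast v_nat_le (v := v) 4
  have hb8 := hM.b₈_eq
  have hb80 : W.b₈ ≠ 0 := by
    intro h0
    rw [h0, map_zero] at hb8
    exact hM.va₆0 hb8.symm
  have hb8v : val W.b₈ = val W.a₆ := (H.eq_iff hb80 hM.a₆0).mp hb8
  have hx : v x < 1 := (H.lt_one_iff hx0).mpr hx1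
  have hδ : v W.a₆ < v x ^ 2 := by
    rw [← map_pow, H.lt_iff hM.a₆0 (pow_ne_zero 2 hx0), H.pow hx0]
    push_cast
    exact hx2
  -- numerator
  have hN : x ^ 4 - W.b₄ * x ^ 2 - 2 * W.b₆ * x - W.b₈ ≠ 0 ∧
      val (x ^ 4 - W.b₄ * x ^ 2 - 2 * W.b₆ * x - W.b₈) = min (4 * val x) (val W.a₆) := by
    have e : x ^ 4 - W.b₄ * x ^ 2 - 2 * W.b₆ * x - W.b₈ =
      x ^ 4 + (-W.b₈ + (- (W.b₄ * x ^ 2) - 2 * W.b₆ * x)) := by ring
    have hlt : v (- (W.b₄ * x ^ 2) - 2 * W.b₆ * x) < v W.a₆ := by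
      refine v_sub_lt ?_ ?_
      · rw [Valuation.map_neg, sq, ← mul_assoc]
        exact v_mul_lt_of_lt hM.va₆0 (v_mul_le'' hM.b₄_le hx.le) hx
      · exact v_mul_lt_of_lt hM.va₆0 (v_mul_le' v_two_le hM.b₆_le) hx
    have hE : v (-W.b₈ + (- (W.b₄ * x ^ 2) - 2 * W.b₆ * x)) = v W.a₆ := by
      rw [Valuation.map_add_eq_of_lt_left v, Valuation.map_neg, hb8]
      rw [Valuation.map_neg, hb8]
      exact hlt
    have hE0 : -W.b₈ + (- (W.b₄ * x ^ 2) - 2 * W.b₆ * x) ≠ 0 := by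
      intro h0
      rw [h0, map_zero] at hE
      exact hM.va₆0 hE.symm
    have hEv : val (-W.b₈ + (- (W.b₄ * x ^ 2) - 2 * W.b₆ * x)) = val W.a₆ :=
      (H.eq_iff hE0 hM.a₆0).mp hE
    have hx4 : val (x ^ 4) = 4 * val x := by rw [H.pow hx0]; norm_num
    rw [e]
    obtain ⟨h1, h2⟩ := H.add_of_ne (pow_ne_zero 4 hx0) hE0 (by rw [hx4, hEv]; exact hne)
    refine ⟨h1, ?_⟩
    rw [h2, hx4, hEv]
  -- denominator
  have hD : v (4 * x ^ 3 + W.b₂ * x ^ 2 + 2 * W.b₄ * x + W.b₆) = v (x ^ 2) := by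
    have e : 4 * x ^ 3 + W.b₂ * x ^ 2 + 2 * W.b₄ * x + W.b₆ =
      W.b₂ * x ^ 2 + (4 * x ^ 2 * x + 2 * W.b₄ * x + W.b₆) := by ring
    have hx2v : v (x ^ 2) ≠ 0 := (Valuation.ne_zero_iff v).mpr (pow_ne_zero 2 hx0)
    have h1 : v (W.b₂ * x ^ 2) = v (x ^ 2) := by rw [map_mul, hM.b₂, one_mul]
    have hlt : v (4 * x ^ 2 * x + 2 * W.b₄ * x + W.b₆) < v (x ^ 2) := by
      rw [← map_pow] at hδ
      refine v_add_lt (v_add_lt ?_ ?_) (hM.b₆_le.trans_lt hδ)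
      · exact v_mul_lt_of_lt hx2v (v_mul_le' h4 le_rfl) hx
      · exact (v_mul_le'' (v_mul_le' v_two_le hM.b₄_le) hx.le).trans_lt hδ
    rw [e, Valuation.map_add_eq_of_lt_left v (by rw [h1]; exact hlt), h1]
  have hD0 : 4 * x ^ 3 + W.b₂ * x ^ 2 + 2 * W.b₄ * x + W.b₆ ≠ 0 := by
    intro h0
    rw [h0, map_zero] at hD
    exact (Valuation.ne_zero_iff v).mpr (pow_ne_zero 2 hx0) hD.symm
  have hDv : val (4 * x ^ 3 + W.b₂ * x ^ 2 + 2 * W.b₄ * x + W.b₆) = 2 * val x := by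
    rw [(H.eq_iff hD0 (pow_ne_zero 2 hx0)).mp hD, H.pow hx0]; norm_num
  rw [← hN.2, ← key, H.mul hx20 hD0, hDv]

lemma MultForm.val_add_sub (hM : MultForm v W) (H : RatVal v val) {A B : W.toAffine.Point}
    (hA : A ≠ 0) (hB : B ≠ 0) (hA0 : xc A ≠ 0) (hB0 : xc B ≠ 0)
    (hA1 : 0 < val (xc A)) (hB1 : 0 < val (xc B))
    (hne : val (xc A) ≠ val (xc B)) (hne2 : 2 * val (xc A) + 2 * val (xc B) ≠ val W.a₆)
    (hadd : xc (A + B) ≠ 0) (hsub : xc (A - B) ≠ 0) :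
    val (xc (A + B)) + val (xc (A - B)) + 2 * min (val (xc A)) (val (xc B)) =
      min (2 * val (xc A) + 2 * val (xc B)) (val W.a₆) := by
  have hAB : xc A ≠ xc B := fun h => hne (by rw [h])
  have key := xc_mul hA hB hAB
  set x₁ := xc A
  set x₂ := xc B
  have hb8 := hM.b₈_eq
  have hb80 : W.b₈ ≠ 0 := by
    intro h0
    rw [h0, map_zero] at hb8
    exact hM.va₆0 hb8.symm
  have hb8v : val W.b₈ = val W.a₆ := (H.eq_iff hb80 hM.a₆0).mp hb8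
  have hx₁ : v x₁ < 1 := (H.lt_one_iff hA0).mpr hA1
  have hx₂ : v x₂ < 1 := (H.lt_one_iff hB0).mpr hB1
  have hN : x₁ ^ 2 * x₂ ^ 2 - W.b₄ * (x₁ * x₂) - W.b₆ * (x₁ + x₂) - W.b₈ ≠ 0 ∧
      val (x₁ ^ 2 * x₂ ^ 2 - W.b₄ * (x₁ * x₂) - W.b₆ * (x₁ + x₂) - W.b₈) =
        min (2 * val x₁ + 2 * val x₂) (val W.a₆) := by
    have e : x₁ ^ 2 * x₂ ^ 2 - W.b₄ * (x₁ * x₂) - W.b₆ * (x₁ + x₂) - W.b₈ =
      x₁ ^ 2 * x₂ ^ 2 + (-W.b₈ + (- (W.b₄ * (x₁ * x₂)) - W.b₆ * (x₁ + x₂))) := by ring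
    have hlt : v (- (W.b₄ * (x₁ * x₂)) - W.b₆ * (x₁ + x₂)) < v W.a₆ := by
      refine v_sub_lt ?_ ?_
      · rw [Valuation.map_neg]
        exact v_mul_lt_of_lt hM.va₆0 hM.b₄_le (v_lt_mul hx₁.le hx₂)
      · exact v_mul_lt_of_lt hM.va₆0 hM.b₆_le (v_add_lt hx₁ hx₂)
    have hE : v (-W.b₈ + (- (W.b₄ * (x₁ * x₂)) - W.b₆ * (x₁ + x₂))) = v W.a₆ := by
      rw [Valuation.map_add_eq_of_lt_left v, Valuation.map_neg, hb8]
      rw [Valuation.map_neg, hb8]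
      exact hlt
    have hE0 : -W.b₈ + (- (W.b₄ * (x₁ * x₂)) - W.b₆ * (x₁ + x₂)) ≠ 0 := by
      intro h0
      rw [h0, map_zero] at hE
      exact hM.va₆0 hE.symm
    have hEv := (H.eq_iff hE0 hM.a₆0).mp hE
    have hx4 : val (x₁ ^ 2 * x₂ ^ 2) = 2 * val x₁ + 2 * val x₂ := by
      rw [H.mul (pow_ne_zero 2 hA0) (pow_ne_zero 2 hB0), H.pow hA0, H.pow hB0]; norm_num
    have h0 : x₁ ^ 2 * x₂ ^ 2 ≠ 0 := mul_ne_zero (pow_ne_zero 2 hA0) (pow_ne_zero 2 hB0)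
    rw [e]
    obtain ⟨h1, h2⟩ := H.add_of_ne h0 hE0 (by rw [hx4, hEv]; exact hne2)
    refine ⟨h1, ?_⟩
    rw [h2, hx4, hEv]
  have hdiff : x₁ - x₂ ≠ 0 ∧ val (x₁ - x₂) = min (val x₁) (val x₂) := by
    have := H.add_of_ne hA0 (neg_ne_zero.mpr hB0) (by rw [H.neg hB0]; exact hne)
    rw [← sub_eq_add_neg, H.neg hB0] at this
    exact this
  rw [← hN.2, ← key, H.mul (pow_ne_zero 2 hdiff.1) (mul_ne_zero hadd hsub), H.pow hdiff.1,
    H.mul hadd hsub, hdiff.2]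
  push_cast
  ring

end

end Fermat.Agent.EC
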