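import Fermat.Agent.EC.MultInertia
import Fermat.Agent.ECT.Points

set_option autoImplicit false

/-!
# The kernel of reduction as a subgroup, and inertia modulo the kernel of reduction
-/

namespace Fermat.Agent.EC

open WeierstrassCurve WeierstrassCurve.Affine

variable {K : Type*} [Field K] {Γ₀ : Type*} [LinearOrderedCommGroupWithZero Γ₀]
  {v : Valuation K Γ₀} {W : WeierstrassCurve K}

/-- Membership in the kernel of reduction. -/
def InKer (v : Valuation K Γ₀) (P : W.toAffine.Point) : Prop := P = 0 ∨ 1 < v (xc P)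

lemma inKer_zero : InKer v (0 : W.toAffine.Point) := Or.inl rfl

lemma inKer_some {x y : K} {h : W.toAffine.Nonsingular x y} :
    InKer v (.some x y h : W.toAffine.Point) ↔ 1 < v x := by
  constructor
  · rintro (h0 | h0)
    · exact absurd h0 (Point.some_ne_zero h)
    · rwa [xc_some] at h0
  · intro h0
    right
    rwa [xc_some]

lemma inKer_neg {P : W.toAffine.Point} (hP : InKer v P) : InKer v (-P) := by
  rcases P with _ | ⟨x, y, h⟩
  · exact inKer_zero
  · rw [Point.neg_some, inKer_some]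
    exact inKer_some.mp hP

/-- relation with `InE`. -/
lemma InKer.inE (hW : VInt v W) {P : W.toAffine.Point} (hP : InKer v P) :
    ∃ r, r < 1 ∧ InE v r P := by
  rcases P with _ | ⟨x, y, h⟩
  · exact ⟨0, zero_lt_one, trivial⟩
  · rw [inKer_some] at hP
    obtain ⟨h1, h2, h3⟩ := zw_of_one_lt hW h.1 hP
    exact ⟨v (x / y), h3, h1, h2, le_rfl⟩

lemma InE.mono {P : W.toAffine.Point} {r s : Γ₀} (h : InE v r P) (hrs : r ≤ s) : InE v s P := by
  rcases P with _ | ⟨x, y, h'⟩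
  · trivial
  · exact ⟨h.1, h.2.1, h.2.2.trans hrs⟩

lemma InE.inKer (hW : VInt v W) {P : W.toAffine.Point} {r : Γ₀} (h : InE v r P) :
    InKer v P := by
  rcases P with _ | ⟨x, y, h'⟩
  · exact inKer_zero
  · rw [inKer_some]
    obtain ⟨h1, h2, -⟩ := h
    by_contra hle
    rw [not_lt] at hle
    have hy := y_integral hW h'.1 hle
    rw [map_div₀, map_one, div_lt_one₀ (zero_lt_iff.mpr ((Valuation.ne_zero_iff v).mpr h1))] at h2
    exact absurd hy (not_le.mpr h2)

variable [DecidableEq K]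

lemma inKer_add (hW : VInt v W) {P Q : W.toAffine.Point} (hP : InKer v P) (hQ : InKer v Q) :
    InKer v (P + Q) := by
  obtain ⟨r, hr, hPr⟩ := hP.inE hW
  obtain ⟨s, hs, hQs⟩ := hQ.inE hW
  exact (InE_add hW (max_lt hr hs) (hPr.mono (le_max_left r s)) (hQs.mono (le_max_right r s))).1.inKer
    hW

lemma inKer_sub (hW : VInt v W) {P Q : W.toAffine.Point} (hP : InKer v P) (hQ : InKer v Q) :
    InKer v (P - Q) := by
  rw [sub_eq_add_neg]
  exact inKer_add hW hP (inKer_neg hQ)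

lemma inKer_nsmul (hW : VInt v W) {P : W.toAffine.Point} (hP : InKer v P) (n : ℕ) :
    InKer v (n • P) := by
  induction n with
  | zero => rw [zero_smul]; exact inKer_zero
  | succ n ih => rw [add_smul, one_smul]; exact inKer_add hW ih hP

variable {σ : K →+* K} {φ : W.toAffine.Point →+ W.toAffine.Point}

lemma InertiaAction.inKer_map (H : InertiaAction v W σ φ)
    (hiso : ∀ x, v (σ x) = v x) {P : W.toAffine.Point} (hP : InKer v P) : InKer v (φ P) := by
  rcases P with _ | ⟨x, y, h⟩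
  · change InKer v (φ 0)
    rw [map_zero]
    exact inKer_zero
  · obtain ⟨h', hφ⟩ := H.action x y h
    rw [hφ, inKer_some, hiso]
    exact inKer_some.mp hP

/-- A point with nonsingular reduction is moved by inertia inside its residue class. -/
lemma InertiaAction.sub_inKer_of_nonsing (H : InertiaAction v W σ φ) (hW : VInt v W) {x y : K}
    (h : W.toAffine.Nonsingular x y) (hx : v x ≤ 1)
    (hns : v (2 * y + W.a₁ * x + W.a₃) = 1 ∨
      v (3 * x ^ 2 + 2 * W.a₂ * x + W.a₄ - W.a₁ * y) = 1) :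
    InKer v (φ (.some x y h) - .some x y h) := by
  have hy := y_integral hW h.1 hx
  obtain ⟨h', hφ⟩ := H.action x y h
  rw [hφ]
  rcases sub_of_same_reduction hW h h' hx (H.residue x hx) (H.residue y hy) hns with h1 | h1
  · rw [h1, sub_self]; exact inKer_zero
  · obtain ⟨X, Y, HXY, h2, h3⟩ := h1
    rw [h2, inKer_some]
    exact h3

/-- Good reduction: inertia acts trivially modulo the kernel of reduction. -/
theorem InertiaAction.sub_inKer_of_good (H : InertiaAction v W σ φ) (hiso : ∀ x, v (σ x) = v x)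
    (hW : VInt v W) (hΔ : v W.Δ = 1) (P : W.toAffine.Point) : InKer v (φ P - P) := by
  rcases P with _ | ⟨x, y, h⟩
  · change InKer v (φ 0 - 0)
    rw [map_zero, sub_zero]
    exact inKer_zero
  · by_cases hx : v x ≤ 1
    · exact H.sub_inKer_of_nonsing hW h hx (nonsing_of_unit_disc hW hΔ h.1 hx)
    · rw [not_le] at hx
      have h1 : InKer v (.some x y h : W.toAffine.Point) := inKer_some.mpr hx
      exact inKer_sub hW (H.inKer_map hiso h1) h1

/-- Local computation for a point on a non-identity, non-middle component: the difference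
`φ P - P` is in the kernel of reduction if `σ x / x` is a principal unit, and has a unit
`X`-coordinate otherwise. -/
lemma InertiaAction.local_step' (H : InertiaAction v W σ φ) (hiso : ∀ x, v (σ x) = v x)
    (hM : MultForm v W) {x y : K} {h : W.toAffine.Nonsingular x y}
    (hx0 : x ≠ 0) (hx1 : v x < 1)
    (hx2 : v W.a₆ < v x ^ 2) :
    (v (σ x / x - 1) < 1 → InKer v (φ (.some x y h) - .some x y h)) ∧
      (¬ v (σ x / x - 1) < 1 →
        ∃ X Y H', φ (.some x y h) - .some x y h = .some X Y H' ∧ v X = 1) := by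
  have hW := hM.vint
  have hvx0 : v x ≠ 0 := (Valuation.ne_zero_iff v).mpr hx0
  by_cases hne : φ (.some x y h) = .some x y h
  · rw [hne, sub_self]
    refine ⟨fun _ => inKer_zero, fun hu => ?_⟩
    exfalso
    apply hu
    obtain ⟨h', hφ⟩ := H.action x y h
    rw [hφ, Point.some.injEq] at hne
    rw [hne.1, div_self hx0, sub_self, map_zero]
    exact zero_lt_one
  have ha₆x : v (W.a₆ / x ^ 2) < 1 := by
    rw [map_div₀, map_pow, div_lt_one₀ (zero_lt_iff.mpr (pow_ne_zero 2 hvx0))]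
    exact hx2
  have hx2x : v x ^ 2 ≤ v x := by
    rw [sq]
    calc v x * v x ≤ v x * 1 := mul_le_mul_right hx1.le _
      _ = v x := mul_one _
  have ha₃x : v (W.a₃ / x) < 1 := by
    rw [map_div₀, div_lt_one₀ (zero_lt_iff.mpr hvx0)]
    exact hM.a₃.trans_lt (hx2.trans_le hx2x)
  have ha₄x : v (W.a₄ / x) < 1 := by
    rw [map_div₀, div_lt_one₀ (zero_lt_iff.mpr hvx0)]
    exact hM.a₄.trans_lt (hx2.trans_le hx2x)
  have heq := (equation_iff _ _).mp h.1
  obtain ⟨τ, hτ⟩ : ∃ τ, τ = y / x := ⟨_, rfl⟩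
  have hy : y = τ * x := by rw [hτ]; field_simp
  have hq : τ ^ 2 + (W.a₁ + W.a₃ / x) * τ = W.a₂ + (x + W.a₄ / x + W.a₆ / x ^ 2) := by
    rw [hτ]
    field_simp
    linear_combination heq
  have hκ : v (x + W.a₄ / x + W.a₆ / x ^ 2) < 1 := v_add_lt (v_add_lt hx1 ha₄x) ha₆x
  have hτ1 : v τ ≤ 1 := monic_quad_integral (v_add_le hW.a₁ ha₃x.le) (v_add_le hW.a₂ hκ.le) hq
  -- `τ² + a₁ τ - a₂` is in the maximal ideal
  obtain ⟨κ, hκdef⟩ : ∃ κ, κ = τ ^ 2 + W.a₁ * τ - W.a₂ := ⟨_, rfl⟩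
  have hκ2 : v κ < 1 := by
    have : κ = (x + W.a₄ / x + W.a₆ / x ^ 2) - τ * (W.a₃ / x) := by
      rw [hκdef]; linear_combination hq
    rw [this]
    exact v_sub_lt hκ (v_lt_mul hτ1 ha₃x)
  have h4le : v (4 : K) ≤ 1 := by exact_mod_cast v_nat_le (v := v) 4
  -- `2τ + a₁` is a unit
  have h2τ : v (2 * τ + W.a₁) = 1 := by
    have h1 : v ((2 * τ + W.a₁) ^ 2) = 1 := by
      have : (2 * τ + W.a₁) ^ 2 = W.b₂ + 4 * κ := by
        rw [hκdef]; simp only [WeierstrassCurve.b₂]; ring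
      rw [this]
      exact v_eq_one_of_add hM.b₂ (v_lt_mul h4le hκ2)
    rw [map_pow] at h1
    exact (pow_eq_one_iff_of_nonneg zero_le (by norm_num)).mp h1
  -- the conjugate
  obtain ⟨ε, hε⟩ : ∃ ε, ε = σ τ - τ := ⟨_, rfl⟩
  have hεv : v ε < 1 := by rw [hε]; exact H.residue τ hτ1
  obtain ⟨u, hu⟩ : ∃ u, u = σ x / x := ⟨_, rfl⟩
  have hσx : σ x = u * x := by rw [hu]; field_simp
  have hu1 : v u = 1 := by
    rw [hu, map_div₀, hiso, div_self hvx0]
  have hσy : σ y = (τ + ε) * u * x := by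
    rw [hy, map_mul, hσx, hε]; ring
  obtain ⟨h', hφ⟩ := H.action x y h
  rw [hφ] at hne ⊢
  have hxy : ¬ (σ x = x ∧ σ y = W.toAffine.negY x (W.toAffine.negY x y)) := by
    rw [negY_negY]
    rintro ⟨h1, h2⟩
    apply hne
    rw [Point.some.injEq]
    exact ⟨h1, h2⟩
  rw [sub_eq_add_neg (Point.some (σ x) (σ y) h'), Point.neg_some, Point.add_some hxy, ← hu]
  obtain ⟨l, hl⟩ : ∃ l, l = W.toAffine.slope (σ x) x (σ y) (W.toAffine.negY x y) := ⟨_, rfl⟩
  have hσxx : σ x ≠ x := by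
    intro hxx
    rcases Y_eq_of_X_eq h'.1 h.1 hxx with h1 | h1
    · exact hxy ⟨hxx, by rw [h1, negY_negY]⟩
    · have hu2 : u = 1 := by rw [hu, hxx]; field_simp
      rw [hσy, hu2, hy] at h1
      simp only [negY] at h1
      have h3 : 2 * τ + W.a₁ = -(ε + W.a₃ / x) := by
        field_simp
        linear_combination h1
      rw [h3, Valuation.map_neg] at h2τ
      exact absurd (v_add_lt hεv ha₃x) (by rw [h2τ]; exact lt_irrefl _)
  have hu0 : u - 1 ≠ 0 := by
    intro h0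
    apply hσxx
    rw [hσx, sub_eq_zero.mp h0, one_mul]
  have hlu : l * (u - 1) = (τ * u + τ + W.a₁) + (ε * u + W.a₃ / x) := by
    rw [hl, slope_of_X_ne hσxx]
    have : σ x - x = (u - 1) * x := by rw [hσx]; ring
    rw [this, hσy, hy]
    simp only [negY]
    field_simp
    ring
  have hεu : v (ε * u + W.a₃ / x) < 1 := by
    refine v_add_lt ?_ ha₃x
    rw [mul_comm]; exact v_lt_mul hu1.le hεv
  refine ⟨fun hlt => ?_, fun hupu => ?_⟩
  · have h1 : v (l * (u - 1)) = 1 := by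
      rw [hlu]
      refine v_eq_one_of_add ?_ hεu
      have : τ * u + τ + W.a₁ = (2 * τ + W.a₁) + τ * (u - 1) := by ring
      rw [this]
      exact v_eq_one_of_add h2τ (v_lt_mul hτ1 hlt)
    have h2 : 1 < v l := one_lt_of_mul_eq rfl h1 hlt
    rw [inKer_some, ← hl]
    exact addX_not_integral hW (by rw [hiso]; exact hx1.le) hx1.le h2
  have hu1' : v (u - 1) = 1 := by
    refine le_antisymm (v_sub_le hu1.le (by simp)) (not_lt.mp hupu)
  refine ⟨_, _, _, rfl, ?_⟩
  rw [← hl]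
  -- compute the `X`-coordinate
  obtain ⟨ε', hε'⟩ : ∃ ε', ε' = ε * u + W.a₃ / x := ⟨_, rfl⟩
  rw [← hε'] at hlu hεu
  have hXu : W.toAffine.addX (σ x) x l * (u - 1) ^ 2 = u * (2 * τ + W.a₁) ^ 2 +
      (κ * (u - 1) ^ 2 + ε' * (2 * (τ * u + τ + W.a₁) + ε' + W.a₁ * (u - 1))
        - (u * x + x) * (u - 1) ^ 2) := by
    have e1 : W.toAffine.addX (σ x) x l * (u - 1) ^ 2 = (l * (u - 1)) ^ 2 +
      W.a₁ * (l * (u - 1)) * (u - 1) - W.a₂ * (u - 1) ^ 2 - (u * x + x) * (u - 1) ^ 2 := by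
      simp only [addX, hσx]; ring
    rw [e1, hlu]
    have e2 : W.a₂ = τ ^ 2 + W.a₁ * τ - κ := by rw [hκdef]; ring
    rw [e2]
    ring
  have hmain : v (W.toAffine.addX (σ x) x l * (u - 1) ^ 2) = 1 := by
    rw [hXu]
    refine v_eq_one_of_add (by rw [map_mul, map_pow, hu1, h2τ]; simp) ?_
    have hu12 : v ((u - 1) ^ 2) ≤ 1 := v_pow_le_one hu1'.le 2
    refine v_sub_lt (v_add_lt ?_ ?_) ?_
    · rw [mul_comm]; exact v_lt_mul hu12 hκ2
    · rw [mul_comm]
      refine v_lt_mul ?_ hεu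
      refine v_add_le (v_add_le (v_mul_le' v_two_le ?_) hεu.le) (v_mul_le' hW.a₁ hu1'.le)
      exact v_add_le (v_add_le (v_mul_le' hτ1 hu1.le) hτ1) hW.a₁
    · rw [mul_comm]
      refine v_lt_mul hu12 (v_add_lt (v_lt_mul hu1.le hx1) hx1)
  rw [map_mul, map_pow, hu1', one_pow, mul_one] at hmain
  exact hmain

/-- Adding a point of the kernel of reduction changes the `X`-coordinate of a point on an
intermediate component by a principal unit. -/
lemma MultForm.ratio_add_ker (hM : MultForm v W) {P Q : W.toAffine.Point} (hP : P ≠ 0)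
    (hx0 : xc P ≠ 0) (hx1 : v (xc P) < 1) (hx2 : v W.a₆ < v (xc P) ^ 2) (hQ : InKer v Q) :
    v (xc (P + Q) / xc P - 1) < 1 := by
  rcases hQ with rfl | hQ
  · rw [add_zero, div_self hx0, sub_self, map_zero]
    exact zero_lt_one
  have hQ0 : Q ≠ 0 := by
    rintro rfl
    change 1 < v (0 : K) at hQ
    rw [map_zero] at hQ
    exact absurd hQ (not_lt.mpr zero_le)
  obtain ⟨x, hx⟩ : ∃ x, x = xc P := ⟨_, rfl⟩
  obtain ⟨X, hX⟩ : ∃ X, X = xc Q := ⟨_, rfl⟩
  rw [← hx] at hx0 hx1 hx2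
  rw [← hX] at hQ
  have hX0 : X ≠ 0 := by
    rintro rfl
    rw [map_zero] at hQ
    exact absurd hQ (not_lt.mpr zero_le)
  have hne : xc P ≠ xc Q := by
    rw [← hx, ← hX]
    rintro rfl
    exact absurd hQ (not_lt.mpr hx1.le)
  have h1 := xc_mul hP hQ0 hne
  have h2 := Fermat.Agent.ECT.xc_add hP hQ0 hne
  rw [← hx, ← hX] at h1 h2
  rw [← hx]
  obtain ⟨a, ha⟩ : ∃ a, a = xc (P + Q) := ⟨_, rfl⟩
  obtain ⟨b, hb⟩ : ∃ b, b = xc (P - Q) := ⟨_, rfl⟩
  rw [← ha, ← hb] at h1 h2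
  rw [← ha]
  have hvx0 : v x ≠ 0 := (Valuation.ne_zero_iff v).mpr hx0
  -- small quantities
  have hXi : v (1 / X) < 1 := by
    rw [map_div₀, map_one, div_lt_one₀ (zero_lt_iff.mpr ((Valuation.ne_zero_iff v).mpr hX0))]
    exact hQ
  have hx2x : v x ^ 2 ≤ v x := by
    rw [sq]
    calc v x * v x ≤ v x * 1 := mul_le_mul_right hx1.le _
      _ = v x := mul_one _
  have sm : ∀ c : K, v c ≤ v W.a₆ → v (c / x ^ 2) < 1 ∧ v (c / x) < 1 := by
    intro c hc
    constructor
    · rw [map_div₀, map_pow, div_lt_one₀ (zero_lt_iff.mpr (pow_ne_zero 2 hvx0))]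
      exact hc.trans_lt hx2
    · rw [map_div₀, div_lt_one₀ (zero_lt_iff.mpr hvx0)]
      exact hc.trans_lt (hx2.trans_le hx2x)
  obtain ⟨e, he⟩ : ∃ e, e = x * (1 / X) := ⟨_, rfl⟩
  have hev : v e < 1 := by rw [he]; exact v_lt_mul hx1.le hXi
  obtain ⟨g, hg⟩ : ∃ g, g = (1 - e) ^ 2 := ⟨_, rfl⟩
  have hg1 : v (g - 1) < 1 := by
    have : g - 1 = -(2 - e) * e := by rw [hg]; ring
    rw [this]
    refine v_lt_mul ?_ hev
    rw [Valuation.map_neg]
    exact v_sub_le v_two_le hev.le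
  have hgu : v g = 1 := pu_v hg1
  obtain ⟨r, hr⟩ : ∃ r, r = a / x := ⟨_, rfl⟩
  obtain ⟨s, hs⟩ : ∃ s, s = b / x := ⟨_, rfl⟩
  have hXe : X ^ 2 * g = (x - X) ^ 2 := by
    rw [hg, he]; field_simp; ring
  have hrs : r * s * g - 1 = -((W.b₄ / x) * (1 / X)) - (W.b₆ / x ^ 2) * ((e + 1) * (1 / X)) -
      (W.b₈ / x ^ 2) * ((1 / X) * (1 / X)) := by
    have e1 : r * s * g * (x ^ 2 * X ^ 2) = (x - X) ^ 2 * (a * b) := by
      rw [← hXe, hr, hs]; field_simp
    rw [h1] at e1
    have hne2 : x ^ 2 * X ^ 2 ≠ 0 := mul_ne_zero (pow_ne_zero 2 hx0) (pow_ne_zero 2 hX0)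
    apply mul_right_cancel₀ hne2
    rw [sub_mul, e1, he]
    field_simp
    ring
  have hrs2 : (r + s) * g - 2 = 2 * e + W.b₂ * (1 / X) + (W.b₄ / x) * ((e + 1) * (1 / X)) +
      (W.b₆ / x) * ((1 / X) * (1 / X)) := by
    have e1 : (r + s) * g * (x * X ^ 2) = (x - X) ^ 2 * (a + b) := by
      rw [← hXe, hr, hs]; field_simp
    rw [h2] at e1
    have hne2 : x * X ^ 2 ≠ 0 := mul_ne_zero hx0 (pow_ne_zero 2 hX0)
    apply mul_right_cancel₀ hne2
    rw [sub_mul, e1, he]
    field_simp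
    ring
  have he1 : v (e + 1) ≤ 1 := v_add_le hev.le (by simp)
  have hε₂ : v (r * s * g - 1) < 1 := by
    rw [hrs]
    refine v_sub_lt (v_sub_lt ?_ ?_) ?_
    · rw [Valuation.map_neg]
      exact v_lt_mul (sm _ hM.b₄_le).2.le hXi
    · exact v_lt_mul (sm _ hM.b₆_le).1.le (v_lt_mul he1 hXi)
    · exact v_lt_mul (sm _ hM.b₈_eq.le).1.le (v_lt_mul hXi.le hXi)
  have hε₁ : v ((r + s) * g - 2) < 1 := by
    rw [hrs2]
    refine v_add_lt (v_add_lt (v_add_lt (v_lt_mul v_two_le hev) (v_lt_mul hM.b₂.le hXi)) ?_) ?_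
    · exact v_lt_mul (sm _ hM.b₄_le).2.le (v_lt_mul he1 hXi)
    · exact v_lt_mul (sm _ hM.b₆_le).2.le (v_lt_mul hXi.le hXi)
  -- conclude
  rw [← hr]
  obtain ⟨η, hη⟩ : ∃ η, η = (g - 1) + (r * s * g - 1) - ((r + s) * g - 2) := ⟨_, rfl⟩
  obtain ⟨θ, hθ⟩ : ∃ θ, θ = ((r + s) * g - 2) - 2 * (g - 1) := ⟨_, rfl⟩
  have hηv : v η < 1 := by rw [hη]; exact v_sub_lt (v_add_lt hg1 hε₂) hε₁
  have hθv : v θ < 1 := by rw [hθ]; exact v_sub_lt hε₁ (v_lt_mul v_two_le hg1)
  have hkey : (r - 1) ^ 2 * g = θ * (r - 1) - η := by rw [hη, hθ]; ring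
  by_contra hge
  rw [not_lt] at hge
  have hl : v ((r - 1) ^ 2 * g) = v (r - 1) ^ 2 := by rw [map_mul, map_pow, hgu, mul_one]
  have hlt : v (θ * (r - 1) - η) < v (r - 1) := by
    refine v_sub_lt ?_ (hηv.trans_le hge)
    rw [map_mul]
    calc v θ * v (r - 1) < 1 * v (r - 1) :=
          mul_lt_mul_of_pos_right hθv (zero_lt_one.trans_le hge)
      _ = v (r - 1) := one_mul _
  rw [← hkey, hl] at hlt
  have : v (r - 1) ≤ v (r - 1) ^ 2 := by
    rw [sq]
    calc v (r - 1) = v (r - 1) * 1 := (mul_one _).symm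
      _ ≤ v (r - 1) * v (r - 1) := mul_le_mul_right hge _
  exact absurd hlt (not_lt.mpr this)

omit [DecidableEq K] in
/-- In residue characteristic `p`, `u ^ p ≡ 1` implies `u ≡ 1`. -/
lemma pu_of_pow_char {p : ℕ} (hp : p.Prime) (hp2 : p ≠ 2) (hpv : v (p : K) < 1) {u : K}
    (hu : v u = 1) (h : v (u ^ p - 1) < 1) : v (u - 1) < 1 := by
  obtain ⟨r, hr⟩ := exists_add_pow_prime_eq hp (⟨u, hu.le⟩ : v.integer) (-1)
  have h1 := congrArg Subtype.val hr
  have hodd : Odd p := hp.odd_of_ne_two hp2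
  push_cast at h1
  rw [hodd.neg_one_pow] at h1
  change (u + -1) ^ p = u ^ p + -1 + (p : K) * u * (-1) * (r : K) at h1
  have h2 : v ((u - 1) ^ p) < 1 := by
    have : (u - 1) ^ p = (u ^ p - 1) + (-(u * (r : K))) * (p : K) := by
      rw [sub_eq_add_neg, h1]; ring
    rw [this]
    refine v_add_lt h (v_lt_mul ?_ hpv)
    rw [Valuation.map_neg]
    exact v_mul_le' hu.le r.2
  rw [map_pow] at h2
  exact (pow_lt_one_iff_of_nonneg zero_le hp.ne_zero).mp h2

/-- Multiplicative reduction in residue characteristic `p`: inertia acts trivially on `p`-torsion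
modulo the kernel of reduction. -/
theorem InertiaAction.sub_inKer_of_mult (H : InertiaAction v W σ φ) (hiso : ∀ x, v (σ x) = v x)
    (hM : MultForm v W) {p : ℕ} (hp : p.Prime) (hp2 : p ≠ 2) (hpv : v (p : K) < 1)
    {P : W.toAffine.Point} (hP : p • P = 0) : InKer v (φ P - P) := by
  have hW := hM.vint
  -- points with `v x ≥ 1`
  have key : ∀ Q : W.toAffine.Point, Q ≠ 0 → 1 ≤ v (xc Q) → InKer v (φ Q - Q) := by
    intro Q hQ0 hxQ
    rcases Q with _ | ⟨x, y, h⟩
    · exact absurd rfl hQ0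
    rw [xc_some] at hxQ
    rcases hxQ.lt_or_eq with h1 | h1
    · have h2 : InKer v (.some x y h : W.toAffine.Point) := inKer_some.mpr h1
      exact inKer_sub hW (H.inKer_map hiso h2) h2
    · exact H.sub_inKer_of_nonsing hW h h1.symm.le (hM.nonsing h.1 h1.symm)
  by_cases hP0 : P = 0
  · rw [hP0, map_zero, sub_zero]; exact inKer_zero
  by_cases h1 : 1 ≤ v (xc P)
  · exact key P hP0 h1
  rw [not_le] at h1
  have hT : p • (φ P - P) = 0 := by rw [smul_sub, ← map_nsmul, hP, map_zero, sub_zero]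
  by_cases h2 : v (xc P) ^ 2 ≤ v W.a₆
  · -- middle component
    obtain ⟨k, hk⟩ := hp.odd_of_ne_two hp2
    have h2P : P + P ≠ 0 := by
      intro h0
      apply hP0
      rw [hk, add_smul, mul_comm, mul_smul, two_nsmul, h0, smul_zero, one_smul, zero_add] at hP
      exact hP
    have h3 := key (P + P) h2P (hM.two_nsmul_big hP0 h2P h1 h2)
    have h4 : φ P - P = (k + 1) • (φ (P + P) - (P + P)) := by
      have e1 : φ (P + P) - (P + P) = 2 • (φ P - P) := by rw [map_add, two_nsmul]; abel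
      rw [e1, smul_smul]
      have e2 : (k + 1) * 2 = p + 1 := by omega
      rw [e2, add_smul, hT, one_smul, zero_add]
    rw [h4]
    exact inKer_nsmul hW h3 _
  rw [not_le] at h2
  rcases P with _ | ⟨x, y, h⟩
  · exact absurd rfl hP0
  rw [xc_some] at h1 h2
  have hx0 : x ≠ 0 := by
    rintro rfl
    rw [map_zero, zero_pow (by norm_num)] at h2
    exact absurd h2 (not_lt.mpr zero_le)
  obtain ⟨hs1, hs2⟩ := H.local_step' hiso hM (h := h) hx0 h1 h2
  by_cases hu : v (σ x / x - 1) < 1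
  · exact hs1 hu
  exfalso
  obtain ⟨X, Y, HXY, hT1, hT2⟩ := hs2 hu
  obtain ⟨T, hTdef⟩ : ∃ T, T = φ (.some x y h) - .some x y h := ⟨_, rfl⟩
  have hTker : InKer v (φ T - T) := by
    rw [hTdef, hT1]
    exact H.sub_inKer_of_nonsing hW HXY hT2.le (hM.nonsing HXY.1 hT2)
  rw [← hTdef] at hT
  have hiter : ∀ m : ℕ, InKer v (φ^[m] (.some x y h) - (.some x y h + m • T)) := by
    intro m
    induction m with
    | zero => simpa using inKer_zero
    | succ m ih =>
      have e1 : φ^[m + 1] (.some x y h) - (.some x y h + (m + 1) • T) =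
          φ (φ^[m] (.some x y h) - (.some x y h + m • T)) + m • (φ T - T) := by
        rw [Function.iterate_succ_apply', map_sub, map_add, map_nsmul, add_smul, one_smul, smul_sub]
        have e2 : φ (.some x y h) = .some x y h + T := by rw [hTdef]; abel
        rw [e2]
        abel
      rw [e1]
      exact inKer_add hW (H.inKer_map hiso ih) (inKer_nsmul hW hTker m)
  have hp1 := hiter p
  rw [hT, add_zero] at hp1
  obtain ⟨h'', h4⟩ := H.iterate h p
  have h5 := hM.ratio_add_ker (P := .some x y h) (Point.some_ne_zero h) (by rwa [xc_some])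
    (by rwa [xc_some]) (by rwa [xc_some]) hp1
  rw [add_sub_cancel, h4, xc_some, xc_some] at h5
  obtain ⟨u, hu'⟩ : ∃ u, u = σ x / x := ⟨_, rfl⟩
  have hσx : σ x = u * x := by rw [hu']; field_simp
  have hvx0 : v x ≠ 0 := (Valuation.ne_zero_iff v).mpr hx0
  have hu1 : v u = 1 := by
    rw [hu', map_div₀, hiso, div_self hvx0]
  obtain ⟨w, hw1, hw2, hw3⟩ := iterate_ratio H.residue hσx hu1 p
  rw [hw1, mul_div_assoc, div_self hx0, mul_one] at h5
  apply hu
  rw [← hu']
  apply pu_of_pow_char hp hp2 hpv hu1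
  have : u ^ p - 1 = (w - 1) - (w - u ^ p) := by ring
  rw [this]
  exact v_sub_lt h5 hw3

end Fermat.Agent.EC
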