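import Fermat.Agent.EC.Kernel
import Fermat.Agent.EC.InertiaQ

set_option autoImplicit false

/-!
# Inertia modulo the kernel of reduction, for curves defined over a subfield
-/

namespace Fermat.Agent.EC

open WeierstrassCurve WeierstrassCurve.Affine

section

variable {K : Type*} [Field K] [DecidableEq K] {Γ₀ : Type*} [LinearOrderedCommGroupWithZero Γ₀]
  {v : Valuation K Γ₀} {W : WeierstrassCurve K}

/-- Translations by integral elements do not change the kernel of reduction. -/
lemma inKer_pointEquiv {C : VariableChange K} (hu : C.u = 1) (hr : v C.r ≤ 1)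
    (P : (C • W).toAffine.Point) : InKer v (pointEquiv W C P) ↔ InKer v P := by
  rcases P with _ | ⟨x, y, h⟩
  · change InKer v (pointEquiv W C 0) ↔ InKer v (0 : (C • W).toAffine.Point)
    rw [map_zero]
    exact ⟨fun _ => inKer_zero, fun _ => inKer_zero⟩
  · rw [pointEquiv_apply, pointMap_some, inKer_some, inKer_some]
    have hX : vcX C x = x + C.r := by
      simp [vcX, hu]
    rw [hX]
    constructor
    · intro h1
      by_contra hle
      rw [not_lt] at hle
      exact absurd (v_add_le hle hr) (not_le.mpr h1)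
    · intro h1
      rw [Valuation.map_add_eq_of_lt_left v (hr.trans_lt h1)]
      exact h1

end

variable {F K : Type*} [Field F] [Field K] [Algebra F K] [DecidableEq K]
variable [CharZero K] [Algebra.IsAlgebraic ℚ K]

theorem sub_inKer_of_inertia_of_good {A : ValuationSubring K} {q : ℕ} (hq : q.Prime)
    (hA : A.valuation (q : K) < 1) {σ : K ≃ₐ[F] K}
    (hσ : σ ∈ A.inertiaSubgroupIn F) (W : WeierstrassCurve F)
    (hW : VInt A.valuation (W⁄K)) (hΔ : A.valuation (W⁄K).Δ = 1) (P : (W⁄K).toAffine.Point) :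
    InKer A.valuation (Point.map (W' := W) σ.toAlgHom P - P) :=
  (inertiaAction_of_mem hσ W).sub_inKer_of_good (fun x => inertia_iso hq hA hσ x) hW hΔ P

theorem sub_inKer_of_inertia_of_mult {A : ValuationSubring K} {σ : K ≃ₐ[F] K}
    (hσ : σ ∈ A.inertiaSubgroupIn F) (W : WeierstrassCurve F)
    (hW : VInt A.valuation (W⁄K)) (hc₄ : A.valuation (W⁄K).c₄ = 1)
    (hΔ : A.valuation (W⁄K).Δ < 1) (hΔ0 : (W⁄K).Δ ≠ 0) {p : ℕ} (hp : p.Prime) (hp2 : p ≠ 2)
    (hpv : A.valuation (p : K) < 1) {P : (W⁄K).toAffine.Point} (hP : p • P = 0) :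
    InKer A.valuation (Point.map (W' := W) σ.toAlgHom P - P) := by
  obtain ⟨hM, ha₆⟩ := hW.multForm hc₄ hΔ hΔ0
  set C := nodeVC (W⁄K) with hC
  have hH := inertiaAction_of_mem hσ W
  have hcomm : ∀ c : F, (σ : K →+* K) (algebraMap F K c) = algebraMap F K c :=
    fun c => σ.commutes c
  have hX : nodeX (W⁄K) = algebraMap F K (nodeX W) := nodeX_map W _
  have hY : nodeY (W⁄K) = algebraMap F K (nodeY W) := nodeY_map W _
  have hH' := hH.transport (C := C) (by simp [hC, nodeVC])
    (by rw [hC]; change (σ : K →+* K) (nodeX (W⁄K)) = nodeX (W⁄K); rw [hX]; exact hcomm _)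
    (by simp [hC, nodeVC])
    (by rw [hC]; change (σ : K →+* K) (nodeY (W⁄K)) = nodeY (W⁄K); rw [hY]; exact hcomm _)
  obtain ⟨Q, rfl⟩ := (pointEquiv (W⁄K) C).surjective P
  have hQ : p • Q = 0 := by
    apply (pointEquiv (W⁄K) C).injective
    rw [map_nsmul, hP, map_zero]
  have key := hH'.sub_inKer_of_mult (fun x => inertia_iso hp hpv hσ x) hM hp hp2 hpv hQ
  rw [← inKer_pointEquiv (v := A.valuation) (W := W⁄K) (C := C) rfl (hW.nodeX_le hc₄), map_sub,
    pointEquiv_transport] at key
  exact key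

end Fermat.Agent.EC
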