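import Fermat.Agent.ECT.Multiples

set_option autoImplicit false

/-!
# Division polynomials of a nodal cubic
-/

open WeierstrassCurve WeierstrassCurve.Affine Polynomial

noncomputable section

namespace Fermat.Agent.EC

section Node

variable {k : Type*} [Field k] [DecidableEq k] {W : WeierstrassCurve k}

/-- The `x`-coordinate of the parametrisation. -/
def nx (α β s : k) : k := (α - β) ^ 2 * s / (1 - s) ^ 2

/-- The `y`-coordinate of the parametrisation. -/
def ny (α β s : k) : k := (α - β) ^ 2 * s * (β - s * α) / (1 - s) ^ 3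

/-- The slope. -/
def nl (α β s t : k) : k := (α * (s ^ 2 * t ^ 2 + s + t - 3 * s * t) +
  β * (3 * s * t - s ^ 2 * t - s * t ^ 2 - 1)) / ((s * t - 1) * ((s - 1) * (t - 1)))

variable {α β : k} (h₁ : W.a₁ = -(α + β)) (h₂ : W.a₂ = -(α * β)) (h₃ : W.a₃ = 0) (h₄ : W.a₄ = 0)
  (h₆ : W.a₆ = 0) (hαβ : α ≠ β)

include h₁ h₂ h₃ h₄ h₆ hαβ in
lemma node_nonsing {s : k} (hs0 : s ≠ 0) (hs1 : s ≠ 1) :
    W.toAffine.Nonsingular (nx α β s) (ny α β s) := by
  have hs : 1 - s ≠ 0 := sub_ne_zero.mpr hs1.symm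
  have hd : α - β ≠ 0 := sub_ne_zero.mpr hαβ
  have hx0 : nx α β s ≠ 0 := by
    rw [nx]
    exact div_ne_zero (mul_ne_zero (pow_ne_zero 2 hd) hs0) (pow_ne_zero 2 hs)
  have heq : ny α β s ^ 2 - (α + β) * nx α β s * ny α β s =
      nx α β s ^ 3 - α * β * nx α β s ^ 2 := by
    rw [nx, ny]
    field_simp
    ring
  rw [nonsingular_iff, equation_iff, h₁, h₂, h₃, h₄, h₆]
  refine ⟨by linear_combination heq, ?_⟩
  by_contra hcon
  push Not at hcon
  obtain ⟨e1, e2⟩ := hcon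
  apply hx0
  have : nx α β s ^ 3 = 0 := by
    linear_combination 2 * heq - nx α β s * e1 - ny α β s * e2
  exact pow_eq_zero_iff (three_ne_zero) |>.mp this

include h₁ h₂ h₃ h₄ h₆ hαβ in
lemma node_add {s t : k} (hs0 : s ≠ 0) (hs1 : s ≠ 1) (ht0 : t ≠ 0) (ht1 : t ≠ 1)
    (hst : s * t ≠ 1) (h2 : s = t → s + 1 ≠ 0) :
    (.some _ _ (node_nonsing h₁ h₂ h₃ h₄ h₆ hαβ hs0 hs1) : W.toAffine.Point) +
      .some _ _ (node_nonsing h₁ h₂ h₃ h₄ h₆ hαβ ht0 ht1) =
    .some _ _ (node_nonsing h₁ h₂ h₃ h₄ h₆ hαβ (mul_ne_zero hs0 ht0) hst) := by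
  have hs : 1 - s ≠ 0 := sub_ne_zero.mpr hs1.symm
  have ht : 1 - t ≠ 0 := sub_ne_zero.mpr ht1.symm
  have hs' : s - 1 ≠ 0 := sub_ne_zero.mpr hs1
  have ht' : t - 1 ≠ 0 := sub_ne_zero.mpr ht1
  have hst' : s * t - 1 ≠ 0 := sub_ne_zero.mpr hst
  have hst'' : 1 - s * t ≠ 0 := sub_ne_zero.mpr hst.symm
  have hd : α - β ≠ 0 := sub_ne_zero.mpr hαβ
  have hx : nx α β s - nx α β t = (α - β) ^ 2 * ((s - t) * (1 - s * t)) /
      ((1 - s) ^ 2 * (1 - t) ^ 2) := by
    rw [nx, nx]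
    field_simp
    ring
  have hy : ny α β s - ny α β t = (α - β) ^ 2 * (s * (β - s * α) * (1 - t) ^ 3 -
      t * (β - t * α) * (1 - s) ^ 3) / ((1 - s) ^ 3 * (1 - t) ^ 3) := by
    rw [ny, ny]
    field_simp
  have key : ¬(nx α β s = nx α β t ∧ ny α β s = W.toAffine.negY (nx α β t) (ny α β t)) ∧
      W.toAffine.slope (nx α β s) (nx α β t) (ny α β s) (ny α β t) = nl α β s t := by
    by_cases hne : s = t
    · subst hne
      have h2s := h2 rfl
      have hy2 : ny α β s - W.toAffine.negY (nx α β s) (ny α β s) =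
          - ((α - β) ^ 3 * s * (1 + s)) / (1 - s) ^ 3 := by
        rw [negY, h₁, h₃, nx, ny]
        field_simp
        ring
      have hy2' : ny α β s ≠ W.toAffine.negY (nx α β s) (ny α β s) := by
        intro h
        rw [← sub_eq_zero, hy2] at h
        refine absurd h (div_ne_zero (neg_ne_zero.mpr (mul_ne_zero (mul_ne_zero
          (pow_ne_zero 3 hd) hs0) ?_)) (pow_ne_zero 3 hs))
        rwa [add_comm]
      refine ⟨fun h => hy2' h.2, ?_⟩
      rw [slope_of_Y_ne rfl hy2', hy2, h₁, h₂, h₄, nl, nx, ny]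
      have h2s' : 1 + s ≠ 0 := by rwa [add_comm]
      have : s * s - 1 = (s - 1) * (1 + s) := by ring
      rw [this]
      field_simp
      ring
    · have hne' : s - t ≠ 0 := sub_ne_zero.mpr hne
      have hxne : nx α β s ≠ nx α β t := by
        intro h
        rw [← sub_eq_zero, hx] at h
        exact absurd h (div_ne_zero (mul_ne_zero (pow_ne_zero 2 hd) (mul_ne_zero hne' hst''))
          (mul_ne_zero (pow_ne_zero 2 hs) (pow_ne_zero 2 ht)))
      refine ⟨fun h => hxne h.1, ?_⟩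
      rw [slope_of_X_ne hxne, hx, hy, nl]
      field_simp
      ring
  rw [Point.add_some key.1, Point.some.injEq]
  rw [key.2]
  have hX : W.toAffine.addX (nx α β s) (nx α β t) (nl α β s t) = nx α β (s * t) := by
    rw [addX, h₁, h₂, nl, nx, nx, nx]
    field_simp
    ring
  refine ⟨hX, ?_⟩
  rw [addY, negAddY, hX, negY, h₁, h₃, nl, nx, nx, ny, ny]
  field_simp
  ring

include h₁ h₂ h₃ h₄ h₆ hαβ in
lemma node_smul {u : k} (hu0 : u ≠ 0) {n : ℕ} (hu : ∀ j : ℕ, 1 ≤ j → j ≤ n → u ^ j ≠ 1)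
    (h2 : u + 1 ≠ 0) : ∀ (j : ℕ) (h1 : 1 ≤ j) (hj : j ≤ n),
      j • (.some _ _ (node_nonsing h₁ h₂ h₃ h₄ h₆ hαβ hu0
        (by rw [← pow_one u]; exact hu 1 le_rfl (h1.trans hj))) : W.toAffine.Point) =
      .some _ _ (node_nonsing h₁ h₂ h₃ h₄ h₆ hαβ (pow_ne_zero j hu0) (hu j h1 hj)) := by
  intro j h1 hj
  induction j, h1 using Nat.le_induction with
  | base =>
    rw [one_smul, Point.some.injEq, pow_one]
    exact ⟨rfl, rfl⟩
  | succ j h1 ih =>
    have hu1 : u ≠ 1 := by rw [← pow_one u]; exact hu 1 le_rfl (by omega)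
    rw [add_smul, one_smul, ih (by omega), node_add h₁ h₂ h₃ h₄ h₆ hαβ (pow_ne_zero j hu0)
      (hu j h1 (by omega)) hu0 hu1 (by rw [← pow_succ]; exact hu (j + 1) (by omega) hj)
      (fun h => by rw [h]; exact h2), Point.some.injEq, pow_succ]
    exact ⟨rfl, rfl⟩

include h₁ h₂ h₃ h₄ h₆ hαβ in
/-- **The division polynomials of a nodal cubic do not vanish.** -/
theorem node_PsiSq_ne_zero [Infinite k] {n : ℕ} (hn : 1 ≤ n) : W.ΨSq n ≠ 0 := by
  classical
  -- choose a point of large order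
  let F : k[X] := X * (X + 1) * ∏ j ∈ Finset.Icc 1 n, (X ^ j - 1)
  have hF : F ≠ 0 := by
    refine mul_ne_zero (mul_ne_zero X_ne_zero (X_add_C_ne_zero 1)) ?_
    refine Finset.prod_ne_zero_iff.mpr fun j hj => ?_
    exact X_pow_sub_C_ne_zero (by rw [Finset.mem_Icc] at hj; omega) 1
  obtain ⟨u, hu⟩ := Polynomial.exists_eval_ne_zero_of_natDegree_lt_card F hF
    (by simp [Cardinal.natCast_lt_aleph0.trans_le (Cardinal.aleph0_le_mk k)])
  simp only [F, eval_mul, eval_X, eval_add, eval_one, eval_prod, eval_sub, eval_pow, ne_eq,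
    mul_eq_zero, not_or, Finset.prod_eq_zero_iff, not_exists, not_and] at hu
  obtain ⟨⟨hu0, hu2⟩, hu1⟩ := hu
  have hu' : ∀ j : ℕ, 1 ≤ j → j ≤ n → u ^ j ≠ 1 := fun j h1 h2 h =>
    hu1 j (Finset.mem_Icc.mpr ⟨h1, h2⟩) (sub_eq_zero.mpr h)
  have hu3 : u ≠ 1 := by rw [← pow_one u]; exact hu' 1 le_rfl hn
  intro h0
  have hev : ECT.ev W (nx α β u) (ny α β u) n = 0 := by
    have h1 := ECT.ev_sq (node_nonsing h₁ h₂ h₃ h₄ h₆ hαβ hu0 hu3).1 n
    rw [h0, eval_zero] at h1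
    exact pow_eq_zero_iff two_ne_zero |>.mp h1
  -- the first index with `ψ = 0`
  have hex : ∃ j, 1 ≤ j ∧ ECT.ev W (nx α β u) (ny α β u) j = 0 := ⟨n, hn, hev⟩
  let j := Nat.find hex
  obtain ⟨hj1, hj2⟩ := Nat.find_spec hex
  have hjn : j ≤ n := Nat.find_min' hex ⟨hn, hev⟩
  have hj3 : 2 ≤ j := by
    rcases Nat.lt_or_ge 1 j with h | h
    · exact h
    · exfalso
      have h4 : j = 1 := le_antisymm h hj1
      change ECT.ev W (nx α β u) (ny α β u) j = 0 at hj2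
      rw [h4, ECT.ev_one] at hj2
      exact one_ne_zero hj2
  have h5 := ECT.smul_eq_zero_of_first (node_nonsing h₁ h₂ h₃ h₄ h₆ hαβ hu0 hu3) hj3
    (fun i hi1 hi2 h => Nat.find_min hex hi2 ⟨hi1, h⟩) hj2
  rw [node_smul h₁ h₂ h₃ h₄ h₆ hαβ hu0 hu' hu2 j hj1 hjn] at h5
  exact Point.some_ne_zero _ h5

include h₁ h₂ h₃ h₄ h₆ hαβ in
/-- **The division polynomials of a nodal cubic do not vanish.** -/
theorem node_prePsi_ne_zero [Infinite k] {n : ℕ} (hn : 1 ≤ n) : W.preΨ n ≠ 0 := by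
  intro h
  apply node_PsiSq_ne_zero h₁ h₂ h₃ h₄ h₆ hαβ hn
  rw [WeierstrassCurve.ΨSq, h]
  ring

end Node

section Zero

variable {R : Type*} [CommRing R] (W : WeierstrassCurve R) (h₃ : W.a₃ = 0) (h₄ : W.a₄ = 0)
  (h₆ : W.a₆ = 0)

include h₃ h₄ h₆ in
/-- The division polynomials vanish at the `x`-coordinate of a singular point. -/
theorem prePsi_eval_node {n : ℕ} (hn : 3 ≤ n) : (W.preΨ' n).eval 0 = 0 := by
  have hb4 : W.b₄ = 0 := by rw [WeierstrassCurve.b₄, h₃, h₄]; ring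
  have hb6 : W.b₆ = 0 := by rw [WeierstrassCurve.b₆, h₃, h₆]; ring
  have hb8 : W.b₈ = 0 := by rw [WeierstrassCurve.b₈, h₃, h₄, h₆]; ring
  induction n using Nat.strong_induction_on with
  | _ n ih =>
    rcases Nat.even_or_odd' n with ⟨m, rfl | rfl⟩
    · rcases Nat.lt_or_ge m 3 with hm | hm
      · have : m = 2 := by omega
        subst this
        rw [show 2 * 2 = 4 by norm_num, WeierstrassCurve.preΨ'_four, WeierstrassCurve.preΨ₄]
        simp [hb4, hb6, hb8]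
      · obtain ⟨m, rfl⟩ : ∃ l, m = l + 3 := ⟨m - 3, by omega⟩
        rw [WeierstrassCurve.preΨ'_even]
        simp only [eval_sub, eval_mul, eval_pow]
        rw [ih (m + 3) (by omega) (by omega)]
        ring
    · rcases Nat.lt_or_ge m 2 with hm | hm
      · have : m = 1 := by omega
        subst this
        rw [show 2 * 1 + 1 = 3 by norm_num, WeierstrassCurve.preΨ'_three, WeierstrassCurve.Ψ₃]
        simp [hb8]
      · obtain ⟨m, rfl⟩ : ∃ l, m = l + 2 := ⟨m - 2, by omega⟩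
        rw [WeierstrassCurve.preΨ'_odd]
        simp only [eval_sub, eval_mul, eval_pow]
        rw [ih (m + 3) (by omega) (by omega), ih (m + 4) (by omega) (by omega)]
        ring

end Zero

end Fermat.Agent.EC
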