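import Fermat.Agent.EC.SuperExcl
import Fermat.Agent.EC.KernelInertia
import Fermat.Agent.Inertia.Minkowski
import Fermat.Prelude.Def_FLTPrelim_CofixedLine

set_option autoImplicit false

/-!
# Reducible `p`-torsion of a semistable curve over `ℚ`
-/

noncomputable section

namespace Fermat.Agent.EC

open WeierstrassCurve WeierstrassCurve.Affine WeierstrassCurve.Affine.Point Polynomial

/-- The field of algebraic numbers. -/
local notation "Kb" => AlgebraicClosure ℚ
/-- The absolute Galois group. -/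
local notation "GQ" => (AlgebraicClosure ℚ ≃ₐ[ℚ] AlgebraicClosure ℚ)

/-- The `p`-torsion. -/
abbrev TorsP (E : WeierstrassCurve ℚ) (p : ℕ) : Type :=
  ↥(Submodule.torsionBy ℤ ((E⁄(AlgebraicClosure ℚ)).Point) p)

variable {E : WeierstrassCurve ℚ} {p : ℕ}

instance isElliptic_baseChange [E.IsElliptic] : (E⁄Kb).IsElliptic :=
  inferInstanceAs ((E.map (algebraMap ℚ Kb)).IsElliptic)

lemma mem_torsionBy_iff' {P : (E⁄Kb).Point} : P ∈ Submodule.torsionBy ℤ ((E⁄Kb).Point) p ↔
    p • P = 0 := by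
  rw [Submodule.mem_torsionBy_iff, natCast_zsmul]

lemma torsion_smul (x : TorsP E p) : p • (x : (E⁄Kb).Point) = 0 := mem_torsionBy_iff'.mp x.2

lemma natCard_torsion [E.IsElliptic] (hp : p.Prime) : Nat.card (TorsP E p) = p ^ 2 := by
  have h1 := ECT.card_torsion (W := E⁄Kb) p (by exact_mod_cast hp.ne_zero)
  rw [← h1]
  apply Nat.card_congr
  exact Equiv.subtypeEquivRight fun P => mem_torsionBy_iff'

lemma finite_torsion' [E.IsElliptic] (hp : p.Prime) : Finite (TorsP E p) :=
  Nat.finite_of_card_ne_zero (by rw [natCard_torsion hp]; exact pow_ne_zero 2 hp.ne_zero)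

lemma finrank_torsion [E.IsElliptic] [hp : Fact p.Prime] :
    Module.finrank (ZMod p) (TorsP E p) = 2 := by
  have := finite_torsion' (E := E) hp.out
  have : Module.Finite (ZMod p) (TorsP E p) := Module.Finite.of_finite
  have h1 := natCard_torsion (E := E) hp.out
  rw [Module.natCard_eq_pow_finrank (K := ZMod p), Nat.card_zmod] at h1
  exact Nat.pow_right_injective hp.out.two_le h1

/-- The coordinates of a Galois-fixed point are rational. -/
lemma rational_of_fixed {x : Kb} (h : ∀ σ : GQ, σ x = x) : ∃ c : ℚ, (c : Kb) = x := by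
  have h1 : x ∈ Set.range (algebraMap ℚ Kb) := by
    rw [InfiniteGalois.mem_range_algebraMap_iff_fixed]
    exact h
  obtain ⟨c, hc⟩ := h1
  exact ⟨c, by rw [← hc]; simp⟩

lemma coe_smul_torsion (σ : GQ) (x : TorsP E p) :
    ((σ • x : TorsP E p) : (E⁄Kb).Point) = Point.map (W' := E) σ.toAlgHom (x : (E⁄Kb).Point) := rfl

/-- Galois action as an additive endomorphism. -/
lemma smul_zmod (σ : GQ) (c : ZMod p) (x : TorsP E p) : σ • (c • x) = c • (σ • x) :=
  ZMod.map_smul (DistribSMul.toAddMonoidHom (TorsP E p) σ) c x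

/-- The submodule of points moved by all elements of a set by elements of `N`. -/
def movedIn (σ : GQ) (N : Submodule (ZMod p) (TorsP E p)) : Submodule (ZMod p) (TorsP E p) where
  carrier := {x | σ • x - x ∈ N}
  add_mem' := fun {a b} ha hb => by
    simp only [Set.mem_ofPred_eq] at *
    rw [smul_add]
    have : σ • a + σ • b - (a + b) = (σ • a - a) + (σ • b - b) := by abel
    rw [this]
    exact N.add_mem ha hb
  zero_mem' := by simp
  smul_mem' := fun c x hx => by
    simp only [Set.mem_ofPred_eq] at *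
    rw [smul_zmod, ← smul_sub]
    exact N.smul_mem c hx

lemma mem_movedIn {σ : GQ} {N : Submodule (ZMod p) (TorsP E p)} {x : TorsP E p} :
    x ∈ movedIn σ N ↔ σ • x - x ∈ N := Iff.rfl

section linear

variable {V : Type*} [AddCommGroup V] {k : Type*} [Field k] [Module k V]

lemma eq_of_line_le {N M : Submodule k V} (hV : Module.finrank k V = 2) (hNb : N ≠ ⊥)
    (hM : M ≠ ⊤) (h : N ≤ M) : N = M := by
  have : Module.Finite k V := Module.finite_of_finrank_pos (by omega)
  have h1 : 0 < Module.finrank k N := by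
    rw [Module.finrank_pos_iff, Submodule.nontrivial_iff_ne_bot]
    exact hNb
  have h2 : Module.finrank k M < 2 := by
    rw [← hV]
    exact Submodule.finrank_lt hM
  have h3 := Submodule.finrank_mono h
  exact Submodule.eq_of_le_of_finrank_le h (by omega)

lemma inf_eq_bot_or {N M : Submodule k V} (hV : Module.finrank k V = 2) (hN : N ≠ ⊤) :
    N ⊓ M = ⊥ ∨ N ≤ M := by
  by_cases h : N ⊓ M = ⊥
  · exact Or.inl h
  · right
    have := eq_of_line_le hV h hN inf_le_left
    rw [← this]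
    exact inf_le_right

end linear

variable [E.IsElliptic] [hp : Fact p.Prime]

/-- Unipotent elements act trivially on a stable line. -/
lemma fixed_of_unipotent {σ : GQ} (hσ : ∀ x : TorsP E p, σ • (σ • x - x) = σ • x - x)
    {N : Submodule (ZMod p) (TorsP E p)} (hN : ∀ x ∈ N, σ • x ∈ N) (hNb : N ≠ ⊥) (hNt : N ≠ ⊤) :
    (∀ x ∈ N, σ • x = x) ∧ ∀ x, σ • x - x ∈ N := by
  have hV := finrank_torsion (E := E) (p := p)
  constructor
  · rcases inf_eq_bot_or (N := N) (M := movedIn σ ⊥) hV hNt with h | h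
    · intro x hx
      have h1 : σ • x - x ∈ N ⊓ movedIn σ ⊥ := by
        refine ⟨N.sub_mem (hN x hx) hx, ?_⟩
        change σ • (σ • x - x) - (σ • x - x) ∈ (⊥ : Submodule (ZMod p) (TorsP E p))
        rw [hσ, sub_self]
        exact Submodule.zero_mem _
      rw [h, Submodule.mem_bot] at h1
      exact sub_eq_zero.mp h1
    · intro x hx
      have h1 := h hx
      rw [mem_movedIn, Submodule.mem_bot] at h1
      exact sub_eq_zero.mp h1
  · by_contra hcon
    push Not at hcon
    obtain ⟨x, hx⟩ := hcon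
    have hM : movedIn σ N ≠ ⊤ := by
      intro h
      have : x ∈ movedIn σ N := h ▸ Submodule.mem_top
      exact hx this
    have hle : N ≤ movedIn σ N := fun y hy => N.sub_mem (hN y hy) hy
    have heq := eq_of_line_le hV hNb hM hle
    have h1 : σ • x - x ∈ movedIn σ N := by
      rw [mem_movedIn, hσ, sub_self]
      exact N.zero_mem
    rw [← heq] at h1
    exact hx h1

/-- The kernel of reduction inside the `p`-torsion. -/
def kerSub (A : ValuationSubring Kb) (hW : VInt A.valuation (E⁄Kb)) :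
    Submodule (ZMod p) (TorsP E p) :=
  AddSubgroup.toZModSubmodule p
    { carrier := {x | InKer A.valuation (x : (E⁄Kb).Point)}
      add_mem' := fun ha hb => inKer_add hW ha hb
      zero_mem' := inKer_zero
      neg_mem' := fun ha => inKer_neg ha }

omit [E.IsElliptic] in
lemma mem_kerSub {A : ValuationSubring Kb} {hW : VInt A.valuation (E⁄Kb)} {x : TorsP E p} :
    x ∈ kerSub A hW ↔ InKer A.valuation (x : (E⁄Kb).Point) := Iff.rfl

omit [E.IsElliptic] hp in
lemma xc_map (σ : GQ) (P : (E⁄Kb).Point) :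
    xc (Point.map (W' := E) σ.toAlgHom P) = σ (xc P) := by
  rcases P with _ | ⟨x, y, h⟩
  · change (0 : Kb) = σ 0
    rw [_root_.map_zero]
  · rfl

/-- A rational subgroup of order `p` prevents the `p`-torsion from being contained in the kernel
of reduction. -/
theorem kerSub_ne_top (hp2 : p ≠ 2) {A : ValuationSubring Kb} (hA : A.LiesOverPrime p)
    (hW : VInt A.valuation (E⁄Kb)) {N : Submodule (ZMod p) (TorsP E p)}
    (hN : IsGaloisStable ℚ N) (hNb : N ≠ ⊥) (hNt : N ≠ ⊤) :
    kerSub (E := E) (p := p) A hW ≠ ⊤ := by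
  classical
  intro htop
  have hvp : A.valuation (p : Kb) < 1 := hA
  have hp0 : (p : Kb) ≠ 0 := by exact_mod_cast hp.out.ne_zero
  have hodd : Odd p := hp.out.odd_of_ne_two hp2
  have hall : ∀ x : TorsP E p, InKer A.valuation (x : (E⁄Kb).Point) := fun x => by
    rw [← mem_kerSub (hW := hW), htop]
    exact Submodule.mem_top
  have hX1 : ∀ x ∈ ECT.xtors (E⁄Kb) hp0, 1 < A.valuation x := by
    intro x hx
    obtain ⟨P, hP, hpP, rfl⟩ := (ECT.mem_xtors hp0).mp hx
    rcases hall ⟨P, mem_torsionBy_iff'.mpr hpP⟩ with h | h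
    · exact absurd h hP
    · exact h
  let XN : Finset Kb := (ECT.xtors (E⁄Kb) hp0).filter
    (fun x => ∃ Q ∈ N, Q ≠ 0 ∧ xc (Q : (E⁄Kb).Point) = x)
  have hXNmem : ∀ x, x ∈ XN ↔ ∃ Q ∈ N, Q ≠ 0 ∧ xc (Q : (E⁄Kb).Point) = x := by
    intro x
    simp only [XN, Finset.mem_filter]
    constructor
    · exact fun h => h.2
    · rintro ⟨Q, hQ, hQ0, rfl⟩
      refine ⟨(ECT.mem_xtors hp0).mpr ⟨Q, ?_, torsion_smul Q, rfl⟩, Q, hQ, hQ0, rfl⟩
      intro h0
      exact hQ0 (Subtype.ext h0)
  have hstab : ∀ σ : GQ, ∀ x ∈ XN, σ x ∈ XN := by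
    intro σ x hx
    rw [hXNmem] at hx ⊢
    obtain ⟨Q, hQ, hQ0, rfl⟩ := hx
    refine ⟨σ • Q, hN σ Q hQ, ?_, ?_⟩
    · intro h0
      apply hQ0
      have := congrArg (fun z => σ⁻¹ • z) h0
      simpa using this
    · rw [coe_smul_torsion, xc_map]
  obtain ⟨r, hr⟩ : ∃ r, r = ∏ x ∈ XN, x := ⟨_, rfl⟩
  have hrfix : ∀ σ : GQ, σ r = r := by
    intro σ
    rw [hr, map_prod]
    refine Finset.prod_nbij (fun x => σ x) (fun x hx => hstab σ x hx)
      (fun x _ y _ hxy => σ.injective hxy) ?_ (fun _ _ => rfl)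
    intro y hy
    refine ⟨σ.symm y, hstab σ.symm y hy, ?_⟩
    exact σ.apply_symm_apply y
  obtain ⟨c, hc⟩ := rational_of_fixed hrfix
  -- `XN` is nonempty
  have hXNne : XN.Nonempty := by
    obtain ⟨Q, hQ, hQ0⟩ := Submodule.exists_mem_ne_zero_of_ne_bot hNb
    exact ⟨xc (Q : (E⁄Kb).Point), (hXNmem _).mpr ⟨Q, hQ, hQ0, rfl⟩⟩
  have hXN1 : 1 < A.valuation r := by
    rw [hr, map_prod]
    exact one_lt_prod hXNne (fun x hx => hX1 x (Finset.mem_filter.mp hx).1)
  have hvp0 : 0 < A.valuation (p : Kb) := zero_lt_iff.mpr ((Valuation.ne_zero_iff _).mpr hp0)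
  have hc0 : c ≠ 0 := by
    rintro rfl
    rw [← hc, Rat.cast_zero, _root_.map_zero] at hXN1
    exact absurd hXN1 (not_lt.mpr zero_le)
  have hprod : 1 ≤ A.valuation (p : Kb) * A.valuation r := by
    rw [← hc, v_rat_eq hp.out hvp hc0] at hXN1 ⊢
    have hk : padicValRat p c < 0 := by
      rw [← zpow_zero (A.valuation (p : Kb)),
        zpow_lt_zpow_iff_right_of_lt_one₀ hvp0 hvp] at hXN1
      exact hXN1
    rw [← zpow_one_add₀ hvp0.ne', ← zpow_zero (A.valuation (p : Kb)),
      zpow_le_zpow_iff_right_of_lt_one₀ hvp0 hvp]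
    omega
  -- the complement
  have hrest : ((ECT.xtors (E⁄Kb) hp0) \ XN).Nonempty := by
    obtain ⟨Q, hQ⟩ : ∃ Q, Q ∉ N := by
      by_contra hcon
      push Not at hcon
      exact hNt (Submodule.eq_top_iff'.mpr hcon)
    have hQ0 : (Q : (E⁄Kb).Point) ≠ 0 := by
      intro h0
      apply hQ
      have : Q = 0 := Subtype.ext h0
      rw [this]
      exact N.zero_mem
    refine ⟨xc (Q : (E⁄Kb).Point), Finset.mem_sdiff.mpr ⟨(ECT.mem_xtors hp0).mpr
      ⟨Q, hQ0, torsion_smul Q, rfl⟩, ?_⟩⟩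
    rw [hXNmem]
    rintro ⟨Q', hQ', hQ'0, hxx⟩
    have hQ'0' : (Q' : (E⁄Kb).Point) ≠ 0 := fun h0 => hQ'0 (Subtype.ext h0)
    rcases eq_or_eq_neg_of_xc hQ'0' hQ0 hxx with h | h
    · apply hQ
      have : Q' = Q := Subtype.ext h
      rw [← this]; exact hQ'
    · apply hQ
      have : Q = -Q' := Subtype.ext (by
        rw [NegMemClass.coe_neg, h, neg_neg])
      rw [this]; exact N.neg_mem hQ'
  have hrest1 : 1 < ∏ x ∈ (ECT.xtors (E⁄Kb) hp0) \ XN, A.valuation x :=
    one_lt_prod hrest (fun x hx => hX1 x (Finset.mem_sdiff.mp hx).1)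
  have hle := hW.prod_xtors_le hp0 hodd
  rw [← Finset.prod_sdiff (Finset.filter_subset _ _ : XN ⊆ ECT.xtors (E⁄Kb) hp0),
    mul_comm (∏ x ∈ _ \ _, _), ← mul_assoc, ← map_prod, ← hr] at hle
  have hgt : 1 < A.valuation (p : Kb) * A.valuation r *
      ∏ x ∈ (ECT.xtors (E⁄Kb) hp0) \ XN, A.valuation x := by
    rw [mul_comm]
    exact one_lt_mul_of_lt_of_le' hrest1 hprod
  exact absurd hle (not_le.mpr hgt)

end Fermat.Agent.EC
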