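import Fermat.Agent.EC.Mult

set_option autoImplicit false

/-!
# The rational-valued valuation attached to a valuation above `q` on an algebraic extension of `ℚ`
-/

namespace Fermat.Agent.EC

variable {K : Type*} [Field K] {Γ₀ : Type*} [LinearOrderedCommGroupWithZero Γ₀]
  {v : Valuation K Γ₀}

lemma v_int_le (n : ℤ) : v (n : K) ≤ 1 := by
  rcases n with n | n
  · simpa using v_nat_le (v := v) n
  · rw [Int.cast_negSucc, Valuation.map_neg]
    exact v_nat_le _

/-- Integers prime to `q` are units. -/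
lemma v_int_eq_one {q : ℕ} (hq : q.Prime) (hvq : v (q : K) < 1) {n : ℤ} (hn : ¬ (q : ℤ) ∣ n) :
    v (n : K) = 1 := by
  have hcop : IsCoprime (q : ℤ) n := by
    rw [Prime.coprime_iff_not_dvd (Nat.prime_iff_prime_int.mp hq)]
    exact hn
  obtain ⟨a, b, hab⟩ := hcop
  refine le_antisymm (v_int_le n) ?_
  by_contra hlt
  rw [not_le] at hlt
  have h1 : v ((a * q + b * n : ℤ) : K) < 1 := by
    push_cast
    exact v_add_lt (v_lt_mul (v_int_le a) hvq) (v_lt_mul (v_int_le b) hlt)
  rw [hab] at h1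
  simp at h1

lemma v_nat_eq_one {q : ℕ} (hq : q.Prime) (hvq : v (q : K) < 1) {n : ℕ} (hn : ¬ q ∣ n) :
    v (n : K) = 1 := by
  have := v_int_eq_one (v := v) hq hvq (n := (n : ℤ)) (by exact_mod_cast hn)
  simpa using this

lemma v_int_eq {q : ℕ} (hq : q.Prime) (hvq : v (q : K) < 1) {n : ℤ} (hn : n ≠ 0) :
    v (n : K) = v (q : K) ^ (padicValInt q n) := by
  have := Fact.mk hq
  obtain ⟨m, hm⟩ := padicValInt_dvd (p := q) n
  have hm0 : m ≠ 0 := by
    rintro rfl
    exact hn (by rw [hm, mul_zero])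
  have hndvd : ¬ (q : ℤ) ∣ m := by
    intro h
    have h1 := (padicValInt_dvd_iff (p := q) (padicValInt q n + 1) n).mp (by
      conv_rhs => rw [hm]
      rw [pow_succ]
      exact mul_dvd_mul_left _ h)
    rcases h1 with h1 | h1
    · exact hn h1
    · omega
  conv_lhs => rw [hm]
  push_cast
  rw [map_mul, map_pow, v_int_eq_one hq hvq hndvd, mul_one]

variable [CharZero K]

lemma v_rat_eq {q : ℕ} (hq : q.Prime) (hvq : v (q : K) < 1) {c : ℚ} (hc : c ≠ 0) :
    v (c : K) = v (q : K) ^ (padicValRat q c) := by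
  have hq0 : v (q : K) ≠ 0 := by
    rw [Valuation.ne_zero_iff]
    exact_mod_cast hq.ne_zero
  have h1 : (c : K) = (c.num : K) / (c.den : K) := by
    rw [Rat.cast_def]
  have hden : (c.den : ℤ) ≠ 0 := by exact_mod_cast c.den_nz
  rw [h1, map_div₀, v_int_eq hq hvq (Rat.num_ne_zero.mpr hc)]
  have h2 : v (c.den : K) = v (q : K) ^ (padicValInt q (c.den : ℤ)) := by
    rw [← v_int_eq hq hvq hden]; simp
  rw [h2, padicValRat, ← zpow_natCast, ← zpow_natCast, ← zpow_sub₀ hq0]
  simp [padicValInt]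

omit [CharZero K] in
/-- Two nonzero terms of a vanishing sum have the same valuation. -/
lemma exists_eq_val_of_sum_eq_zero {ι : Type*} [DecidableEq ι] {s : Finset ι} {f : ι → K}
    (hsum : ∑ i ∈ s, f i = 0) {i₀ : ι} (hi₀ : i₀ ∈ s) (hf : f i₀ ≠ 0) :
    ∃ i ∈ s, ∃ j ∈ s, i ≠ j ∧ f i ≠ 0 ∧ v (f i) = v (f j) := by
  obtain ⟨j, hj, hmax⟩ := s.exists_max_image (fun i => v (f i)) ⟨i₀, hi₀⟩
  have hj0 : v (f j) ≠ 0 := by
    have h1 := hmax i₀ hi₀
    have h2 : v (f i₀) ≠ 0 := (Valuation.ne_zero_iff v).mpr hf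
    exact ((zero_lt_iff.mpr h2).trans_le h1).ne'
  by_contra hcon
  push Not at hcon
  have hlt : ∀ i ∈ s \ {j}, v (f i) < v (f j) := by
    intro i hi
    rw [Finset.mem_sdiff, Finset.mem_singleton] at hi
    refine lt_of_le_of_ne (hmax i hi.1) ?_
    intro heq
    exact hcon j hj i hi.1 (Ne.symm hi.2) ((Valuation.ne_zero_iff v).mp hj0) heq.symm
  have := Valuation.map_sum_eq_of_lt v hj hlt
  rw [hsum, map_zero] at this
  exact hj0 this.symm

variable [Algebra.IsAlgebraic ℚ K]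

/-- Every element of an algebraic extension of `ℚ` has a power with the valuation of a
power of `q`. -/
lemma exists_pow_val {q : ℕ} (hq : q.Prime) (hvq : v (q : K) < 1) {x : K} (hx : x ≠ 0) :
    ∃ t : ℕ, 0 < t ∧ ∃ s : ℤ, v x ^ t = v (q : K) ^ s := by
  classical
  have halg : IsAlgebraic ℚ x := Algebra.IsAlgebraic.isAlgebraic x
  obtain ⟨f, hf0, hfx⟩ := halg
  have hq0 : v (q : K) ≠ 0 := by
    rw [Valuation.ne_zero_iff]
    exact_mod_cast hq.ne_zero
  have hvx : v x ≠ 0 := (Valuation.ne_zero_iff v).mpr hx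
  have hsum : ∑ i ∈ f.support, ((f.coeff i : ℚ) : K) * x ^ i = 0 := by
    rw [Polynomial.aeval_def, Polynomial.eval₂_eq_sum, Polynomial.sum] at hfx
    simpa using hfx
  have hne : ∀ i ∈ f.support, ((f.coeff i : ℚ) : K) * x ^ i ≠ 0 := by
    intro i hi
    refine mul_ne_zero ?_ (pow_ne_zero i hx)
    rw [Polynomial.mem_support_iff] at hi
    exact_mod_cast hi
  obtain ⟨i₀, hi₀⟩ : f.support.Nonempty := Polynomial.support_nonempty.mpr hf0
  obtain ⟨i, hi, j, hj, hij, -, heq⟩ := exists_eq_val_of_sum_eq_zero (v := v) hsum hi₀ (hne i₀ hi₀)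
  -- reduce to `i < j`
  have key : ∀ i j : ℕ, i ∈ f.support → j ∈ f.support → i < j →
      v (((f.coeff i : ℚ) : K) * x ^ i) = v (((f.coeff j : ℚ) : K) * x ^ j) →
      ∃ t : ℕ, 0 < t ∧ ∃ s : ℤ, v x ^ t = v (q : K) ^ s := by
    intro i j hi hj hij heq
    rw [Polynomial.mem_support_iff] at hi hj
    refine ⟨j - i, by omega, padicValRat q (f.coeff i) - padicValRat q (f.coeff j), ?_⟩
    rw [map_mul, map_mul, map_pow, map_pow, v_rat_eq hq hvq hi, v_rat_eq hq hvq hj] at heq
    rw [zpow_sub₀ hq0, eq_div_iff (zpow_ne_zero _ hq0)]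
    have : v x ^ j = v x ^ (j - i) * v x ^ i := by rw [← pow_add]; congr 1; omega
    rw [this] at heq
    have h3 : (v x ^ (j - i) * v (q : K) ^ padicValRat q (f.coeff j)) * v x ^ i =
        v (q : K) ^ padicValRat q (f.coeff i) * v x ^ i := by
      rw [heq, mul_comm (v x ^ (j - i)), mul_assoc]
    exact mul_right_cancel₀ (pow_ne_zero i hvx) h3
  rcases lt_or_gt_of_ne hij with h | h
  · exact key i j hi hj h heq
  · exact key j i hj hi h heq.symm

open Classical in
/-- The rational-valued valuation. -/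
noncomputable def qval {q : ℕ} (hq : q.Prime) (hvq : v (q : K) < 1) (x : K) : ℚ :=
  if hx : x = 0 then 0 else
    ((exists_pow_val hq hvq hx).choose_spec.2.choose : ℚ) / ((exists_pow_val hq hvq hx).choose : ℚ)

lemma qval_eq {q : ℕ} (hq : q.Prime) (hvq : v (q : K) < 1) {x : K} (hx : x ≠ 0) {t : ℕ}
    (ht : 0 < t) {s : ℤ} (h : v x ^ t = v (q : K) ^ s) : qval hq hvq x = s / t := by
  have hq0 : v (q : K) ≠ 0 := by
    rw [Valuation.ne_zero_iff]
    exact_mod_cast hq.ne_zero
  rw [qval, dif_neg hx]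
  have hspec := (exists_pow_val hq hvq hx).choose_spec
  set t' := (exists_pow_val hq hvq hx).choose with ht'
  have ht'0 : 0 < t' := hspec.1
  have h' := hspec.2.choose_spec
  set s' := hspec.2.choose with hs'
  have h1 : v (q : K) ^ (s' * t) = v (q : K) ^ (s * t') := by
    rw [zpow_mul, zpow_mul, ← h', ← h, zpow_natCast, zpow_natCast, ← pow_mul, ← pow_mul,
      mul_comm]
  have h2 : s' * t = s * t' :=
    zpow_right_injective₀ (zero_lt_iff.mpr hq0) hvq.ne h1
  have ht0 : (t : ℚ) ≠ 0 := by exact_mod_cast ht.ne'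
  have ht'0' : (t' : ℚ) ≠ 0 := by exact_mod_cast ht'0.ne'
  rw [div_eq_div_iff ht'0' ht0]
  exact_mod_cast h2

theorem qval_ratVal {q : ℕ} (hq : q.Prime) (hvq : v (q : K) < 1) :
    RatVal v (qval hq hvq) where
  mul := by
    intro x y hx hy
    obtain ⟨t, ht, s, h⟩ := exists_pow_val hq hvq hx
    obtain ⟨t', ht', s', h'⟩ := exists_pow_val hq hvq hy
    have hq0 : v (q : K) ≠ 0 := by
      rw [Valuation.ne_zero_iff]
      exact_mod_cast hq.ne_zero
    have h1 : v (x * y) ^ (t * t') = v (q : K) ^ (s * t' + s' * t) := by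
      rw [map_mul, mul_pow, pow_mul, h, mul_comm t t', pow_mul (v y), h', zpow_add₀ hq0,
        zpow_mul, zpow_mul, zpow_natCast, zpow_natCast]
    rw [qval_eq hq hvq (mul_ne_zero hx hy) (Nat.mul_pos ht ht') h1, qval_eq hq hvq hx ht h,
      qval_eq hq hvq hy ht' h']
    have ht0 : (t : ℚ) ≠ 0 := by exact_mod_cast ht.ne'
    have ht'0' : (t' : ℚ) ≠ 0 := by exact_mod_cast ht'.ne'
    push_cast
    field_simp
  le_iff := by
    intro x y hx hy
    obtain ⟨t, ht, s, h⟩ := exists_pow_val hq hvq hx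
    obtain ⟨t', ht', s', h'⟩ := exists_pow_val hq hvq hy
    have hq0 : v (q : K) ≠ 0 := by
      rw [Valuation.ne_zero_iff]
      exact_mod_cast hq.ne_zero
    rw [qval_eq hq hvq hx ht h, qval_eq hq hvq hy ht' h']
    have ht0 : (0 : ℚ) < t := by exact_mod_cast ht
    have ht'0' : (0 : ℚ) < t' := by exact_mod_cast ht'
    rw [div_le_div_iff₀ ht'0' ht0]
    have h1 : v x ^ (t * t') = v (q : K) ^ (s * t') := by
      rw [pow_mul, h, zpow_mul, zpow_natCast]
    have h2 : v y ^ (t * t') = v (q : K) ^ (s' * t) := by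
      rw [mul_comm, pow_mul, h', zpow_mul, zpow_natCast]
    have h3 : v x ≤ v y ↔ v x ^ (t * t') ≤ v y ^ (t * t') :=
      (pow_le_pow_iff_left₀ zero_le zero_le (Nat.mul_pos ht ht').ne').symm
    rw [h3, h1, h2, zpow_le_zpow_iff_right_of_lt_one₀ (zero_lt_iff.mpr hq0) hvq]
    constructor
    · intro h; exact_mod_cast h
    · intro h; exact_mod_cast h

lemma qval_rat {q : ℕ} (hq : q.Prime) (hvq : v (q : K) < 1) {c : ℚ} (hc : c ≠ 0) :
    qval hq hvq (c : K) = padicValRat q c := by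
  have := qval_eq hq hvq (x := (c : K)) (by exact_mod_cast hc) one_pos
    (s := padicValRat q c) (by rw [pow_one]; exact v_rat_eq hq hvq hc)
  rw [this]
  simp

/-- The algebraic closure of `ℚ` is algebraic for the canonical `ℚ`-algebra structure of a
field of characteristic zero. -/
instance isAlgebraic_qbar :
    @Algebra.IsAlgebraic ℚ (AlgebraicClosure ℚ) _ _ DivisionRing.toRatAlgebra := by
  have h : (DivisionRing.toRatAlgebra : Algebra ℚ (AlgebraicClosure ℚ)) =
    AlgebraicClosure.instAlgebra ℚ := Subsingleton.elim _ _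
  rw [h]
  infer_instance

end Fermat.Agent.EC
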