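import Fermat.Agent.EC.Kernel
import Fermat.Agent.EC.QbarVal
import Fermat.Agent.ECT.PreOdd

set_option autoImplicit false

/-!
# The kernel of reduction does not contain the whole `p`-torsion if there is a rational
subgroup of order `p`
-/

namespace Fermat.Agent.EC

open WeierstrassCurve WeierstrassCurve.Affine Polynomial

variable {K : Type*} [Field K] {Γ₀ : Type*} [LinearOrderedCommGroupWithZero Γ₀]
  {v : Valuation K Γ₀} {W : WeierstrassCurve K}

/-- Values of division polynomials at `0` are integral. -/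
lemma VInt.prePsi_eval_zero (hW : VInt v W) (n : ℤ) : v ((W.preΨ n).eval 0) ≤ 1 := by
  let W₀ : WeierstrassCurve v.integer :=
    ⟨⟨W.a₁, hW.a₁⟩, ⟨W.a₂, hW.a₂⟩, ⟨W.a₃, hW.a₃⟩, ⟨W.a₄, hW.a₄⟩, ⟨W.a₆, hW.a₆⟩⟩
  have hmap : W = W₀.map (algebraMap v.integer K) := rfl
  have h1 : (W.preΨ n).eval 0 = algebraMap v.integer K ((W₀.preΨ n).eval 0) := by
    conv_lhs => rw [hmap, map_preΨ]
    rw [← map_zero (algebraMap v.integer K), eval_map_apply]
  rw [h1]
  exact ((W₀.preΨ n).eval 0).2

variable [DecidableEq K] [IsAlgClosed K] [W.IsElliptic]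

/-- product inequality. -/
theorem VInt.prod_xtors_le (hW : VInt v W) {p : ℕ} (hp : (p : K) ≠ 0) (hodd : Odd p) :
    v (p : K) * ∏ x ∈ ECT.xtors W hp, v x ≤ 1 := by
  have h1 := hW.prePsi_eval_zero (p : ℤ)
  rw [ECT.prePsi_eq_prod hp hodd, eval_mul, eval_C, eval_prod, map_mul, map_prod] at h1
  convert h1 using 2
  apply Finset.prod_congr rfl
  intro x _
  rw [eval_sub, eval_X, eval_C, zero_sub, Valuation.map_neg]

omit [DecidableEq K] [IsAlgClosed K] in
lemma one_lt_prod {s : Finset K} (hs : s.Nonempty) (h : ∀ x ∈ s, 1 < v x) :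
    1 < ∏ x ∈ s, v x := by
  classical
  induction hs using Finset.Nonempty.cons_induction with
  | singleton a => simpa using h a (by simp)
  | cons a s ha hs ih =>
    rw [Finset.prod_cons]
    have h1 := h a (by simp)
    have h2 := ih (fun x hx => h x (by simp [hx]))
    exact one_lt_mul_of_lt_of_le' h1 h2.le

end Fermat.Agent.EC
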