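import Fermat.Agent.EC.NodeMul
import Fermat.Agent.EC.SuperExcl
import Fermat.Agent.EC.KernelInertia
import Fermat.Agent.EC.Reducible

set_option autoImplicit false
set_option linter.unusedSectionVars false

/-!
# The kernel of reduction does not contain the `p`-torsion in the multiplicative case
-/

open WeierstrassCurve WeierstrassCurve.Affine Polynomial

noncomputable section

namespace Fermat.Agent.EC

section Coef

variable {K : Type*} [Field K] {Γ₀ : Type*} [LinearOrderedCommGroupWithZero Γ₀]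
  {v : Valuation K Γ₀}

/-- Coefficients of a polynomial with large roots. -/
lemma v_coeff_prod {s : Finset K} (h : ∀ x ∈ s, 1 < v x) (i : ℕ) :
    v ((∏ x ∈ s, (X - C x)).coeff i) ≤ ∏ x ∈ s, v x ∧
      (1 ≤ i → v ((∏ x ∈ s, (X - C x)).coeff i) < ∏ x ∈ s, v x) := by
  classical
  induction s using Finset.induction_on generalizing i with
  | empty =>
    rw [Finset.prod_empty, Finset.prod_empty]
    constructor
    · rw [coeff_one]
      split_ifs
      · rw [map_one]
      · rw [map_zero]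
        exact zero_le
    · intro hi
      rw [coeff_one, if_neg (by omega), map_zero]
      exact zero_lt_one
  | insert a s ha ih =>
    have ih' := fun i => ih (fun x hx => h x (Finset.mem_insert_of_mem hx)) i
    have hva : 1 < v a := h a (Finset.mem_insert_self _ _)
    have hpos : 0 < ∏ x ∈ s, v x := by
      refine Finset.prod_pos fun x hx => ?_
      exact zero_lt_one.trans (h x (Finset.mem_insert_of_mem hx))
    have hlt : ∏ x ∈ s, v x < v a * ∏ x ∈ s, v x := by
      nth_rewrite 1 [← one_mul (∏ x ∈ s, v x)]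
      exact mul_lt_mul_of_pos_right hva hpos
    rw [Finset.prod_insert ha, Finset.prod_insert ha]
    rcases i with _ | i
    · constructor
      · rw [sub_mul, coeff_sub, coeff_X_mul_zero, coeff_C_mul, zero_sub, Valuation.map_neg,
          map_mul]
        exact mul_le_mul' le_rfl (ih' 0).1
      · intro hi
        omega
    · have h1 : v (((X - C a) * ∏ x ∈ s, (X - C x)).coeff (i + 1)) < v a * ∏ x ∈ s, v x := by
        rw [sub_mul, coeff_sub, coeff_X_mul, coeff_C_mul]
        refine (Valuation.map_sub _ _ _).trans_lt (max_lt ((ih' i).1.trans_lt hlt) ?_)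
        rw [map_mul]
        exact mul_lt_mul_of_pos_left ((ih' (i + 1)).2 (by omega)) (zero_lt_one.trans hva)
      exact ⟨h1.le, fun _ => h1⟩

end Coef

section Res

variable {K : Type*} [Field K] {Γ₀ : Type*} [LinearOrderedCommGroupWithZero Γ₀]
  (v : Valuation K Γ₀)

/-- The algebraic closure of the residue field. -/
abbrev resCl : Type _ := AlgebraicClosure (IsLocalRing.ResidueField v.valuationSubring)

/-- The reduction map to the algebraic closure of the residue field. -/
def resMap : v.valuationSubring →+* resCl v :=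
  (algebraMap (IsLocalRing.ResidueField v.valuationSubring) (resCl v)).comp
    (IsLocalRing.residue v.valuationSubring)

lemma resMap_eq_zero {z : v.valuationSubring} : resMap v z = 0 ↔ v (z : K) < 1 := by
  rw [resMap, RingHom.comp_apply,
    map_eq_zero_iff _ (algebraMap (IsLocalRing.ResidueField v.valuationSubring)
      (resCl v)).injective, IsLocalRing.residue_eq_zero_iff,
    IsLocalRing.mem_maximalIdeal, mem_nonunits_iff]
  have hz : v (z : K) ≤ 1 := z.2
  constructor
  · intro h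
    rcases hz.lt_or_eq with h1 | h1
    · exact h1
    · exfalso
      apply h
      have h0 : (z : K) ≠ 0 := fun h2 => by
        rw [h2, map_zero] at h1
        exact zero_ne_one h1
      have h2 : v (z : K)⁻¹ ≤ 1 := by rw [map_inv₀, h1, inv_one]
      refine IsUnit.of_mul_eq_one ⟨(z : K)⁻¹, h2⟩ (Subtype.ext ?_)
      change (z : K) * (z : K)⁻¹ = 1
      exact mul_inv_cancel₀ h0
  · intro h hu
    obtain ⟨w, hw⟩ := hu.exists_right_inv
    have h1 : (z : K) * (w : K) = 1 := congrArg Subtype.val hw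
    have h2 : v (z : K) * v (w : K) = 1 := by rw [← map_mul, h1, map_one]
    have h3 : v (w : K) ≤ 1 := w.2
    have h4 : v (z : K) * v (w : K) < 1 := (mul_le_of_le_one_right' h3).trans_lt h
    exact absurd h2 h4.ne

end Res

section Main

variable {K : Type*} [Field K] {Γ₀ : Type*} [LinearOrderedCommGroupWithZero Γ₀]
  {v : Valuation K Γ₀} {W : WeierstrassCurve K} [DecidableEq K] [IsAlgClosed K] [W.IsElliptic]

/-- **Multiplicative reduction: some `p`-torsion point is not in the kernel of reduction.** -/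
theorem MultForm.exists_le_one (hM : MultForm v W) {p : ℕ} (hp : (p : K) ≠ 0) (hp3 : 3 ≤ p)
    (hodd : Odd p) : ∃ x ∈ ECT.xtors W hp, v x ≤ 1 := by
  classical
  by_contra hcon
  push Not at hcon
  have hW := hM.vint
  let W₀ : WeierstrassCurve v.valuationSubring :=
    ⟨⟨W.a₁, hW.a₁⟩, ⟨W.a₂, hW.a₂⟩, ⟨W.a₃, hW.a₃⟩, ⟨W.a₄, hW.a₄⟩, ⟨W.a₆, hW.a₆⟩⟩
  have hmap : W₀.map (algebraMap v.valuationSubring K) = W := rfl
  let r := resMap v
  let Wr : WeierstrassCurve (resCl v) := W₀.map r
  have h₃ : Wr.a₃ = 0 := (resMap_eq_zero v).mpr (hM.a₃.trans_lt hM.a₆)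
  have h₄ : Wr.a₄ = 0 := (resMap_eq_zero v).mpr (hM.a₄.trans_lt hM.a₆)
  have h₆ : Wr.a₆ = 0 := (resMap_eq_zero v).mpr hM.a₆
  have hb₂ : Wr.b₂ ≠ 0 := by
    change (W₀.map r).b₂ ≠ 0
    rw [WeierstrassCurve.map_b₂]
    intro h
    have h1 := (resMap_eq_zero v).mp h
    have h2 : ((W₀.b₂ : v.valuationSubring) : K) = W.b₂ := by
      have := WeierstrassCurve.map_b₂ W₀ (algebraMap v.valuationSubring K)
      rw [hmap] at this
      exact this.symm
    rw [h2, hM.b₂] at h1
    exact lt_irrefl _ h1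
  -- the tangents at the node
  obtain ⟨α, hα⟩ : ∃ α : resCl v, α ^ 2 + Wr.a₁ * α - Wr.a₂ = 0 := by
    have hdeg : (X ^ 2 + C Wr.a₁ * X - C Wr.a₂ : (resCl v)[X]).degree ≠ 0 := by
      have : (X ^ 2 + C Wr.a₁ * X - C Wr.a₂ : (resCl v)[X]).degree = 2 := by
        compute_degree!
      rw [this]
      decide
    obtain ⟨α, hα⟩ := IsAlgClosed.exists_root _ hdeg
    refine ⟨α, ?_⟩
    simpa [IsRoot] using hα
  have h₁ : Wr.a₁ = -(α + (-Wr.a₁ - α)) := by ring
  have h₂ : Wr.a₂ = -(α * (-Wr.a₁ - α)) := by linear_combination -hα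
  have hαβ : α ≠ -Wr.a₁ - α := by
    intro h
    apply hb₂
    rw [WeierstrassCurve.b₂]
    linear_combination (-4 : resCl v) * hα + (2 * α + Wr.a₁) * h
  have hinf : Infinite (resCl v) := IsAlgClosed.instInfinite
  have hne := node_prePsi_ne_zero h₁ h₂ h₃ h₄ h₆ hαβ (n := p) (by omega)
  apply hne
  -- all coefficients vanish
  have hpP : W₀.preΨ p = W₀.preΨ' p := WeierstrassCurve.preΨ_ofNat _ _
  have hmapr : Wr.preΨ (p : ℤ) = (W₀.preΨ (p : ℤ)).map r := WeierstrassCurve.map_preΨ W₀ r (p : ℤ)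
  have hmapK : W.preΨ (p : ℤ) = (W₀.preΨ (p : ℤ)).map (algebraMap v.valuationSubring K) :=
    WeierstrassCurve.map_preΨ W₀ (algebraMap v.valuationSubring K) (p : ℤ)
  have hprod := hW.prod_xtors_le hp hodd
  ext i
  rw [coeff_zero]
  rcases i with _ | i
  · rw [coeff_zero_eq_eval_zero]
    have h5 : Wr.preΨ (p : ℤ) = Wr.preΨ' p := WeierstrassCurve.preΨ_ofNat _ _
    rw [h5]
    exact prePsi_eval_node Wr h₃ h₄ h₆ hp3
  · rw [hmapr, coeff_map]
    refine (resMap_eq_zero v).mpr ?_
    have h5 : (((W₀.preΨ (p : ℤ)).coeff (i + 1) : v.valuationSubring) : K) =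
        (W.preΨ (p : ℤ)).coeff (i + 1) := by
      rw [hmapK, coeff_map]
      rfl
    rw [h5, ECT.prePsi_eq_prod hp hodd, coeff_C_mul, map_mul]
    refine lt_of_lt_of_le ?_ hprod
    exact mul_lt_mul_of_pos_left ((v_coeff_prod hcon (i + 1)).2 (by omega))
      (zero_lt_iff.mpr ((Valuation.ne_zero_iff v).mpr hp))

end Main

section Sub

/-- The field of algebraic numbers. -/
local notation "Kb" => AlgebraicClosure ℚ

variable {E : WeierstrassCurve ℚ} {p : ℕ} [hp : Fact p.Prime] [E.IsElliptic]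

/-- **Multiplicative reduction: the `p`-torsion is not contained in the kernel of reduction.** -/
theorem kerSub_ne_top_of_mult (hp2 : p ≠ 2) {A : ValuationSubring Kb}
    (hW : VInt A.valuation (E⁄Kb)) (hc₄ : A.valuation (E⁄Kb).c₄ = 1)
    (hΔ : A.valuation (E⁄Kb).Δ < 1) : kerSub (E := E) (p := p) A hW ≠ ⊤ := by
  classical
  intro htop
  have hΔ0 : (E⁄Kb).Δ ≠ 0 := by
    rw [← WeierstrassCurve.coe_Δ']
    exact Units.ne_zero _
  have hp0 : (p : Kb) ≠ 0 := by exact_mod_cast hp.out.ne_zero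
  have hodd : Odd p := hp.out.odd_of_ne_two hp2
  have hp3 : 3 ≤ p := by
    have := hp.out.two_le
    omega
  obtain ⟨hM, -⟩ := hW.multForm hc₄ hΔ hΔ0
  obtain ⟨x, hx, hx1⟩ := hM.exists_le_one hp0 hp3 hodd
  obtain ⟨Q, hQ0, hQ, rfl⟩ := (ECT.mem_xtors hp0).mp hx
  have hP : p • (pointEquiv (E⁄Kb) (nodeVC (E⁄Kb)) Q) = 0 := by
    rw [← map_nsmul, hQ, map_zero]
  have h1 : InKer A.valuation (pointEquiv (E⁄Kb) (nodeVC (E⁄Kb)) Q) := by
    have h2 : (⟨_, mem_torsionBy_iff'.mpr hP⟩ : TorsP E p) ∈ kerSub A hW := by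
      rw [htop]
      exact Submodule.mem_top
    exact h2
  rw [inKer_pointEquiv (v := A.valuation) (W := E⁄Kb) (C := nodeVC (E⁄Kb)) rfl
    (hW.nodeX_le hc₄)] at h1
  rcases h1 with h1 | h1
  · exact hQ0 h1
  · exact absurd h1 (not_lt.mpr hx1)

end Sub

end Fermat.Agent.EC
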