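import Fermat.Agent.EC.RedKernel

set_option autoImplicit false

/-!
# Differences of points with the same nonsingular reduction
-/

namespace Fermat.Agent.EC

open WeierstrassCurve WeierstrassCurve.Affine

variable {K : Type*} [Field K] {Γ₀ : Type*} [LinearOrderedCommGroupWithZero Γ₀]
  {v : Valuation K Γ₀}

lemma y_integral {W : WeierstrassCurve K} (hW : VInt v W) {x y : K}
    (h : W.toAffine.Equation x y) (hx : v x ≤ 1) : v y ≤ 1 := by
  by_contra hy
  rw [not_le] at hy
  rw [equation_iff] at h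
  have h1 : v (x ^ 3 + W.a₂ * x ^ 2 + W.a₄ * x + W.a₆) ≤ 1 :=
    v_add_le (v_add_le (v_add_le (v_pow_le_one hx 3) (v_mul_le' hW.a₂ (v_pow_le_one hx 2)))
      (v_mul_le' hW.a₄ hx)) hW.a₆
  have h2 : v (W.a₁ * x * y + W.a₃ * y) < v (y ^ 2) := by
    have : v (W.a₁ * x * y + W.a₃ * y) ≤ v y :=
      v_add_le (v_mul_le' (v_mul_le' hW.a₁ hx) le_rfl) (v_mul_le' hW.a₃ le_rfl)
    refine this.trans_lt ?_
    rw [map_pow]
    simpa using pow_lt_pow_right₀ hy (show 1 < 2 by norm_num)
  have h3 : v (y ^ 2 + W.a₁ * x * y + W.a₃ * y) = v y ^ 2 := by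
    rw [add_assoc, Valuation.map_add_eq_of_lt_left v h2, map_pow]
  rw [h] at h3
  rw [h3] at h1
  exact absurd h1 (not_le.mpr (one_lt_pow₀ hy (by norm_num)))

/-- If the slope is not integral then neither is the `X`-coordinate of the sum. -/
lemma addX_not_integral {W : WeierstrassCurve K} (hW : VInt v W) {x₁ x₂ l : K}
    (hx₁ : v x₁ ≤ 1) (hx₂ : v x₂ ≤ 1) (hl : 1 < v l) : 1 < v (W.toAffine.addX x₁ x₂ l) := by
  have h2 : v (W.a₁ * l - W.a₂ - x₁ - x₂) < v (l ^ 2) := by
    have : v (W.a₁ * l - W.a₂ - x₁ - x₂) ≤ v l :=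
      v_sub_le (v_sub_le (v_sub_le (v_mul_le' hW.a₁ le_rfl) (hW.a₂.trans hl.le))
        (hx₁.trans hl.le)) (hx₂.trans hl.le)
    refine this.trans_lt ?_
    rw [map_pow]
    simpa using pow_lt_pow_right₀ hl (show 1 < 2 by norm_num)
  have h3 : W.toAffine.addX x₁ x₂ l = l ^ 2 + (W.a₁ * l - W.a₂ - x₁ - x₂) := by
    simp only [addX]; ring
  rw [h3, Valuation.map_add_eq_of_lt_left v h2, map_pow]
  exact one_lt_pow₀ hl (by norm_num)

lemma one_lt_of_mul_eq {a b c : K} (h : a * b = c) (hc : v c = 1) (hb : v b < 1) : 1 < v a := by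
  by_contra hle
  rw [not_lt] at hle
  have : v c < 1 := by
    rw [← h, map_mul]
    exact (mul_le_mul_left hle _).trans_lt (by simpa using hb)
  rw [hc] at this
  exact lt_irrefl _ this

lemma v_eq_one_of_add {a b : K} (ha : v a = 1) (hb : v b < 1) : v (a + b) = 1 := by
  rw [Valuation.map_add_eq_of_lt_left v (by rw [ha]; exact hb), ha]

variable [DecidableEq K]

/-- Two integral points with the same nonsingular reduction differ by a point in the kernel
of reduction. -/
theorem sub_of_same_reduction {W : WeierstrassCurve K} (hW : VInt v W) {x y x' y' : K}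
    (h : W.toAffine.Nonsingular x y) (h' : W.toAffine.Nonsingular x' y')
    (hx : v x ≤ 1) (dx : v (x' - x) < 1) (dy : v (y' - y) < 1)
    (hns : v (2 * y + W.a₁ * x + W.a₃) = 1 ∨
      v (3 * x ^ 2 + 2 * W.a₂ * x + W.a₄ - W.a₁ * y) = 1) :
    (.some x' y' h' : W.toAffine.Point) = .some x y h ∨
      ∃ X Y H, (.some x' y' h' : W.toAffine.Point) - .some x y h = .some X Y H ∧ 1 < v X := by
  have hx' : v x' ≤ 1 := by
    have : x' = x + (x' - x) := by ring
    rw [this]
    exact v_add_le hx dx.le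
  by_cases hxy : x' = x ∧ y' = W.toAffine.negY x (W.toAffine.negY x y)
  · left
    rw [negY_negY] at hxy
    obtain ⟨rfl, rfl⟩ := hxy
    rfl
  right
  rw [sub_eq_add_neg, Point.neg_some, Point.add_some hxy]
  refine ⟨_, _, _, rfl, ?_⟩
  set l := W.toAffine.slope x' x y' (W.toAffine.negY x y) with hl
  apply addX_not_integral hW hx' hx
  have heq := (equation_iff _ _).mp h.1
  have heq' := (equation_iff _ _).mp h'.1
  have key2 : l * (y' - y) = x' ^ 2 + x' * x + x ^ 2 + W.a₂ * (x + x') + W.a₄ - W.a₁ * y' := by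
    by_cases hxx : x' = x
    · have hy : y' ≠ W.toAffine.negY x (W.toAffine.negY x y) := fun h => hxy ⟨hxx, h⟩
      rw [slope_of_Y_ne hxx hy] at hl
      have hy2 : y' = W.toAffine.negY x y := by
        rcases Y_eq_of_X_eq h'.1 h.1 hxx with h1 | h1
        · exact absurd (by rw [h1, negY_negY]) hy
        · exact h1
      rw [negY_negY] at hy
      have e : W.toAffine.negY x' y' = y := by rw [hxx, hy2, negY_negY]
      rw [e] at hl
      have hne : y' - y ≠ 0 := sub_ne_zero.mpr hy
      rw [hl, div_mul_cancel₀ _ hne, hxx]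
      ring
    · rw [slope_of_X_ne hxx] at hl
      have hne : x' - x ≠ 0 := sub_ne_zero.mpr hxx
      rw [hl, div_mul_eq_mul_div, div_eq_iff hne]
      simp only [negY]
      linear_combination heq' - heq
  rcases hns with hns | hns
  · -- `2y + a₁x + a₃` is a unit
    have hxx : x' ≠ x := by
      intro hxx
      have hy : y' ≠ W.toAffine.negY x (W.toAffine.negY x y) := fun h => hxy ⟨hxx, h⟩
      have hy2 : y' = W.toAffine.negY x y := by
        rcases Y_eq_of_X_eq h'.1 h.1 hxx with h1 | h1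
        · exact absurd (by rw [h1, negY_negY]) hy
        · exact h1
      have : 2 * y + W.a₁ * x + W.a₃ = -(y' - y) := by
        rw [hy2]; simp only [negY]; ring
      rw [this, Valuation.map_neg] at hns
      rw [hns] at dy
      exact lt_irrefl _ dy
    have key1 : l * (x' - x) = (2 * y + W.a₁ * x + W.a₃) + (y' - y) := by
      rw [slope_of_X_ne hxx] at hl
      have hne : x' - x ≠ 0 := sub_ne_zero.mpr hxx
      rw [hl, div_mul_cancel₀ _ hne]
      simp only [negY]
      ring
    exact one_lt_of_mul_eq key1 (v_eq_one_of_add hns dy) dx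
  · have key3 : l * (y' - y) = (3 * x ^ 2 + 2 * W.a₂ * x + W.a₄ - W.a₁ * y) +
      ((x' + 2 * x + W.a₂) * (x' - x) - W.a₁ * (y' - y)) := by
      rw [key2]; ring
    refine one_lt_of_mul_eq key3 (v_eq_one_of_add hns ?_) dy
    refine (Valuation.map_sub _ _ _).trans_lt (max_lt ?_ ?_)
    · exact (v_mul_le' (v_add_le (v_add_le hx' (v_mul_le' v_two_le hx)) hW.a₂) le_rfl).trans_lt dx
    · exact (v_mul_le' hW.a₁ le_rfl).trans_lt dy

omit [DecidableEq K] in
/-- If the discriminant is a unit then every integral point has nonsingular reduction. -/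
theorem nonsing_of_unit_disc {W : WeierstrassCurve K} (hW : VInt v W) (hΔ : v W.Δ = 1) {x y : K}
    (h : W.toAffine.Equation x y) (hx : v x ≤ 1) :
    v (2 * y + W.a₁ * x + W.a₃) = 1 ∨
      v (3 * x ^ 2 + 2 * W.a₂ * x + W.a₄ - W.a₁ * y) = 1 := by
  have hy := y_integral hW h hx
  by_contra hcon
  rw [not_or] at hcon
  have hb3 : v (2 * y + W.a₁ * x + W.a₃) ≤ 1 :=
    v_add_le (v_add_le (v_mul_le' v_two_le hy) (v_mul_le' hW.a₁ hx)) hW.a₃
  have hb4 : v (3 * x ^ 2 + 2 * W.a₂ * x + W.a₄ - W.a₁ * y) ≤ 1 :=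
    v_sub_le (v_add_le (v_add_le (v_mul_le' v_three_le (v_pow_le_one hx 2))
      (v_mul_le' (v_mul_le' v_two_le hW.a₂) hx)) hW.a₄) (v_mul_le' hW.a₁ hy)
  have h3 := lt_of_le_of_ne hb3 hcon.1
  have h4 := lt_of_le_of_ne hb4 hcon.2
  rw [equation_iff] at h
  set A := 2 * y + W.a₁ * x + W.a₃ with hA
  set B := 3 * x ^ 2 + 2 * W.a₂ * x + W.a₄ - W.a₁ * y with hB
  set c := W.a₂ + 3 * x with hc
  have hcv : v c ≤ 1 := v_add_le hW.a₂ (v_mul_le' v_three_le hx)
  set d := W.a₁ ^ 2 + 4 * c with hd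
  have h4le : v (4 : K) ≤ 1 := by exact_mod_cast v_nat_le (v := v) 4
  have h8le : v (8 : K) ≤ 1 := by exact_mod_cast v_nat_le (v := v) 8
  have h27le : v (27 : K) ≤ 1 := by exact_mod_cast v_nat_le (v := v) 27
  have h9le : v (9 : K) ≤ 1 := by exact_mod_cast v_nat_le (v := v) 9
  have hdv : v d ≤ 1 := v_add_le (v_pow_le_one hW.a₁ 2) (v_mul_le' h4le hcv)
  have key : W.Δ = -d ^ 2 * (-W.a₁ * A * B + c * A ^ 2 - B ^ 2) - 8 * (2 * B + W.a₁ * A) ^ 3
      - 27 * (A ^ 2) ^ 2 + 9 * d * (2 * B + W.a₁ * A) * A ^ 2 := by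
    have e : W.a₆ = y ^ 2 + W.a₁ * x * y + W.a₃ * y - x ^ 3 - W.a₂ * x ^ 2 - W.a₄ * x := by
      linear_combination -h
    simp only [WeierstrassCurve.Δ, WeierstrassCurve.b₂, WeierstrassCurve.b₄, WeierstrassCurve.b₆,
      WeierstrassCurve.b₈]
    rw [e, hd, hc, hA, hB]
    ring
  have hlt : v W.Δ < 1 := by
    rw [key]
    have aux : ∀ {a b : K}, v a ≤ 1 → v b < 1 → v (a * b) < 1 := by
      intro a b ha hb
      exact (v_mul_le' ha le_rfl).trans_lt hb
    have hadd : ∀ {a b : K}, v a < 1 → v b < 1 → v (a + b) < 1 := fun ha hb =>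
      (v.map_add _ _).trans_lt (max_lt ha hb)
    have hsub : ∀ {a b : K}, v a < 1 → v b < 1 → v (a - b) < 1 := fun ha hb =>
      (Valuation.map_sub _ _ _).trans_lt (max_lt ha hb)
    have hpow : ∀ {a : K} {n : ℕ}, n ≠ 0 → v a < 1 → v (a ^ n) < 1 := fun hn ha => by
      rw [map_pow]; exact pow_lt_one₀ zero_le ha hn
    have hBA : v (2 * B + W.a₁ * A) < 1 := hadd (aux v_two_le h4) (aux hW.a₁ h3)
    refine hadd (hsub (hsub ?_ ?_) ?_) ?_
    · refine aux (by rw [Valuation.map_neg]; exact v_pow_le_one hdv 2) ?_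
      refine hsub (hadd ?_ ?_) (hpow (by norm_num) h4)
      · refine aux ?_ h4
        exact v_mul_le' (by rw [Valuation.map_neg]; exact hW.a₁) h3.le
      · exact aux hcv (hpow (by norm_num) h3)
    · exact aux h8le (hpow (by norm_num) hBA)
    · exact aux h27le (hpow (by norm_num) (hpow (by norm_num) h3))
    · refine aux (v_mul_le' (v_mul_le' h9le hdv) hBA.le) (hpow (by norm_num) h3)
  rw [hΔ] at hlt
  exact lt_irrefl _ hlt

/-- Data of an automorphism acting trivially on the residue field, together with the induced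
action on the points of `W`. -/
structure InertiaAction (v : Valuation K Γ₀) (W : WeierstrassCurve K) (σ : K →+* K)
    (φ : W.toAffine.Point →+ W.toAffine.Point) : Prop where
  residue : ∀ x : K, v x ≤ 1 → v (σ x - x) < 1
  action : ∀ (x y : K) (h : W.toAffine.Nonsingular x y), ∃ h', φ (.some x y h) = .some (σ x) (σ y) h'

variable {W : WeierstrassCurve K} {σ : K →+* K} {φ : W.toAffine.Point →+ W.toAffine.Point}

/-- Torsion points (of order prime to the residue characteristic) with nonsingular reduction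
are fixed by inertia. -/
theorem InertiaAction.fixed_of_nonsing (H : InertiaAction v W σ φ) (hW : VInt v W) {n : ℕ}
    (hn : v (n : K) = 1) {x y : K} {h : W.toAffine.Nonsingular x y}
    (hP : n • (.some x y h : W.toAffine.Point) = 0)
    (hns : v (2 * y + W.a₁ * x + W.a₃) = 1 ∨
      v (3 * x ^ 2 + 2 * W.a₂ * x + W.a₄ - W.a₁ * y) = 1) :
    φ (.some x y h) = .some x y h := by
  have hx : v x ≤ 1 := integral_of_torsion hW hn hP
  have hy := y_integral hW h.1 hx
  obtain ⟨h', hφ⟩ := H.action x y h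
  rw [hφ]
  rcases sub_of_same_reduction hW h h' hx (H.residue x hx) (H.residue y hy) hns with h1 | h1
  · exact h1
  · exfalso
    obtain ⟨X, Y, HXY, h2, h3⟩ := h1
    have h4 : n • (.some X Y HXY : W.toAffine.Point) = 0 := by
      rw [← h2, ← hφ, smul_sub, ← map_nsmul, hP, map_zero, sub_zero]
    exact absurd (integral_of_torsion hW hn h4) (not_le.mpr h3)

/-- Good reduction: all torsion points of order prime to the residue characteristic are
fixed by inertia. -/
theorem InertiaAction.fixed_of_good (H : InertiaAction v W σ φ) (hW : VInt v W)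
    (hΔ : v W.Δ = 1) {n : ℕ} (hn : v (n : K) = 1) {P : W.toAffine.Point} (hP : n • P = 0) :
    φ P = P := by
  rcases P with _ | ⟨x, y, h⟩
  · exact map_zero φ
  · exact H.fixed_of_nonsing hW hn hP
      (nonsing_of_unit_disc hW hΔ h.1 (integral_of_torsion hW hn hP))

end Fermat.Agent.EC
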