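import Fermat.Agent.EC.NodeTors
import Fermat.Agent.EC.MultInertia

set_option autoImplicit false
set_option linter.unusedSectionVars false

/-!
# The `p`-torsion at a multiplicative place above `p`
-/

open WeierstrassCurve WeierstrassCurve.Affine Polynomial

noncomputable section

namespace Fermat.Agent.EC

section Gauss

variable {K : Type*} [Field K] {Γ₀ : Type*} [LinearOrderedCommGroupWithZero Γ₀]
  {v : Valuation K Γ₀} {W : WeierstrassCurve K} [DecidableEq K] [IsAlgClosed K] [W.IsElliptic]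

/-- The reduction of the division polynomial. -/
theorem MultForm.exists_red (hM : MultForm v W) {p : ℕ} (hp3 : 3 ≤ p) :
    ∃ F : v.valuationSubring[X], F.map (algebraMap v.valuationSubring K) = W.preΨ p ∧
      F.map (resMap v) ≠ 0 ∧ (F.map (resMap v)).eval 0 = 0 := by
  classical
  have hW := hM.vint
  let W₀ : WeierstrassCurve v.valuationSubring :=
    ⟨⟨W.a₁, hW.a₁⟩, ⟨W.a₂, hW.a₂⟩, ⟨W.a₃, hW.a₃⟩, ⟨W.a₄, hW.a₄⟩, ⟨W.a₆, hW.a₆⟩⟩
  have hmap : W₀.map (algebraMap v.valuationSubring K) = W := rfl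
  let r := resMap v
  let Wr : WeierstrassCurve (resCl v) := W₀.map r
  have h₃ : Wr.a₃ = 0 := (resMap_eq_zero v).mpr (hM.a₃.trans_lt hM.a₆)
  have h₄ : Wr.a₄ = 0 := (resMap_eq_zero v).mpr (hM.a₄.trans_lt hM.a₆)
  have h₆ : Wr.a₆ = 0 := (resMap_eq_zero v).mpr hM.a₆
  have hb₂ : Wr.b₂ ≠ 0 := by
    change (W₀.map r).b₂ ≠ 0
    rw [WeierstrassCurve.map_b₂]
    intro h
    have h1 := (resMap_eq_zero v).mp h
    have h2 : ((W₀.b₂ : v.valuationSubring) : K) = W.b₂ := by
      have := WeierstrassCurve.map_b₂ W₀ (algebraMap v.valuationSubring K)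
      rw [hmap] at this
      exact this.symm
    rw [h2, hM.b₂] at h1
    exact lt_irrefl _ h1
  obtain ⟨α, hα⟩ : ∃ α : resCl v, α ^ 2 + Wr.a₁ * α - Wr.a₂ = 0 := by
    have hdeg : (X ^ 2 + C Wr.a₁ * X - C Wr.a₂ : (resCl v)[X]).degree ≠ 0 := by
      have : (X ^ 2 + C Wr.a₁ * X - C Wr.a₂ : (resCl v)[X]).degree = 2 := by
        compute_degree!
      rw [this]
      decide
    obtain ⟨α, hα⟩ := IsAlgClosed.exists_root _ hdeg
    refine ⟨α, ?_⟩
    simpa [IsRoot] using hα
  have h₁ : Wr.a₁ = -(α + (-Wr.a₁ - α)) := by ring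
  have h₂ : Wr.a₂ = -(α * (-Wr.a₁ - α)) := by linear_combination -hα
  have hαβ : α ≠ -Wr.a₁ - α := by
    intro h
    apply hb₂
    rw [WeierstrassCurve.b₂]
    linear_combination (-4 : resCl v) * hα + (2 * α + Wr.a₁) * h
  have hinf : Infinite (resCl v) := IsAlgClosed.instInfinite
  refine ⟨W₀.preΨ p, ?_, ?_, ?_⟩
  · exact (WeierstrassCurve.map_preΨ W₀ (algebraMap v.valuationSubring K) (p : ℤ)).symm
  · have h := WeierstrassCurve.map_preΨ W₀ r (p : ℤ)
    rw [← h]
    exact node_prePsi_ne_zero h₁ h₂ h₃ h₄ h₆ hαβ (n := p) (by omega)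
  · have h := WeierstrassCurve.map_preΨ W₀ r (p : ℤ)
    rw [← h]
    have h5 : Wr.preΨ (p : ℤ) = Wr.preΨ' p := WeierstrassCurve.preΨ_ofNat _ _
    change (Wr.preΨ (p : ℤ)).eval 0 = 0
    rw [h5]
    exact prePsi_eval_node Wr h₃ h₄ h₆ hp3

/-- The product of the large `x`-coordinates. -/
theorem MultForm.prod_big (hM : MultForm v W) {p : ℕ} (hp : (p : K) ≠ 0) (hp3 : 3 ≤ p)
    (hodd : Odd p) :
    v (p : K) * ∏ x ∈ (ECT.xtors W hp).filter (fun x => 1 < v x), v x = 1 := by
  classical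
  obtain ⟨F, hF, hF0, -⟩ := hM.exists_red hp3
  set B := (ECT.xtors W hp).filter (fun x => 1 < v x) with hB
  set S := (ECT.xtors W hp).filter (fun x => ¬ 1 < v x) with hS
  have hBm : ∀ x ∈ B, 1 < v x := fun x hx => (Finset.mem_filter.mp hx).2
  have hSm : ∀ x ∈ S, v x ≤ 1 := fun x hx => not_lt.mp (Finset.mem_filter.mp hx).2
  have hB0 : ∀ x ∈ B, x ≠ 0 := fun x hx h => by
    have := hBm x hx
    rw [h, map_zero] at this
    exact absurd this (not_lt.mpr zero_le)
  let u : K → v.valuationSubring := fun x => if h : v x⁻¹ ≤ 1 then ⟨x⁻¹, h⟩ else 0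
  let w : K → v.valuationSubring := fun x => if h : v x ≤ 1 then ⟨x, h⟩ else 0
  have hu : ∀ x ∈ B, ((u x : v.valuationSubring) : K) = x⁻¹ := fun x hx => by
    have h : v x⁻¹ ≤ 1 := by
      rw [map_inv₀]
      exact inv_le_one_of_one_le₀ (hBm x hx).le
    simp only [u, dif_pos h]
  have hur : ∀ x ∈ B, resMap v (u x) = 0 := fun x hx => by
    rw [resMap_eq_zero, hu x hx, map_inv₀]
    exact inv_lt_one_of_one_lt₀ (hBm x hx)
  have hw : ∀ x ∈ S, ((w x : v.valuationSubring) : K) = x := fun x hx => by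
    simp only [w, dif_pos (hSm x hx)]
  let G : v.valuationSubring[X] := (∏ x ∈ B, (1 - C (u x) * X)) * ∏ x ∈ S, (X - C (w x))
  have hGr : G.map (resMap v) = ∏ x ∈ S, (X - C (resMap v (w x))) := by
    simp only [G, Polynomial.map_mul, Polynomial.map_prod, Polynomial.map_sub,
      Polynomial.map_one, map_C, map_X]
    rw [Finset.prod_congr rfl (fun x hx => by rw [hur x hx]), map_zero]
    simp
  let c₀ : K := p * ∏ x ∈ B, (-x)
  have hGK : W.preΨ p = C c₀ * G.map (algebraMap v.valuationSubring K) := by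
    have e1 : (∏ x ∈ ECT.xtors W hp, (X - C x) : K[X]) = (∏ x ∈ B, (X - C x)) *
        ∏ x ∈ S, (X - C x) := (Finset.prod_filter_mul_prod_filter_not _ _ _).symm
    have e2 : (∏ x ∈ B, (X - C x) : K[X]) = C (∏ x ∈ B, (-x)) * ∏ x ∈ B, (1 - C x⁻¹ * X) := by
      rw [map_prod, ← Finset.prod_mul_distrib]
      refine Finset.prod_congr rfl fun x hx => ?_
      have h0 := hB0 x hx
      have h1 : (C x : K[X]) * C x⁻¹ = 1 := by rw [← C_mul, mul_inv_cancel₀ h0, C_1]
      rw [map_neg]
      linear_combination -X * h1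
    rw [ECT.prePsi_eq_prod hp hodd, e1, e2]
    simp only [G, Polynomial.map_mul, Polynomial.map_prod, Polynomial.map_sub,
      Polynomial.map_one, map_C, map_X, c₀, C_mul]
    have e3 : (∏ x ∈ B, (1 - C ((algebraMap v.valuationSubring K) (u x)) * X) : K[X]) =
        ∏ x ∈ B, (1 - C x⁻¹ * X) := Finset.prod_congr rfl fun x hx => by
      rw [show (algebraMap v.valuationSubring K) (u x) = x⁻¹ from hu x hx]
    have e4 : (∏ x ∈ S, (X - C ((algebraMap v.valuationSubring K) (w x))) : K[X]) =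
        ∏ x ∈ S, (X - C x) := Finset.prod_congr rfl fun x hx => by
      rw [show (algebraMap v.valuationSubring K) (w x) = x from hw x hx]
    rw [e3, e4]
    ring
  have hcoef : ∀ i, ((F.coeff i : v.valuationSubring) : K) = c₀ * (G.coeff i : K) := by
    intro i
    have h1 := congrArg (fun P : K[X] => P.coeff i) (hF.trans hGK)
    simp only [coeff_map, coeff_C_mul] at h1
    exact h1
  have hmon : (∏ x ∈ S, (X - C (resMap v (w x)))).Monic :=
    monic_prod_of_monic _ _ fun x _ => monic_X_sub_C _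
  have hGn : v ((G.coeff (∏ x ∈ S, (X - C (resMap v (w x)))).natDegree : v.valuationSubring) : K) =
      1 := by
    refine le_antisymm (G.coeff _).2 (not_lt.mp fun h => ?_)
    rw [← resMap_eq_zero, ← coeff_map, hGr, hmon.coeff_natDegree] at h
    exact one_ne_zero h
  have hc1 : v c₀ ≤ 1 := by
    have h1 := (F.coeff (∏ x ∈ S, (X - C (resMap v (w x)))).natDegree).2
    have h2 := hcoef (∏ x ∈ S, (X - C (resMap v (w x)))).natDegree
    have h3 : v ((F.coeff (∏ x ∈ S, (X - C (resMap v (w x)))).natDegree : v.valuationSubring) : K)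
      ≤ 1 := h1
    rw [h2, map_mul, hGn, mul_one] at h3
    exact h3
  have hc2 : v c₀ = 1 := by
    refine le_antisymm hc1 (not_lt.mp fun h => hF0 ?_)
    ext i
    rw [coeff_map, coeff_zero, resMap_eq_zero, hcoef, map_mul]
    exact (mul_le_of_le_one_right' (G.coeff i).2).trans_lt h
  rw [← hc2, map_mul, map_prod]
  congr 1
  exact Finset.prod_congr rfl fun x _ => (Valuation.map_neg v x).symm

end Gauss

section EZero

variable {K : Type*} [Field K] {Γ₀ : Type*} [LinearOrderedCommGroupWithZero Γ₀]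
  {v : Valuation K Γ₀} {W : WeierstrassCurve K} [DecidableEq K]

/-- Points with nonsingular reduction. -/
def InE0 (v : Valuation K Γ₀) (P : W.toAffine.Point) : Prop := P = 0 ∨ 1 ≤ v (xc P)

lemma inE0_neg {P : W.toAffine.Point} (h : InE0 v P) : InE0 v (-P) := by
  rcases h with rfl | h
  · exact Or.inl neg_zero
  · right
    rwa [ECT.xc_neg]

lemma InKer.inE0 {P : W.toAffine.Point} (h : InKer v P) : InE0 v P := by
  rcases h with rfl | h
  · exact Or.inl rfl
  · exact Or.inr h.le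

/-- The points with nonsingular reduction form a subgroup. -/
theorem MultForm.inE0_add (hM : MultForm v W) {P Q : W.toAffine.Point} (hP : InE0 v P)
    (hQ : InE0 v Q) : InE0 v (P + Q) := by
  rcases hP with rfl | hP
  · rw [zero_add]; exact hQ
  rcases hQ with rfl | hQ
  · rw [add_zero]; exact Or.inr hP
  by_cases hP0 : P = 0
  · rw [hP0, zero_add]; exact Or.inr hQ
  by_cases hQ0 : Q = 0
  · rw [hQ0, add_zero]; exact Or.inr hP
  have hb4 : v W.b₄ < 1 := hM.b₄_le.trans_lt hM.a₆
  have hb6 : v W.b₆ < 1 := hM.b₆_le.trans_lt hM.a₆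
  have hb8 : v W.b₈ < 1 := hM.b₈_eq.trans_lt hM.a₆
  by_cases hne : xc P = xc Q
  · rcases eq_or_eq_neg_of_xc hP0 hQ0 hne with h | h
    · by_cases h2 : P + Q = 0
      · exact Or.inl h2
      right
      rw [h] at h2 ⊢
      have h3 := xc_dbl hQ0 h2
      obtain ⟨x, hx⟩ : ∃ x, x = xc Q := ⟨_, rfl⟩
      rw [← hx] at h3 hQ
      have hx0 : x ≠ 0 := by
        rintro rfl
        rw [map_zero] at hQ
        exact absurd zero_lt_one (not_lt.mpr hQ)
      have hpow : ∀ n : ℕ, 1 ≤ v x ^ n := fun n => one_le_pow₀ hQ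
      have hmono : ∀ m n : ℕ, m ≤ n → v x ^ m ≤ v x ^ n := fun m n h => pow_le_pow_right₀ hQ h
      have h4 : v (x ^ 4 - W.b₄ * x ^ 2 - 2 * W.b₆ * x - W.b₈) = v x ^ 4 := by
        have e1 : v (W.b₄ * x ^ 2 + 2 * W.b₆ * x + W.b₈) < v (x ^ 4) := by
          rw [map_pow]
          refine v_add_lt (v_add_lt ?_ ?_) (hb8.trans_le (hpow 4))
          · rw [map_mul, map_pow]
            calc v W.b₄ * v x ^ 2 < 1 * v x ^ 2 :=
                  mul_lt_mul_of_pos_right hb4 (zero_lt_one.trans_le (hpow 2))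
              _ = v x ^ 2 := one_mul _
              _ ≤ _ := hmono 2 4 (by norm_num)
          · rw [map_mul, map_mul]
            calc v 2 * v W.b₆ * v x ≤ 1 * v W.b₆ * v x :=
                  mul_le_mul' (mul_le_mul' v_two_le le_rfl) le_rfl
              _ = v W.b₆ * v x := by rw [one_mul]
              _ < 1 * v x := mul_lt_mul_of_pos_right hb6 (zero_lt_one.trans_le hQ)
              _ = v x ^ 1 := by rw [one_mul, pow_one]
              _ ≤ _ := hmono 1 4 (by norm_num)
        have e2 : x ^ 4 - W.b₄ * x ^ 2 - 2 * W.b₆ * x - W.b₈ =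
            x ^ 4 - (W.b₄ * x ^ 2 + 2 * W.b₆ * x + W.b₈) := by ring
        rw [e2, Valuation.map_sub_eq_of_lt_left v e1, map_pow]
      have h5 : v (4 * x ^ 3 + W.b₂ * x ^ 2 + 2 * W.b₄ * x + W.b₆) ≤ v x ^ 3 := by
        have h44 : v (4 : K) ≤ 1 := by exact_mod_cast v_nat_le (v := v) 4
        refine v_add_le (v_add_le (v_add_le ?_ ?_) ?_) (hb6.le.trans (hpow 3))
        · rw [map_mul, map_pow]
          exact mul_le_of_le_one_left' h44
        · rw [map_mul, map_pow, hM.b₂, one_mul]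
          exact hmono 2 3 (by norm_num)
        · rw [map_mul, map_mul]
          calc v 2 * v W.b₄ * v x ≤ 1 * 1 * v x :=
                mul_le_mul' (mul_le_mul' v_two_le hb4.le) le_rfl
            _ = v x ^ 1 := by rw [one_mul, one_mul, pow_one]
            _ ≤ _ := hmono 1 3 (by norm_num)
      by_contra hlt
      rw [not_le] at hlt
      have h6 := congrArg v h3
      rw [h4, map_mul] at h6
      have h7 : v (xc (Q + Q)) * v (4 * x ^ 3 + W.b₂ * x ^ 2 + 2 * W.b₄ * x + W.b₆) <
          v x ^ 4 := by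
        calc _ ≤ v (xc (Q + Q)) * v x ^ 3 := mul_le_mul' le_rfl h5
          _ < 1 * v x ^ 3 := mul_lt_mul_of_pos_right hlt (zero_lt_one.trans_le (hpow 3))
          _ = v x ^ 3 := one_mul _
          _ ≤ v x ^ 4 := hmono 3 4 (by norm_num)
      rw [h6] at h7
      exact lt_irrefl _ h7
    · left
      rw [h, neg_add_cancel]
  · right
    have h1 := xc_mul hP0 hQ0 hne
    have h2 := ECT.xc_add hP0 hQ0 hne
    obtain ⟨x, hx⟩ : ∃ x, x = xc P := ⟨_, rfl⟩
    obtain ⟨X, hX⟩ : ∃ X, X = xc Q := ⟨_, rfl⟩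
    obtain ⟨a, ha⟩ : ∃ a, a = xc (P + Q) := ⟨_, rfl⟩
    obtain ⟨b, hb⟩ : ∃ b, b = xc (P - Q) := ⟨_, rfl⟩
    rw [← hx, ← hX, ← ha, ← hb] at h1 h2
    rw [← hx] at hP
    rw [← hX] at hQ
    rw [← hx, ← hX] at hne
    rw [← ha]
    have hx1 : v x ≤ v x * v X := le_mul_of_one_le_right' hQ
    have hX1 : v X ≤ v x * v X := le_mul_of_one_le_left' hP
    have hM1 : 1 ≤ v x * v X := hP.trans hx1
    have hMM : v x * v X ≤ (v x * v X) ^ 2 := by
      rw [sq]
      exact le_mul_of_one_le_right' hM1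
    have hM2 : 1 ≤ (v x * v X) ^ 2 := hM1.trans hMM
    have hsum : v (x + X) ≤ v x * v X := v_add_le hx1 hX1
    have hd : v (x - X) ≤ v x * v X := v_sub_le hx1 hX1
    have hd0 : 0 < v (x - X) ^ 2 :=
      pow_pos (zero_lt_iff.mpr ((Valuation.ne_zero_iff v).mpr (sub_ne_zero.mpr hne))) 2
    have h3 : v ((x - X) ^ 2 * (a * b)) = (v x * v X) ^ 2 := by
      rw [h1]
      have e1 : v (W.b₄ * (x * X) + W.b₆ * (x + X) + W.b₈) < v (x ^ 2 * X ^ 2) := by
        have e3 : v (x ^ 2 * X ^ 2) = (v x * v X) ^ 2 := by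
          rw [map_mul, map_pow, map_pow, mul_pow]
        rw [e3]
        refine v_add_lt (v_add_lt ?_ ?_) (hb8.trans_le hM2)
        · rw [map_mul, map_mul]
          calc v W.b₄ * (v x * v X) < 1 * (v x * v X) :=
                mul_lt_mul_of_pos_right hb4 (zero_lt_one.trans_le hM1)
            _ = v x * v X := one_mul _
            _ ≤ _ := hMM
        · rw [map_mul]
          calc v W.b₆ * v (x + X) ≤ v W.b₆ * (v x * v X) := mul_le_mul' le_rfl hsum
            _ < 1 * (v x * v X) := mul_lt_mul_of_pos_right hb6 (zero_lt_one.trans_le hM1)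
            _ = v x * v X := one_mul _
            _ ≤ _ := hMM
      have e2 : x ^ 2 * X ^ 2 - W.b₄ * (x * X) - W.b₆ * (x + X) - W.b₈ =
          x ^ 2 * X ^ 2 - (W.b₄ * (x * X) + W.b₆ * (x + X) + W.b₈) := by ring
      rw [e2, Valuation.map_sub_eq_of_lt_left v e1, map_mul, map_pow, map_pow, mul_pow]
    have h4 : v ((x - X) ^ 2 * (a + b)) ≤ (v x * v X) ^ 2 := by
      rw [h2]
      refine v_add_le (v_add_le (v_add_le ?_ ?_) ?_) (hb6.le.trans hM2)
      · rw [map_mul, map_mul, map_mul, sq]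
        calc v 2 * v x * v X * v (x + X) ≤ 1 * v x * v X * (v x * v X) :=
              mul_le_mul' (mul_le_mul' (mul_le_mul' v_two_le le_rfl) le_rfl) hsum
          _ = _ := by rw [one_mul]
      · rw [map_mul, map_mul, hM.b₂, one_mul]
        exact hMM
      · rw [map_mul]
        calc v W.b₄ * v (x + X) ≤ 1 * (v x * v X) := mul_le_mul' hb4.le hsum
          _ = v x * v X := one_mul _
          _ ≤ _ := hMM
    by_contra hlt
    rw [not_le] at hlt
    rw [map_mul, map_mul, map_pow] at h3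
    rw [map_mul, map_pow] at h4
    -- `v b > v (a + b)`
    have h5 : v b ≤ v (a + b) := by
      by_contra hcon
      rw [not_le] at hcon
      have e1 : v b = v ((a + b) - a) := by congr 1; ring
      have e2 : v ((a + b) - a) ≤ max (v (a + b)) (v a) := Valuation.map_sub _ _ _
      rw [← e1] at e2
      rcases le_max_iff.mp e2 with e3 | e3
      · exact absurd hcon (not_lt.mpr e3)
      · -- `v b ≤ v a < 1`
        have e4 : v a * v b < 1 := (mul_le_of_le_one_right' (e3.trans hlt.le)).trans_lt hlt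
        have e5 : v (x - X) ^ 2 * (v a * v b) < (v x * v X) ^ 2 := by
          calc v (x - X) ^ 2 * (v a * v b) < v (x - X) ^ 2 * 1 :=
                mul_lt_mul_of_pos_left e4 hd0
            _ = v (x - X) ^ 2 := mul_one _
            _ ≤ _ := pow_le_pow_left' hd 2
        rw [h3] at e5
        exact lt_irrefl _ e5
    have h6 : v (x - X) ^ 2 * v b ≤ (v x * v X) ^ 2 := (mul_le_mul' le_rfl h5).trans h4
    have hb0 : 0 < v (x - X) ^ 2 * v b := by
      refine mul_pos hd0 (zero_lt_iff.mpr fun h => ?_)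
      rw [h, mul_zero, mul_zero] at h3
      rw [← h3] at hM2
      exact absurd zero_lt_one (not_lt.mpr hM2)
    have h7 : v (x - X) ^ 2 * (v a * v b) < (v x * v X) ^ 2 := by
      calc v (x - X) ^ 2 * (v a * v b) = v a * (v (x - X) ^ 2 * v b) := by
            rw [mul_left_comm]
        _ < 1 * (v (x - X) ^ 2 * v b) := mul_lt_mul_of_pos_right hlt hb0
        _ = v (x - X) ^ 2 * v b := one_mul _
        _ ≤ _ := h6
    rw [h3] at h7
    exact lt_irrefl _ h7

end EZero

end Fermat.Agent.EC
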