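import Fermat.Agent.EC.Peu1

set_option autoImplicit false
set_option linter.unusedSectionVars false

/-!
# The `p`-torsion of the kernel of reduction at a multiplicative place above `p`
-/

open WeierstrassCurve WeierstrassCurve.Affine Polynomial

noncomputable section

namespace Fermat.Agent.EC

section Zc

variable {K : Type*} [Field K] {Γ₀ : Type*} [LinearOrderedCommGroupWithZero Γ₀]
  {v : Valuation K Γ₀} {W : WeierstrassCurve K} [DecidableEq K]

lemma v_zc_sq (hW : VInt v W) {P : W.toAffine.Point} (hP : 1 < v (xc P)) :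
    v (zc P) ^ 2 * v (xc P) = 1 := by
  rcases P with _ | ⟨x, y, h⟩
  · change 1 < v (0 : K) at hP
    rw [map_zero] at hP
    exact absurd hP (not_lt.mpr zero_le)
  rw [xc_some] at hP ⊢
  obtain ⟨hy, hw, hz⟩ := zw_of_one_lt hW h.1 hP
  have heq := (equation_iff _ _).mp h.1
  rw [zc_some, ← map_pow, ← map_mul]
  have hx0 : x ≠ 0 := by
    rintro rfl
    rw [map_zero] at hP
    exact absurd hP (not_lt.mpr zero_le)
  have e1 : (x / y) ^ 2 * x = 1 + (W.a₁ * (x / y) + W.a₃ * (1 / y) - W.a₂ * (x / y) * (x / y) -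
      W.a₄ * (x / y) * (1 / y) - W.a₆ * (1 / y) * (1 / y)) := by
    field_simp
    linear_combination -heq
  rw [e1]
  have aux : ∀ {a b : K}, v a ≤ 1 → v b < 1 → v (a * b) < 1 := fun ha hb => v_lt_mul ha hb
  refine v_one_add (v_sub_lt (v_sub_lt (v_sub_lt (v_add_lt ?_ ?_) ?_) ?_) ?_)
  · exact v_lt_mul hW.a₁ hz
  · exact v_lt_mul hW.a₃ hw
  · exact v_lt_mul (v_lt_mul hW.a₂ hz).le hz
  · exact v_lt_mul (v_lt_mul hW.a₄ hz).le hw
  · exact v_lt_mul (v_lt_mul hW.a₆ hw).le hw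

lemma zc_inE (hW : VInt v W) {P : W.toAffine.Point} (hP : 1 < v (xc P)) :
    v (zc P) < 1 ∧ InE v (v (zc P)) P := by
  rcases P with _ | ⟨x, y, h⟩
  · change 1 < v (0 : K) at hP
    rw [map_zero] at hP
    exact absurd hP (not_lt.mpr zero_le)
  rw [xc_some] at hP
  obtain ⟨hy, hw, hz⟩ := zw_of_one_lt hW h.1 hP
  exact ⟨hz, hy, hw, le_rfl⟩

lemma v_zc_le_of_inE {P : W.toAffine.Point} {r : Γ₀} (h : InE v r P) : v (zc P) ≤ r := by
  rcases P with _ | ⟨x, y, h'⟩
  · change v (0 : K) ≤ r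
    rw [map_zero]
    exact zero_le
  · exact h.2.2

lemma v_xc_le_nsmul (hW : VInt v W) {P : W.toAffine.Point} (hP : 1 < v (xc P)) {n : ℕ}
    (hn : 1 < v (xc (n • P))) : v (xc P) ≤ v (xc (n • P)) := by
  obtain ⟨h1, h2⟩ := zc_inE hW hP
  have h3 := v_zc_le_of_inE (InE_nsmul hW h1 h2 n).1
  have h4 := v_zc_sq hW hP
  have h5 := v_zc_sq hW hn
  by_contra hlt
  rw [not_le] at hlt
  have hz0 : 0 < v (zc P) ^ 2 := by
    refine zero_lt_iff.mpr fun h => ?_
    rw [h, zero_mul] at h4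
    exact zero_ne_one h4
  have h6 : v (zc (n • P)) ^ 2 * v (xc (n • P)) < v (zc P) ^ 2 * v (xc P) := by
    calc v (zc (n • P)) ^ 2 * v (xc (n • P)) ≤ v (zc P) ^ 2 * v (xc (n • P)) :=
          mul_le_mul' (pow_le_pow_left' h3 2) le_rfl
      _ < v (zc P) ^ 2 * v (xc P) := mul_lt_mul_of_pos_left hlt hz0
  rw [h4, h5] at h6
  exact lt_irrefl _ h6

/-- The `p`-torsion as a subgroup. -/
def pT (W : WeierstrassCurve K) (p : ℕ) : AddSubgroup W.toAffine.Point where
  carrier := {P | p • P = 0}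
  zero_mem' := smul_zero p
  add_mem' := fun {a b} ha hb => by
    change p • (a + b) = 0
    rw [smul_add, show p • a = 0 from ha, show p • b = 0 from hb, add_zero]
  neg_mem' := fun {a} ha => by
    change p • (-a) = 0
    rw [smul_neg, show p • a = 0 from ha, neg_zero]

/-- The `p`-torsion of the kernel of reduction. -/
def pK (hW : VInt v W) (p : ℕ) : AddSubgroup W.toAffine.Point where
  carrier := {P | p • P = 0 ∧ InKer v P}
  zero_mem' := ⟨smul_zero p, inKer_zero⟩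
  add_mem' := fun {a b} ha hb => by
    refine ⟨?_, inKer_add hW ha.2 hb.2⟩
    rw [smul_add, ha.1, hb.1, add_zero]
  neg_mem' := fun {a} ha => by
    refine ⟨?_, inKer_neg ha.2⟩
    rw [smul_neg, ha.1, neg_zero]

/-- The `p`-torsion of the subgroup of points with nonsingular reduction. -/
def pE (hM : MultForm v W) (p : ℕ) : AddSubgroup W.toAffine.Point where
  carrier := {P | p • P = 0 ∧ InE0 v P}
  zero_mem' := ⟨smul_zero p, Or.inl rfl⟩
  add_mem' := fun {a b} ha hb => by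
    refine ⟨?_, hM.inE0_add ha.2 hb.2⟩
    rw [smul_add, ha.1, hb.1, add_zero]
  neg_mem' := fun {a} ha => by
    refine ⟨?_, inE0_neg ha.2⟩
    rw [smul_neg, ha.1, neg_zero]

lemma mem_pT {p : ℕ} {P : W.toAffine.Point} : P ∈ pT W p ↔ p • P = 0 := Iff.rfl

lemma mem_pK {hW : VInt v W} {p : ℕ} {P : W.toAffine.Point} :
    P ∈ pK hW p ↔ p • P = 0 ∧ InKer v P := Iff.rfl

lemma mem_pE {hM : MultForm v W} {p : ℕ} {P : W.toAffine.Point} :
    P ∈ pE hM p ↔ p • P = 0 ∧ InE0 v P := Iff.rfl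

lemma pK_le_pT {hW : VInt v W} {p : ℕ} : pK hW p ≤ pT W p := fun _ h => h.1

lemma pE_le_pT {hM : MultForm v W} {p : ℕ} : pE hM p ≤ pT W p := fun _ h => h.1

lemma pK_le_pE {hM : MultForm v W} {hW : VInt v W} {p : ℕ} : pK hW p ≤ pE hM p :=
  fun _ h => ⟨h.1, h.2.inE0⟩

end Zc

section Card

variable {K : Type*} [Field K] {Γ₀ : Type*} [LinearOrderedCommGroupWithZero Γ₀]
  {v : Valuation K Γ₀} {W : WeierstrassCurve K} [DecidableEq K] [IsAlgClosed K] [W.IsElliptic]

lemma card_pT {p : ℕ} (hp : (p : K) ≠ 0) : Nat.card (pT W p) = p ^ 2 :=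
  ECT.card_torsion (W := W) p hp

lemma card_sub_pT {p : ℕ} (hp : p.Prime) (hp0 : (p : K) ≠ 0) {H : AddSubgroup W.toAffine.Point}
    (hH : H ≤ pT W p) : Nat.card H = 1 ∨ Nat.card H = p ∨ (Nat.card H = p ^ 2 ∧ H = pT W p) := by
  have h1 : Nat.card H ∣ p ^ 2 := by
    rw [← card_pT (W := W) hp0]
    exact AddSubgroup.card_dvd_of_le hH
  obtain ⟨k, hk, h2⟩ := (Nat.dvd_prime_pow hp).mp h1
  interval_cases k
  · left; simpa using h2
  · right; left; simpa using h2
  · right; right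
    refine ⟨h2, ?_⟩
    have : Finite (pT W p) := Nat.finite_of_card_ne_zero (by
      rw [card_pT hp0]
      exact pow_ne_zero 2 hp.ne_zero)
    refine AddSubgroup.eq_of_le_of_card_ge hH ?_
    rw [card_pT hp0, h2]

theorem MultForm.card_pK (hM : MultForm v W) {p : ℕ} (hp : p.Prime) (hp2 : p ≠ 2)
    (hp0 : (p : K) ≠ 0) (hvp : v (p : K) < 1) : Nat.card (pK hM.vint p) = p := by
  classical
  have hodd := hp.odd_of_ne_two hp2
  have hp3 : 3 ≤ p := by
    have := hp.two_le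
    omega
  rcases card_sub_pT hp hp0 (pK_le_pT (hW := hM.vint) (p := p)) with h | h | ⟨-, h⟩
  · exfalso
    have h1 := hM.prod_big hp0 hp3 hodd
    have h2 : ∀ x ∈ ECT.xtors W hp0, ¬ 1 < v x := by
      intro x hx hx1
      obtain ⟨P, hP, hpP, rfl⟩ := (ECT.mem_xtors hp0).mp hx
      have hbot : pK hM.vint p = ⊥ := AddSubgroup.card_eq_one.mp h
      have h3 : P ∈ pK hM.vint p := ⟨hpP, Or.inr hx1⟩
      rw [hbot, AddSubgroup.mem_bot] at h3
      exact hP h3
    rw [Finset.filter_false_of_mem h2, Finset.prod_empty, mul_one] at h1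
    rw [h1] at hvp
    exact lt_irrefl _ hvp
  · exact h
  · exfalso
    obtain ⟨x, hx, hx1⟩ := hM.exists_le_one hp0 hp3 hodd
    obtain ⟨Q, hQ0, hQ, rfl⟩ := (ECT.mem_xtors hp0).mp hx
    have h1 : Q ∈ pK hM.vint p := by
      rw [h]
      exact hQ
    rcases h1.2 with h2 | h2
    · exact hQ0 h2
    · exact absurd h2 (not_lt.mpr hx1)

theorem MultForm.v_xc_eq (hM : MultForm v W) {p : ℕ} (hp : p.Prime) (hp2 : p ≠ 2)
    (hp0 : (p : K) ≠ 0) (hvp : v (p : K) < 1) {P Q : W.toAffine.Point}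
    (hP : P ∈ pK hM.vint p) (hQ : Q ∈ pK hM.vint p) (hP0 : P ≠ 0) (hQ0 : Q ≠ 0) :
    v (xc P) = v (xc Q) := by
  have : Fact p.Prime := ⟨hp⟩
  have key : ∀ P Q : W.toAffine.Point, P ∈ pK hM.vint p → Q ∈ pK hM.vint p → P ≠ 0 → Q ≠ 0 →
      v (xc P) ≤ v (xc Q) := by
    intro P Q hP hQ hP0 hQ0
    have h1 := mem_multiples_of_prime_card (hM.card_pK hp hp2 hp0 hvp)
      (g := (⟨P, hP⟩ : pK hM.vint p)) (g' := ⟨Q, hQ⟩) (fun h => hP0 (congrArg Subtype.val h))
    obtain ⟨n, hn⟩ := h1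
    have hn' : n • P = Q := congrArg Subtype.val hn
    rw [← hn']
    refine v_xc_le_nsmul hM.vint (hP.2.resolve_left hP0) ?_
    rw [hn']
    exact hQ.2.resolve_left hQ0
  exact le_antisymm (key P Q hP hQ hP0 hQ0) (key Q P hQ hP hQ0 hP0)

/-- The exact valuation of the `x`-coordinates of the `p`-torsion of the kernel of reduction. -/
theorem MultForm.v_xc_ker (hM : MultForm v W) {p : ℕ} (hp : p.Prime) (hp2 : p ≠ 2)
    (hp0 : (p : K) ≠ 0) (hvp : v (p : K) < 1) {P : W.toAffine.Point}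
    (hP : P ∈ pK hM.vint p) (hP0 : P ≠ 0) : v (p : K) * v (xc P) ^ ((p - 1) / 2) = 1 := by
  classical
  have hodd := hp.odd_of_ne_two hp2
  have hp3 : 3 ≤ p := by
    have := hp.two_le
    omega
  have h1 := hM.prod_big hp0 hp3 hodd
  set B := (ECT.xtors W hp0).filter (fun x => 1 < v x) with hB
  have h2 : ∀ x ∈ B, v x = v (xc P) := by
    intro x hx
    obtain ⟨hx1, hx2⟩ := Finset.mem_filter.mp hx
    obtain ⟨Q, hQ, hpQ, rfl⟩ := (ECT.mem_xtors hp0).mp hx1
    exact hM.v_xc_eq hp hp2 hp0 hvp ⟨hpQ, Or.inr hx2⟩ hP hQ hP0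
  rw [Finset.prod_congr rfl h2, Finset.prod_const] at h1
  have h3 : 2 * B.card = p - 1 := by
    let T := (ECT.tors W hp0).filter (fun P => InKer v P)
    have hT : ∀ Q, Q ∈ T ↔ Q ∈ pK hM.vint p := by
      intro Q
      simp only [T, Finset.mem_filter, ECT.mem_tors, mem_pK]
    have hTc : T.card = p := by
      rw [← Nat.subtype_card T hT]
      exact hM.card_pK hp hp2 hp0 hvp
    have hTe : (T.erase 0).card = p - 1 := by
      rw [Finset.card_erase_of_mem ((hT 0).mpr (zero_mem _)), hTc]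
    rw [← hTe, Finset.card_eq_sum_card_fiberwise (f := xc) (t := B) (fun Q hQ => ?_),
      Finset.sum_const_nat (m := 2), mul_comm]
    · intro x hx
      obtain ⟨hx1, hx2⟩ := Finset.mem_filter.mp hx
      obtain ⟨P, hP, hnP, hxP⟩ := (ECT.mem_xtors hp0).mp hx1
      have hPK : P ∈ pK hM.vint p := ⟨hnP, Or.inr (by rw [hxP]; exact hx2)⟩
      rw [Finset.card_eq_two]
      refine ⟨P, -P, ECT.ne_neg_of_odd hodd hP hnP, ?_⟩
      ext Q
      simp only [Finset.mem_filter, Finset.mem_erase, Finset.mem_insert,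
        Finset.mem_singleton]
      constructor
      · rintro ⟨⟨hQ, -⟩, hxQ⟩
        exact eq_or_eq_neg_of_xc hQ hP (hxQ.trans hxP.symm)
      · rintro (rfl | rfl)
        · exact ⟨⟨hP, (hT _).mpr hPK⟩, hxP⟩
        · exact ⟨⟨neg_ne_zero.mpr hP, (hT _).mpr (neg_mem hPK)⟩, by rw [ECT.xc_neg, hxP]⟩
    · have hQ' := Finset.mem_coe.mp hQ
      rw [Finset.mem_erase, hT] at hQ'
      refine Finset.mem_coe.mpr (Finset.mem_filter.mpr ⟨(ECT.mem_xtors hp0).mpr
        ⟨Q, hQ'.1, hQ'.2.1, rfl⟩, hQ'.2.2.resolve_left hQ'.1⟩)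
  have h4 : B.card = (p - 1) / 2 := by omega
  rw [← h4]
  exact h1

/-- `p`-torsion points with nonsingular reduction are in the kernel of reduction. -/
theorem MultForm.pE_eq (hM : MultForm v W) {p : ℕ} (hp : p.Prime) (hp2 : p ≠ 2)
    (hp0 : (p : K) ≠ 0) (hvp : v (p : K) < 1) : pE hM p = pK hM.vint p := by
  classical
  have hodd := hp.odd_of_ne_two hp2
  have hp3 : 3 ≤ p := by
    have := hp.two_le
    omega
  have hK := hM.card_pK hp hp2 hp0 hvp
  have hle : pK hM.vint p ≤ pE hM p := pK_le_pE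
  have hfin : Finite (pT W p) := Nat.finite_of_card_ne_zero (by
      rw [card_pT hp0]
      exact pow_ne_zero 2 hp.ne_zero)
  rcases card_sub_pT hp hp0 (pE_le_pT (hM := hM) (p := p)) with h | h | ⟨-, h⟩
  · exfalso
    have h1 : Nat.card (pK hM.vint p) ∣ Nat.card (pE hM p) := AddSubgroup.card_dvd_of_le hle
    rw [h, hK] at h1
    exact hp.one_lt.ne' (Nat.dvd_one.mp h1)
  · have : Finite (pE hM p) := Nat.finite_of_card_ne_zero (by rw [h]; exact hp.ne_zero)
    exact (AddSubgroup.eq_of_le_of_card_ge hle (by rw [h, hK])).symm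
  · exfalso
    -- the value of the division polynomial at zero
    have h1 : v ((W.preΨ (p : ℤ)).eval 0) = 1 := by
      rw [ECT.prePsi_eq_prod hp0 hodd, eval_mul, eval_C, eval_prod, map_mul, map_prod,
        ← hM.prod_big hp0 hp3 hodd]
      congr 1
      rw [← Finset.prod_filter_mul_prod_filter_not (ECT.xtors W hp0) (fun x => 1 < v x)]
      have e1 : ∏ x ∈ (ECT.xtors W hp0).filter (fun x => ¬ 1 < v x), v ((X - C x).eval 0) = 1 := by
        refine Finset.prod_eq_one fun x hx => ?_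
        obtain ⟨hx1, hx2⟩ := Finset.mem_filter.mp hx
        obtain ⟨Q, hQ0, hQ, rfl⟩ := (ECT.mem_xtors hp0).mp hx1
        have h2 : Q ∈ pE hM p := by
          rw [h]
          exact hQ
        rw [eval_sub, eval_X, eval_C, zero_sub, Valuation.map_neg]
        exact le_antisymm (not_lt.mp hx2) (h2.2.resolve_left hQ0)
      rw [e1, mul_one]
      refine Finset.prod_congr rfl fun x _ => ?_
      rw [eval_sub, eval_X, eval_C, zero_sub, Valuation.map_neg]
    obtain ⟨F, hF, -, hF0⟩ := hM.exists_red hp3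
    have h2 : (W.preΨ (p : ℤ)).eval 0 = ((F.coeff 0 : v.valuationSubring) : K) := by
      rw [← hF, eval_map, eval₂_at_zero]
      rfl
    rw [eval_map, eval₂_at_zero, resMap_eq_zero, ← h2, h1] at hF0
    exact lt_irrefl _ hF0

end Card

end Fermat.Agent.EC
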