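import Fermat.Agent.EC.Peu2

set_option autoImplicit false
set_option linter.unusedSectionVars false

/-!
# Points outside the toric line at a multiplicative place above `p`
-/

open WeierstrassCurve WeierstrassCurve.Affine Polynomial

noncomputable section

namespace Fermat.Agent.EC

section Ratio

variable {K : Type*} [Field K] {Γ₀ : Type*} [LinearOrderedCommGroupWithZero Γ₀]
  {v : Valuation K Γ₀} {W : WeierstrassCurve K} [DecidableEq K]

/-- Adding a nonzero point `Q` of the kernel of reduction changes the `X`-coordinate of a point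
on an intermediate component by a principal unit of exact level `v(1 / x(Q)) ^ (1/2)`. -/
theorem MultForm.ratio_exact (hM : MultForm v W) {P Q : W.toAffine.Point} (hP : P ≠ 0)
    (hx0 : xc P ≠ 0) (hx1 : v (xc P) < 1) (hx2 : v W.a₆ < v (xc P) ^ 2) (hQ : 1 < v (xc Q)) :
    v (xc (P + Q) / xc P - 1) ^ 2 * v (xc Q) = 1 := by
  have hρ := hM.ratio_add_ker hP hx0 hx1 hx2 (Or.inr hQ : InKer v Q)
  have hQ0 : Q ≠ 0 := by
    rintro rfl
    change 1 < v (0 : K) at hQ
    rw [map_zero] at hQ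
    exact absurd hQ (not_lt.mpr zero_le)
  obtain ⟨x, hx⟩ : ∃ x, x = xc P := ⟨_, rfl⟩
  obtain ⟨X, hX⟩ : ∃ X, X = xc Q := ⟨_, rfl⟩
  rw [← hx] at hx0 hx1 hx2 hρ
  rw [← hX] at hQ
  have hX0 : X ≠ 0 := by
    rintro rfl
    rw [map_zero] at hQ
    exact absurd hQ (not_lt.mpr zero_le)
  have hne : xc P ≠ xc Q := by
    rw [← hx, ← hX]
    rintro rfl
    exact absurd hQ (not_lt.mpr hx1.le)
  have h1 := xc_mul hP hQ0 hne
  have h2 := Fermat.Agent.ECT.xc_add hP hQ0 hne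
  rw [← hx, ← hX] at h1 h2
  rw [← hx, ← hX]
  obtain ⟨a, ha⟩ : ∃ a, a = xc (P + Q) := ⟨_, rfl⟩
  obtain ⟨b, hb⟩ : ∃ b, b = xc (P - Q) := ⟨_, rfl⟩
  rw [← ha, ← hb] at h1 h2
  rw [← ha] at hρ ⊢
  have hvx0 : v x ≠ 0 := (Valuation.ne_zero_iff v).mpr hx0
  have hvX0 : v X ≠ 0 := (Valuation.ne_zero_iff v).mpr hX0
  -- small quantities
  obtain ⟨d, hd⟩ : ∃ d, d = v (1 / X) := ⟨_, rfl⟩
  have hd0 : 0 < d := by
    rw [hd]
    exact zero_lt_iff.mpr ((Valuation.ne_zero_iff v).mpr (one_div_ne_zero hX0))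
  have hdX : d * v X = 1 := by
    rw [hd, ← map_mul, one_div, inv_mul_cancel₀ hX0, map_one]
  have hXi : d < 1 := by
    rw [hd, map_div₀, map_one, div_lt_one₀ (zero_lt_iff.mpr hvX0)]
    exact hQ
  have hx2x : v x ^ 2 ≤ v x := by
    rw [sq]
    calc v x * v x ≤ v x * 1 := mul_le_mul_right hx1.le _
      _ = v x := mul_one _
  have sm : ∀ c : K, v c ≤ v W.a₆ → v (c / x ^ 2) < 1 ∧ v (c / x) < 1 := by
    intro c hc
    constructor
    · rw [map_div₀, map_pow, div_lt_one₀ (zero_lt_iff.mpr (pow_ne_zero 2 hvx0))]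
      exact hc.trans_lt hx2
    · rw [map_div₀, div_lt_one₀ (zero_lt_iff.mpr hvx0)]
      exact hc.trans_lt (hx2.trans_le hx2x)
  obtain ⟨e, he⟩ : ∃ e, e = x * (1 / X) := ⟨_, rfl⟩
  -- products with something of value `< 1` or `≤ 1`
  have md : ∀ {c z : K}, v c < 1 → v z ≤ d → v (c * z) < d := by
    intro c z hc hz
    rw [map_mul]
    calc v c * v z ≤ v c * d := mul_le_mul' le_rfl hz
      _ < 1 * d := mul_lt_mul_of_pos_right hc hd0
      _ = d := one_mul d
  have md' : ∀ {c z : K}, v c ≤ 1 → v z < d → v (c * z) < d := by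
    intro c z hc hz
    rw [map_mul]
    calc v c * v z ≤ 1 * v z := mul_le_mul' hc le_rfl
      _ = v z := one_mul _
      _ < d := hz
  have hev : v e < d := by rw [he]; exact md hx1 hd.ge
  have he1 : v e < 1 := hev.trans hXi
  obtain ⟨g, hg⟩ : ∃ g, g = (1 - e) ^ 2 := ⟨_, rfl⟩
  have hg1 : v (g - 1) < d := by
    have : g - 1 = -(2 - e) * e := by rw [hg]; ring
    rw [this]
    refine md' ?_ hev
    rw [Valuation.map_neg]
    exact v_sub_le v_two_le he1.le
  have hgu : v g = 1 := pu_v (hg1.trans hXi)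
  obtain ⟨r, hr⟩ : ∃ r, r = a / x := ⟨_, rfl⟩
  obtain ⟨s, hs⟩ : ∃ s, s = b / x := ⟨_, rfl⟩
  have hXe : X ^ 2 * g = (x - X) ^ 2 := by
    rw [hg, he]; field_simp; ring
  have hrs : r * s * g - 1 = -((W.b₄ / x) * (1 / X)) - (W.b₆ / x ^ 2) * ((e + 1) * (1 / X)) -
      (W.b₈ / x ^ 2) * ((1 / X) * (1 / X)) := by
    have e1 : r * s * g * (x ^ 2 * X ^ 2) = (x - X) ^ 2 * (a * b) := by
      rw [← hXe, hr, hs]; field_simp
    rw [h1] at e1
    have hne2 : x ^ 2 * X ^ 2 ≠ 0 := mul_ne_zero (pow_ne_zero 2 hx0) (pow_ne_zero 2 hX0)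
    apply mul_right_cancel₀ hne2
    rw [sub_mul, e1, he]
    field_simp
    ring
  have hrs2 : (r + s) * g - 2 = 2 * e + W.b₂ * (1 / X) + (W.b₄ / x) * ((e + 1) * (1 / X)) +
      (W.b₆ / x) * ((1 / X) * (1 / X)) := by
    have e1 : (r + s) * g * (x * X ^ 2) = (x - X) ^ 2 * (a + b) := by
      rw [← hXe, hr, hs]; field_simp
    rw [h2] at e1
    have hne2 : x * X ^ 2 ≠ 0 := mul_ne_zero hx0 (pow_ne_zero 2 hX0)
    apply mul_right_cancel₀ hne2
    rw [sub_mul, e1, he]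
    field_simp
    ring
  have he1' : v (e + 1) ≤ 1 := v_add_le he1.le (by simp)
  have hX1 : v (1 / X) ≤ d := hd.ge
  have hX2 : v ((e + 1) * (1 / X)) ≤ d := by
    rw [map_mul, hd]
    exact mul_le_of_le_one_left' he1'
  have hX3 : v ((1 / X) * (1 / X)) ≤ d := by
    rw [map_mul, ← hd]
    exact mul_le_of_le_one_left' hXi.le
  have hε₂ : v (r * s * g - 1) < d := by
    rw [hrs]
    refine v_sub_lt (v_sub_lt ?_ ?_) ?_
    · rw [Valuation.map_neg]
      exact md (sm _ hM.b₄_le).2 hX1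
    · exact md (sm _ hM.b₆_le).1 hX2
    · exact md (sm _ hM.b₈_eq.le).1 hX3
  have hε₃ : v (2 * e + ((W.b₄ / x) * ((e + 1) * (1 / X)) +
      (W.b₆ / x) * ((1 / X) * (1 / X)))) < d :=
    v_add_lt (md' v_two_le hev) (v_add_lt (md (sm _ hM.b₄_le).2 hX2) (md (sm _ hM.b₆_le).2 hX3))
  have hb : v (W.b₂ * (1 / X)) = d := by rw [map_mul, hM.b₂, one_mul, hd]
  -- conclude
  rw [← hr] at hρ ⊢
  obtain ⟨η, hη⟩ : ∃ η, η = (g - 1) + (r * s * g - 1) - ((r + s) * g - 2) := ⟨_, rfl⟩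
  obtain ⟨θ, hθ⟩ : ∃ θ, θ = ((r + s) * g - 2) - 2 * (g - 1) := ⟨_, rfl⟩
  have hηv : v η = d := by
    have : η = (((g - 1) + (r * s * g - 1)) - (2 * e + ((W.b₄ / x) * ((e + 1) * (1 / X)) +
      (W.b₆ / x) * ((1 / X) * (1 / X))))) - W.b₂ * (1 / X) := by
      rw [hη, hrs2]; ring
    rw [this, Valuation.map_sub_eq_of_lt_right, hb]
    rw [hb]
    exact v_sub_lt (v_add_lt hg1 hε₂) hε₃
  have hθv : v θ ≤ d := by
    rw [hθ, hrs2]
    refine v_sub_le ?_ ?_
    · have : 2 * e + W.b₂ * (1 / X) + (W.b₄ / x) * ((e + 1) * (1 / X)) +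
        (W.b₆ / x) * ((1 / X) * (1 / X)) = (2 * e + ((W.b₄ / x) * ((e + 1) * (1 / X)) +
        (W.b₆ / x) * ((1 / X) * (1 / X)))) + W.b₂ * (1 / X) := by ring
      rw [this]
      exact v_add_le hε₃.le hb.le
    · rw [map_mul]
      exact (mul_le_of_le_one_left' v_two_le).trans hg1.le
  have hkey : (r - 1) ^ 2 * g = θ * (r - 1) - η := by rw [hη, hθ]; ring
  have hlt : v (θ * (r - 1)) < v η := by
    rw [hηv, mul_comm]
    exact md hρ hθv
  have h5 : v ((r - 1) ^ 2 * g) = d := by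
    rw [hkey, Valuation.map_sub_eq_of_lt_right _ hlt, hηv]
  rw [map_mul, map_pow, hgu, mul_one] at h5
  rw [h5, hdX]

/-- Powers prime to the residue characteristic do not change the level of a principal unit. -/
lemma v_pow_sub_one {p : ℕ} (hp : p.Prime) (hvp : v (p : K) < 1) {t : ℕ} (ht : t.Coprime p)
    {r : K} (hr : v (r - 1) < 1) : v (r ^ t - 1) = v (r - 1) := by
  have h1 : v ((t : ℕ) : K) = 1 := by
    refine v_nat_eq_one hp hvp fun h => ?_
    have h2 : p ∣ Nat.gcd t p := Nat.dvd_gcd h dvd_rfl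
    rw [ht] at h2
    exact hp.one_lt.ne' (Nat.dvd_one.mp h2)
  have h2 : (∑ i ∈ Finset.range t, r ^ i) = t + ∑ i ∈ Finset.range t, (r ^ i - 1) := by
    rw [Finset.sum_sub_distrib]
    simp
  have h3 : v (∑ i ∈ Finset.range t, r ^ i) = 1 := by
    rw [h2]
    refine v_eq_one_of_add h1 ?_
    exact Valuation.map_sum_lt _ one_ne_zero fun i _ => pu_pow hr i
  rw [← geom_sum_mul, map_mul, h3, one_mul]

end Ratio

section Mid

variable {K : Type*} [Field K] {Γ₀ : Type*} [LinearOrderedCommGroupWithZero Γ₀]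
  {v : Valuation K Γ₀} {W : WeierstrassCurve K} [DecidableEq K] [IsAlgClosed K] [W.IsElliptic]

/-- `p`-torsion points outside the kernel of reduction are on intermediate components. -/
theorem MultForm.mid_of_not_ker (hM : MultForm v W) {p : ℕ} (hp : p.Prime) (hp2 : p ≠ 2)
    (hp0 : (p : K) ≠ 0) (hvp : v (p : K) < 1) {P : W.toAffine.Point} (hP : p • P = 0)
    (hPK : P ∉ pK hM.vint p) : P ≠ 0 ∧ v (xc P) < 1 ∧ v W.a₆ < v (xc P) ^ 2 := by
  have hE := hM.pE_eq hp hp2 hp0 hvp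
  have hP0 : P ≠ 0 := by
    rintro rfl
    exact hPK (zero_mem _)
  have h1 : v (xc P) < 1 := by
    by_contra hcon
    apply hPK
    rw [← hE]
    exact ⟨hP, Or.inr (not_lt.mp hcon)⟩
  refine ⟨hP0, h1, ?_⟩
  by_contra hcon
  rw [not_lt] at hcon
  obtain ⟨k, hk⟩ := hp.odd_of_ne_two hp2
  have h4 : P = (k + 1) • (P + P) := by
    have e1 : P + P = 2 • P := (two_nsmul P).symm
    rw [e1, smul_smul]
    have e2 : (k + 1) * 2 = p + 1 := by omega
    rw [e2, add_smul, hP, one_smul, zero_add]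
  have h2P : P + P ≠ 0 := by
    intro h0
    apply hP0
    rw [h4, h0, smul_zero]
  have h3 := hM.two_nsmul_big hP0 h2P h1 hcon
  have h5 : P + P ∈ pK hM.vint p := by
    rw [← hE]
    exact ⟨by rw [smul_add, hP, add_zero], Or.inr h3⟩
  apply hPK
  rw [h4]
  exact AddSubgroup.nsmul_mem _ h5 _

/-- The unit attached to a `p`-torsion point outside the kernel of reduction, when
`p ∣ v(Δ)`. -/
theorem MultForm.exists_scaled (hM : MultForm v W) {val : K → ℚ} (hval : RatVal v val) {p : ℕ}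
    (hp : p.Prime) (hp2 : p ≠ 2)
    (hp0 : (p : K) ≠ 0) (hvp : v (p : K) < 1) {k : ℤ} (hk : val W.a₆ = p * k)
    {P : W.toAffine.Point} (hP : p • P = 0)
    (hPK : P ∉ pK hM.vint p) : ∃ t : ℕ, ∃ s : ℤ, t * val (xc P) = s ∧ t.Coprime p := by
  have hcop : ∀ m : ℕ, 1 ≤ m → m < p → m.Coprime p := fun t h1 h2 =>
    (Nat.coprime_comm.mp ((Nat.Prime.coprime_iff_not_dvd hp).mpr
      (fun h => absurd (Nat.le_of_dvd (by omega) h) (by omega))))
  have htor : ∀ m : ℕ, p • (m • P) = 0 := by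
    intro m
    rw [smul_comm, hP, smul_zero]
  have hnK : ∀ m : ℕ, 1 ≤ m → m < p → m • P ∉ pK hM.vint p := by
    intro m h1 h2 h3
    apply hPK
    have hbez : (m : ℤ) * m.gcdA p + p * m.gcdB p = 1 := by
      rw [← Nat.gcd_eq_gcd_ab, hcop m h1 h2]; rfl
    have hPe : P = (m.gcdA p) • (m • P) := by
      calc P = (1 : ℤ) • P := (one_zsmul P).symm
        _ = ((m : ℤ) * m.gcdA p + p * m.gcdB p) • P := by rw [hbez]
        _ = (m.gcdA p) • (m • P) + (m.gcdB p) • (p • P) := by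
          rw [add_smul, mul_comm (m : ℤ), mul_comm (p : ℤ), mul_smul, mul_smul, natCast_zsmul,
            natCast_zsmul]
        _ = (m.gcdA p) • (m • P) := by rw [hP, smul_zero, add_zero]
    rw [hPe]
    exact AddSubgroup.zsmul_mem _ h3 _
  have hall : ∀ m : ℕ, 1 ≤ m → m < p →
      m • P ≠ 0 ∧ v (xc (m • P)) < 1 ∧ v W.a₆ < v (xc (m • P)) ^ 2 := fun m h1 h2 =>
    hM.mid_of_not_ker hp hp2 hp0 hvp (htor m) (hnK m h1 h2)
  have hne0 : ∀ m : ℕ, 1 ≤ m → m < p → m • P ≠ 0 := fun m h1 h2 => (hall m h1 h2).1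
  have hmid : ∀ m : ℕ, 1 ≤ m → m < p →
      v (xc (m • P)) < 1 ∧ v W.a₆ < v (xc (m • P)) ^ 2 := fun m h1 h2 => (hall m h1 h2).2
  have hx0 : ∀ m : ℕ, 1 ≤ m → m < p → xc (m • P) ≠ 0 := by
    intro m h1 h2 h0
    have := (hmid m h1 h2).2
    rw [h0, map_zero, zero_pow (by norm_num)] at this
    exact absurd this (not_lt.mpr zero_le)
  have ha₆ : 0 < val W.a₆ := (hval.lt_one_iff hM.a₆0).mp hM.a₆
  have hvx : ∀ m : ℕ, 1 ≤ m → m < p → 0 < val (xc (m • P)) ∧
      2 * val (xc (m • P)) < val W.a₆ := by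
    intro m h1 h2
    have h3 := hmid m h1 h2
    have h4 := hx0 m h1 h2
    refine ⟨(hval.lt_one_iff h4).mp h3.1, ?_⟩
    have h5 := h3.2
    rw [← map_pow, hval.lt_iff hM.a₆0 (pow_ne_zero 2 h4), hval.pow h4] at h5
    exact_mod_cast h5
  have hp3 : 3 ≤ p := by
    have := hp.two_le
    omega
  -- the valuation of `x(P)` times something prime to `p` is an integer
  obtain ⟨t, s, hts, htp⟩ := tropical_scaled hp hp2 (w := fun m => val (xc (m • P))) ha₆ hvx
    (by
      intro hne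
      have h1 := hvx 1 le_rfl (by omega)
      have h2 := hM.val_dbl hval (hne0 1 le_rfl (by omega))
        (by rw [← add_smul]; exact hne0 2 (by omega) (by omega)) (hx0 1 le_rfl (by omega))
        h1.1 h1.2 hne (by rw [← add_smul]; exact hx0 2 (by omega) (by omega))
      rw [← add_smul] at h2
      exact h2)
    (by
      intro m hm hmp hne hne2
      have h1 := hvx 1 le_rfl (by omega)
      have hm1 := hvx m (by omega) (by omega)
      have e1 : (m + 1) • P = m • P + 1 • P := add_smul _ _ _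
      have e2 : (m - 1) • P = m • P - 1 • P := by
        rw [eq_sub_iff_add_eq, ← add_smul]
        congr 1
        omega
      have h3 := hM.val_add_sub hval (hne0 m (by omega) (by omega)) (hne0 1 le_rfl (by omega))
        (hx0 m (by omega) (by omega)) (hx0 1 le_rfl (by omega)) hm1.1 h1.1 hne hne2
        (by rw [← e1]; exact hx0 (m + 1) (by omega) (by omega))
        (by rw [← e2]; exact hx0 (m - 1) (by omega) (by omega))
      rw [← e1, ← e2] at h3
      exact h3)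
    (by
      have e : (p - 1) • P = - (1 • P) := by
        rw [eq_neg_iff_add_eq_zero, ← add_smul]
        have : p - 1 + 1 = p := by omega
        rw [this, hP]
      change val (xc ((p - 1) • P)) = val (xc (1 • P))
      rw [e, ECT.xc_neg])
  simp only [one_smul] at hts
  rcases htp with rfl | htp
  · refine ⟨1, s * k, ?_, Nat.coprime_one_left _⟩
    rw [hk] at hts
    have ht0 : (t : ℚ) ≠ 0 := by exact_mod_cast hp.ne_zero
    have h5 : (t : ℚ) * val (xc P) = t * (s * k) := by rw [hts]; ring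
    have := mul_left_cancel₀ ht0 h5
    push_cast
    rw [one_mul]
    exact this
  · exact ⟨t, s * (p * k), by rw [hts, hk]; push_cast; ring, htp⟩

/-- The exact level of the unit. -/
theorem MultForm.level (hM : MultForm v W) {p : ℕ} (hp : p.Prime) (hp2 : p ≠ 2)
    (hp0 : (p : K) ≠ 0) (hvp : v (p : K) < 1) {P Q : W.toAffine.Point} (hP : p • P = 0)
    (hPK : P ∉ pK hM.vint p) (hQ : Q ∈ pK hM.vint p) (hQ0 : Q ≠ 0) :
    v (xc (P + Q) / xc P - 1) < 1 ∧ v (xc (P + Q) / xc P - 1) ^ (p - 1) = v (p : K) := by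
  obtain ⟨hP0, h1, h2⟩ := hM.mid_of_not_ker hp hp2 hp0 hvp hP hPK
  have hx0 : xc P ≠ 0 := by
    intro h0
    rw [h0, map_zero, zero_pow (by norm_num)] at h2
    exact absurd h2 (not_lt.mpr zero_le)
  have hQ1 : 1 < v (xc Q) := hQ.2.resolve_left hQ0
  have h3 := hM.ratio_exact hP0 hx0 h1 h2 hQ1
  have h4 := hM.v_xc_ker hp hp2 hp0 hvp hQ hQ0
  refine ⟨hM.ratio_add_ker hP0 hx0 h1 h2 hQ.2, ?_⟩
  obtain ⟨k, hk⟩ := hp.odd_of_ne_two hp2
  have e1 : (p - 1) / 2 = k := by omega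
  have e2 : p - 1 = 2 * k := by omega
  rw [e1] at h4
  rw [e2, pow_mul]
  have h5 : (v (xc (P + Q) / xc P - 1) ^ 2) ^ k * v (xc Q) ^ k = 1 := by
    rw [← mul_pow, h3, one_pow]
  have h6 : v (xc Q) ^ k ≠ 0 := by
    intro h0
    rw [h0, mul_zero] at h4
    exact zero_ne_one h4
  exact mul_right_cancel₀ h6 (h5.trans h4.symm)

end Mid

end Fermat.Agent.EC
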