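import Fermat.Agent.EC.Peu3
import Fermat.Agent.EC.KernelInertia
import Fermat.Agent.EC.Reducible
import Fermat.Agent.LG.InertField

set_option autoImplicit false
set_option linter.unusedSectionVars false

/-!
# Uniformizers in the field of a `p`-torsion point at a multiplicative place above `p`
-/

open WeierstrassCurve WeierstrassCurve.Affine WeierstrassCurve.Affine.Point
open scoped Pointwise

noncomputable section

namespace Fermat.Agent.EC

/-- The field of algebraic numbers. -/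
local notation "Kb" => AlgebraicClosure ℚ
/-- The absolute Galois group. -/
local notation "GQ" => (AlgebraicClosure ℚ ≃ₐ[ℚ] AlgebraicClosure ℚ)

section Abstract

/-- The abstract argument: a unit whose conjugates are at distance exactly `1 / (p - 1)`. -/
theorem exists_unif_of_level {p : ℕ} (hp : p.Prime) (hp2 : p ≠ 2) {A : ValuationSubring Kb}
    (hA : A.LiesOverPrime p) {X : Type*} [MulAction GQ X] (x : X)
    [hfin : Finite (MulAction.orbit (A.inertiaSubgroupIn ℚ) x)]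
    (hcard : Nat.card (MulAction.orbit (A.inertiaSubgroupIn ℚ) x) ≤ p)
    {e : Kb} (he : A.valuation e = 1)
    (hfix : ∀ σ ∈ A.inertiaSubgroupIn ℚ, σ • x = x → σ e = e)
    (hmov : ∀ σ ∈ A.inertiaSubgroupIn ℚ, σ • x ≠ x →
      A.valuation (σ e - e) ^ (p - 1) = A.valuation (p : Kb))
    (hne : ∃ σ ∈ A.inertiaSubgroupIn ℚ, σ • x ≠ x) :
    p - 1 ≤ Nat.card (MulAction.orbit (A.inertiaSubgroupIn ℚ) x) ∧
    ∃ y : Kb, (∀ σ ∈ A.inertiaSubgroupIn ℚ, σ • x = x → σ y = y) ∧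
      A.valuation y ^ (Nat.card (MulAction.orbit (A.inertiaSubgroupIn ℚ) x)) =
        A.valuation (p : Kb) ∧
      (∀ σ ∈ A.inertiaSubgroupIn ℚ, σ • x ≠ x →
        A.valuation (σ y - y) ^ (p - 1) = A.valuation (p : Kb)) := by
  classical
  have hvp : A.valuation (p : Kb) < 1 := hA
  have hp0 : (p : Kb) ≠ 0 := by exact_mod_cast hp.ne_zero
  have hvp0 : 0 < A.valuation (p : Kb) := zero_lt_iff.mpr ((Valuation.ne_zero_iff _).mpr hp0)
  have hp3 : 3 ≤ p := by
    have := hp.two_le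
    omega
  obtain ⟨a, haK, -, ha⟩ := LG.exists_residue hp hA ((A.valuation_le_one_iff e).mp he.le)
  have haf : ∀ σ ∈ A.inertiaSubgroupIn ℚ, σ a = a := LG.mem_KI.mp haK
  obtain ⟨y, hy⟩ : ∃ y, y = e - a := ⟨_, rfl⟩
  rw [← hy] at ha
  have hσy : ∀ σ ∈ A.inertiaSubgroupIn ℚ, σ y - y = σ e - e := by
    intro σ hσ
    rw [hy, map_sub, haf σ hσ]
    ring
  have hyfix : ∀ σ ∈ A.inertiaSubgroupIn ℚ, σ • x = x → σ y = y := by
    intro σ hσ h
    have h1 := hσy σ hσ
    rw [hfix σ hσ h, sub_self] at h1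
    exact sub_eq_zero.mp h1
  have hymov : ∀ σ ∈ A.inertiaSubgroupIn ℚ, σ • x ≠ x →
      A.valuation (σ y - y) ^ (p - 1) = A.valuation (p : Kb) := by
    intro σ hσ h
    rw [hσy σ hσ]
    exact hmov σ hσ h
  have hvσ : ∀ σ ∈ A.inertiaSubgroupIn ℚ, A.valuation (σ y) = A.valuation y :=
    fun σ hσ => inertia_iso hp hA hσ y
  have hyfix' : ∀ σ ∈ A.inertiaSubgroupIn ℚ, σ y = y → σ • x = x := by
    intro σ hσ h
    by_contra hcon
    have h1 := hymov σ hσ hcon
    rw [h, sub_self, _root_.map_zero, zero_pow (by omega)] at h1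
    exact hvp0.ne h1
  -- the orbits
  have hstab : MulAction.stabilizer (A.inertiaSubgroupIn ℚ) x =
      MulAction.stabilizer (A.inertiaSubgroupIn ℚ) y := by
    ext σ
    rw [MulAction.mem_stabilizer_iff, MulAction.mem_stabilizer_iff]
    exact ⟨fun h => hyfix σ.1 σ.2 h, fun h => hyfix' σ.1 σ.2 h⟩
  have hequiv : MulAction.orbit (A.inertiaSubgroupIn ℚ) x ≃
      MulAction.orbit (A.inertiaSubgroupIn ℚ) y := by
    refine (MulAction.orbitEquivQuotientStabilizer _ x).trans ?_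
    rw [hstab]
    exact (MulAction.orbitEquivQuotientStabilizer _ y).symm
  set n := Nat.card (MulAction.orbit (A.inertiaSubgroupIn ℚ) x) with hn
  have hYfin : (MulAction.orbit (A.inertiaSubgroupIn ℚ) y).Finite :=
    Set.finite_coe_iff.mp (Finite.of_equiv _ hequiv)
  have hYcard : hYfin.toFinset.card = n := by
    rw [hn, Nat.card_congr hequiv, Nat.card_coe_set_eq, Set.ncard_eq_toFinset_card _ hYfin]
  have hYmem : ∀ w, w ∈ hYfin.toFinset ↔ ∃ σ ∈ A.inertiaSubgroupIn ℚ, σ y = w := by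
    intro w
    rw [Set.Finite.mem_toFinset, MulAction.mem_orbit_iff]
    constructor
    · rintro ⟨σ, hσ⟩
      exact ⟨σ.1, σ.2, hσ⟩
    · rintro ⟨σ, hσ, h⟩
      exact ⟨⟨σ, hσ⟩, h⟩
  have hn1 : 1 ≤ n := by
    rw [hn]
    have : Nonempty (MulAction.orbit (A.inertiaSubgroupIn ℚ) x) :=
      ⟨⟨x, MulAction.mem_orbit_self x⟩⟩
    exact Nat.card_pos
  obtain ⟨r, hr⟩ : ∃ r, r = ∏ w ∈ hYfin.toFinset, w := ⟨_, rfl⟩
  have hrfix : r ∈ LG.KI A := by
    rw [LG.mem_KI]
    intro σ hσ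
    rw [hr, map_prod]
    refine Finset.prod_nbij (fun x => σ x) (fun w hw => ?_)
      (fun x _ y _ hxy => σ.injective hxy) ?_ (fun _ _ => rfl)
    · rw [hYmem] at hw ⊢
      obtain ⟨τ, hτ, rfl⟩ := hw
      exact ⟨σ * τ, mul_mem hσ hτ, rfl⟩
    · intro w hw
      refine ⟨σ.symm w, ?_, σ.apply_symm_apply w⟩
      rw [Finset.mem_coe, hYmem] at hw ⊢
      obtain ⟨τ, hτ, rfl⟩ := hw
      exact ⟨σ⁻¹ * τ, mul_mem (inv_mem hσ) hτ, rfl⟩
  have hrv : A.valuation r = A.valuation y ^ n := by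
    rw [hr, map_prod, ← hYcard]
    refine Finset.prod_eq_pow_card fun w hw => ?_
    obtain ⟨τ, hτ, rfl⟩ := (hYmem w).mp hw
    exact hvσ τ hτ
  -- lower bound
  obtain ⟨σ₀, hσ₀, hne⟩ := hne
  have h1 := hymov σ₀ hσ₀ hne
  have h2 : A.valuation (p : Kb) ≤ A.valuation y ^ (p - 1) := by
    rw [← h1]
    exact pow_le_pow_left' (v_sub_le (hvσ σ₀ hσ₀).le le_rfl) _
  have hy0 : A.valuation y ≠ 0 := by
    intro h0
    rw [h0, zero_pow (by omega)] at h2
    exact absurd h2 (not_le.mpr hvp0)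
  have hr0 : r ≠ 0 := by
    rintro rfl
    rw [_root_.map_zero] at hrv
    exact pow_ne_zero n hy0 hrv.symm
  obtain ⟨m, hm⟩ := LG.exists_zpow A hp hA hrfix hr0
  rw [hrv] at hm
  have hm1 : 1 ≤ m := by
    by_contra hcon
    have h3 : A.valuation y ^ n < 1 := pow_lt_one₀ zero_le ha (by omega)
    rw [hm, ← zpow_zero (A.valuation (p : Kb)),
      zpow_lt_zpow_iff_right_of_lt_one₀ hvp0 hvp] at h3
    omega
  have hmn : m * (p - 1 : ℕ) ≤ n := by
    have h3 : A.valuation (p : Kb) ^ n ≤ (A.valuation y ^ (p - 1)) ^ n := pow_le_pow_left' h2 n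
    rw [← pow_mul, mul_comm, pow_mul, hm, ← zpow_natCast, ← zpow_natCast, ← zpow_mul,
      zpow_le_zpow_iff_right_of_lt_one₀ hvp0 hvp] at h3
    exact h3
  have hm2 : m = 1 := by
    by_contra hcon
    have h3 : (2 : ℤ) ≤ m := by omega
    have h4 : 2 * ((p - 1 : ℕ) : ℤ) ≤ m * (p - 1 : ℕ) :=
      mul_le_mul_of_nonneg_right h3 (by positivity)
    have h5 : 2 * ((p - 1 : ℕ) : ℤ) ≤ p := h4.trans (hmn.trans (by exact_mod_cast hcard))
    omega
  subst hm2
  rw [one_mul] at hmn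
  rw [zpow_one] at hm
  exact ⟨by exact_mod_cast hmn, y, hyfix, hm, hymov⟩

end Abstract

section Main

variable {E : WeierstrassCurve ℚ} {p : ℕ} [hp : Fact p.Prime] [E.IsElliptic]

/-- The unit attached to a `p`-torsion point outside the kernel of reduction. -/
theorem exists_unit_of_mult (hp2 : p ≠ 2) {A : ValuationSubring Kb}
    (hW : VInt A.valuation (E⁄Kb)) (hc₄ : A.valuation (E⁄Kb).c₄ = 1)
    (hΔ : A.valuation (E⁄Kb).Δ < 1) (hvp : A.valuation (p : Kb) < 1) {k : ℤ}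
    (hk : qval hp.out hvp (E⁄Kb).Δ = p * k) {x : TorsP E p} (hx : x ∉ kerSub A hW) :
    ∃ e : Kb, A.valuation e = 1 ∧ (∀ σ ∈ A.inertiaSubgroupIn ℚ, σ • x = x → σ e = e) ∧
      (∀ σ ∈ A.inertiaSubgroupIn ℚ, σ • x ≠ x →
        A.valuation (σ e - e) ^ (p - 1) = A.valuation (p : Kb)) := by
  classical
  have hΔ0 : (E⁄Kb).Δ ≠ 0 := by
    rw [← WeierstrassCurve.coe_Δ']
    exact Units.ne_zero _
  have hp0 : (p : Kb) ≠ 0 := by exact_mod_cast hp.out.ne_zero
  obtain ⟨hM, ha₆⟩ := hW.multForm hc₄ hΔ hΔ0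
  set C := nodeVC (E⁄Kb) with hC
  obtain ⟨P, hPx⟩ := (pointEquiv (E⁄Kb) C).surjective (x : (E⁄Kb).Point)
  have hP : p • P = 0 := by
    apply (pointEquiv (E⁄Kb) C).injective
    rw [map_nsmul, hPx, torsion_smul, _root_.map_zero]
  have hPK : P ∉ pK hM.vint p := by
    intro h
    apply hx
    rw [mem_kerSub, ← hPx,
      inKer_pointEquiv (v := A.valuation) (W := E⁄Kb) (C := nodeVC (E⁄Kb)) rfl (hW.nodeX_le hc₄)]
    exact h.2
  have hval := qval_ratVal (v := A.valuation) (K := Kb) hp.out hvp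
  have hπ : qval hp.out hvp (p : Kb) = 1 := by
    have h1 := qval_rat (v := A.valuation) (K := Kb) hp.out hvp (c := (p : ℚ))
      (by exact_mod_cast hp.out.ne_zero)
    rw [padicValRat.self hp.out.one_lt] at h1
    simpa using h1
  have hk' : qval hp.out hvp (C • (E⁄Kb)).a₆ = p * k := by
    rw [← hk, ← hval.eq_iff hM.a₆0 hΔ0]
    exact ha₆
  obtain ⟨t, s, hts, htp⟩ := hM.exists_scaled hval hp.out hp2 hp0 hvp hk' hP hPK
  obtain ⟨hP0, hm1, hm2⟩ := hM.mid_of_not_ker hp.out hp2 hp0 hvp hP hPK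
  have hx0 : xc P ≠ 0 := by
    intro h0
    rw [h0, _root_.map_zero, zero_pow (by norm_num)] at hm2
    exact absurd hm2 (not_lt.mpr zero_le)
  obtain ⟨e, he⟩ : ∃ e, e = xc P ^ t / (p : Kb) ^ s := ⟨_, rfl⟩
  have hπs : (p : Kb) ^ s ≠ 0 := zpow_ne_zero s hp0
  have he0 : e ≠ 0 := by rw [he]; exact div_ne_zero (pow_ne_zero t hx0) hπs
  have hev : A.valuation e = 1 := by
    rw [hval.eq_one_iff he0, he, hval.div (pow_ne_zero t hx0) hπs, hval.pow hx0,
      hval.zpow hp0, hts, hπ]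
    ring
  -- the action
  have hcomm : ∀ (σ : GQ) (c : ℚ), (σ : Kb →+* Kb) (algebraMap ℚ Kb c) = algebraMap ℚ Kb c :=
    fun σ c => σ.commutes c
  have hX : nodeX (E⁄Kb) = algebraMap ℚ Kb (nodeX E) := nodeX_map E _
  have hY : nodeY (E⁄Kb) = algebraMap ℚ Kb (nodeY E) := nodeY_map E _
  have hact : ∀ σ ∈ A.inertiaSubgroupIn ℚ,
      InertiaAction A.valuation (C • (E⁄Kb)) (σ : Kb →+* Kb)
        (transport (Point.map (W' := E) σ.toAlgHom) C) := fun σ hσ =>
    (inertiaAction_of_mem hσ E).transport (C := C) (by simp [hC, nodeVC])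
      (by rw [hC]; change (σ : Kb →+* Kb) (nodeX (E⁄Kb)) = nodeX (E⁄Kb); rw [hX]; exact hcomm _ _)
      (by simp [hC, nodeVC])
      (by rw [hC]; change (σ : Kb →+* Kb) (nodeY (E⁄Kb)) = nodeY (E⁄Kb); rw [hY]; exact hcomm _ _)
  have hσP : ∀ σ ∈ A.inertiaSubgroupIn ℚ,
      xc (transport (Point.map (W' := E) σ.toAlgHom) C P) = σ (xc P) := by
    intro σ hσ
    rcases P with _ | ⟨X, Y, h⟩
    · exact absurd rfl hP0
    · obtain ⟨h', hφ⟩ := (hact σ hσ).action X Y h
      rw [hφ, xc_some, xc_some]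
      rfl
  have hsm : ∀ σ : GQ, pointEquiv (E⁄Kb) C (transport (Point.map (W' := E) σ.toAlgHom) C P) =
      ((σ • x : TorsP E p) : (E⁄Kb).Point) := by
    intro σ
    rw [pointEquiv_transport, hPx, coe_smul_torsion]
  refine ⟨e, hev, fun σ hσ h => ?_, fun σ hσ h => ?_⟩
  · have h1 : transport (Point.map (W' := E) σ.toAlgHom) C P = P := by
      apply (pointEquiv (E⁄Kb) C).injective
      rw [hsm, h, hPx]
    have h2 := hσP σ hσ
    rw [h1] at h2
    rw [he, map_div₀, map_pow, map_zpow₀, map_natCast, ← h2]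
  · obtain ⟨Q, hQ⟩ : ∃ Q, Q = transport (Point.map (W' := E) σ.toAlgHom) C P - P := ⟨_, rfl⟩
    have hQ0 : Q ≠ 0 := by
      intro h0
      apply h
      apply Subtype.ext
      rw [← hsm, ← hPx]
      congr 1
      rw [h0] at hQ
      exact (sub_eq_zero.mp hQ.symm)
    have hQK : Q ∈ pK hM.vint p := by
      refine ⟨?_, ?_⟩
      · rw [hQ, smul_sub, ← map_nsmul, hP, _root_.map_zero, sub_zero]
      · rw [hQ]
        exact (hact σ hσ).sub_inKer_of_mult (fun x => inertia_iso hp.out hvp hσ x) hM hp.out hp2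
          hvp hP
    have h1 := hM.level hp.out hp2 hp0 hvp hP hPK hQK hQ0
    have h2 : P + Q = transport (Point.map (W' := E) σ.toAlgHom) C P := by
      rw [hQ]; abel
    rw [h2, hσP σ hσ] at h1
    have h3 : σ e - e = e * ((σ (xc P) / xc P) ^ t - 1) := by
      rw [he, map_div₀, map_pow, map_zpow₀, map_natCast, div_pow]
      field_simp
    rw [h3, map_mul, hev, one_mul, v_pow_sub_one hp.out hvp htp h1.1]
    exact h1.2

/-- The kernel of reduction has exactly `p` elements of order dividing `p` as soon as it is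
nonzero. -/
theorem card_kerSub_of_mult (hp2 : p ≠ 2) {A : ValuationSubring Kb}
    (hW : VInt A.valuation (E⁄Kb)) (hc₄ : A.valuation (E⁄Kb).c₄ = 1)
    (hΔ : A.valuation (E⁄Kb).Δ < 1) (hne : kerSub (E := E) (p := p) A hW ≠ ⊥) :
    Nat.card (kerSub (E := E) (p := p) A hW) = p := by
  have hfin := finite_torsion' (E := E) hp.out
  have h1 : Nat.card (kerSub (E := E) (p := p) A hW) ∣ p ^ 2 := by
    rw [← natCard_torsion (E := E) hp.out]
    exact AddSubgroup.card_addSubgroup_dvd_card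
      (kerSub (E := E) (p := p) A hW).toAddSubgroup
  obtain ⟨k, hk, h2⟩ := (Nat.dvd_prime_pow hp.out).mp h1
  interval_cases k
  · exfalso
    apply hne
    rw [pow_zero] at h2
    have h3 : (kerSub (E := E) (p := p) A hW).toAddSubgroup = ⊥ := AddSubgroup.card_eq_one.mp h2
    rw [eq_bot_iff]
    intro z hz
    have h4 : z ∈ (kerSub (E := E) (p := p) A hW).toAddSubgroup := hz
    rw [h3, AddSubgroup.mem_bot] at h4
    exact h4
  · rw [h2, pow_one]
  · exfalso
    apply kerSub_ne_top_of_mult hp2 hW hc₄ hΔ (p := p)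
    rw [← natCard_torsion (E := E) hp.out] at h2
    have h3 : (kerSub (E := E) (p := p) A hW).toAddSubgroup = ⊤ :=
      AddSubgroup.eq_top_of_card_eq _ h2
    rw [eq_top_iff]
    intro z _
    have h4 : z ∈ (kerSub (E := E) (p := p) A hW).toAddSubgroup := by
      rw [h3]
      trivial
    exact h4

/-- **The `p`-torsion is "peu ramifiée" at `p` if `p ∣ v_p(Δ)`** (multiplicative reduction). -/
theorem peu_of_mult (hp2 : p ≠ 2) {A : ValuationSubring Kb} (hA : A.LiesOverPrime p)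
    (hW : VInt A.valuation (E⁄Kb)) (hc₄ : A.valuation (E⁄Kb).c₄ = 1)
    (hΔ : A.valuation (E⁄Kb).Δ < 1) (hvp : A.valuation (p : Kb) < 1) {k : ℤ}
    (hk : qval hp.out hvp (E⁄Kb).Δ = p * k) {x : TorsP E p} (hx : x ∉ kerSub A hW) :
    (∃ x' : TorsP E p, x' - x ∈ kerSub A hW ∧ ∀ σ ∈ A.inertiaSubgroupIn ℚ, σ • x' = x') ∨
    ((∀ z : TorsP E p, z - x ∈ kerSub A hW → ∃ σ ∈ A.inertiaSubgroupIn ℚ, σ • x = z) ∧
      ∃ y : Kb, (∀ σ ∈ A.inertiaSubgroupIn ℚ, σ • x = x → σ y = y) ∧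
        A.valuation y ^ p = A.valuation (p : Kb) ∧
        (∀ σ ∈ A.inertiaSubgroupIn ℚ, σ • x ≠ x →
          A.valuation (σ y - y) ^ (p - 1) = A.valuation (p : Kb))) := by
  classical
  have hΔ0 : (E⁄Kb).Δ ≠ 0 := by
    rw [← WeierstrassCurve.coe_Δ']
    exact Units.ne_zero _
  have hfin := finite_torsion' (E := E) hp.out
  by_cases hall : ∀ σ ∈ A.inertiaSubgroupIn ℚ, σ • x = x
  · exact Or.inl ⟨x, by rw [sub_self]; exact zero_mem _, hall⟩
  push Not at hall
  obtain ⟨e, he, hfix, hmov⟩ := exists_unit_of_mult hp2 hW hc₄ hΔ hvp hk hx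
  have hker : ∀ σ ∈ A.inertiaSubgroupIn ℚ, ∀ z : TorsP E p, σ • z - z ∈ kerSub A hW := by
    intro σ hσ z
    rw [mem_kerSub]
    exact sub_inKer_of_inertia_of_mult hσ E hW hc₄ hΔ hΔ0 hp.out hp2 hvp (torsion_smul z)
  have hbot : kerSub (E := E) (p := p) A hW ≠ ⊥ := by
    intro h
    obtain ⟨σ, hσ, h1⟩ := hall
    have h2 := hker σ hσ x
    rw [h, Submodule.mem_bot, sub_eq_zero] at h2
    exact h1 h2
  have hcN := card_kerSub_of_mult hp2 hW hc₄ hΔ hbot
  -- the coset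
  let S : Set (TorsP E p) := {z | z - x ∈ kerSub A hW}
  have hScard : S.ncard = p := by
    have h1 : S = (fun z => x + z) '' (kerSub (E := E) (p := p) A hW : Set (TorsP E p)) := by
      ext z
      simp only [S, Set.mem_ofPred_eq, Set.mem_image, SetLike.mem_coe]
      constructor
      · intro h
        exact ⟨z - x, h, by abel⟩
      · rintro ⟨w, hw, rfl⟩
        rw [add_sub_cancel_left]
        exact hw
    rw [h1, Set.ncard_image_of_injective _ (add_right_injective x), ← Nat.card_coe_set_eq]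
    exact hcN
  have hOS : MulAction.orbit (A.inertiaSubgroupIn ℚ) x ⊆ S := by
    rintro z ⟨σ, rfl⟩
    exact hker σ.1 σ.2 x
  have hcard : Nat.card (MulAction.orbit (A.inertiaSubgroupIn ℚ) x) ≤ p := by
    rw [Nat.card_coe_set_eq]
    exact (Set.ncard_le_ncard hOS).trans hScard.le
  obtain ⟨h1, y, hy1, hy2, hy3⟩ := exists_unif_of_level hp.out hp2 hA x hcard he hfix hmov hall
  rcases hcard.lt_or_eq with hlt | heq
  · left
    have h2 : (S \ MulAction.orbit (A.inertiaSubgroupIn ℚ) x).ncard = 1 := by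
      rw [Set.ncard_sdiff hOS, hScard, ← Nat.card_coe_set_eq]
      have := hp.out.two_le
      omega
    obtain ⟨x', hx'⟩ := Set.ncard_eq_one.mp h2
    have hx'm : x' ∈ S \ MulAction.orbit (A.inertiaSubgroupIn ℚ) x := by
      rw [hx']
      rfl
    refine ⟨x', hx'm.1, fun σ hσ => ?_⟩
    have h3 : σ • x' ∈ S \ MulAction.orbit (A.inertiaSubgroupIn ℚ) x := by
      refine ⟨?_, fun h => hx'm.2 ?_⟩
      · have e1 : σ • x' - x = (σ • x' - x') + (x' - x) := by abel
        change σ • x' - x ∈ kerSub A hW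
        rw [e1]
        exact add_mem (hker σ hσ x') hx'm.1
      · obtain ⟨τ, hτ⟩ := h
        have hτ' : (τ : GQ) • x = σ • x' := hτ
        refine ⟨(⟨σ, hσ⟩ : A.inertiaSubgroupIn ℚ)⁻¹ * τ, ?_⟩
        change ((σ⁻¹ * (τ : GQ)) : GQ) • x = x'
        rw [mul_smul, hτ', inv_smul_smul]
    rw [hx'] at h3
    exact h3
  · right
    rw [heq] at hy2
    refine ⟨fun z hz => ?_, y, hy1, hy2, hy3⟩
    have h2 : MulAction.orbit (A.inertiaSubgroupIn ℚ) x = S := by
      refine Set.eq_of_subset_of_ncard_le hOS ?_ (Set.toFinite _)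
      rw [hScard, ← Nat.card_coe_set_eq, heq]
    have h3 : z ∈ MulAction.orbit (A.inertiaSubgroupIn ℚ) x := by
      rw [h2]
      exact hz
    obtain ⟨σ, hσ⟩ := h3
    exact ⟨σ.1, σ.2, hσ⟩

end Main

end Fermat.Agent.EC
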