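import Mathlib

set_option autoImplicit false

/-!
# The kernel of reduction has no torsion prime to the residue characteristic
-/

namespace Fermat.Agent.EC

open WeierstrassCurve WeierstrassCurve.Affine

section third

variable {K : Type*} [Field K] [DecidableEq K] {W : WeierstrassCurve K}

/-- Symmetric functions of the three intersection points. -/
lemma sym_of_slope {x₁ x₂ y₁ y₂ : K} (h₁ : W.toAffine.Equation x₁ y₁)
    (h₂ : W.toAffine.Equation x₂ y₂) (hxy : ¬(x₁ = x₂ ∧ y₁ = W.toAffine.negY x₂ y₂))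
    {l m x₃ : K} (hl : l = W.toAffine.slope x₁ x₂ y₁ y₂) (hm : m = y₁ - l * x₁)
    (hx₃ : x₃ = W.toAffine.addX x₁ x₂ l) :
    x₁ + x₂ + x₃ = l ^ 2 + W.a₁ * l - W.a₂ ∧
    x₁ * x₂ + x₁ * x₃ + x₂ * x₃ = W.a₄ - 2 * l * m - W.a₁ * m - W.a₃ * l ∧
    x₁ * x₂ * x₃ = m ^ 2 + W.a₃ * m - W.a₆ := by
  have key := addPolynomial_slope h₁ h₂ hxy
  rw [← hl, ← hx₃, addPolynomial_eq, neg_inj, Cubic.prod_X_sub_C_eq, Cubic.toPoly_injective] at key
  have hb := congrArg Cubic.b key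
  have hc := congrArg Cubic.c key
  have hd := congrArg Cubic.d key
  simp only at hb hc hd
  have hm' : y₁ = m + l * x₁ := by rw [hm]; ring
  refine ⟨by linear_combination hb, ?_, ?_⟩
  · rw [hm'] at hc
    linear_combination -hc
  · rw [hm'] at hd
    linear_combination hd

/-- `y₂` lies on the line through `(x₁,y₁)` with the slope. -/
lemma y₂_eq_of_slope {x₁ x₂ y₁ y₂ : K} (h₁ : W.toAffine.Equation x₁ y₁)
    (h₂ : W.toAffine.Equation x₂ y₂) (hxy : ¬(x₁ = x₂ ∧ y₁ = W.toAffine.negY x₂ y₂))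
    {l m : K} (hl : l = W.toAffine.slope x₁ x₂ y₁ y₂) (hm : m = y₁ - l * x₁) :
    y₂ = l * x₂ + m := by
  by_cases hx : x₁ = x₂
  · have hy : y₁ ≠ W.toAffine.negY x₂ y₂ := fun h => hxy ⟨hx, h⟩
    have := Y_eq_of_Y_ne h₁ h₂ hx hy
    subst hx; subst this
    rw [hm]; ring
  · rw [slope_of_X_ne hx] at hl
    have : x₁ - x₂ ≠ 0 := sub_ne_zero.mpr hx
    rw [hm, hl]
    field_simp
    ring

end third

section algebra

variable {K : Type*} [Field K]

/-- Product of the `y`-coordinates and the sum of `x/y` for three collinear points on the curve. -/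
lemma collinear_algebra {a₁ a₂ a₃ a₄ a₆ x₁ x₂ x₃ y₁ y₂ y₃ l m : K} (hm : m ≠ 0)
    (e1 : x₁ + x₂ + x₃ = l ^ 2 + a₁ * l - a₂)
    (e2 : x₁ * x₂ + x₁ * x₃ + x₂ * x₃ = a₄ - 2 * l * m - a₁ * m - a₃ * l)
    (e3 : x₁ * x₂ * x₃ = m ^ 2 + a₃ * m - a₆)
    (hy₁ : y₁ = l * x₁ + m) (hy₂ : y₂ = l * x₂ + m) (hy₃ : y₃ = l * x₃ + m)
    {L N : K} (hL : L = -l / m) (hN : N = 1 / m) :
    y₁ * y₂ * y₃ * N ^ 3 = 1 + a₂ * L + a₄ * L ^ 2 + a₆ * L ^ 3 ∧
    (x₁ * y₂ * y₃ + x₂ * y₁ * y₃ + x₃ * y₁ * y₂) * N ^ 3 =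
      a₁ * L + a₃ * L ^ 2 - a₂ * N - 2 * a₄ * L * N - 3 * a₆ * L ^ 2 * N := by
  subst hy₁ hy₂ hy₃ hL hN
  constructor
  · field_simp
    linear_combination l * m ^ 2 * e1 + l ^ 2 * m * e2 + l ^ 3 * e3
  · field_simp
    linear_combination m ^ 2 * e1 + 2 * l * m * e2 + 3 * l ^ 2 * e3

end algebra

section val

variable {K : Type*} [Field K] {Γ₀ : Type*} [LinearOrderedCommGroupWithZero Γ₀]

/-- All the coefficients of `W` are integral for `v`. -/
structure VInt (v : Valuation K Γ₀) (W : WeierstrassCurve K) : Prop where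
  a₁ : v W.a₁ ≤ 1
  a₂ : v W.a₂ ≤ 1
  a₃ : v W.a₃ ≤ 1
  a₄ : v W.a₄ ≤ 1
  a₆ : v W.a₆ ≤ 1

variable {v : Valuation K Γ₀}

lemma v_mul_le {a b : K} {r s : Γ₀} (ha : v a ≤ r) (hb : v b ≤ s) : v (a * b) ≤ r * s := by
  rw [map_mul]; exact mul_le_mul' ha hb

lemma v_mul_le' {a b : K} {s : Γ₀} (ha : v a ≤ 1) (hb : v b ≤ s) : v (a * b) ≤ s := by
  simpa using v_mul_le ha hb

lemma v_mul_le'' {a b : K} {s : Γ₀} (ha : v a ≤ s) (hb : v b ≤ 1) : v (a * b) ≤ s := by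
  simpa using v_mul_le ha hb

lemma v_sub_le {a b : K} {r : Γ₀} (ha : v a ≤ r) (hb : v b ≤ r) : v (a - b) ≤ r :=
  (Valuation.map_sub _ _ _).trans (max_le ha hb)

lemma v_add_le {a b : K} {r : Γ₀} (ha : v a ≤ r) (hb : v b ≤ r) : v (a + b) ≤ r :=
  v.map_add_le ha hb

lemma v_pow_le {a : K} {r : Γ₀} (ha : v a ≤ r) (n : ℕ) : v (a ^ n) ≤ r ^ n := by
  rw [map_pow]; exact pow_le_pow_left' ha n

lemma v_pow_le_one {a : K} (ha : v a ≤ 1) (n : ℕ) : v (a ^ n) ≤ 1 := by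
  simpa using v_pow_le ha n

lemma v_nat_le (n : ℕ) : v (n : K) ≤ 1 := by
  induction n with
  | zero => simp
  | succ n ih => push_cast; exact v_add_le ih (by simp)

lemma v_two_le : v (2 : K) ≤ 1 := by exact_mod_cast v_nat_le (v := v) 2
lemma v_three_le : v (3 : K) ≤ 1 := by exact_mod_cast v_nat_le (v := v) 3

lemma v_one_add {a : K} (ha : v a < 1) : v (1 + a) = 1 := by
  exact Valuation.map_one_add_of_lt v ha

lemma v_one_add' {a : K} (ha : v a < 1) : 1 + a ≠ 0 := by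
  intro h
  have := v_one_add ha
  rw [h, map_zero] at this
  exact zero_ne_one this

lemma v_div_unit_le {a u : K} {r : Γ₀} (ha : v a ≤ r) (hu : v u = 1) : v (a / u) ≤ r := by
  rw [map_div₀, hu, div_one]; exact ha

section zw

variable {W : WeierstrassCurve K} (hW : VInt v W)
include hW

/-- A non-integral point has `1/y` and `x/y` in the maximal ideal. -/
lemma zw_of_one_lt {x y : K} (h : W.toAffine.Equation x y) (hx : 1 < v x) :
    y ≠ 0 ∧ v (1 / y) < 1 ∧ v (x / y) < 1 := by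
  have hxy : v x < v y := by
    by_contra hlt
    rw [not_lt] at hlt
    rw [equation_iff] at h
    have hx0 : v x ≠ 0 := (zero_lt_one.trans hx).ne'
    have h1 : v (y ^ 2 + W.a₁ * x * y + W.a₃ * y) ≤ v x ^ 2 := by
      refine v_add_le (v_add_le ?_ ?_) ?_
      · rw [map_pow]; exact pow_le_pow_left' hlt 2
      · rw [sq]; exact v_mul_le (v_mul_le' hW.a₁ le_rfl) hlt
      · refine v_mul_le' hW.a₃ (hlt.trans ?_)
        exact le_self_pow hx.le (by norm_num)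
    have h2 : v (W.a₂ * x ^ 2 + W.a₄ * x + W.a₆) < v (x ^ 3) := by
      have h3 : v (W.a₂ * x ^ 2 + W.a₄ * x + W.a₆) ≤ v x ^ 2 := by
        refine v_add_le (v_add_le ?_ ?_) ?_
        · exact v_mul_le' hW.a₂ (by rw [map_pow])
        · exact v_mul_le' hW.a₄ (le_self_pow hx.le (by norm_num))
        · exact hW.a₆.trans (one_le_pow_of_one_le' hx.le 2)
      refine h3.trans_lt ?_
      rw [map_pow]
      exact pow_lt_pow_right₀ hx (by norm_num)
    have h4 : v (x ^ 3 + W.a₂ * x ^ 2 + W.a₄ * x + W.a₆) = v x ^ 3 := by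
      have : x ^ 3 + W.a₂ * x ^ 2 + W.a₄ * x + W.a₆ = x ^ 3 + (W.a₂ * x ^ 2 + W.a₄ * x + W.a₆) := by
        ring
      rw [this, Valuation.map_add_eq_of_lt_left v h2, map_pow]
    rw [h, h4] at h1
    exact absurd h1 (not_le.mpr (pow_lt_pow_right₀ hx (by norm_num)))
  have hy0 : y ≠ 0 := by
    rintro rfl
    simp at hxy
  have hvy : 0 < v y := by
    rw [zero_lt_iff]; exact (Valuation.ne_zero_iff v).mpr hy0
  refine ⟨hy0, ?_, ?_⟩
  · rw [map_div₀, map_one, div_lt_one₀ hvy]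
    exact hx.trans hxy
  · rw [map_div₀, div_lt_one₀ hvy]
    exact hxy

omit hW in
lemma zw_eq {x y : K} (h : W.toAffine.Equation x y) (hy : y ≠ 0) :
    1 / y * (1 + (W.a₁ * (x / y) + W.a₃ * (1 / y) - W.a₂ * (x / y) ^ 2
      - W.a₄ * (x / y) * (1 / y) - W.a₆ * (1 / y) ^ 2)) = (x / y) ^ 3 := by
  rw [equation_iff] at h
  field_simp
  linear_combination h

lemma v_unit {z w : K} {r : Γ₀} (hr : r < 1) (hz : v z ≤ r) (hw : v w < 1) :
    v (W.a₁ * z + W.a₃ * w - W.a₂ * z ^ 2 - W.a₄ * z * w - W.a₆ * w ^ 2) < 1 := by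
  have hz1 : v z < 1 := hz.trans_lt hr
  have aux : ∀ {a b : K}, v a ≤ 1 → v b < 1 → v (a * b) < 1 := by
    intro a b ha hb
    exact (v_mul_le' ha le_rfl).trans_lt hb
  have hsub : ∀ {a b : K}, v a < 1 → v b < 1 → v (a - b) < 1 := fun ha hb =>
    (Valuation.map_sub _ _ _).trans_lt (max_lt ha hb)
  refine hsub (hsub (hsub ?_ ?_) ?_) ?_
  · exact (v.map_add _ _).trans_lt (max_lt (aux hW.a₁ hz1) (aux hW.a₃ hw))
  · rw [sq, ← mul_assoc]; exact aux (v_mul_le' hW.a₂ hz1.le) hz1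
  · exact aux (v_mul_le' hW.a₄ hz1.le) hw
  · rw [sq, ← mul_assoc]; exact aux (v_mul_le' hW.a₆ hw.le) hw

lemma v_w_le {x y : K} (h : W.toAffine.Equation x y) (hy : y ≠ 0) {r : Γ₀} (hr : r < 1)
    (hw : v (1 / y) < 1) (hz : v (x / y) ≤ r) : v (1 / y) ≤ r ^ 3 := by
  have h1 := zw_eq h hy
  have h2 := v_one_add (v_unit hW hr hz hw)
  have h3 := congrArg v h1
  rw [map_mul, h2, mul_one] at h3
  rw [h3]
  exact v_pow_le hz 3

/-- The line through two points near infinity. -/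
lemma line_small [DecidableEq K] {x₁ x₂ y₁ y₂ : K} (h₁ : W.toAffine.Equation x₁ y₁)
    (h₂ : W.toAffine.Equation x₂ y₂) (hxy : ¬(x₁ = x₂ ∧ y₁ = W.toAffine.negY x₂ y₂))
    {r : Γ₀} (hr : r < 1) (hy₁ : y₁ ≠ 0) (hw₁ : v (1 / y₁) < 1) (hz₁ : v (x₁ / y₁) ≤ r)
    (hy₂ : y₂ ≠ 0) (hw₂ : v (1 / y₂) < 1) (hz₂ : v (x₂ / y₂) ≤ r)
    {l m : K} (hl : l = W.toAffine.slope x₁ x₂ y₁ y₂) (hm : m = y₁ - l * x₁) :
    m ≠ 0 ∧ v (-l / m) ≤ r ^ 2 ∧ v (1 / m) ≤ r ^ 3 := by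
  have hw₁' := v_w_le hW h₁ hy₁ hr hw₁ hz₁
  have hw₂' := v_w_le hW h₂ hy₂ hr hw₂ hz₂
  have hr32 : r ^ 3 ≤ r ^ 2 := pow_le_pow_right_of_le_one' hr.le (by norm_num)
  have hr31 : r ^ 3 ≤ r := by
    simpa using pow_le_pow_right_of_le_one' hr.le (show 1 ≤ 3 by norm_num)
  have hr21 : r ^ 2 ≤ r := by
    simpa using pow_le_pow_right_of_le_one' hr.le (show 1 ≤ 2 by norm_num)
  by_cases hx : x₁ = x₂
  · -- tangent case
    have hy : y₁ ≠ W.toAffine.negY x₂ y₂ := fun h => hxy ⟨hx, h⟩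
    have hyy := Y_eq_of_Y_ne h₁ h₂ hx hy
    subst hx; subst hyy
    rw [slope_of_Y_ne rfl hy] at hl
    have hD : y₁ - W.toAffine.negY x₁ y₁ ≠ 0 := sub_ne_zero.mpr hy
    have hU : v (W.a₁ * (x₁ / y₁) + 2 * W.a₃ * (1 / y₁) - W.a₂ * (x₁ / y₁) ^ 2 -
        2 * W.a₄ * (x₁ / y₁) * (1 / y₁) - 3 * W.a₆ * (1 / y₁) ^ 2) < 1 := by
      have hz1 : v (x₁ / y₁) < 1 := hz₁.trans_lt hr
      have aux : ∀ {a b : K}, v a ≤ 1 → v b < 1 → v (a * b) < 1 := by
        intro a b ha hb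
        exact (v_mul_le' ha le_rfl).trans_lt hb
      have hsub : ∀ {a b : K}, v a < 1 → v b < 1 → v (a - b) < 1 := fun ha hb =>
        (Valuation.map_sub _ _ _).trans_lt (max_lt ha hb)
      refine hsub (hsub (hsub ?_ ?_) ?_) ?_
      · exact (v.map_add _ _).trans_lt (max_lt (aux hW.a₁ hz1)
          (aux (v_mul_le' v_two_le hW.a₃) hw₁))
      · rw [sq, ← mul_assoc]; exact aux (v_mul_le' hW.a₂ hz1.le) hz1
      · exact aux (v_mul_le' (v_mul_le' v_two_le hW.a₄) hz1.le) hw₁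
      · rw [sq, ← mul_assoc]; exact aux (v_mul_le' (v_mul_le' v_three_le hW.a₆) hw₁.le) hw₁
    have hU1 := v_one_add hU
    have hU0 := v_one_add' hU
    set U := 1 + (W.a₁ * (x₁ / y₁) + 2 * W.a₃ * (1 / y₁) - W.a₂ * (x₁ / y₁) ^ 2 -
        2 * W.a₄ * (x₁ / y₁) * (1 / y₁) - 3 * W.a₆ * (1 / y₁) ^ 2) with hUdef
    have hmD : m * (y₁ - W.toAffine.negY x₁ y₁) = - y₁ ^ 2 * U := by
      rw [hm, hl, hUdef]
      rw [sub_mul, div_mul_eq_mul_div, div_mul_cancel₀ _ hD]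
      rw [equation_iff] at h₁
      simp only [negY]
      field_simp
      linear_combination 3 * h₁
    have hm0 : m ≠ 0 := by
      rintro rfl
      rw [zero_mul] at hmD
      have : y₁ ^ 2 * U ≠ 0 := mul_ne_zero (pow_ne_zero 2 hy₁) hU0
      apply this
      linear_combination hmD
    have hNm : 1 / m = -(2 * (1 / y₁) + W.a₁ * (x₁ / y₁) * (1 / y₁) + W.a₃ * (1 / y₁) ^ 2) / U := by
      rw [div_eq_div_iff hm0 hU0]
      have e : m * (2 * y₁ + W.a₁ * x₁ + W.a₃) = - y₁ ^ 2 * U := by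
        rw [← hmD]; simp only [negY]; ring
      have : U = - (m * (2 * y₁ + W.a₁ * x₁ + W.a₃)) / y₁ ^ 2 := by
        rw [e]; field_simp
      rw [this]
      field_simp
    have hLm : - l / m = (3 * (x₁ / y₁) ^ 2 + 2 * W.a₂ * (x₁ / y₁) * (1 / y₁) + W.a₄ * (1 / y₁) ^ 2
        - W.a₁ * (1 / y₁)) / U := by
      rw [div_eq_div_iff hm0 hU0]
      have e : m * (y₁ - W.toAffine.negY x₁ y₁) = - y₁ ^ 2 * U := hmD
      have e2 : l * (y₁ - W.toAffine.negY x₁ y₁) =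
          3 * x₁ ^ 2 + 2 * W.a₂ * x₁ + W.a₄ - W.a₁ * y₁ := by
        rw [hl, div_mul_cancel₀ _ hD]
      have e3 : (3 * (x₁ / y₁) ^ 2 + 2 * W.a₂ * (x₁ / y₁) * (1 / y₁) + W.a₄ * (1 / y₁) ^ 2
        - W.a₁ * (1 / y₁)) = (l * (y₁ - W.toAffine.negY x₁ y₁)) / y₁ ^ 2 := by
        rw [e2]; field_simp
      have e4 : U = - (m * (y₁ - W.toAffine.negY x₁ y₁)) / y₁ ^ 2 := by
        rw [e]; field_simp
      rw [e3, e4]
      ring
    refine ⟨hm0, ?_, ?_⟩
    · rw [hLm]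
      refine v_div_unit_le ?_ hU1
      have hww : v ((1 / y₁) ^ 2) ≤ r ^ 2 := (v_pow_le (hw₁'.trans hr31) 2)
      refine v_sub_le (v_add_le (v_add_le ?_ ?_) ?_) ?_
      · exact v_mul_le' v_three_le (v_pow_le hz₁ 2)
      · rw [sq r]
        exact v_mul_le (v_mul_le' (v_mul_le' v_two_le hW.a₂) hz₁) (hw₁'.trans hr31)
      · exact v_mul_le' hW.a₄ hww
      · exact v_mul_le' hW.a₁ (hw₁'.trans hr32)
    · rw [hNm]
      refine v_div_unit_le ?_ hU1
      rw [Valuation.map_neg]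
      refine v_add_le (v_add_le ?_ ?_) ?_
      · exact v_mul_le' v_two_le hw₁'
      · exact v_mul_le' (v_mul_le' hW.a₁ (hz₁.trans hr.le)) hw₁'
      · rw [sq]
        rw [← mul_assoc]
        exact v_mul_le' (v_mul_le' hW.a₃ hw₁.le) hw₁'
  · -- secant case
    have hxx : x₁ - x₂ ≠ 0 := sub_ne_zero.mpr hx
    have hE₁ := zw_eq h₁ hy₁
    have hE₂ := zw_eq h₂ hy₂
    set z₁ := x₁ / y₁ with hz₁def
    set z₂ := x₂ / y₂ with hz₂def
    set w₁ := 1 / y₁ with hw₁def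
    set w₂ := 1 / y₂ with hw₂def
    have hw₁0 : w₁ ≠ 0 := by rw [hw₁def]; exact one_div_ne_zero hy₁
    have hw₂0 : w₂ ≠ 0 := by rw [hw₂def]; exact one_div_ne_zero hy₂
    have hy₁w : y₁ = 1 / w₁ := by rw [hw₁def]; field_simp
    have hy₂w : y₂ = 1 / w₂ := by rw [hw₂def]; field_simp
    have hx₁w : x₁ = z₁ / w₁ := by rw [hw₁def, hz₁def]; field_simp
    have hx₂w : x₂ = z₂ / w₂ := by rw [hw₂def, hz₂def]; field_simp
    have hU : v (W.a₁ * z₁ + W.a₃ * (w₁ + w₂) - W.a₂ * z₁ ^ 2 - W.a₄ * z₁ * (w₁ + w₂)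
        - W.a₆ * (w₁ ^ 2 + w₁ * w₂ + w₂ ^ 2)) < 1 := by
      have hz1 : v z₁ < 1 := hz₁.trans_lt hr
      have aux : ∀ {a b : K}, v a ≤ 1 → v b < 1 → v (a * b) < 1 := by
        intro a b ha hb
        exact (v_mul_le' ha le_rfl).trans_lt hb
      have hadd : ∀ {a b : K}, v a < 1 → v b < 1 → v (a + b) < 1 := fun ha hb =>
        (v.map_add _ _).trans_lt (max_lt ha hb)
      have hsub : ∀ {a b : K}, v a < 1 → v b < 1 → v (a - b) < 1 := fun ha hb =>
        (Valuation.map_sub _ _ _).trans_lt (max_lt ha hb)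
      refine hsub (hsub (hsub ?_ ?_) ?_) ?_
      · exact hadd (aux hW.a₁ hz1) (aux hW.a₃ (hadd hw₁ hw₂))
      · rw [sq, ← mul_assoc]; exact aux (v_mul_le' hW.a₂ hz1.le) hz1
      · exact aux (v_mul_le' hW.a₄ hz1.le) (hadd hw₁ hw₂)
      · refine aux hW.a₆ (hadd (hadd ?_ ?_) ?_)
        · rw [sq]; exact aux hw₁.le hw₁
        · exact aux hw₁.le hw₂
        · rw [sq]; exact aux hw₂.le hw₂
    have hU1 := v_one_add hU
    have hU0 := v_one_add' hU
    set U := 1 + (W.a₁ * z₁ + W.a₃ * (w₁ + w₂) - W.a₂ * z₁ ^ 2 - W.a₄ * z₁ * (w₁ + w₂)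
        - W.a₆ * (w₁ ^ 2 + w₁ * w₂ + w₂ ^ 2)) with hUdef
    set V := z₁ ^ 2 + z₁ * z₂ + z₂ ^ 2 + W.a₂ * (z₁ + z₂) * w₂ + W.a₄ * w₂ ^ 2 - W.a₁ * w₂
      with hVdef
    have hUV : (w₁ - w₂) * U = (z₁ - z₂) * V := by
      rw [hUdef, hVdef]
      linear_combination hE₁ - hE₂
    have hV : v V ≤ r ^ 2 := by
      refine v_sub_le (v_add_le (v_add_le (v_add_le (v_add_le ?_ ?_) ?_) ?_) ?_) ?_
      · exact v_pow_le hz₁ 2
      · rw [sq r]; exact v_mul_le hz₁ hz₂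
      · exact v_pow_le hz₂ 2
      · rw [sq r]
        exact v_mul_le (v_mul_le' hW.a₂ (v_add_le hz₁ hz₂)) (hw₂'.trans hr31)
      · exact v_mul_le' hW.a₄ (v_pow_le (hw₂'.trans hr31) 2)
      · exact v_mul_le' hW.a₁ (hw₂'.trans hr32)
    have hzne : z₁ - z₂ ≠ 0 := by
      intro h0
      rw [h0, zero_mul, mul_eq_zero, or_iff_left hU0] at hUV
      apply hx
      rw [hx₁w, hx₂w, sub_eq_zero.mp h0, sub_eq_zero.mp hUV]
    -- the slope in the (z,w)-plane
    set L := V / U with hLdef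
    have hLw : w₁ - w₂ = L * (z₁ - z₂) := by
      rw [hLdef]; field_simp; linear_combination hUV
    have hLv : v L ≤ r ^ 2 := v_div_unit_le hV hU1
    set N := w₁ - L * z₁ with hNdef
    have hNv : v N ≤ r ^ 3 := by
      refine v_sub_le hw₁' ?_
      rw [pow_succ r 2]
      exact v_mul_le hLv hz₁
    have hN1 : w₁ = L * z₁ + N := by rw [hNdef]; ring
    have hN2 : w₂ = L * z₂ + N := by
      linear_combination hN1 - hLw
    have hN0 : N ≠ 0 := by
      intro h0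
      rw [h0, add_zero] at hN1 hN2
      apply hx
      have hL0 : L ≠ 0 := by
        rintro h
        rw [h, zero_mul] at hN1
        exact hw₁0 hN1
      have hz₁0 : z₁ ≠ 0 := by
        rintro h
        rw [h, mul_zero] at hN1
        exact hw₁0 hN1
      have hz₂0 : z₂ ≠ 0 := by
        rintro h
        rw [h, mul_zero] at hN2
        exact hw₂0 hN2
      rw [hx₁w, hx₂w, hN1, hN2]
      field_simp
    have hl' : l = -L / N := by
      rw [hl, slope_of_X_ne hx, div_eq_div_iff hxx hN0]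
      have e1 : N = (1 - L * x₁) * w₁ := by
        rw [hx₁w]; field_simp; linear_combination -hN1
      have e2 : N = (1 - L * x₂) * w₂ := by
        rw [hx₂w]; field_simp; linear_combination -hN2
      have f1 : y₁ * N = 1 - L * x₁ := by
        rw [e1, hy₁w]; field_simp
      have f2 : y₂ * N = 1 - L * x₂ := by
        rw [e2, hy₂w]; field_simp
      linear_combination f1 - f2
    have hm' : m = 1 / N := by
      have e1 : N = (1 - L * x₁) * w₁ := by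
        rw [hx₁w]; field_simp; linear_combination -hN1
      have f1 : y₁ * N = 1 - L * x₁ := by
        rw [e1, hy₁w]; field_simp
      rw [hm, hl', eq_div_iff hN0]
      field_simp
      linear_combination f1
    have hm0 : m ≠ 0 := by rw [hm']; exact one_div_ne_zero hN0
    refine ⟨hm0, ?_, ?_⟩
    · have : -l / m = L := by rw [hl', hm']; field_simp
      rw [this]; exact hLv
    · have : 1 / m = N := by rw [hm']; field_simp
      rw [this]; exact hNv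

/-- The negation map near infinity. -/
lemma neg_small {x y : K} {r : Γ₀} (hr : r < 1) (hy : y ≠ 0) (hw : v (1 / y) < 1)
    (hwr : v (1 / y) ≤ r) (hz : v (x / y) ≤ r) :
    W.toAffine.negY x y ≠ 0 ∧ v (1 / W.toAffine.negY x y) < 1 ∧
      v (x / W.toAffine.negY x y) ≤ r ∧
      v (x / W.toAffine.negY x y + x / y) ≤ r ^ 2 := by
  have hs : v (W.a₁ * (x / y) + W.a₃ * (1 / y)) ≤ r :=
    v_add_le (v_mul_le' hW.a₁ hz) (v_mul_le' hW.a₃ hwr)
  have hs1 := hs.trans_lt hr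
  have hU1 := v_one_add hs1
  have hU0 := v_one_add' hs1
  set s := W.a₁ * (x / y) + W.a₃ * (1 / y) with hsdef
  have hneg : W.toAffine.negY x y = - y * (1 + s) := by
    rw [hsdef]; simp only [negY]; field_simp; ring
  have hne : W.toAffine.negY x y ≠ 0 := by
    rw [hneg]; exact mul_ne_zero (neg_ne_zero.mpr hy) hU0
  refine ⟨hne, ?_, ?_, ?_⟩
  · have : 1 / W.toAffine.negY x y = -(1 / y) / (1 + s) := by
      rw [hneg]; field_simp
    rw [this, map_div₀, hU1, div_one, Valuation.map_neg]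
    exact hw
  · have : x / W.toAffine.negY x y = -(x / y) / (1 + s) := by
      rw [hneg]; field_simp
    rw [this, map_div₀, hU1, div_one, Valuation.map_neg]
    exact hz
  · have : x / W.toAffine.negY x y + x / y = (x / y) * s / (1 + s) := by
      rw [hneg]; field_simp; ring
    rw [this]
    refine v_div_unit_le ?_ hU1
    rw [sq]
    exact v_mul_le hz hs

end zw

/-- The formal parameter `x / y`. -/
def zc {W : WeierstrassCurve K} : W.toAffine.Point → K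
  | .zero => 0
  | .some x y _ => x / y

/-- The set of points at distance `≤ r` from the origin. -/
def InE (v : Valuation K Γ₀) {W : WeierstrassCurve K} (r : Γ₀) : W.toAffine.Point → Prop
  | .zero => True
  | .some x y _ => y ≠ 0 ∧ v (1 / y) < 1 ∧ v (x / y) ≤ r

lemma zc_zero {W : WeierstrassCurve K} : zc (0 : W.toAffine.Point) = 0 := rfl

lemma zc_some {W : WeierstrassCurve K} {x y : K} (h : W.toAffine.Nonsingular x y) :
    zc (.some x y h : W.toAffine.Point) = x / y := rfl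

lemma InE_zero {W : WeierstrassCurve K} {r : Γ₀} : InE v r (0 : W.toAffine.Point) := trivial

lemma InE_some {W : WeierstrassCurve K} {r : Γ₀} {x y : K} (h : W.toAffine.Nonsingular x y) :
    InE v r (.some x y h : W.toAffine.Point) ↔ y ≠ 0 ∧ v (1 / y) < 1 ∧ v (x / y) ≤ r := Iff.rfl

theorem InE_add [DecidableEq K] {W : WeierstrassCurve K} (hW : VInt v W) {r : Γ₀} (hr : r < 1)
    {P Q : W.toAffine.Point} (hP : InE v r P) (hQ : InE v r Q) :
    InE v r (P + Q) ∧ v (zc (P + Q) - zc P - zc Q) ≤ r ^ 2 := by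
  rcases P with _ | ⟨x₁, y₁, h₁⟩
  · change InE v r (0 + Q) ∧ v (zc (0 + Q) - zc 0 - zc Q) ≤ r ^ 2
    rw [zero_add, zc_zero]
    simp [hQ]
  rcases Q with _ | ⟨x₂, y₂, h₂⟩
  · change InE v r (_ + 0) ∧ v (zc (_ + 0) - _ - zc 0) ≤ r ^ 2
    rw [add_zero, zc_zero]
    simp [hP]
  obtain ⟨hy₁, hw₁, hz₁⟩ := hP
  obtain ⟨hy₂, hw₂, hz₂⟩ := hQ
  have hr31 : r ^ 3 ≤ r := by
    simpa using pow_le_pow_right_of_le_one' hr.le (show 1 ≤ 3 by norm_num)
  have hr21 : r ^ 2 ≤ r := by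
    simpa using pow_le_pow_right_of_le_one' hr.le (show 1 ≤ 2 by norm_num)
  have hw₁' := (v_w_le hW h₁.1 hy₁ hr hw₁ hz₁).trans hr31
  have hw₂' := (v_w_le hW h₂.1 hy₂ hr hw₂ hz₂).trans hr31
  by_cases hxy : x₁ = x₂ ∧ y₁ = W.toAffine.negY x₂ y₂
  · rw [Point.add_of_Y_eq hxy.1 hxy.2]
    refine ⟨InE_zero, ?_⟩
    rw [zc_zero, zc_some, zc_some]
    obtain ⟨-, -, -, h4⟩ := neg_small hW hr hy₂ hw₂ hw₂' hz₂
    obtain ⟨rfl, rfl⟩ := hxy
    have : 0 - x₁ / W.toAffine.negY x₁ y₂ - x₁ / y₂ = - (x₁ / W.toAffine.negY x₁ y₂ + x₁ / y₂) := by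
      ring
    rw [this, Valuation.map_neg]
    exact h4
  · rw [Point.add_some hxy]
    set l := W.toAffine.slope x₁ x₂ y₁ y₂ with hl
    set m := y₁ - l * x₁ with hm
    set x₃ := W.toAffine.addX x₁ x₂ l with hx₃
    obtain ⟨e1, e2, e3⟩ := sym_of_slope h₁.1 h₂.1 hxy hl hm hx₃
    obtain ⟨hm0, hL, hN⟩ := line_small hW h₁.1 h₂.1 hxy hr hy₁ hw₁ hz₁ hy₂ hw₂ hz₂ hl hm
    have hy₁m : y₁ = l * x₁ + m := by rw [hm]; ring
    have hy₂m : y₂ = l * x₂ + m := y₂_eq_of_slope h₁.1 h₂.1 hxy hl hm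
    have hy₃m : W.toAffine.negAddY x₁ x₂ y₁ l = l * x₃ + m := by
      simp only [negAddY, ← hx₃]; rw [hm]; ring
    set y₃ := W.toAffine.negAddY x₁ x₂ y₁ l with hy₃
    obtain ⟨A1, A2⟩ := collinear_algebra hm0 e1 e2 e3 hy₁m hy₂m hy₃m rfl rfl
    set L := -l / m with hLdef
    set N := 1 / m with hNdef
    have hL1 : v L < 1 := (hL.trans hr21).trans_lt hr
    have hD : v (W.a₂ * L + W.a₄ * L ^ 2 + W.a₆ * L ^ 3) < 1 := by
      have aux : ∀ {a b : K}, v a ≤ 1 → v b < 1 → v (a * b) < 1 := by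
        intro a b ha hb
        exact (v_mul_le' ha le_rfl).trans_lt hb
      have hadd : ∀ {a b : K}, v a < 1 → v b < 1 → v (a + b) < 1 := fun ha hb =>
        (v.map_add _ _).trans_lt (max_lt ha hb)
      refine hadd (hadd (aux hW.a₂ hL1) ?_) ?_
      · rw [sq, ← mul_assoc]; exact aux (v_mul_le' hW.a₄ hL1.le) hL1
      · rw [pow_succ, ← mul_assoc]
        exact aux (v_mul_le' hW.a₆ (v_pow_le_one hL1.le 2)) hL1
    have hD1 := v_one_add hD
    have hD0 := v_one_add' hD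
    have hDeq : 1 + W.a₂ * L + W.a₄ * L ^ 2 + W.a₆ * L ^ 3 =
      1 + (W.a₂ * L + W.a₄ * L ^ 2 + W.a₆ * L ^ 3) := by ring
    rw [hDeq] at A1
    set D := 1 + (W.a₂ * L + W.a₄ * L ^ 2 + W.a₆ * L ^ 3) with hDdef
    have hN0 : N ≠ 0 := one_div_ne_zero hm0
    have hy₃0 : y₃ ≠ 0 := by
      intro h0
      rw [h0, mul_zero, zero_mul] at A1
      exact hD0 A1.symm
    -- sum of the z's
    have hsum : x₁ / y₁ + x₂ / y₂ + x₃ / y₃ =
        (W.a₁ * L + W.a₃ * L ^ 2 - W.a₂ * N - 2 * W.a₄ * L * N - 3 * W.a₆ * L ^ 2 * N) / D := by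
      rw [← A1, ← A2]
      field_simp
    have hsumv : v (x₁ / y₁ + x₂ / y₂ + x₃ / y₃) ≤ r ^ 2 := by
      rw [hsum]
      refine v_div_unit_le ?_ hD1
      have hN2 : v N ≤ r ^ 2 := hN.trans (pow_le_pow_right_of_le_one' hr.le (by norm_num))
      refine v_sub_le (v_sub_le (v_sub_le (v_add_le ?_ ?_) ?_) ?_) ?_
      · exact v_mul_le' hW.a₁ hL
      · refine v_mul_le' hW.a₃ ?_
        rw [sq L]
        exact v_mul_le' hL1.le hL
      · exact v_mul_le' hW.a₂ hN2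
      · exact v_mul_le' (v_mul_le' (v_mul_le' v_two_le hW.a₄) hL1.le) hN2
      · exact v_mul_le' (v_mul_le' (v_mul_le' v_three_le hW.a₆) (v_pow_le_one hL1.le 2)) hN2
    have hz₃ : v (x₃ / y₃) ≤ r := by
      have : x₃ / y₃ = (x₁ / y₁ + x₂ / y₂ + x₃ / y₃) - x₁ / y₁ - x₂ / y₂ := by ring
      rw [this]
      exact v_sub_le (v_sub_le (hsumv.trans hr21) hz₁) hz₂
    have hw₃eq : 1 / y₃ = L * (x₃ / y₃) + N := by
      rw [hLdef, hNdef, hy₃m]
      rw [hy₃m] at hy₃0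
      field_simp
      ring
    have hw₃ : v (1 / y₃) ≤ r := by
      rw [hw₃eq]
      exact v_add_le (v_mul_le' hL1.le hz₃) (hN.trans hr31)
    obtain ⟨n1, n2, n3, n4⟩ := neg_small hW hr hy₃0 (hw₃.trans_lt hr) hw₃ hz₃
    refine ⟨⟨n1, n2, n3⟩, ?_⟩
    rw [zc_some, zc_some, zc_some]
    have : x₃ / W.toAffine.addY x₁ x₂ y₁ l - x₁ / y₁ - x₂ / y₂ =
        (x₃ / W.toAffine.negY x₃ y₃ + x₃ / y₃) - (x₁ / y₁ + x₂ / y₂ + x₃ / y₃) := by
      rw [addY, ← hx₃, ← hy₃]; ring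
    rw [this]
    exact v_sub_le n4 hsumv

theorem InE_nsmul [DecidableEq K] {W : WeierstrassCurve K} (hW : VInt v W) {r : Γ₀} (hr : r < 1)
    {P : W.toAffine.Point} (hP : InE v r P) (n : ℕ) :
    InE v r (n • P) ∧ v (zc (n • P) - n * zc P) ≤ r ^ 2 := by
  induction n with
  | zero => simp [zc_zero, InE_zero]
  | succ n ih =>
    obtain ⟨h1, h2⟩ := InE_add hW hr ih.1 hP
    rw [succ_nsmul]
    refine ⟨h1, ?_⟩
    have : zc (n • P + P) - ((n + 1 : ℕ) : K) * zc P =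
        (zc (n • P + P) - zc (n • P) - zc P) + (zc (n • P) - n * zc P) := by
      push_cast; ring
    rw [this]
    exact v_add_le h2 ih.2

/-- The kernel of reduction contains no nonzero point killed by an integer prime to
the residue characteristic. -/
theorem integral_of_torsion [DecidableEq K] {W : WeierstrassCurve K} (hW : VInt v W) {n : ℕ}
    (hn : v (n : K) = 1) {x y : K} {h : W.toAffine.Nonsingular x y}
    (hP : n • (.some x y h : W.toAffine.Point) = 0) : v x ≤ 1 := by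
  by_contra hx
  rw [not_le] at hx
  obtain ⟨hy, hw, hz⟩ := zw_of_one_lt hW h.1 hx
  have hInE : InE v (v (x / y)) (.some x y h : W.toAffine.Point) := ⟨hy, hw, le_rfl⟩
  obtain ⟨-, h2⟩ := InE_nsmul hW hz hInE n
  rw [hP, zc_zero, zc_some, zero_sub, Valuation.map_neg, map_mul, hn, one_mul] at h2
  have hx0 : x ≠ 0 := by
    rintro rfl
    simp at hx
  have hz0 : v (x / y) ≠ 0 := (Valuation.ne_zero_iff v).mpr (div_ne_zero hx0 hy)
  have h3 : v (x / y) ^ 2 < v (x / y) := by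
    rw [sq]
    calc v (x / y) * v (x / y) < v (x / y) * 1 :=
          mul_lt_mul_of_pos_left hz (zero_lt_iff.mpr hz0)
      _ = v (x / y) := mul_one _
  exact absurd h2 (not_le.mpr h3)

end val

end Fermat.Agent.EC
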