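import Mathlib
import Fermat.Agent.ESCore.PseudoLim

set_option autoImplicit false
set_option linter.style.haveILetI false
set_option linter.unusedSectionVars false

/-!
# The `p`-adic matrices of the endomorphisms of an abelian group whose `p ^ n`-torsion has
`p ^ (2 n)` elements
-/

noncomputable section

namespace Fermat.Agent.EC.Tate

open Fermat.Agent.ESCore

variable {G : Type*} [AddCommGroup G] {p : ℕ}

/-- A compatible system of bases of the `p ^ n`-torsion. -/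
structure TBasis (G : Type*) [AddCommGroup G] (p : ℕ) where
  /-- the basis of level `n` -/
  e : ℕ → Fin 2 → G
  e_zero : ∀ i, e 0 i = 0
  e_succ : ∀ n i, p • e (n + 1) i = e n i
  indep : ∀ c : Fin 2 → ℤ, ∑ i, c i • e 1 i = 0 → ∀ i, (p : ℤ) ∣ c i
  gen : ∀ x : G, p • x = 0 → ∃ c : Fin 2 → ℤ, x = ∑ i, c i • e 1 i

/-- Existence of a compatible system. -/
theorem exists_tbasis (hp : p.Prime)
    (hcard : ∀ n : ℕ, Nat.card {x : G // p ^ n • x = 0} = (p ^ n) ^ 2)
    (e₁ : Fin 2 → G) (he₁ : ∀ i, p • e₁ i = 0)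
    (hin : ∀ c : Fin 2 → ℤ, ∑ i, c i • e₁ i = 0 → ∀ i, (p : ℤ) ∣ c i)
    (hgen : ∀ x : G, p • x = 0 → ∃ c : Fin 2 → ℤ, x = ∑ i, c i • e₁ i) :
    ∃ B : TBasis G p, B.e 1 = e₁ := by
  have hsurj : ∀ n : ℕ, ∀ x : G, p ^ n • x = 0 → ∃ y : G, p ^ (n + 1) • y = 0 ∧ p • y = x := by
    intro n x hx
    let H : ℕ → AddSubgroup G := fun n => (nsmulAddMonoidHom (p ^ n) : G →+ G).ker
    have hH : ∀ n (z : G), z ∈ H n ↔ p ^ n • z = 0 := fun n z => Iff.rfl
    have hcH : ∀ n, Nat.card (H n) = (p ^ n) ^ 2 := fun n => hcard n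
    haveI hf : ∀ n, Finite (H n) := fun n => Nat.finite_of_card_ne_zero (by
      rw [hcH]; exact pow_ne_zero 2 (pow_ne_zero n hp.ne_zero))
    let f : H (n + 1) →+ H n :=
      { toFun := fun z => ⟨p • z.1, by
          have h1 := z.2
          rw [hH] at h1 ⊢
          rw [← mul_smul, ← pow_succ, h1]⟩
        map_zero' := Subtype.ext (smul_zero _)
        map_add' := fun a b => Subtype.ext (smul_add _ _ _) }
    have hker : Nat.card f.ker ≤ p ^ 2 := by
      have e1 := hcH 1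
      rw [pow_one] at e1
      rw [← e1]
      refine Nat.card_le_card_of_injective
        (fun z : f.ker => (⟨z.1.1, by
          rw [hH, pow_one]
          have h2 := z.2
          rw [AddMonoidHom.mem_ker] at h2
          exact congrArg Subtype.val h2⟩ : H 1)) ?_
      intro a b hab
      apply Subtype.ext
      apply Subtype.ext
      exact congrArg (fun w : H 1 => w.1) hab
    have h3 : Nat.card (H (n + 1)) = Nat.card f.ker * Nat.card f.range := by
      rw [AddSubgroup.card_eq_card_quotient_mul_card_addSubgroup f.ker, mul_comm]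
      congr 1
      exact Nat.card_congr (QuotientAddGroup.quotientKerEquivRange f).toEquiv
    have h4 : Nat.card (H n) ≤ Nat.card f.range := by
      rw [hcH] at h3 ⊢
      have h5 : (p ^ (n + 1)) ^ 2 = p ^ 2 * (p ^ n) ^ 2 := by ring
      rw [h5] at h3
      have hpos : 0 < p ^ 2 := pow_pos hp.pos 2
      have h6 : p ^ 2 * (p ^ n) ^ 2 ≤ p ^ 2 * Nat.card f.range := by
        rw [h3]; exact Nat.mul_le_mul_right _ hker
      exact Nat.le_of_mul_le_mul_left h6 hpos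
    have h7 : f.range = ⊤ := by
      apply AddSubgroup.eq_top_of_le_card _ h4
    have h8 : (⟨x, hx⟩ : H n) ∈ f.range := by rw [h7]; exact AddSubgroup.mem_top _
    obtain ⟨y, hy⟩ := h8
    exact ⟨y.1, y.2, congrArg Subtype.val hy⟩
  choose! d hd1 hd2 using hsurj
  let E : ℕ → Fin 2 → G := fun n => Nat.rec (fun _ => 0)
    (fun m r => if m = 0 then e₁ else fun i => d m (r i)) n
  have hE0 : ∀ i, E 0 i = 0 := fun i => rfl
  have hE1 : E 1 = e₁ := rfl
  have hES : ∀ n, E (n + 2) = fun i => d (n + 1) (E (n + 1) i) := fun n => rfl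
  have htor : ∀ n i, p ^ (n + 1) • E (n + 1) i = 0 := by
    intro n
    induction n with
    | zero =>
      intro i
      rw [zero_add, pow_one, hE1]
      exact he₁ i
    | succ n ih =>
      intro i
      rw [hES]
      exact hd1 _ _ (ih i)
  refine ⟨⟨E, hE0, ?_, ?_, ?_⟩, hE1⟩
  · intro n i
    rcases n with _ | n
    · rw [zero_add, hE1, hE0]
      exact he₁ i
    · rw [hES]
      exact hd2 _ _ (htor n i)
  · rw [hE1]; exact hin
  · rw [hE1]; exact hgen

namespace TBasis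

variable (B : TBasis G p)

theorem pow_smul (m : ℕ) : ∀ n i, p ^ m • B.e (n + m) i = B.e n i := by
  induction m with
  | zero => intro n i; rw [pow_zero, one_smul, add_zero]
  | succ m ih =>
    intro n i
    rw [pow_succ, mul_smul, ← add_assoc, B.e_succ, ih]

theorem tors (n : ℕ) (i : Fin 2) : p ^ n • B.e n i = 0 := by
  have := B.pow_smul n 0 i
  rw [zero_add, B.e_zero] at this
  exact this

theorem indep' (hp : p.Prime) : ∀ (n : ℕ) (c : Fin 2 → ℤ), ∑ i, c i • B.e n i = 0 →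
    ∀ i, (p : ℤ) ^ n ∣ c i := by
  intro n
  induction n with
  | zero => intro c _ i; rw [pow_zero]; exact one_dvd _
  | succ n ih =>
    intro c hc i
    have h1 : ∑ i, c i • B.e 1 i = 0 := by
      have h2 := congrArg (fun x => p ^ n • x) hc
      simp only [Finset.smul_sum, smul_zero] at h2
      rw [← h2]
      refine Finset.sum_congr rfl fun i _ => ?_
      rw [smul_comm, add_comm n 1, B.pow_smul]
    have h3 := B.indep c h1
    choose c' hc' using h3
    have h4 : ∑ i, c' i • B.e n i = 0 := by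
      rw [← hc]
      refine Finset.sum_congr rfl fun i _ => ?_
      rw [hc' i, ← B.e_succ n i, mul_comm, mul_smul, natCast_zsmul]
    have h5 := ih c' h4 i
    rw [hc' i, pow_succ, mul_comm]
    exact mul_dvd_mul_left _ h5

theorem gen' (hp : p.Prime) : ∀ (n : ℕ) (x : G), p ^ n • x = 0 →
    ∃ c : Fin 2 → ℤ, x = ∑ i, c i • B.e n i := by
  intro n
  induction n with
  | zero =>
    intro x hx
    rw [pow_zero, one_smul] at hx
    exact ⟨0, by rw [hx]; simp⟩
  | succ n ih =>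
    intro x hx
    have h1 : p • (p ^ n • x) = 0 := by rw [← mul_smul, ← pow_succ', hx]
    obtain ⟨c, hc⟩ := B.gen _ h1
    have h2 : p ^ n • (x - ∑ i, c i • B.e (n + 1) i) = 0 := by
      rw [smul_sub, hc, Finset.smul_sum, sub_eq_zero]
      refine Finset.sum_congr rfl fun i _ => ?_
      rw [smul_comm, add_comm n 1, B.pow_smul]
    obtain ⟨c', hc'⟩ := ih _ h2
    refine ⟨fun i => c i + p * c' i, ?_⟩
    rw [sub_eq_iff_eq_add] at hc'
    rw [hc', ← Finset.sum_add_distrib]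
    refine Finset.sum_congr rfl fun i _ => ?_
    rw [add_smul, mul_comm, mul_smul, natCast_zsmul, B.e_succ]
    exact add_comm _ _

end TBasis

section Padic

variable [hp : Fact p.Prime] (B : TBasis G p)

/-- integer approximation of a matrix -/
def Apx (n : ℕ) (M : Matrix (Fin 2) (Fin 2) ℤ_[p]) (c : Matrix (Fin 2) (Fin 2) ℤ) : Prop :=
  ∀ i j, (p : ℤ_[p]) ^ n ∣ M i j - (c i j : ℤ_[p])

lemma dvd_int_iff {n : ℕ} {k : ℤ} : (p : ℤ_[p]) ^ n ∣ (k : ℤ_[p]) ↔ (p : ℤ) ^ n ∣ k := by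
  rw [← Ideal.mem_span_singleton, ← PadicInt.norm_le_pow_iff_mem_span_pow,
    PadicInt.norm_int_le_pow_iff_dvd]

lemma exists_apx (n : ℕ) (M : Matrix (Fin 2) (Fin 2) ℤ_[p]) :
    ∃ c : Matrix (Fin 2) (Fin 2) ℤ, Apx n M c := by
  refine ⟨fun i j => ((M i j).appr n : ℤ), fun i j => ?_⟩
  have := PadicInt.appr_spec n (M i j)
  rw [Ideal.mem_span_singleton] at this
  exact_mod_cast this

lemma Apx.sub {n : ℕ} {M : Matrix (Fin 2) (Fin 2) ℤ_[p]} {c d : Matrix (Fin 2) (Fin 2) ℤ}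
    (hc : Apx n M c) (hd : Apx n M d) (i j : Fin 2) : (p : ℤ) ^ n ∣ c i j - d i j := by
  rw [← dvd_int_iff]
  have h1 := dvd_sub (hd i j) (hc i j)
  have h2 : M i j - (d i j : ℤ_[p]) - (M i j - (c i j : ℤ_[p])) =
      ((c i j - d i j : ℤ) : ℤ_[p]) := by push_cast; ring
  rwa [h2] at h1

lemma Apx.mul {n : ℕ} {M N : Matrix (Fin 2) (Fin 2) ℤ_[p]} {c d : Matrix (Fin 2) (Fin 2) ℤ}
    (hc : Apx n M c) (hd : Apx n N d) : Apx n (M * N) (c * d) := by
  intro i j
  simp only [Matrix.mul_apply, Fin.sum_univ_two]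
  push_cast
  have h : M i 0 * N 0 j + M i 1 * N 1 j - ((c i 0 : ℤ_[p]) * d 0 j + (c i 1 : ℤ_[p]) * d 1 j) =
      (M i 0 - c i 0) * N 0 j + c i 0 * (N 0 j - d 0 j) + ((M i 1 - c i 1) * N 1 j +
        c i 1 * (N 1 j - d 1 j)) := by ring
  rw [h]
  exact dvd_add (dvd_add (Dvd.dvd.mul_right (hc i 0) _) (Dvd.dvd.mul_left (hd 0 j) _))
    (dvd_add (Dvd.dvd.mul_right (hc i 1) _) (Dvd.dvd.mul_left (hd 1 j) _))

lemma Apx.add {n : ℕ} {M N : Matrix (Fin 2) (Fin 2) ℤ_[p]} {c d : Matrix (Fin 2) (Fin 2) ℤ}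
    (hc : Apx n M c) (hd : Apx n N d) : Apx n (M + N) (c + d) := by
  intro i j
  simp only [Matrix.add_apply]
  push_cast
  have h : M i j + N i j - ((c i j : ℤ_[p]) + d i j) = (M i j - c i j) + (N i j - d i j) := by ring
  rw [h]
  exact dvd_add (hc i j) (hd i j)

lemma eq_of_forall_dvd {x y : ℤ_[p]} (h : ∀ n : ℕ, (p : ℤ_[p]) ^ n ∣ x - y) : x = y := by
  rw [← sub_eq_zero]
  by_contra hne
  have h1 := h ((x - y).valuation + 1)
  rw [← Ideal.mem_span_singleton, ← PadicInt.norm_le_pow_iff_mem_span_pow,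
    PadicInt.norm_eq_zpow_neg_valuation hne] at h1
  have h2 : (1 : ℝ) < p := by exact_mod_cast hp.out.one_lt
  rw [zpow_le_zpow_iff_right₀ h2] at h1
  push_cast at h1
  linarith

/-- `M` is the matrix of `φ`. -/
def IsMat (φ : G →+ G) (M : Matrix (Fin 2) (Fin 2) ℤ_[p]) : Prop :=
  ∀ n (c : Matrix (Fin 2) (Fin 2) ℤ), Apx n M c → ∀ j, φ (B.e n j) = ∑ i, c i j • B.e n i

lemma sum_congr_of_dvd {n : ℕ} {c d : Fin 2 → ℤ} (h : ∀ i, (p : ℤ) ^ n ∣ c i - d i) :
    ∑ i, c i • B.e n i = ∑ i, d i • B.e n i := by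
  refine Finset.sum_congr rfl fun i _ => ?_
  rw [← sub_eq_zero, ← sub_smul]
  obtain ⟨k, hk⟩ := h i
  rw [hk, mul_comm, mul_smul]
  have h1 : ((p : ℤ) ^ n) • B.e n i = p ^ n • B.e n i := by
    rw [← natCast_zsmul]; norm_cast
  rw [h1, B.tors, smul_zero]

lemma IsMat.of_one {φ : G →+ G} {M : Matrix (Fin 2) (Fin 2) ℤ_[p]}
    (h : ∀ n, ∃ c : Matrix (Fin 2) (Fin 2) ℤ, Apx n M c ∧
      ∀ j, φ (B.e n j) = ∑ i, c i j • B.e n i) : IsMat B φ M := by
  intro n d hd j
  obtain ⟨c, hc, h1⟩ := h n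
  rw [h1 j]
  exact sum_congr_of_dvd B fun i => hc.sub hd i j

theorem exists_isMat (φ : G →+ G) : ∃ M, IsMat B φ M := by
  have hpm : (p : ℤ_[p]) ∈ IsLocalRing.maximalIdeal ℤ_[p] := by
    rw [PadicInt.maximalIdeal_eq_span_p]
    exact Ideal.mem_span_singleton_self _
  have key : ∀ i j, ∃ t : ℤ_[p], ∀ n, ∀ c : Matrix (Fin 2) (Fin 2) ℤ,
      (∀ j, φ (B.e n j) = ∑ i, c i j • B.e n i) → (p : ℤ_[p]) ^ n ∣ t - (c i j : ℤ_[p]) := by
    intro i j
    obtain ⟨t, ht⟩ := ESCore.exists_lim hpm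
      (fun n => {x : ℤ_[p] | ∃ c : Matrix (Fin 2) (Fin 2) ℤ, x = (c i j : ℤ_[p]) ∧
        ∀ j, φ (B.e n j) = ∑ i, c i j • B.e n i})
      (fun n => by
        have h1 : ∀ j, ∃ c : Fin 2 → ℤ, φ (B.e n j) = ∑ i, c i • B.e n i := by
          intro j
          refine B.gen' hp.out n _ ?_
          rw [← map_nsmul, B.tors, map_zero]
        choose c hc using h1
        exact ⟨_, fun i j => c j i, rfl, hc⟩)
      (fun n x hx => by
        obtain ⟨c, rfl, hc⟩ := hx
        refine ⟨c, rfl, fun j => ?_⟩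
        rw [← B.e_succ n j, map_nsmul, hc j, Finset.smul_sum]
        refine Finset.sum_congr rfl fun i _ => ?_
        rw [smul_comm, B.e_succ])
      (fun n x hx y hy => by
        obtain ⟨c, rfl, hc⟩ := hx
        obtain ⟨d, rfl, hd⟩ := hy
        rw [Ideal.mem_span_singleton, ← Int.cast_sub, dvd_int_iff]
        have h1 : ∑ i, (c i j - d i j) • B.e n i = 0 := by
          simp only [sub_smul, Finset.sum_sub_distrib]
          rw [← hc j, ← hd j, sub_self]
        exact B.indep' hp.out n _ h1 i)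
    refine ⟨t, fun n c hc => ?_⟩
    have := ht n _ ⟨c, rfl, hc⟩
    rwa [Ideal.mem_span_singleton] at this
  choose t ht using key
  refine ⟨fun i j => t i j, IsMat.of_one B fun n => ?_⟩
  have h1 : ∀ j, ∃ c : Fin 2 → ℤ, φ (B.e n j) = ∑ i, c i • B.e n i := by
    intro j
    refine B.gen' hp.out n _ ?_
    rw [← map_nsmul, B.tors, map_zero]
  choose c hc using h1
  exact ⟨fun i j => c j i, fun i j => ht i j n (fun i j => c j i) hc, hc⟩

theorem IsMat.ext {φ ψ : G →+ G} {M N : Matrix (Fin 2) (Fin 2) ℤ_[p]}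
    (hM : IsMat B φ M) (hN : IsMat B ψ N) (h : ∀ n j, φ (B.e n j) = ψ (B.e n j)) : M = N := by
  ext i j
  refine eq_of_forall_dvd fun n => ?_
  obtain ⟨c, hc⟩ := exists_apx n M
  obtain ⟨d, hd⟩ := exists_apx n N
  have h1 : ∑ i, (c i j - d i j) • B.e n i = 0 := by
    simp only [sub_smul, Finset.sum_sub_distrib]
    rw [← hM n c hc j, ← hN n d hd j, h, sub_self]
  have h2 := B.indep' hp.out n _ h1 i
  rw [← dvd_int_iff] at h2
  have h3 : M i j - N i j = (M i j - c i j) + ((c i j - d i j : ℤ) : ℤ_[p]) - (N i j - d i j) := by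
    push_cast; ring
  rw [h3]
  exact dvd_sub (dvd_add (hc i j) h2) (hd i j)

lemma IsMat.mul {φ ψ : G →+ G} {M N : Matrix (Fin 2) (Fin 2) ℤ_[p]}
    (hM : IsMat B φ M) (hN : IsMat B ψ N) : IsMat B (φ.comp ψ) (M * N) := by
  refine IsMat.of_one B fun n => ?_
  obtain ⟨c, hc⟩ := exists_apx n M
  obtain ⟨d, hd⟩ := exists_apx n N
  refine ⟨c * d, hc.mul hd, fun j => ?_⟩
  rw [AddMonoidHom.comp_apply, hN n d hd j, map_sum]
  simp only [map_zsmul, hM n c hc, Matrix.mul_apply, Fin.sum_univ_two, smul_add, add_smul,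
    mul_smul]
  rw [smul_comm (d 0 j) (c 0 0), smul_comm (d 0 j) (c 1 0), smul_comm (d 1 j) (c 0 1),
    smul_comm (d 1 j) (c 1 1)]
  abel

lemma IsMat.add {φ ψ : G →+ G} {M N : Matrix (Fin 2) (Fin 2) ℤ_[p]}
    (hM : IsMat B φ M) (hN : IsMat B ψ N) : IsMat B (φ + ψ) (M + N) := by
  refine IsMat.of_one B fun n => ?_
  obtain ⟨c, hc⟩ := exists_apx n M
  obtain ⟨d, hd⟩ := exists_apx n N
  refine ⟨c + d, hc.add hd, fun j => ?_⟩
  rw [AddMonoidHom.add_apply, hN n d hd j, hM n c hc j, ← Finset.sum_add_distrib]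
  refine Finset.sum_congr rfl fun i _ => ?_
  rw [Matrix.add_apply, add_smul]

lemma isMat_one : IsMat B (AddMonoidHom.id G) 1 := by
  refine IsMat.of_one B fun n => ⟨1, fun i j => ?_, fun j => ?_⟩
  · fin_cases i <;> fin_cases j <;> simp
  · rw [AddMonoidHom.id_apply, Fin.sum_univ_two]
    fin_cases j
    · change _ = (1 : Matrix (Fin 2) (Fin 2) ℤ) 0 0 • B.e n 0 +
        (1 : Matrix (Fin 2) (Fin 2) ℤ) 1 0 • B.e n 1
      simp
    · change _ = (1 : Matrix (Fin 2) (Fin 2) ℤ) 0 1 • B.e n 0 +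
        (1 : Matrix (Fin 2) (Fin 2) ℤ) 1 1 • B.e n 1
      simp

/-- The `p`-adic matrices of endomorphisms. -/
def mat (φ : G →+ G) : Matrix (Fin 2) (Fin 2) ℤ_[p] := (exists_isMat B φ).choose

theorem isMat_mat (φ : G →+ G) : IsMat B φ (mat B φ) := (exists_isMat B φ).choose_spec

theorem mat_congr {φ ψ : G →+ G} (h : ∀ n j, φ (B.e n j) = ψ (B.e n j)) : mat B φ = mat B ψ :=
  IsMat.ext B (isMat_mat B φ) (isMat_mat B ψ) h

theorem mat_id : mat B (AddMonoidHom.id G) = 1 :=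
  IsMat.ext B (isMat_mat B _) (isMat_one B) (fun _ _ => rfl)

theorem mat_comp (φ ψ : G →+ G) : mat B (φ.comp ψ) = mat B φ * mat B ψ :=
  IsMat.ext B (isMat_mat B _) ((isMat_mat B φ).mul B (isMat_mat B ψ)) (fun _ _ => rfl)

theorem mat_add (φ ψ : G →+ G) : mat B (φ + ψ) = mat B φ + mat B ψ :=
  IsMat.ext B (isMat_mat B _) ((isMat_mat B φ).add B (isMat_mat B ψ)) (fun _ _ => rfl)

/-- The additive homomorphism. -/
def matHom : (G →+ G) →+ Matrix (Fin 2) (Fin 2) ℤ_[p] := AddMonoidHom.mk' (mat B) (mat_add B)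

theorem matHom_apply (φ : G →+ G) : matHom B φ = mat B φ := rfl

theorem mat_zero : mat B (0 : G →+ G) = 0 := (matHom B).map_zero

theorem mat_sub (φ ψ : G →+ G) : mat B (φ - ψ) = mat B φ - mat B ψ := (matHom B).map_sub _ _

theorem mat_zsmul (a : ℤ) (φ : G →+ G) : mat B (a • φ) = a • mat B φ := (matHom B).map_zsmul _ _

theorem mat_eq_zero {φ : G →+ G} (h : ∀ n j, φ (B.e n j) = 0) : mat B φ = 0 := by
  rw [← mat_zero B]
  exact mat_congr B fun n j => by rw [h, AddMonoidHom.zero_apply]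

theorem mat_eq_one {φ : G →+ G} (h : ∀ n j, φ (B.e n j) = B.e n j) : mat B φ = 1 := by
  rw [← mat_id B]
  exact mat_congr B fun n j => by rw [h, AddMonoidHom.id_apply]

/-- Continuity. -/
theorem mat_congr_dvd {φ ψ : G →+ G} {n : ℕ} (h : ∀ j, φ (B.e n j) = ψ (B.e n j))
    (i j : Fin 2) : (p : ℤ_[p]) ^ n ∣ mat B φ i j - mat B ψ i j := by
  obtain ⟨c, hc⟩ := exists_apx n (mat B φ)
  obtain ⟨d, hd⟩ := exists_apx n (mat B ψ)
  have h1 := isMat_mat B φ n c hc
  have h1' := isMat_mat B ψ n d hd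
  have h2 : ∑ i, (c i j - d i j) • B.e n i = 0 := by
    simp only [sub_smul, Finset.sum_sub_distrib]
    rw [← h1 j, ← h1' j, h j, sub_self]
  have h3 := B.indep' hp.out n _ h2 i
  rw [← dvd_int_iff] at h3
  have h4 : mat B φ i j - mat B ψ i j = (mat B φ i j - c i j) +
      ((c i j - d i j : ℤ) : ℤ_[p]) - (mat B ψ i j - d i j) := by
    push_cast; ring
  rw [h4]
  exact dvd_sub (dvd_add (hc i j) h3) (hd i j)

end Padic

end Fermat.Agent.EC.Tate
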