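import Fermat.Agent.EC.TateU
import Fermat.Agent.RT.CycPs

set_option autoImplicit false
set_option linter.style.haveILetI false
set_option linter.unusedSectionVars false

/-!
# The determinant of the Tate module is the cyclotomic character
-/

noncomputable section

open Matrix
open WeierstrassCurve WeierstrassCurve.Affine

namespace Fermat.Agent.EC.Tate

open Fermat.Agent.RT Fermat.Agent.ESCore IsLocalRing

/-- The trace of a representation with given determinant is a pseudo-representation. -/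
theorem isPseudo_of_mat {G R : Type*} [Group G] [CommRing R] (r : G →* Matrix (Fin 2) (Fin 2) R)
    (χ : G →* Rˣ) (h : ∀ g, (r g).det = χ g) : IsPseudo (fun g => (r g).trace) χ where
  one := by simp
  mul g k := by
    have h1 : (χ g : R) • r (g⁻¹ * k) = (r g).adjugate * r k := by
      have e1 : (r g).adjugate = (χ g : R) • r g⁻¹ := by
        calc (r g).adjugate = (r g).adjugate * (r g * r g⁻¹) := by
              rw [← map_mul, mul_inv_cancel, map_one, mul_one]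
          _ = (χ g : R) • r g⁻¹ := by
              rw [← mul_assoc, Matrix.adjugate_mul, h, smul_mul_assoc, one_mul]
      rw [e1, map_mul, smul_mul_assoc]
    have h2 : (χ g : R) * (r (g⁻¹ * k)).trace = ((r g).adjugate * r k).trace := by
      rw [← h1, Matrix.trace_smul, smul_eq_mul]
    rw [h2, map_mul, Matrix.adjugate_fin_two]
    simp only [Matrix.trace_fin_two, Matrix.mul_apply, Fin.sum_univ_two, Matrix.of_apply,
      Matrix.cons_val', Matrix.cons_val_zero, Matrix.cons_val_one, Matrix.cons_val_fin_one]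
    ring

variable {W : WeierstrassCurve ℤ} {p : ℕ} [hp : Fact p.Prime]
  (B : TBasis ((W.map (Int.castRingHom ℚ))⁄Qb).Point p)

theorem dvd_sub_of_near {p : ℕ} [Fact p.Prime] {n : ℕ} {A A' C : Matrix (Fin 2) (Fin 2) ℤ_[p]}
    (h : ∀ i j, (p : ℤ_[p]) ^ n ∣ A i j - A' i j) :
    ((p : ℤ_[p]) ^ n ∣ (A * C).trace - (A' * C).trace) ∧ ((p : ℤ_[p]) ^ n ∣ A.det - A'.det) := by
  constructor
  · have e : (A * C).trace - (A' * C).trace = (A 0 0 - A' 0 0) * C 0 0 + (A 0 1 - A' 0 1) * C 1 0 +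
      ((A 1 0 - A' 1 0) * C 0 1 + (A 1 1 - A' 1 1) * C 1 1) := by
      simp only [Matrix.trace_fin_two, Matrix.mul_apply, Fin.sum_univ_two]
      ring
    rw [e]
    exact dvd_add (dvd_add (Dvd.dvd.mul_right (h 0 0) _) (Dvd.dvd.mul_right (h 0 1) _))
      (dvd_add (Dvd.dvd.mul_right (h 1 0) _) (Dvd.dvd.mul_right (h 1 1) _))
  · have e : A.det - A'.det = (A 0 0 - A' 0 0) * A 1 1 + (A 1 1 - A' 1 1) * A' 0 0 -
      ((A 0 1 - A' 0 1) * A 1 0 + (A 1 0 - A' 1 0) * A' 0 1) := by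
      rw [Matrix.det_fin_two, Matrix.det_fin_two]
      ring
    rw [e]
    exact dvd_sub (dvd_add (Dvd.dvd.mul_right (h 0 0) _) (Dvd.dvd.mul_right (h 1 1) _))
      (dvd_add (Dvd.dvd.mul_right (h 0 1) _) (Dvd.dvd.mul_right (h 1 0) _))

theorem good_of_not_mem (hΔ : W.Δ ≠ 0) {l : ℕ} (hl : l.Prime) (h : l ∉ W.Δ.natAbs.primeFactors) :
    W.IsGoodPrimeFor l := by
  intro h1
  exact h (Nat.mem_primeFactors.mpr ⟨hl, Int.natCast_dvd.mp h1, Int.natAbs_ne_zero.mpr hΔ⟩)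

section Det

variable {𝒪 : Type} [CommRing 𝒪] [IsLocalRing 𝒪] [IsNoetherianRing 𝒪] [Algebra ℤ_[p] 𝒪]
  {χ : GQ →* 𝒪ˣ}

/-- **The determinant of the Tate module is the cyclotomic character.** -/
theorem tM_det (hΔ : W.Δ ≠ 0) (hp𝒪 : (p : 𝒪) ∈ maximalIdeal 𝒪) (hχ : IsCyc p χ) (σ : GQ) :
    algebraMap ℤ_[p] 𝒪 (tM B σ).det = χ σ := by
  rw [← sub_eq_zero]
  refine eq_zero_of_pow hp𝒪 fun n => ?_
  obtain ⟨L, hL, hL2⟩ := tM_cont B n
  haveI := hL
  haveI : NeZero (p ^ n) := ⟨(pow_pos hp.out.pos n).ne'⟩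
  obtain ⟨ζ, hζ⟩ := exists_primitiveRoot (p ^ n)
  let L' : IntermediateField ℚ Qb := IntermediateField.adjoin ℚ {ζ}
  haveI : FiniteDimensional ℚ L' := IntermediateField.adjoin.finiteDimensional
    (FrobDensity.isAlgebraic_Qbar.isAlgebraic ζ).isIntegral
  obtain ⟨l, hl, hlS, A, hA, φ, hφ, i, u, hu, huL⟩ := exists_frob_pow_mul (L ⊔ L') σ
    (insert p W.Δ.natAbs.primeFactors)
  rw [Finset.mem_insert, not_or] at hlS
  have hgood := good_of_not_mem hΔ hl hlS.2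
  haveI : Fact l.Prime := ⟨hl⟩
  have h1 : (tM B φ).det = (l : ℤ_[p]) := (tM_frob B hgood (fun h => hlS.1 h.symm) hA hφ).2
  have h2 : (χ φ : 𝒪) = l := hχ.frob hp.out hp𝒪 hl hlS.1 hA hφ
  have h3 : (p : ℤ_[p]) ^ n ∣ (tM B u).det - 1 := by
    have h4 := (dvd_sub_of_near (C := 1) (hL2 u 1
      (fun x hx => huL x (le_sup_left (a := L) hx)))).2
    rwa [map_one, Matrix.det_one] at h4
  have h5 : (χ u : 𝒪) - 1 ∈ Ideal.span {(p : 𝒪) ^ n} := by
    have h6 := hχ n u 1 (fun ξ hξ => by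
      rw [pow_one]
      obtain ⟨k, -, rfl⟩ := hζ.eq_pow_of_pow_eq_one hξ
      rw [map_pow, huL ζ (le_sup_right (a := L) (IntermediateField.mem_adjoin_simple_self ℚ ζ))])
    rwa [Nat.cast_one] at h6
  rw [hu, map_mul, Matrix.det_mul, map_mul, map_pow, Matrix.det_pow, h1, map_mul, map_pow,
    Units.val_mul, map_pow, Units.val_pow_eq_pow_val, h2, map_natCast]
  have e : algebraMap ℤ_[p] 𝒪 (tM B u).det * (l : 𝒪) ^ i - (χ u : 𝒪) * (l : 𝒪) ^ i =
      (algebraMap ℤ_[p] 𝒪 ((tM B u).det - 1) - ((χ u : 𝒪) - 1)) * (l : 𝒪) ^ i := by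
    rw [map_sub, map_one]; ring
  rw [e]
  refine Ideal.mul_mem_right _ _ (Ideal.sub_mem _ ?_ h5)
  rw [Ideal.mem_span_singleton]
  have := map_dvd (algebraMap ℤ_[p] 𝒪) h3
  rwa [map_pow, map_natCast] at this

/-- The trace of the Tate module. -/
def tateTr (𝒪 : Type) [CommRing 𝒪] [Algebra ℤ_[p] 𝒪] (σ : GQ) : 𝒪 :=
  algebraMap ℤ_[p] 𝒪 (tM B σ).trace

/-- **The trace of the Tate module as a pseudo-representation.** -/
theorem tateTr_cycPs (hΔ : W.Δ ≠ 0) (hp𝒪 : (p : 𝒪) ∈ maximalIdeal 𝒪) (hχ : IsCyc p χ) :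
    CycPs χ p {q | q = p ∨ (q : ℤ) ∣ W.Δ} (tateTr B 𝒪) where
  ps := by
    have h := isPseudo_of_mat (((algebraMap ℤ_[p] 𝒪).mapMatrix :
      Matrix (Fin 2) (Fin 2) ℤ_[p] →+* _).toMonoidHom.comp (tM B)) (cycT 𝒪 χ) (fun g => by
        change ((tM B g).map (algebraMap ℤ_[p] 𝒪)).det = _
        rw [cycT_coe, Algebra.algebraMap_self, RingHom.id_apply, ← tM_det B hΔ hp𝒪 hχ]
        exact (RingHom.map_det _ _).symm)
    have e : tateTr B 𝒪 = fun g => ((((algebraMap ℤ_[p] 𝒪).mapMatrix :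
      Matrix (Fin 2) (Fin 2) ℤ_[p] →+* _).toMonoidHom.comp (tM B)) g).trace := by
      funext g
      change algebraMap ℤ_[p] 𝒪 (tM B g).trace = ((tM B g).map (algebraMap ℤ_[p] 𝒪)).trace
      rw [Matrix.trace_fin_two, Matrix.trace_fin_two, map_add]
      rfl
    rw [e]
    exact h
  cont n := by
    obtain ⟨L, hL, hL2⟩ := tM_cont B n
    refine ⟨L, hL, fun σ hσ g => ?_⟩
    rw [Ideal.mem_span_singleton]
    have h1 := (dvd_sub_of_near (C := tM B g) (hL2 σ 1 hσ)).1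
    rw [← map_mul, map_one, one_mul] at h1
    have := map_dvd (algebraMap ℤ_[p] 𝒪) h1
    rwa [map_pow, map_natCast, map_sub] at this
  unr q hq hqB A hA σ hσ g := by
    have hqp : q ≠ p := fun h => hqB (Or.inl h)
    have hgood : W.IsGoodPrimeFor q := fun h => hqB (Or.inr h)
    rw [tateTr, tateTr, map_mul, tM_unr B hq hqp hgood hA hσ, one_mul]

theorem tateTr_frob {l : ℕ} (hl : l.Prime) (hlp : l ≠ p) (hgood : W.IsGoodPrimeFor l)
    {A : ValuationSubring Qb} (hA : A.LiesOverPrime l) {σ : GQ} (hσ : A.IsFrobeniusAt σ l) :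
    tateTr B 𝒪 σ = (W.apOfModel l : 𝒪) := by
  haveI : Fact l.Prime := ⟨hl⟩
  rw [tateTr, (tM_frob B hgood hlp.symm hA hσ).1, map_intCast]

theorem tateTr_unip (hΔ : W.Δ ≠ 0) (hss : W.IsSemistableModel) (hp2 : p ≠ 2) {q : ℕ} (hq : q.Prime)
    (hqp : q ≠ p) {A : ValuationSubring Qb} (hA : A.LiesOverPrime q) {σ : GQ}
    (hσ : σ ∈ A.inertiaSubgroupIn ℚ) : tateTr B 𝒪 σ = 2 := by
  rw [tateTr, (trace_det_of_unip (tM_unip B hΔ hss hp2 hq hqp hA hσ)).1, map_ofNat]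

end Det

end Fermat.Agent.EC.Tate
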