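import Fermat.Agent.EC.TateC
import Fermat.Agent.RT.PsRep
import Fermat.Agent.RT.ResRep
import Fermat.Agent.RT.LRFrob

set_option autoImplicit false
set_option linter.style.haveILetI false
set_option linter.unusedSectionVars false

/-!
# Normalised bases for the Tate module of a curve with irreducible `p`-torsion
-/

noncomputable section

open Matrix
open WeierstrassCurve WeierstrassCurve.Affine

namespace Fermat.Agent.EC.Tate

open Fermat.Agent.RT Fermat.Agent.ESCore IsLocalRing

section field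

variable {K : Type*} [Field K] {G : Type*} [Group G] {r : G →* Matrix (Fin 2) (Fin 2) K} {c : G}

/-- Nonvanishing of the product of the off-diagonal coefficients. -/
theorem exists_bb_ne (h2 : (2 : K) ≠ 0) (hc : c * c = 1) (hdet : (r c).det = -1)
    (hirr : ∀ v : Fin 2 → K, v ≠ 0 → ∃ g, ∀ a : K, (r g) *ᵥ v ≠ a • v) {i2 : K} (hi2 : 2 * i2 = 1) :
    ∃ g k, IsPseudo.bb (fun g => (r g).trace) c i2 g k ≠ 0 := by
  have hcc : r c * r c = 1 := by rw [← map_mul, hc, map_one]
  have htr : (r c).trace = 0 := by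
    have h00 := congrFun (congrFun hcc 0) 0
    have h01 := congrFun (congrFun hcc 0) 1
    have h10 := congrFun (congrFun hcc 1) 0
    have h11 := congrFun (congrFun hcc 1) 1
    simp only [Matrix.mul_apply, Fin.sum_univ_two, Matrix.one_apply_eq, ne_eq, zero_ne_one,
      one_ne_zero, not_false_eq_true, Matrix.one_apply_ne] at h00 h01 h10 h11
    rw [Matrix.det_fin_two] at hdet
    rw [Matrix.trace_fin_two]
    have e : (r c 0 0 + r c 1 1) * (r c 0 0 + r c 1 1) = 0 := by
      linear_combination h00 + h11 + 2 * hdet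
    exact mul_self_eq_zero.mp e
  obtain ⟨v, hv0, hv⟩ := LR.exists_eigen_of_trace (M := r c) (e := 1) (by ring)
    (by rw [htr, hdet]; ring)
  obtain ⟨w, hw0, hw⟩ := LR.exists_eigen_of_trace (M := r c) (e := -1) (by ring)
    (by rw [htr, hdet]; ring)
  rw [one_smul] at hv
  let P : Matrix (Fin 2) (Fin 2) K := !![v 0, w 0; v 1, w 1]
  have hP : ∀ x : Fin 2 → K, P *ᵥ x = x 0 • v + x 1 • w := by
    intro x
    funext i
    fin_cases i
    · simp [P, Matrix.mulVec, dotProduct, Fin.sum_univ_two]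
      ring
    · simp [P, Matrix.mulVec, dotProduct, Fin.sum_univ_two]
      ring
  have hdP : P.det ≠ 0 := by
    intro h0
    obtain ⟨x, hx0, hx⟩ := Matrix.exists_mulVec_eq_zero_iff.mpr h0
    rw [hP] at hx
    have h3 : r c *ᵥ (x 0 • v + x 1 • w) = x 0 • v - x 1 • w := by
      rw [mulVec_add, mulVec_smul, mulVec_smul, hv, hw, neg_smul, one_smul, smul_neg, sub_eq_add_neg]
    rw [hx, mulVec_zero] at h3
    have h4 : (2 * x 0) • v = 0 := by
      have : (2 * x 0) • v = (x 0 • v + x 1 • w) + (x 0 • v - x 1 • w) := by module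
      rw [this, hx, ← h3, add_zero]
    have h5 : x 0 = 0 := by
      rcases smul_eq_zero.mp h4 with h | h
      · exact (mul_eq_zero.mp h).resolve_left h2
      · exact absurd h hv0
    have h6 : x 1 = 0 := by
      rw [h5, zero_smul, zero_add] at hx
      exact (smul_eq_zero.mp hx).resolve_right hw0
    apply hx0
    funext i
    fin_cases i
    · exact h5
    · exact h6
  have hu : IsUnit P.det := isUnit_iff_ne_zero.mpr hdP
  have hPP : P * P⁻¹ = 1 := Matrix.mul_nonsing_inv P hu
  have hPP' : P⁻¹ * P = 1 := Matrix.nonsing_inv_mul P hu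
  let X : G → Matrix (Fin 2) (Fin 2) K := fun g => P⁻¹ * r g * P
  have hXm : ∀ g k, X (g * k) = X g * X k := by
    intro g k
    change P⁻¹ * r (g * k) * P = P⁻¹ * r g * P * (P⁻¹ * r k * P)
    rw [map_mul]
    calc P⁻¹ * (r g * r k) * P = P⁻¹ * r g * 1 * r k * P := by
          rw [mul_one]; simp only [mul_assoc]
      _ = _ := by rw [← hPP]; simp only [mul_assoc]
  have hXt : ∀ g, (X g).trace = (r g).trace := by
    intro g
    change (P⁻¹ * r g * P).trace = _
    rw [Matrix.trace_mul_comm, ← mul_assoc, hPP, one_mul]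
  have hXc : X c = !![1, 0; 0, -1] := by
    have h3 : r c * P = P * !![1, 0; 0, -1] := by
      apply Matrix.ext_of_mulVec_single
      intro i
      rw [← mulVec_mulVec, ← mulVec_mulVec, hP, hP, mulVec_add, mulVec_smul, mulVec_smul, hv, hw]
      fin_cases i
      · simp [Matrix.mulVec, dotProduct]
      · simp [Matrix.mulVec, dotProduct]
    change P⁻¹ * r c * P = _
    rw [mul_assoc, h3, ← mul_assoc, hPP', one_mul]
  have haa : ∀ g, IsPseudo.aa (fun g => (r g).trace) c i2 g = X g 0 0 := by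
    intro g
    rw [IsPseudo.aa]
    change i2 * ((r g).trace + (r (c * g)).trace) = _
    rw [← hXt, ← hXt, hXm, hXc, Matrix.trace_fin_two, Matrix.trace_fin_two]
    simp only [Matrix.mul_apply, Fin.sum_univ_two, Matrix.of_apply, Matrix.cons_val',
      Matrix.cons_val_zero, Matrix.cons_val_one, Matrix.cons_val_fin_one]
    linear_combination (X g 0 0) * hi2
  have hbb : ∀ g k, IsPseudo.bb (fun g => (r g).trace) c i2 g k = X g 0 1 * X k 1 0 := by
    intro g k
    rw [IsPseudo.bb, haa, haa, haa, hXm, Matrix.mul_apply, Fin.sum_univ_two]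
    ring
  obtain ⟨g, hg⟩ := hirr w hw0
  obtain ⟨k, hk⟩ := hirr v hv0
  refine ⟨g, k, ?_⟩
  rw [hbb]
  have hrX : ∀ g, r g * P = P * X g := by
    intro g
    change _ = P * (P⁻¹ * r g * P)
    rw [← mul_assoc, ← mul_assoc, hPP, one_mul]
  refine mul_ne_zero (fun h0 => ?_) (fun h0 => ?_)
  · refine hg (X g 1 1) ?_
    have h3 := congrArg (fun A : Matrix (Fin 2) (Fin 2) K => A *ᵥ (Pi.single 1 1)) (hrX g)
    simp only [← mulVec_mulVec] at h3
    rw [hP, hP] at h3
    simpa [Matrix.mulVec, dotProduct, Fin.sum_univ_two, h0] using h3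
  · refine hk (X k 0 0) ?_
    have h3 := congrArg (fun A : Matrix (Fin 2) (Fin 2) K => A *ᵥ (Pi.single 0 1)) (hrX k)
    simp only [← mulVec_mulVec] at h3
    rw [hP, hP] at h3
    simpa [Matrix.mulVec, dotProduct, Fin.sum_univ_two, h0] using h3

end field

variable {W : WeierstrassCurve ℤ} {p : ℕ} [hp : Fact p.Prime]
  (B : TBasis ((W.map (Int.castRingHom ℚ))⁄Qb).Point p)

theorem p_mem (p : ℕ) [Fact p.Prime] : (p : ℤ_[p]) ∈ maximalIdeal ℤ_[p] := by
  rw [PadicInt.maximalIdeal_eq_span_p]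
  exact Ideal.mem_span_singleton_self _

theorem isUnit_two (hp2 : p ≠ 2) : IsUnit (2 : ℤ_[p]) := by
  by_contra h
  have h1 : (2 : ℤ_[p]) ∈ maximalIdeal ℤ_[p] := h
  rw [← PadicInt.ker_toZMod, RingHom.mem_ker, map_ofNat] at h1
  have h2 : ((2 : ℕ) : ZMod p) = 0 := by exact_mod_cast h1
  rw [ZMod.natCast_eq_zero_iff] at h2
  exact hp2 ((Nat.prime_dvd_prime_iff_eq hp.out Nat.prime_two).mp h2)

/-- **The Tate module of a curve with irreducible `p`-torsion has a normalised basis.** -/
theorem exists_psB (hΔ : W.Δ ≠ 0) (hp2 : p ≠ 2) (hirr : W.ModRepIsIrreducible p)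
    (b : Module.Basis (Fin 2) (ZMod p) (TorsP (W.map (Int.castRingHom ℚ)) p))
    (hB : ∀ i, B.e 1 i = (b i : ((W.map (Int.castRingHom ℚ))⁄Qb).Point))
    {χ : GQ →* ℤ_[p]ˣ} (hχ : IsCyc p χ) :
    ∃ β : PsB ℤ_[p] χ, β.Good (tateTr B ℤ_[p]) := by
  obtain ⟨i2, hi2⟩ := (isUnit_two (p := p) hp2).exists_right_inv
  have hcyc := hχ.cc hp.out (p_mem p)
  let r : GQ →* Matrix (Fin 2) (Fin 2) (ZMod p) :=
    ((PadicInt.toZMod (p := p)).mapMatrix : Matrix (Fin 2) (Fin 2) ℤ_[p] →+* _).toMonoidHom.comp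
      (tM B)
  have hr : ∀ σ, r σ = (modRep b σ).val := fun σ => tM_mod B b hB σ
  have hrt : ∀ σ, (r σ).trace = PadicInt.toZMod (tM B σ).trace := by
    intro σ
    change ((tM B σ).map PadicInt.toZMod).trace = _
    rw [Matrix.trace_fin_two, Matrix.trace_fin_two, map_add]
    rfl
  have h2 : (2 : ZMod p) ≠ 0 := by
    have h3 := congrArg (PadicInt.toZMod (p := p)) hi2
    rw [map_mul, map_ofNat, map_one] at h3
    intro h0
    rw [h0, zero_mul] at h3
    exact zero_ne_one h3
  have hdet : (r complexConjugation).det = -1 := by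
    change ((tM B complexConjugation).map PadicInt.toZMod).det = -1
    have h4 : ((tM B complexConjugation).map PadicInt.toZMod).det =
        PadicInt.toZMod (tM B complexConjugation).det := (RingHom.map_det _ _).symm
    have h5 := tM_det B (𝒪 := ℤ_[p]) hΔ (p_mem p) hχ complexConjugation
    rw [Algebra.algebraMap_self, RingHom.id_apply] at h5
    rw [h4, h5, hcyc, map_neg, map_one]
  obtain ⟨g, k, hgk⟩ := exists_bb_ne (r := r) (c := complexConjugation) h2
    complexConjugation_mul_self hdet (fun v hv0 => by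
      by_contra hcon
      push Not at hcon
      refine modRep_irr b hirr v ⟨hv0, fun h _ => ?_⟩
      obtain ⟨a, ha⟩ := hcon h
      exact ⟨a, by rw [← hr]; exact ha⟩)
    (i2 := PadicInt.toZMod i2) (by rw [← map_ofNat (PadicInt.toZMod (p := p)) 2, ← map_mul, hi2,
      map_one])
  refine ⟨⟨i2, hi2, g, k, 1, 1, mul_one 1, hcyc⟩, ?_⟩
  change IsUnit (IsPseudo.bb (tateTr B ℤ_[p]) complexConjugation (algebraMap ℤ_[p] ℤ_[p] i2) g k)
  have haa : ∀ σ, PadicInt.toZMod (IsPseudo.aa (tateTr B ℤ_[p]) complexConjugation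
      (algebraMap ℤ_[p] ℤ_[p] i2) σ) = IsPseudo.aa (fun g => (r g).trace) complexConjugation
      (PadicInt.toZMod i2) σ := by
    intro σ
    rw [IsPseudo.aa, IsPseudo.aa, map_mul, map_add, tateTr, tateTr, Algebra.algebraMap_self,
      RingHom.id_apply, RingHom.id_apply, RingHom.id_apply, ← hrt, ← hrt]
  have hbb : PadicInt.toZMod (IsPseudo.bb (tateTr B ℤ_[p]) complexConjugation
      (algebraMap ℤ_[p] ℤ_[p] i2) g k) = IsPseudo.bb (fun g => (r g).trace) complexConjugation
      (PadicInt.toZMod i2) g k := by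
    rw [IsPseudo.bb, IsPseudo.bb, map_sub, map_mul, haa, haa, haa]
  by_contra hnu
  have h6 : IsPseudo.bb (tateTr B ℤ_[p]) complexConjugation (algebraMap ℤ_[p] ℤ_[p] i2) g k ∈
      maximalIdeal ℤ_[p] := hnu
  rw [← PadicInt.ker_toZMod, RingHom.mem_ker, hbb] at h6
  exact hgk h6

end Fermat.Agent.EC.Tate
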