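import Fermat.Agent.EC.TateW

set_option autoImplicit false
set_option linter.style.haveILetI false
set_option linter.unusedSectionVars false

/-!
# Inertia acts unipotently on the Tate module of a semistable curve
-/

namespace Fermat.Agent.EC

open WeierstrassCurve WeierstrassCurve.Affine

section general

variable {K : Type*} [Field K] {Γ₀ : Type*} [LinearOrderedCommGroupWithZero Γ₀]
  {v : Valuation K Γ₀} {W : WeierstrassCurve K} {σ : K →+* K} [DecidableEq K]
  {φ : W.toAffine.Point →+ W.toAffine.Point}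

/-- Points on the middle component, or with unit `X`-coordinate, are fixed. -/
lemma InertiaAction.fixed_easy' (H : InertiaAction v W σ φ) (hM : MultForm v W) {n : ℕ}
    (hcop : Nat.Coprime 2 n) (hn : v (n : K) = 1) {P : W.toAffine.Point}
    (hP : n • P = 0) (hP0 : P ≠ 0) (hx : ¬ (v (xc P) < 1 ∧ v W.a₆ < v (xc P) ^ 2)) :
    φ P = P := by
  have hW := hM.vint
  have key : ∀ Q : W.toAffine.Point, Q ≠ 0 → n • Q = 0 → 1 ≤ v (xc Q) → φ Q = Q := by
    intro Q hQ0 hQ hxQ
    rcases Q with _ | ⟨x, y, h⟩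
    · exact absurd rfl hQ0
    rw [xc_some] at hxQ
    have hx1 : v x = 1 := le_antisymm (integral_of_torsion hW hn hQ) hxQ
    exact H.fixed_of_nonsing hW hn hQ (hM.nonsing h.1 hx1)
  by_cases h1 : 1 ≤ v (xc P)
  · exact key P hP0 hP h1
  rw [not_le] at h1
  have h2 : v (xc P) ^ 2 ≤ v W.a₆ := by
    by_contra hcon
    exact hx ⟨h1, not_le.mp hcon⟩
  have h2P : P + P ≠ 0 := by
    intro h0
    apply hP0
    have h20 : (2 : ℕ) • P = 0 := by rw [two_nsmul]; exact h0
    have hbez : (2 : ℤ) * Nat.gcdA 2 n + n * Nat.gcdB 2 n = 1 := by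
      have := Nat.gcd_eq_gcd_ab 2 n
      rw [hcop] at this
      exact_mod_cast this.symm
    calc P = (1 : ℤ) • P := (one_zsmul P).symm
      _ = ((2 : ℤ) * Nat.gcdA 2 n + n * Nat.gcdB 2 n) • P := by rw [hbez]
      _ = (Nat.gcdA 2 n) • ((2 : ℤ) • P) + (Nat.gcdB 2 n) • ((n : ℤ) • P) := by
        rw [add_smul, mul_comm (2 : ℤ), mul_comm (n : ℤ), mul_smul, mul_smul]
      _ = 0 := by
        rw [natCast_zsmul, hP, smul_zero, add_zero]
        have : (2 : ℤ) • P = (2 : ℕ) • P := by rw [← natCast_zsmul]; rfl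
        rw [this, h20, smul_zero]
  have h3 := hM.two_nsmul_big hP0 h2P h1 h2
  refine fixed_of_multiple φ hP hcop ?_
  rw [two_nsmul]
  exact key (P + P) h2P (by rw [smul_add, hP, add_zero]) h3

/-- Inertia acts unipotently on the `n`-torsion, `n` odd, at a multiplicative place. -/
theorem InertiaAction.unipotent_of_mult' (H : InertiaAction v W σ φ) (hiso : ∀ x, v (σ x) = v x)
    (hM : MultForm v W) {n : ℕ} (hcop : Nat.Coprime 2 n) (hn : v (n : K) = 1)
    {P : W.toAffine.Point} (hP : n • P = 0) : φ (φ P - P) = φ P - P := by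
  by_cases hfix : φ P = P
  · rw [hfix, sub_self, map_zero]
  rcases P with _ | ⟨x, y, h⟩
  · exact absurd (map_zero φ) hfix
  have hx : v x < 1 ∧ v W.a₆ < v x ^ 2 := by
    by_contra hcon
    exact hfix (H.fixed_easy' hM hcop hn hP (Point.some_ne_zero h) hcon)
  have hx0 : x ≠ 0 := by
    rintro rfl
    have := hx.2
    rw [map_zero, zero_pow (by norm_num)] at this
    exact absurd this (not_lt.mpr zero_le)
  obtain ⟨⟨X, Y, H', h1, h2⟩, -⟩ := H.local_step hiso hM hn hP hx0 hx.1 hx.2 hfix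
  rw [h1]
  have hT : n • (.some X Y H' : W.toAffine.Point) = 0 := by
    rw [← h1, smul_sub, ← map_nsmul, hP, map_zero, sub_zero]
  exact H.fixed_of_nonsing hM.vint hn hT (hM.nonsing H'.1 h2)

end general

section main

variable {F K : Type*} [Field F] [Field K] [Algebra F K] [DecidableEq K]
variable [CharZero K] [Algebra.IsAlgebraic ℚ K]

/-- Unipotence of inertia at a multiplicative place. -/
theorem unipotent_of_inertia_of_mult' {A : ValuationSubring K} {q : ℕ} (hq : q.Prime)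
    (hA : A.valuation (q : K) < 1) {σ : K ≃ₐ[F] K}
    (hσ : σ ∈ A.inertiaSubgroupIn F) (W : WeierstrassCurve F)
    (hW : VInt A.valuation (W⁄K)) (hc₄ : A.valuation (W⁄K).c₄ = 1)
    (hΔ : A.valuation (W⁄K).Δ < 1) (hΔ0 : (W⁄K).Δ ≠ 0) {n : ℕ} (hcop : Nat.Coprime 2 n)
    (hpv : A.valuation (n : K) = 1) {P : (W⁄K).toAffine.Point} (hP : n • P = 0) :
    Point.map (W' := W) σ.toAlgHom (Point.map (W' := W) σ.toAlgHom P - P) =
      Point.map (W' := W) σ.toAlgHom P - P := by
  obtain ⟨hM, ha₆⟩ := hW.multForm hc₄ hΔ hΔ0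
  set C := nodeVC (W⁄K) with hC
  have hH := inertiaAction_of_mem hσ W
  have hcomm : ∀ c : F, (σ : K →+* K) (algebraMap F K c) = algebraMap F K c :=
    fun c => σ.commutes c
  have hX : nodeX (W⁄K) = algebraMap F K (nodeX W) := nodeX_map W _
  have hY : nodeY (W⁄K) = algebraMap F K (nodeY W) := nodeY_map W _
  have hH' := hH.transport (C := C) (by simp [hC, nodeVC])
    (by rw [hC]; change (σ : K →+* K) (nodeX (W⁄K)) = nodeX (W⁄K); rw [hX]; exact hcomm _)
    (by simp [hC, nodeVC])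
    (by rw [hC]; change (σ : K →+* K) (nodeY (W⁄K)) = nodeY (W⁄K); rw [hY]; exact hcomm _)
  obtain ⟨Q, rfl⟩ := (pointEquiv (W⁄K) C).surjective P
  have hQ : n • Q = 0 := by
    apply (pointEquiv (W⁄K) C).injective
    rw [map_nsmul, hP, map_zero]
  have key := hH'.unipotent_of_mult' (fun x => inertia_iso hq hA hσ x) hM hcop hpv hQ
  have key2 := congrArg (pointEquiv (W⁄K) C) key
  rw [pointEquiv_transport, map_sub, pointEquiv_transport] at key2
  exact key2

end main

namespace Tate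

open Fermat.Agent.RT

/-- The field of algebraic numbers. -/
local notation "Kb" => AlgebraicClosure ℚ
/-- The absolute Galois group. -/
local notation "GQ" => (AlgebraicClosure ℚ ≃ₐ[ℚ] AlgebraicClosure ℚ)

variable {W : WeierstrassCurve ℤ} {p : ℕ} [hp : Fact p.Prime]
  (B : TBasis ((W.map (Int.castRingHom ℚ))⁄Kb).Point p)

/-- **Unipotent inertia at the multiplicative primes.** -/
theorem tM_unip_mult (hΔ : W.Δ ≠ 0) (hp2 : p ≠ 2) {q : ℕ} (hq : q.Prime) (hqp : q ≠ p)
    (hqΔ : (q : ℤ) ∣ W.Δ) (hqc : ¬ (q : ℤ) ∣ W.c₄)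
    {A : ValuationSubring Kb} (hA : A.LiesOverPrime q) {σ : GQ} (hσ : σ ∈ A.inertiaSubgroupIn ℚ) :
    (tM B σ - 1) * (tM B σ - 1) = 0 := by
  have hvq : A.valuation ((q : ℕ) : Kb) < 1 := hA
  have h1 : mat B ((galH W σ - AddMonoidHom.id _).comp (galH W σ - AddMonoidHom.id _)) = 0 := by
    refine mat_eq_zero B fun n j => ?_
    have hpv : A.valuation ((p ^ n : ℕ) : Kb) = 1 := v_nat_eq_one hq hvq (fun h =>
      hqp ((Nat.prime_dvd_prime_iff_eq hq hp.out).mp (hq.dvd_of_dvd_pow h)))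
    have hcop : Nat.Coprime 2 (p ^ n) :=
      Nat.Coprime.pow_right n ((Nat.coprime_primes Nat.prime_two hp.out).mpr (Ne.symm hp2))
    have h2 := unipotent_of_inertia_of_mult' hq hvq hσ (W.map (Int.castRingHom ℚ)) (ss_vint W A)
      (by rw [ss_c₄]; exact v_int_eq_one hq hvq hqc)
      (by rw [ss_Δ]; exact v_int_lt hvq hqΔ) (ss_Δ0 hΔ) hcop hpv (B.tors n j)
    change galH W σ (galH W σ (B.e n j) - B.e n j) - (galH W σ (B.e n j) - B.e n j) = 0
    rw [sub_eq_zero]
    exact h2
  rw [mat_comp, mat_sub, mat_id] at h1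
  exact h1

/-- Unipotent inertia outside `p`. -/
theorem tM_unip (hΔ : W.Δ ≠ 0) (hss : W.IsSemistableModel) (hp2 : p ≠ 2) {q : ℕ} (hq : q.Prime)
    (hqp : q ≠ p) {A : ValuationSubring Kb} (hA : A.LiesOverPrime q) {σ : GQ}
    (hσ : σ ∈ A.inertiaSubgroupIn ℚ) : (tM B σ - 1) * (tM B σ - 1) = 0 := by
  by_cases hd : (q : ℤ) ∣ W.Δ
  · exact tM_unip_mult B hΔ hp2 hq hqp hd (hss q hq hd) hA hσ
  · rw [tM_unr B hq hqp hd hA hσ, sub_self, mul_zero]

/-- trace and determinant of a unipotent matrix -/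
theorem trace_det_of_unip {R : Type*} [CommRing R] [IsDomain R] {M : Matrix (Fin 2) (Fin 2) R}
    (h : (M - 1) * (M - 1) = 0) : M.trace = 2 ∧ M.det = 1 := by
  have hN : ∀ N : Matrix (Fin 2) (Fin 2) R, N * N = 0 → N.trace = 0 ∧ N.det = 0 := by
    intro N hN
    have h1 : N.det = 0 := by
      have := congrArg Matrix.det hN
      rw [Matrix.det_mul, Matrix.det_zero] at this
      exact mul_self_eq_zero.mp this
    refine ⟨?_, h1⟩
    have h2 := congrArg Matrix.trace hN
    rw [Matrix.trace_zero, Matrix.trace_fin_two] at h2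
    simp only [Matrix.mul_apply, Fin.sum_univ_two] at h2
    rw [Matrix.det_fin_two] at h1
    have h3 : N.trace * N.trace = 0 := by
      rw [Matrix.trace_fin_two]
      linear_combination h2 + 2 * h1
    exact mul_self_eq_zero.mp h3
  obtain ⟨h1, h2⟩ := hN _ h
  have h3 : M.trace = 2 := by
    rw [Matrix.trace_sub, Matrix.trace_one, Fintype.card_fin, sub_eq_zero] at h1
    rw [h1]; norm_num
  refine ⟨h3, ?_⟩
  rw [Matrix.det_fin_two] at h2 ⊢
  rw [Matrix.trace_fin_two] at h3
  simp only [Matrix.sub_apply, Matrix.one_apply_eq, ne_eq, zero_ne_one, one_ne_zero,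
    not_false_eq_true, Matrix.one_apply_ne, sub_zero] at h2
  linear_combination h2 + h3

end Tate

end Fermat.Agent.EC
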