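import Fermat.Agent.EC.TateA
import Fermat.Agent.RT.IndexTwoEC
import Fermat.Agent.EFrob.Det

set_option autoImplicit false
set_option linter.style.haveILetI false
set_option linter.unusedSectionVars false

/-!
# The `p`-adic Tate module of an elliptic curve over `ℚ` with an integral model
-/

noncomputable section

open Matrix
open WeierstrassCurve WeierstrassCurve.Affine WeierstrassCurve.Affine.Point

namespace Fermat.Agent.EC.Tate

open Fermat.Agent.EC Fermat.Agent.RT Fermat.Agent.EFrob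
open Fermat.Agent.EFrob.FFData (aℓ)

/-- The field of algebraic numbers. -/
local notation "Kb" => AlgebraicClosure ℚ
/-- The absolute Galois group. -/
local notation "GQ" => (AlgebraicClosure ℚ ≃ₐ[ℚ] AlgebraicClosure ℚ)

variable {W : WeierstrassCurve ℤ} {p : ℕ} [hp : Fact p.Prime]


theorem exists_tb (hΔ : W.Δ ≠ 0) (b : Module.Basis (Fin 2) (ZMod p) (TorsP (W.map (Int.castRingHom ℚ)) p)) :
    ∃ B : TBasis ((W.map (Int.castRingHom ℚ))⁄Kb).Point p, ∀ i, B.e 1 i = (b i : ((W.map (Int.castRingHom ℚ))⁄Kb).Point) := by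
  haveI := isElliptic_map hΔ
  have hcoe : ∀ (c : Fin 2 → ℤ), ((∑ i, (c i : ZMod p) • b i : TorsP (W.map (Int.castRingHom ℚ)) p) :
      ((W.map (Int.castRingHom ℚ))⁄Kb).Point) = ∑ i, c i • (b i : ((W.map (Int.castRingHom ℚ))⁄Kb).Point) := by
    intro c
    rw [Fin.sum_univ_two, Fin.sum_univ_two, Int.cast_smul_eq_zsmul, Int.cast_smul_eq_zsmul]
    rfl
  obtain ⟨B, hB⟩ := exists_tbasis (G := ((W.map (Int.castRingHom ℚ))⁄Kb).Point) hp.out (fun n => by
      have h1 := ECT.card_torsion (W := (W.map (Int.castRingHom ℚ))⁄Kb) (p ^ n)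
        (by exact_mod_cast (pow_ne_zero n hp.out.ne_zero))
      exact h1) (fun i => (b i : ((W.map (Int.castRingHom ℚ))⁄Kb).Point)) (fun i => torsion_smul (b i))
    (fun c hc i => by
      rw [← hcoe] at hc
      have h1 : (∑ i, (c i : ZMod p) • b i : TorsP (W.map (Int.castRingHom ℚ)) p) = 0 := Subtype.ext hc
      have h2 := (Fintype.linearIndependent_iff.mp b.linearIndependent) _ h1 i
      exact (ZMod.intCast_zmod_eq_zero_iff_dvd _ p).mp h2)
    (fun x hx => by
      refine ⟨fun i => ((b.repr ⟨x, mem_torsionBy_iff'.mpr hx⟩ i).val : ℤ), ?_⟩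
      rw [← hcoe]
      have h1 := b.sum_repr ⟨x, mem_torsionBy_iff'.mpr hx⟩
      have h2 : ∀ i, (((b.repr ⟨x, mem_torsionBy_iff'.mpr hx⟩ i).val : ℤ) : ZMod p) =
          b.repr ⟨x, mem_torsionBy_iff'.mpr hx⟩ i := by
        intro i
        rw [Int.cast_natCast, ZMod.natCast_val, ZMod.cast_id', id_eq]
      simp only [h2, h1])
  exact ⟨B, fun i => by rw [hB]⟩

variable (B : TBasis ((W.map (Int.castRingHom ℚ))⁄Kb).Point p)

/-- the Galois action on points -/
def galH (W : WeierstrassCurve ℤ) (σ : GQ) :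
    (((WeierstrassCurve.map W (Int.castRingHom ℚ)))⁄Kb).Point →+
      ((WeierstrassCurve.map W (Int.castRingHom ℚ))⁄Kb).Point :=
  Point.map (W' := WeierstrassCurve.map W (Int.castRingHom ℚ)) σ.toAlgHom

theorem galH_one (P : ((W.map (Int.castRingHom ℚ))⁄Kb).Point) : galH W 1 P = P := by
  rcases P with _ | ⟨x, y, h⟩
  · rfl
  · rfl

theorem galH_mul (σ τ : GQ) (P : ((W.map (Int.castRingHom ℚ))⁄Kb).Point) :
    galH W (σ * τ) P = galH W σ (galH W τ P) := by
  rcases P with _ | ⟨x, y, h⟩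
  · rfl
  · rfl

/-- The Tate module representation. -/
def tM : GQ →* Matrix (Fin 2) (Fin 2) ℤ_[p] where
  toFun σ := mat B (galH W σ)
  map_one' := mat_eq_one B fun n j => galH_one _
  map_mul' σ τ := by
    rw [← mat_comp]
    exact mat_congr B fun n j => galH_mul σ τ _

theorem tM_apply (σ : GQ) : tM B σ = mat B (galH W σ) := rfl

theorem toZMod_eq_of_dvd {x : ℤ_[p]} {c : ℤ} (h : (p : ℤ_[p]) ^ 1 ∣ x - c) :
    PadicInt.toZMod x = (c : ZMod p) := by
  rw [pow_one] at h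
  obtain ⟨y, hy⟩ := h
  have h1 : x = c + p * y := by rw [← hy]; ring
  rw [h1, map_add, map_mul, map_intCast, map_natCast, ZMod.natCast_self, zero_mul, add_zero]

/-- The reduction modulo `p`. -/
theorem tM_mod (b : Module.Basis (Fin 2) (ZMod p) (TorsP (W.map (Int.castRingHom ℚ)) p))
    (hB : ∀ i, B.e 1 i = (b i : ((W.map (Int.castRingHom ℚ))⁄Kb).Point)) (σ : GQ) :
    (tM B σ).map PadicInt.toZMod = (modRep b σ).val := by
  obtain ⟨c, hc⟩ := exists_apx 1 (tM B σ)
  have h1 := isMat_mat B (galH W σ) 1 c hc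
  ext i j
  rw [Matrix.map_apply, toZMod_eq_of_dvd (hc i j), modRep_coe, LinearMap.toMatrix_apply]
  have h2 : (galoisRepModuleEnd (K := Kb) ℚ (W.map (Int.castRingHom ℚ)) p σ) (b j) = ∑ i, (c i j : ZMod p) • b i := by
    apply Subtype.ext
    change galH W σ (b j : ((W.map (Int.castRingHom ℚ))⁄Kb).Point) = _
    rw [← hB, h1 j, Fin.sum_univ_two, Fin.sum_univ_two, Int.cast_smul_eq_zsmul,
      Int.cast_smul_eq_zsmul, hB, hB]
    rfl
  rw [h2, Fin.sum_univ_two, map_add, map_smul, map_smul, b.repr_self, b.repr_self]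
  fin_cases i
  · simp
  · simp

/-- Continuity. -/
theorem tM_cont (n : ℕ) : ∃ L : IntermediateField ℚ Kb, FiniteDimensional ℚ L ∧
    ∀ σ τ : GQ, (∀ x ∈ L, σ x = τ x) → ∀ i j, (p : ℤ_[p]) ^ n ∣ tM B σ i j - tM B τ i j := by
  classical
  let T : Finset Kb := (Finset.univ.image fun j : Fin 2 => (coordP (B.e n j)).1) ∪
    (Finset.univ.image fun j : Fin 2 => (coordP (B.e n j)).2)
  refine ⟨IntermediateField.adjoin ℚ (T : Set Kb), ?_, ?_⟩
  · exact IntermediateField.finiteDimensional_adjoin fun x _ =>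
      (FrobDensity.isAlgebraic_Qbar.isAlgebraic x).isIntegral
  · intro σ τ h
    refine mat_congr_dvd B fun j => ?_
    apply map_eq_of_coord
    · apply h
      apply IntermediateField.subset_adjoin
      simp only [T, Finset.coe_union, Set.mem_union, Finset.mem_coe, Finset.mem_image]
      exact Or.inl ⟨j, Finset.mem_univ _, rfl⟩
    · apply h
      apply IntermediateField.subset_adjoin
      simp only [T, Finset.coe_union, Set.mem_union, Finset.mem_coe, Finset.mem_image]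
      exact Or.inr ⟨j, Finset.mem_univ _, rfl⟩

theorem pow_smul_eq_zero_int {n : ℕ} {P : ((W.map (Int.castRingHom ℚ))⁄Kb).Point} (hP : p ^ n • P = 0) :
    (p ^ n) • P = 0 := hP

/-- Trivial inertia at good primes. -/
theorem tM_unr {q : ℕ} (hq : q.Prime) (hqp : q ≠ p) (hgood : W.IsGoodPrimeFor q)
    {A : ValuationSubring Kb} (hA : A.LiesOverPrime q) {σ : GQ} (hσ : σ ∈ A.inertiaSubgroupIn ℚ) :
    tM B σ = 1 := by
  have hvq : A.valuation ((q : ℕ) : Kb) < 1 := hA
  refine mat_eq_one B fun n j => ?_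
  have hpv : A.valuation ((p ^ n : ℕ) : Kb) = 1 := v_nat_eq_one hq hvq (fun h =>
    hqp ((Nat.prime_dvd_prime_iff_eq hq hp.out).mp (hq.dvd_of_dvd_pow h)))
  exact map_eq_of_inertia_of_good hσ (W.map (Int.castRingHom ℚ)) (ss_vint W A)
    (by rw [ss_Δ]; exact v_int_eq_one hq hvq hgood) hpv (B.tors n j)

section frob

variable {ℓ : ℕ} [hℓ : Fact ℓ.Prime] {A : ValuationSubring Kb}

theorem val_pow_eq_one (hA : A.LiesOverPrime ℓ) (hpl : p ≠ ℓ) (n : ℕ) :
    A.valuation ((p ^ n : ℕ) : Kb) = 1 :=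
  v_nat_eq_one hℓ.out (show A.valuation ((ℓ : ℕ) : Kb) < 1 from hA) (fun h =>
    hpl ((Nat.prime_dvd_prime_iff_eq hℓ.out hp.out).mp (hℓ.out.dvd_of_dvd_pow h)).symm)

/-- The reduction map is injective on the torsion prime to the residue characteristic. -/
theorem redHom_inj (hA : A.LiesOverPrime ℓ) (hpl : p ≠ ℓ)
    [(W.map (Int.castRingHom (ResB A))).IsElliptic] {n : ℕ} {P : ((W.map (Int.castRingHom ℚ))⁄Kb).Point}
    (hP : p ^ n • P = 0) (h : redHom (curveRd_int (A := A) W) P = 0) : P = 0 := by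
  have h1 : InKer A.valuation P := (redHom_eq_zero_iff (curveRd_int W)).mp h
  rcases P with _ | ⟨x, y, hn⟩
  · rfl
  · exfalso
    have h2 := integral_of_torsion (curveRd_int (A := A) W).vint (val_pow_eq_one hA hpl n) hP
    exact absurd (inKer_some.mp h1) (not_lt.mpr h2)

theorem redHom_gal (hA : A.LiesOverPrime ℓ)
    [(W.map (Int.castRingHom (ResB A))).IsElliptic] [CharP (ResB A) ℓ] {σ : GQ}
    (hσ : A.IsFrobeniusAt σ ℓ) (P : ((W.map (Int.castRingHom ℚ))⁄Kb).Point) :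
    redHom (curveRd_int (A := A) W) (galH W σ P) =
      frobP ℓ (hk_int (k := ResB A) W) (redHom (curveRd_int (A := A) W) P) := by
  rw [redHom_eq_iff]
  exact (redHom_spec (curveRd_int W) _).gal hσ

/-- The relation satisfied by Frobenius. -/
theorem tM_relation (hgood : W.IsGoodPrimeFor ℓ) (hpl : p ≠ ℓ) (hA : A.LiesOverPrime ℓ)
    {σ : GQ} (hσ : A.IsFrobeniusAt σ ℓ) :
    tM B σ * tM B σ - (W.apOfModel ℓ) • tM B σ + (ℓ : ℤ) • (1 : Matrix (Fin 2) (Fin 2) ℤ_[p]) = 0 := by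
  have hch := charP_resB hℓ.out hA
  have hell := isElliptic_int (k := ResB A) hgood
  have h1 : mat B ((galH W σ).comp (galH W σ) - (W.apOfModel ℓ) • galH W σ +
      (ℓ : ℤ) • AddMonoidHom.id _) = 0 := by
    refine mat_eq_zero B fun n j => ?_
    refine redHom_inj (A := A) (ℓ := ℓ) (n := n) hA hpl ?_ ?_
    · rw [← map_nsmul, B.tors, _root_.map_zero]
    · have h2 := frob_eq (hk_int (k := ResB A) (ℓ := ℓ) W) (redHom (curveRd_int (A := A) W) (B.e n j))
      rw [aℓ_eq_apOfModel] at h2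
      change redHom (curveRd_int (A := A) W) (galH W σ (galH W σ (B.e n j)) -
        (W.apOfModel ℓ) • galH W σ (B.e n j) + (ℓ : ℤ) • B.e n j) = 0
      rw [map_add, map_sub, map_zsmul, map_zsmul, redHom_gal hA hσ, redHom_gal hA hσ]
      exact h2
  rw [mat_add, mat_sub, mat_comp, mat_zsmul, mat_zsmul, mat_id] at h1
  exact h1

/-- divisibility in the scalar case -/
theorem dvd_of_scalar (hgood : W.IsGoodPrimeFor ℓ) (hpl : p ≠ ℓ) (hA : A.LiesOverPrime ℓ)
    {σ : GQ} (hσ : A.IsFrobeniusAt σ ℓ) {n m : ℕ} (hm : ¬ ℓ ∣ m)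
    (h : ∀ j, galH W σ (B.e n j) = -(m • B.e n j)) :
    ((p : ℤ) ^ n) ^ 2 ∣ (m : ℤ) ^ 2 + W.apOfModel ℓ * m + ℓ := by
  have hch := charP_resB hℓ.out hA
  have hell := isElliptic_int (k := ResB A) hgood
  have hΔ : W.Δ ≠ 0 := by
    intro h0
    apply hgood
    rw [h0]
    exact dvd_zero _
  haveI := isElliptic_map hΔ
  have hmk : ((m : ℕ) : ResB A) ≠ 0 := by
    rw [Ne, CharP.cast_eq_zero_iff (ResB A) ℓ]
    exact hm
  have h1 := card_frob_add (hk_int (k := ResB A) (ℓ := ℓ) W) m hmk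
  rw [aℓ_eq_apOfModel] at h1
  rw [← h1]
  let H : AddSubgroup ((W.map (Int.castRingHom ℚ))⁄Kb).Point := (nsmulAddMonoidHom (p ^ n) : _ →+ _).ker
  have hH : ∀ P, P ∈ H ↔ p ^ n • P = 0 := fun P => Iff.rfl
  have hcH : Nat.card H = (p ^ n) ^ 2 :=
    ECT.card_torsion (W := (W.map (Int.castRingHom ℚ))⁄Kb) (p ^ n) (by exact_mod_cast (pow_ne_zero n hp.out.ne_zero))
  let H' : AddSubgroup (W.map (Int.castRingHom (ResB A))).toAffine.Point :=
    H.map (redHom (curveRd_int (A := A) W))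
  have hcH' : Nat.card H' = (p ^ n) ^ 2 := by
    rw [← hcH]
    symm
    refine Nat.card_congr (Equiv.ofBijective (fun x : H => (⟨redHom (curveRd_int (A := A) W) x.1,
      ⟨x.1, x.2, rfl⟩⟩ : H')) ⟨?_, ?_⟩)
    · intro x y hxy
      have h2 : redHom (curveRd_int (A := A) W) (x.1 - y.1) = 0 := by
        rw [map_sub, sub_eq_zero]
        exact congrArg Subtype.val hxy
      have h3 := redHom_inj (A := A) (ℓ := ℓ) (n := n) hA hpl (H.sub_mem x.2 y.2) h2
      exact Subtype.ext (sub_eq_zero.mp h3)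
    · rintro ⟨_, ⟨x, hx, rfl⟩⟩
      exact ⟨⟨x, hx⟩, rfl⟩
  let L : AddSubgroup (W.map (Int.castRingHom (ResB A))).toAffine.Point :=
    (frobP ℓ (hk_int (k := ResB A) (ℓ := ℓ) W) + m • AddMonoidHom.id _).ker
  have hHL : H' ≤ L := by
    rintro _ ⟨P, hP, rfl⟩
    rw [AddMonoidHom.mem_ker]
    change frobP ℓ (hk_int (k := ResB A) (ℓ := ℓ) W) (redHom (curveRd_int (A := A) W) P) +
      m • redHom (curveRd_int (A := A) W) P = 0
    rw [← redHom_gal hA hσ, ← map_nsmul, ← map_add]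
    obtain ⟨c, hc⟩ := B.gen' hp.out n P hP
    have h4 : galH W σ P = -(m • P) := by
      rw [hc, map_sum, Finset.smul_sum, ← Finset.sum_neg_distrib]
      refine Finset.sum_congr rfl fun i _ => ?_
      rw [map_zsmul, h, zsmul_neg, ← natCast_zsmul, ← natCast_zsmul, smul_smul, smul_smul, mul_comm]
    rw [h4, neg_add_cancel, _root_.map_zero]
  have h2 : Nat.card L = Nat.card {T : (W.map (Int.castRingHom (ResB A))).toAffine.Point //
      frobP ℓ (hk_int (k := ResB A) (ℓ := ℓ) W) T + m • T = 0} := rfl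
  have h3 := AddSubgroup.card_dvd_of_le hHL
  rw [hcH', h2] at h3
  exact_mod_cast h3

theorem trace_det_or_scalar {R : Type*} [CommRing R] [IsDomain R]
    {M : Matrix (Fin 2) (Fin 2) R} {a l : R}
    (h : M * M - a • M + l • (1 : Matrix (Fin 2) (Fin 2) R) = 0) :
    (M.trace = a ∧ M.det = l) ∨ ∃ c : R, M = c • (1 : Matrix (Fin 2) (Fin 2) R) := by
  have h00 := congrFun (congrFun h 0) 0
  have h01 := congrFun (congrFun h 0) 1
  have h10 := congrFun (congrFun h 1) 0
  have h11 := congrFun (congrFun h 1) 1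
  simp only [Matrix.add_apply, Matrix.sub_apply, Matrix.mul_apply, Fin.sum_univ_two,
    Matrix.smul_apply, smul_eq_mul, Matrix.one_apply_eq, Matrix.zero_apply, ne_eq,
    zero_ne_one, one_ne_zero, not_false_eq_true, Matrix.one_apply_ne] at h00 h01 h10 h11
  by_cases ht : M.trace = a
  · left
    refine ⟨ht, ?_⟩
    rw [Matrix.trace_fin_two] at ht
    rw [Matrix.det_fin_two]
    linear_combination M 0 0 * ht - h00
  · right
    have ht' : M 0 0 + M 1 1 - a ≠ 0 := by
      rw [Matrix.trace_fin_two] at ht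
      exact sub_ne_zero.mpr ht
    have e01 : M 0 1 = 0 := by
      have : (M 0 0 + M 1 1 - a) * M 0 1 = 0 := by linear_combination h01
      exact (mul_eq_zero.mp this).resolve_left ht'
    have e10 : M 1 0 = 0 := by
      have : (M 0 0 + M 1 1 - a) * M 1 0 = 0 := by linear_combination h10
      exact (mul_eq_zero.mp this).resolve_left ht'
    have e11 : M 1 1 = M 0 0 := by
      have : (M 0 0 + M 1 1 - a) * (M 0 0 - M 1 1) = 0 := by
        linear_combination h00 - h11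
      exact (sub_eq_zero.mp ((mul_eq_zero.mp this).resolve_left ht')).symm
    refine ⟨M 0 0, ?_⟩
    ext i j
    fin_cases i <;> fin_cases j <;> simp [e01, e10, e11]

/-- **Trace and determinant of Frobenius on the Tate module.** -/
theorem tM_frob (hgood : W.IsGoodPrimeFor ℓ) (hpl : p ≠ ℓ) (hA : A.LiesOverPrime ℓ)
    {σ : GQ} (hσ : A.IsFrobeniusAt σ ℓ) :
    (tM B σ).trace = (W.apOfModel ℓ : ℤ_[p]) ∧ (tM B σ).det = (ℓ : ℤ_[p]) := by
  have hrel := tM_relation B hgood hpl hA hσ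
  have hrel' : tM B σ * tM B σ - ((W.apOfModel ℓ : ℤ) : ℤ_[p]) • tM B σ +
      (ℓ : ℤ_[p]) • (1 : Matrix (Fin 2) (Fin 2) ℤ_[p]) = 0 := by
    rw [← hrel, Int.cast_smul_eq_zsmul, ← Int.cast_natCast (R := ℤ_[p]), Int.cast_smul_eq_zsmul]
  rcases trace_det_or_scalar hrel' with h | ⟨c, hc⟩
  · exact h
  · have key : ∀ n : ℕ, ∃ m : ℕ, (p : ℤ_[p]) ^ n ∣ c + m ∧
        (p : ℤ) ^ n ∣ 2 * m + W.apOfModel ℓ ∧
        (p : ℤ) ^ n ∣ (m : ℤ) ^ 2 + W.apOfModel ℓ * m + ℓ := by
      intro n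
      have hcop : Nat.Coprime (p ^ n) ℓ :=
        Nat.Coprime.pow_left n ((Nat.coprime_primes hp.out hℓ.out).mpr hpl)
      obtain ⟨m, hm1, hm2⟩ := Nat.chineseRemainder hcop ((-c).appr n) 1
      have hml : ¬ ℓ ∣ m := by
        intro hd
        have h1 : m % ℓ = 1 % ℓ := hm2
        rw [Nat.mod_eq_zero_of_dvd hd, Nat.mod_eq_of_lt hℓ.out.one_lt] at h1
        exact zero_ne_one h1
      have hmc : (p : ℤ_[p]) ^ n ∣ c + m := by
        have h1 := PadicInt.appr_spec n (-c)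
        rw [Ideal.mem_span_singleton] at h1
        have h2 : (p : ℤ_[p]) ^ n ∣ ((m : ℤ) - ((-c).appr n : ℤ) : ℤ) := by
          rw [dvd_int_iff]
          have := (Nat.modEq_iff_dvd.mp hm1.symm)
          exact_mod_cast this
        have h3 : c + m = (((m : ℤ) - ((-c).appr n : ℤ) : ℤ) : ℤ_[p]) -
            (-c - ((-c).appr n : ℤ_[p])) := by push_cast; ring
        rw [h3]
        exact dvd_sub h2 h1
      have hml' : ¬ ℓ ∣ m + ℓ * p ^ n := by
        rwa [Nat.dvd_add_left (Dvd.intro _ rfl)]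
      have hmc' : (p : ℤ_[p]) ^ n ∣ c + ((m + ℓ * p ^ n : ℕ) : ℤ_[p]) := by
        push_cast
        rw [← add_assoc]
        exact dvd_add hmc (Dvd.intro_left _ rfl)
      have hact : ∀ k : ℕ, (p : ℤ_[p]) ^ n ∣ c + k → ∀ j, galH W σ (B.e n j) = -(k • B.e n j) := by
        intro k hk j
        have h1 := isMat_mat B (galH W σ) n (-(k : ℤ) • (1 : Matrix (Fin 2) (Fin 2) ℤ)) (by
          intro i j
          rw [← tM_apply, hc]
          simp only [Matrix.smul_apply, smul_eq_mul]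
          by_cases hij : i = j
          · rw [hij, Matrix.one_apply_eq, Matrix.one_apply_eq]
            push_cast
            have : c * 1 - -(k : ℤ_[p]) * 1 = c + k := by ring
            rw [this]
            exact hk
          · rw [Matrix.one_apply_ne hij, Matrix.one_apply_ne hij]
            simp) j
        rw [h1, Fin.sum_univ_two]
        fin_cases j
        · change (-(k : ℤ) * (1 : Matrix (Fin 2) (Fin 2) ℤ) 0 0) • B.e n 0 +
            (-(k : ℤ) * (1 : Matrix (Fin 2) (Fin 2) ℤ) 1 0) • B.e n 1 = -(k • B.e n 0)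
          simp
        · change (-(k : ℤ) * (1 : Matrix (Fin 2) (Fin 2) ℤ) 0 1) • B.e n 0 +
            (-(k : ℤ) * (1 : Matrix (Fin 2) (Fin 2) ℤ) 1 1) • B.e n 1 = -(k • B.e n 1)
          simp
      have d1 := dvd_of_scalar B hgood hpl hA hσ hml (hact m hmc)
      have d2 := dvd_of_scalar B hgood hpl hA hσ hml' (hact _ hmc')
      have hpZ : (p : ℤ) ^ n ≠ 0 := pow_ne_zero n (by exact_mod_cast hp.out.ne_zero)
      refine ⟨m, hmc, ?_, (Dvd.intro_left _ (pow_two ((p : ℤ) ^ n)).symm).trans d1⟩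
      have h1 : ((p : ℤ) ^ n) ^ 2 ∣ ((m + ℓ * p ^ n : ℕ) : ℤ) ^ 2 +
          W.apOfModel ℓ * ((m + ℓ * p ^ n : ℕ) : ℤ) + ℓ -
          ((m : ℤ) ^ 2 + W.apOfModel ℓ * m + ℓ) - ℓ ^ 2 * (p ^ n) ^ 2 :=
        dvd_sub (dvd_sub d2 d1) (Dvd.intro_left _ rfl)
      have h2 : ((m + ℓ * p ^ n : ℕ) : ℤ) ^ 2 + W.apOfModel ℓ * ((m + ℓ * p ^ n : ℕ) : ℤ) + ℓ -
          ((m : ℤ) ^ 2 + W.apOfModel ℓ * m + ℓ) - ℓ ^ 2 * (p ^ n) ^ 2 =
          p ^ n * (ℓ * (2 * m + W.apOfModel ℓ)) := by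
        push_cast
        ring
      rw [h2, pow_two] at h1
      have h3 := (mul_dvd_mul_iff_left hpZ).mp h1
      have hcop' : IsCoprime ((p : ℤ) ^ n) (ℓ : ℤ) := by
        have := Nat.isCoprime_iff_coprime.mpr hcop
        push_cast at this
        exact this
      exact hcop'.dvd_of_dvd_mul_left h3
    have e1 : (W.apOfModel ℓ : ℤ_[p]) = 2 * c := by
      refine eq_of_forall_dvd fun n => ?_
      obtain ⟨m, hm1, hm2, -⟩ := key n
      have h1 : (p : ℤ_[p]) ^ n ∣ ((2 * m + W.apOfModel ℓ : ℤ) : ℤ_[p]) := dvd_int_iff.mpr hm2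
      have h2 : (W.apOfModel ℓ : ℤ_[p]) - 2 * c = ((2 * m + W.apOfModel ℓ : ℤ) : ℤ_[p]) -
          2 * (c + m) := by push_cast; ring
      rw [h2]
      exact dvd_sub h1 (Dvd.dvd.mul_left hm1 _)
    have e2 : c ^ 2 = (ℓ : ℤ_[p]) := by
      refine eq_of_forall_dvd fun n => ?_
      obtain ⟨m, hm1, -, hm3⟩ := key n
      have h1 : (p : ℤ_[p]) ^ n ∣ (((m : ℤ) ^ 2 + W.apOfModel ℓ * m + ℓ : ℤ) : ℤ_[p]) :=
        dvd_int_iff.mpr hm3
      have h2 : c ^ 2 - (ℓ : ℤ_[p]) = (c + m) * (c + m) -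
          (((m : ℤ) ^ 2 + W.apOfModel ℓ * m + ℓ : ℤ) : ℤ_[p]) := by
        push_cast
        rw [e1]
        ring
      rw [h2]
      exact dvd_sub (Dvd.dvd.mul_right hm1 _) h1
    rw [hc, e1, ← e2]
    constructor
    · rw [Matrix.trace_smul, Matrix.trace_one, Fintype.card_fin, smul_eq_mul]
      push_cast
      ring
    · rw [Matrix.det_smul, Matrix.det_one, Fintype.card_fin, mul_one]

end frob

end Fermat.Agent.EC.Tate
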