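import Fermat.Agent.EC.Kernel

set_option autoImplicit false

/-!
# Rational torsion points at a multiplicative place above `2`
-/

namespace Fermat.Agent.EC

open WeierstrassCurve WeierstrassCurve.Affine

/-- Strong version of `tropical`. -/
theorem tropical_strong {p : ℕ} (hp : 3 ≤ p) {u : ℕ → ℚ}
    (hu : ∀ m, 1 ≤ m → m < p → 0 < u m ∧ u m < 1 / 2)
    (h2 : u 2 + 2 * u 1 = min (4 * u 1) 1)
    (hrec : ∀ m, 2 ≤ m → m + 1 < p →
      u (m + 1) + u (m - 1) + 2 * min (u m) (u 1) = min (2 * u m + 2 * u 1) 1)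
    (hlast : u (p - 1) = u 1) : ∃ s : ℤ, p * u 1 = s := by
  have hu1 := hu 1 le_rfl (by omega)
  have H : ∀ m : ℕ, 1 ≤ m → m + 1 < p →
      (∃ c : ℤ, |(m : ℚ) * u 1 - c| = u m) ∧ (∃ c : ℤ, |((m + 1 : ℕ) : ℚ) * u 1 - c| = u (m + 1)) := by
    intro m hm
    induction m, hm using Nat.le_induction with
    | base =>
      intro _
      refine ⟨⟨0, ?_⟩, ?_⟩
      · push_cast
        rw [one_mul, sub_zero, abs_of_pos hu1.1]
      · rcases min_cases (4 * u 1) 1 with h | h
        · refine ⟨0, ?_⟩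
          push_cast
          norm_num
          rw [abs_of_nonneg (by linarith)]
          linarith
        · refine ⟨1, ?_⟩
          push_cast
          have := (hu 2 (by omega) (by omega))
          rw [abs_of_nonpos (by linarith)]
          linarith
    | succ m hm ih =>
      intro hmp
      obtain ⟨⟨c', hc'⟩, ⟨c, hc⟩⟩ := ih (by omega)
      refine ⟨⟨c, hc⟩, ?_⟩
      have hum := hu m hm (by omega)
      have hum1 := hu (m + 1) (by omega) (by omega)
      have hr := hrec (m + 1) (by omega) hmp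
      rw [Nat.add_sub_cancel] at hr
      have hM : ((m + 1 : ℕ) : ℚ) * u 1 - u 1 - c' = (m : ℚ) * u 1 - c' := by push_cast; ring
      obtain ⟨c'', h''⟩ := trop_step (M := ((m + 1 : ℕ) : ℚ) * u 1) hu1.1 hu1.2 hum1.1 hum1.2
        hum.1 hum.2 hc (by rw [hM]; exact hc') hr
      refine ⟨c'', ?_⟩
      rw [← h'']
      congr 1
      push_cast
      ring
  obtain ⟨⟨c', hc'⟩, ⟨c, hc⟩⟩ := H (p - 2) (by omega) (by omega)
  have hp1 : p - 2 + 1 = p - 1 := by omega
  rw [hp1, hlast] at hc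
  have hcast : ((p - 1 : ℕ) : ℚ) = p - 1 := by
    rw [Nat.cast_sub (by omega)]; simp
  have hcast2 : ((p - 2 : ℕ) : ℚ) = p - 2 := by
    rw [Nat.cast_sub (by omega)]; simp
  rw [hcast] at hc
  rw [hcast2] at hc'
  have hup := hu (p - 2) (by omega) (by omega)
  rcases abs_cases (((p : ℚ) - 1) * u 1 - c) with h' | h'
  · exfalso
    have e1 : ((p : ℚ) - 2) * u 1 = c := by linarith
    rw [e1] at hc'
    have e2 : |((c - c' : ℤ) : ℚ)| = u (p - 2) := by push_cast; exact hc'
    have e3 : (0 : ℚ) < |((c - c' : ℤ) : ℚ)| := by rw [e2]; exact hup.1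
    have e4 : |((c - c' : ℤ) : ℚ)| < 1 := by rw [e2]; linarith [hup.2]
    rw [← Int.cast_abs] at e3 e4
    have e5 : 0 < |c - c'| := by exact_mod_cast e3
    have e6 : |c - c'| < 1 := by exact_mod_cast e4
    omega
  · exact ⟨c, by linarith⟩

/-- Scaled version of `tropical_strong`. -/
theorem tropical_strong_scaled {p : ℕ} (hp : 3 ≤ p) {w : ℕ → ℚ} {n : ℚ} (hn : 0 < n)
    (hw : ∀ m, 1 ≤ m → m < p → 0 < w m ∧ 2 * w m < n)
    (h2 : w 2 + 2 * w 1 = min (4 * w 1) n)
    (hrec : ∀ m, 2 ≤ m → m + 1 < p →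
      w (m + 1) + w (m - 1) + 2 * min (w m) (w 1) = min (2 * w m + 2 * w 1) n)
    (hlast : w (p - 1) = w 1) :
    ∃ s : ℤ, p * w 1 = s * n := by
  have hmin : ∀ a b : ℚ, min (a / n) (b / n) = min a b / n := fun a b => by
    rcases le_total a b with h | h
    · rw [min_eq_left h, min_eq_left (div_le_div_of_nonneg_right h hn.le)]
    · rw [min_eq_right h, min_eq_right (div_le_div_of_nonneg_right h hn.le)]
  have hn1 : (1 : ℚ) = n / n := (div_self hn.ne').symm
  obtain ⟨s, h1⟩ := tropical_strong hp (u := fun m => w m / n)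
    (fun m h1 h2 => ⟨div_pos (hw m h1 h2).1 hn, by
      rw [div_lt_div_iff₀ hn (by norm_num)]; linarith [(hw m h1 h2).2]⟩)
    (by
      change w 2 / n + 2 * (w 1 / n) = min (4 * (w 1 / n)) 1
      rw [hn1, ← mul_div_assoc, ← mul_div_assoc, hmin, ← h2]
      ring)
    (fun m hm hmp => by
      have := hrec m hm hmp
      change w (m + 1) / n + w (m - 1) / n + 2 * min (w m / n) (w 1 / n) =
        min (2 * (w m / n) + 2 * (w 1 / n)) 1
      have e1 : 2 * (w m / n) + 2 * (w 1 / n) = (2 * w m + 2 * w 1) / n := by ring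
      rw [e1, hn1, hmin, hmin, ← this]
      ring)
    (by
      change w (p - 1) / n = w 1 / n
      rw [hlast])
  refine ⟨s, ?_⟩
  have h1' : (p : ℚ) * (w 1 / n) = s := h1
  rw [← h1']
  field_simp

variable {K : Type*} [Field K] {Γ₀ : Type*} [LinearOrderedCommGroupWithZero Γ₀]
  {v : Valuation K Γ₀} {W : WeierstrassCurve K} [DecidableEq K]

/-- In residue characteristic two, doubling preserves unit `X`-coordinates. -/
lemma MultForm.dbl_unit (hM : MultForm v W) (h2v : v (2 : K) < 1) {A : W.toAffine.Point}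
    (hA : A ≠ 0) (h2 : A + A ≠ 0) (hx : v (xc A) = 1) : v (xc (A + A)) = 1 := by
  have key := xc_dbl hA h2
  obtain ⟨x, hxd⟩ : ∃ x, x = xc A := ⟨_, rfl⟩
  rw [← hxd] at key hx
  have hb4 : v W.b₄ < 1 := hM.b₄_le.trans_lt hM.a₆
  have hb6 : v W.b₆ < 1 := hM.b₆_le.trans_lt hM.a₆
  have hb8 : v W.b₈ < 1 := by rw [hM.b₈_eq]; exact hM.a₆
  have h4v : v (4 : K) < 1 := by
    have : (4 : K) = 2 * 2 := by norm_num
    rw [this]; exact v_lt_mul h2v.le h2v
  have hN : v (x ^ 4 - W.b₄ * x ^ 2 - 2 * W.b₆ * x - W.b₈) = 1 := by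
    have e : x ^ 4 - W.b₄ * x ^ 2 - 2 * W.b₆ * x - W.b₈ =
      x ^ 4 + (-(x ^ 2 * W.b₄) - 2 * x * W.b₆ - W.b₈) := by ring
    rw [e]
    refine v_eq_one_of_add (by rw [map_pow, hx, one_pow]) ?_
    refine v_sub_lt (v_sub_lt ?_ (v_lt_mul (v_mul_le' v_two_le hx.le) hb6)) hb8
    rw [Valuation.map_neg]
    exact v_lt_mul (v_pow_le_one hx.le 2) hb4
  have hD : v (4 * x ^ 3 + W.b₂ * x ^ 2 + 2 * W.b₄ * x + W.b₆) = 1 := by
    have e : 4 * x ^ 3 + W.b₂ * x ^ 2 + 2 * W.b₄ * x + W.b₆ =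
      W.b₂ * x ^ 2 + (x ^ 3 * 4 + 2 * x * W.b₄ + W.b₆) := by ring
    rw [e]
    refine v_eq_one_of_add (by rw [map_mul, map_pow, hx, hM.b₂]; simp) ?_
    exact v_add_lt (v_add_lt (v_lt_mul (v_pow_le_one hx.le 3) h4v)
      (v_lt_mul (v_mul_le' v_two_le hx.le) hb4)) hb6
  rw [← key, map_mul, hD, mul_one] at hN
  exact hN

/-- Points with congruent unit `X`-coordinates are congruent up to sign. -/
lemma MultForm.inKer_of_x_congr (hM : MultForm v W) {A B : W.toAffine.Point} (hA : A ≠ 0)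
    (hB : B ≠ 0) (hx : v (xc B) = 1) (hAB : v (xc A - xc B) < 1) :
    InKer v (A - B) ∨ InKer v (A + B) := by
  rcases A with _ | ⟨x', y', h'⟩
  · exact absurd rfl hA
  rcases B with _ | ⟨x, y, h⟩
  · exact absurd rfl hB
  rw [xc_some] at hx
  rw [xc_some, xc_some] at hAB
  have hW := hM.vint
  have hx' : v x' ≤ 1 := by
    have : x' = x + (x' - x) := by ring
    rw [this]
    exact v_add_le hx.le hAB.le
  have hy := y_integral hW h.1 hx.le
  have hy' := y_integral hW h'.1 hx'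
  have e1 := (equation_iff _ _).mp h.1
  have e2 := (equation_iff _ _).mp h'.1
  have key : (y' - y) * (y' - W.toAffine.negY x y) =
      (x' ^ 2 + x' * x + x ^ 2 + W.a₂ * (x' + x) + W.a₄ - W.a₁ * y') * (x' - x) := by
    simp only [negY]
    linear_combination e2 - e1
  have hlt : v ((y' - y) * (y' - W.toAffine.negY x y)) < 1 := by
    rw [key]
    refine v_lt_mul ?_ hAB
    refine v_sub_le (v_add_le (v_add_le (v_add_le (v_add_le (v_pow_le_one hx' 2)
      (v_mul_le' hx' hx.le)) (v_pow_le_one hx.le 2)) (v_mul_le' hW.a₂ (v_add_le hx' hx.le)))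
      hW.a₄) (v_mul_le' hW.a₁ hy')
  have hnegY : v (W.toAffine.negY x y) ≤ 1 := by
    simp only [negY]
    exact v_sub_le (v_sub_le (by rw [Valuation.map_neg]; exact hy) (v_mul_le' hW.a₁ hx.le)) hW.a₃
  have hfac : v (y' - y) < 1 ∨ v (y' - W.toAffine.negY x y) < 1 := by
    by_contra hcon
    push Not at hcon
    obtain ⟨h1, h2⟩ := hcon
    have h1' : v (y' - y) = 1 := le_antisymm (v_sub_le hy' hy) h1
    have h2' : v (y' - W.toAffine.negY x y) = 1 := le_antisymm (v_sub_le hy' hnegY) h2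
    rw [map_mul, h1', h2', mul_one] at hlt
    exact lt_irrefl _ hlt
  rcases hfac with h1 | h1
  · left
    rcases sub_of_same_reduction hW h h' hx.le hAB h1 (hM.nonsing h.1 hx) with h2 | h2
    · rw [h2, sub_self]; exact inKer_zero
    · obtain ⟨X, Y, HXY, h3, h4⟩ := h2
      rw [h3, inKer_some]; exact h4
  · right
    have hneg := (nonsingular_neg x y).mpr h
    rcases sub_of_same_reduction hW hneg h' hx.le hAB h1 (hM.nonsing hneg.1 hx) with h2 | h2
    · rw [h2, ← Point.neg_some h, neg_add_cancel]; exact inKer_zero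
    · obtain ⟨X, Y, HXY, h3, h4⟩ := h2
      rw [← Point.neg_some h, sub_neg_eq_add] at h3
      rw [h3, inKer_some]; exact h4

/-- The valuation of `x(A + B) + x(A - B)` for points on intermediate components. -/
lemma MultForm.v_add_sum (hM : MultForm v W) {A B : W.toAffine.Point} (hA : A ≠ 0)
    (hB : B ≠ 0) (hA1 : v (xc A) < 1) (hB1 : v (xc B) < 1) (hA2 : v W.a₆ < v (xc A) ^ 2)
    (hB2 : v W.a₆ < v (xc B) ^ 2) (hne : xc A ≠ xc B) :
    v (xc A - xc B) ^ 2 * v (xc (A + B) + xc (A - B)) = v (xc A) * v (xc B) := by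
  have key := Fermat.Agent.ECT.xc_add hA hB hne
  obtain ⟨x₁, hx₁⟩ : ∃ x, x = xc A := ⟨_, rfl⟩
  obtain ⟨x₂, hx₂⟩ : ∃ x, x = xc B := ⟨_, rfl⟩
  rw [← hx₁, ← hx₂] at key ⊢
  rw [← hx₁] at hA1 hA2
  rw [← hx₂] at hB1 hB2
  have hδ : v W.a₆ < v x₁ * v x₂ := by
    rcases le_total (v x₁) (v x₂) with h | h
    · exact hA2.trans_le (by rw [sq]; exact mul_le_mul_right h _)
    · exact hB2.trans_le (by rw [sq]; exact mul_le_mul_left h _)
  have hx0 : v (x₁ * x₂) ≠ 0 := by
    rw [map_mul]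
    exact (zero_le.trans_lt hδ).ne'
  rw [← map_pow, ← map_mul, key, ← map_mul]
  have e : 2 * x₁ * x₂ * (x₁ + x₂) + W.b₂ * x₁ * x₂ + W.b₄ * (x₁ + x₂) + W.b₆ =
    W.b₂ * (x₁ * x₂) + ((2 * (x₁ * x₂)) * (x₁ + x₂) + W.b₄ * (x₁ + x₂) + W.b₆) := by ring
  have hb : v (W.b₂ * (x₁ * x₂)) = v (x₁ * x₂) := by rw [map_mul, hM.b₂, one_mul]
  have hδ' : v W.a₆ < v (x₁ * x₂) := by rw [map_mul]; exact hδ
  rw [e, Valuation.map_add_eq_of_lt_left v, hb]
  rw [hb]
  refine v_add_lt (v_add_lt ?_ ?_) (hM.b₆_le.trans_lt hδ')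
  · exact v_mul_lt_of_lt hx0 (v_mul_le' v_two_le le_rfl) (v_add_lt hA1 hB1)
  · exact (v_mul_le'' hM.b₄_le (v_add_lt hA1 hB1).le).trans_lt hδ'

/-- Main theorem: if there is a point of order `p ≥ 5` whose multiples have `X`-coordinates in
a field with residue field `𝔽₂` and value group `ℤ`, then `p ∣ v(a₆)`. -/
theorem MultForm.dvd_of_torsion (hM : MultForm v W) {val : K → ℚ} (H : RatVal v val)
    (h2v : v (2 : K) < 1) {p : ℕ} (hp : p.Prime) (hp5 : 5 ≤ p) (hpv : v (p : K) = 1)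
    {P : W.toAffine.Point} (hP0 : P ≠ 0) (hP : p • P = 0)
    (hS1 : ∀ m : ℕ, v (xc (m • P)) = 1 → v (xc (m • P) - 1) < 1)
    (hS2 : xc P ≠ 0 → ∃ k : ℤ, val (xc P) = k) {n : ℤ} (hn : val W.a₆ = n) : (p : ℤ) ∣ n := by
  have hW := hM.vint
  have hord : addOrderOf P = p := by
    have h1 := addOrderOf_dvd_of_nsmul_eq_zero hP
    rcases (Nat.dvd_prime hp).mp h1 with h2 | h2
    · rw [AddMonoid.addOrderOf_eq_one_iff] at h2
      exact absurd h2 hP0
    · exact h2
  have hne0 : ∀ m : ℕ, ¬ p ∣ m → m • P ≠ 0 := by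
    intro m h1 h3
    apply h1
    rw [← hord]
    exact addOrderOf_dvd_of_nsmul_eq_zero h3
  have htor : ∀ m : ℕ, p • (m • P) = 0 := by
    intro m
    rw [smul_comm, hP, smul_zero]
  have hint : ∀ m : ℕ, v (xc (m • P)) ≤ 1 := by
    intro m
    have h1 := htor m
    generalize m • P = Q at h1
    rcases Q with _ | ⟨x, y, h⟩
    · change v (0 : K) ≤ 1
      rw [map_zero]; exact zero_le
    · rw [xc_some]
      exact integral_of_torsion hW hpv h1
  have hker : ∀ m : ℕ, ¬ p ∣ m → ¬ InKer v (m • P) := by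
    intro m h1 h2
    rcases h2 with h2 | h2
    · exact hne0 m h1 h2
    · exact absurd (hint m) (not_le.mpr h2)
  have hndvd : ∀ a m : ℕ, 1 ≤ a → a < p → ¬ p ∣ m → ¬ p ∣ a * m := by
    intro a m h1 h2 h3 h4
    rcases hp.dvd_mul.mp h4 with h5 | h5
    · exact absurd (Nat.le_of_dvd h1 h5) (by omega)
    · exact h3 h5
  -- no multiple has a unit `X`-coordinate
  have hnotunit : ∀ m : ℕ, ¬ p ∣ m → v (xc (m • P)) ≠ 1 := by
    intro m hm h1
    have h2m := hndvd 2 m (by norm_num) (by omega) hm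
    have h3m := hndvd 3 m (by norm_num) (by omega) hm
    have e2 : m • P + m • P = (2 * m) • P := by rw [two_mul, add_smul]
    have h2 : v (xc ((2 * m) • P)) = 1 := by
      rw [← e2]
      exact hM.dbl_unit h2v (hne0 m hm) (by rw [e2]; exact hne0 _ h2m) h1
    have h3 : v (xc ((2 * m) • P) - xc (m • P)) < 1 := by
      have : xc ((2 * m) • P) - xc (m • P) = (xc ((2 * m) • P) - 1) - (xc (m • P) - 1) := by ring
      rw [this]
      exact v_sub_lt (hS1 _ h2) (hS1 _ h1)
    rcases hM.inKer_of_x_congr (hne0 _ h2m) (hne0 _ hm) h1 h3 with h4 | h4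
    · have : (2 * m) • P - m • P = m • P := by rw [← e2, add_sub_cancel_right]
      rw [this] at h4
      exact hker m hm h4
    · have : (2 * m) • P + m • P = (3 * m) • P := by rw [← add_smul]; congr 1; ring
      rw [this] at h4
      exact hker _ h3m h4
  have hlt : ∀ m : ℕ, ¬ p ∣ m → v (xc (m • P)) < 1 := fun m hm =>
    lt_of_le_of_ne (hint m) (hnotunit m hm)
  have hmid : ∀ m : ℕ, ¬ p ∣ m → v W.a₆ < v (xc (m • P)) ^ 2 := by
    intro m hm
    by_contra hle
    rw [not_lt] at hle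
    have h2m := hndvd 2 m (by norm_num) (by omega) hm
    have e2 : m • P + m • P = (2 * m) • P := by rw [two_mul, add_smul]
    have h1 := hM.two_nsmul_big (hne0 m hm) (by rw [e2]; exact hne0 _ h2m) (hlt m hm) hle
    rw [e2] at h1
    exact absurd (hlt _ h2m) (not_lt.mpr h1)
  have hx0 : ∀ m : ℕ, ¬ p ∣ m → xc (m • P) ≠ 0 := by
    intro m hm h0
    have := hmid m hm
    rw [h0, map_zero, zero_pow (by norm_num)] at this
    exact absurd this (not_lt.mpr zero_le)
  have hvx : ∀ m : ℕ, ¬ p ∣ m → 0 < val (xc (m • P)) ∧ 2 * val (xc (m • P)) < val W.a₆ := by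
    intro m hm
    have h4 := hx0 m hm
    refine ⟨(H.lt_one_iff h4).mp (hlt m hm), ?_⟩
    have h5 := hmid m hm
    rw [← map_pow, H.lt_iff hM.a₆0 (pow_ne_zero 2 h4), H.pow h4] at h5
    exact_mod_cast h5
  have hsmall : ∀ m : ℕ, 1 ≤ m → m < p → ¬ p ∣ m := fun m h1 h2 h3 =>
    absurd (Nat.le_of_dvd h1 h3) (by omega)
  have ha₆ : 0 < val W.a₆ := (H.lt_one_iff hM.a₆0).mp hM.a₆
  -- the recursion
  obtain ⟨s, hs⟩ := tropical_strong_scaled (p := p) (by omega) (w := fun m => val (xc (m • P)))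
    ha₆ (fun m h1 h2 => hvx m (hsmall m h1 h2))
    (by
      change val (xc (2 • P)) + 2 * val (xc (1 • P)) = min (4 * val (xc (1 • P))) (val W.a₆)
      have n1 := hsmall 1 le_rfl (by omega)
      have n2 := hsmall 2 (by omega) (by omega)
      have e2 : 1 • P + 1 • P = 2 • P := by rw [← add_smul]
      have h1 := hvx 1 n1
      have hx10 := hx0 1 n1
      have hne4 : 4 * val (xc (1 • P)) ≠ val W.a₆ := by
        intro h4
        -- `v(x)^4 = v(a₆)`
        have hv4 : v (xc (1 • P)) ^ 4 = v W.a₆ := by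
          rw [← map_pow, H.eq_iff (pow_ne_zero 4 hx10) hM.a₆0, H.pow hx10]
          exact_mod_cast h4
        have key := xc_dbl (hne0 1 n1) (by rw [e2]; exact hne0 2 n2)
        rw [e2] at key
        obtain ⟨x, hx⟩ : ∃ x, x = xc (1 • P) := ⟨_, rfl⟩
        have hx1 := hlt 1 n1
        have hx2 := hmid 1 n1
        rw [← hx] at key hx1 hx2 hv4 hx10
        have h4' : v (4 : K) ≤ 1 := by exact_mod_cast v_nat_le (v := v) 4
        have hN : v (x ^ 4 - W.b₄ * x ^ 2 - 2 * W.b₆ * x - W.b₈) ≤ v W.a₆ := by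
          refine v_sub_le (v_sub_le (v_sub_le ?_ ?_) ?_) hM.b₈_eq.le
          · rw [map_pow, hv4]
          · exact v_mul_le'' hM.b₄_le (v_pow_le_one hx1.le 2)
          · exact v_mul_le'' (v_mul_le' v_two_le hM.b₆_le) hx1.le
        have hD : v (4 * x ^ 3 + W.b₂ * x ^ 2 + 2 * W.b₄ * x + W.b₆) = v x ^ 2 := by
          have e : 4 * x ^ 3 + W.b₂ * x ^ 2 + 2 * W.b₄ * x + W.b₆ =
            W.b₂ * x ^ 2 + (4 * x ^ 2 * x + 2 * W.b₄ * x + W.b₆) := by ring
          have hx2v : v (x ^ 2) ≠ 0 := (Valuation.ne_zero_iff v).mpr (pow_ne_zero 2 hx10)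
          have h1 : v (W.b₂ * x ^ 2) = v (x ^ 2) := by rw [map_mul, hM.b₂, one_mul]
          have hlt : v (4 * x ^ 2 * x + 2 * W.b₄ * x + W.b₆) < v (x ^ 2) := by
            rw [← map_pow] at hx2
            refine v_add_lt (v_add_lt ?_ ?_) (hM.b₆_le.trans_lt hx2)
            · exact v_mul_lt_of_lt hx2v (v_mul_le' h4' le_rfl) hx1
            · exact (v_mul_le'' (v_mul_le' v_two_le hM.b₄_le) hx1.le).trans_lt hx2
          rw [e, Valuation.map_add_eq_of_lt_left v (by rw [h1]; exact hlt), h1, map_pow]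
        rw [← key, map_mul, hD] at hN
        have hvx0 : 0 < v x := zero_lt_iff.mpr ((Valuation.ne_zero_iff v).mpr hx10)
        have h5 : v (xc (2 • P)) ≤ v x ^ 2 := by
          rw [← hv4] at hN
          have : v x ^ 4 = v x ^ 2 * v x ^ 2 := by rw [← pow_add]
          rw [this] at hN
          exact le_of_mul_le_mul_right hN (pow_pos hvx0 2)
        have h6 : v (xc (2 • P)) ^ 2 ≤ v W.a₆ := by
          rw [← hv4]
          calc v (xc (2 • P)) ^ 2 ≤ (v x ^ 2) ^ 2 := pow_le_pow_left' h5 2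
            _ = v x ^ 4 := by rw [← pow_mul]
        exact absurd (hmid 2 n2) (not_lt.mpr h6)
      have h2 := hM.val_dbl H (hne0 1 n1) (by rw [e2]; exact hne0 2 n2) hx10
          h1.1 h1.2 hne4 (by rw [e2]; exact hx0 2 n2)
      rw [e2] at h2
      exact h2)
    (by
      intro m hm hmp
      change val (xc ((m + 1) • P)) + val (xc ((m - 1) • P)) +
        2 * min (val (xc (m • P))) (val (xc (1 • P))) =
        min (2 * val (xc (m • P)) + 2 * val (xc (1 • P))) (val W.a₆)
      have n1 := hsmall 1 le_rfl (by omega)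
      have nm := hsmall m (by omega) (by omega)
      have np := hsmall (m + 1) (by omega) (by omega)
      have nn := hsmall (m - 1) (by omega) (by omega)
      have e1 : m • P + 1 • P = (m + 1) • P := (add_smul _ _ _).symm
      have e2 : m • P - 1 • P = (m - 1) • P := by
        rw [sub_eq_iff_eq_add, ← add_smul]
        congr 1
        omega
      have hXne : xc (m • P) ≠ xc (1 • P) := by
        intro h0
        rcases eq_or_eq_neg_of_xc (hne0 m nm) (hne0 1 n1) h0 with h1 | h1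
        · apply hne0 (m - 1) nn
          rw [← e2, h1, sub_self]
        · apply hne0 (m + 1) np
          rw [← e1, h1, neg_add_cancel]
      have hsum := hM.v_add_sum (hne0 m nm) (hne0 1 n1) (hlt m nm) (hlt 1 n1) (hmid m nm)
        (hmid 1 n1) hXne
      have hprod := xc_mul (hne0 m nm) (hne0 1 n1) hXne
      rw [e1, e2] at hsum hprod
      have hm0 := hx0 m nm
      have h10 := hx0 1 n1
      have hvm0 : 0 < v (xc (m • P)) := zero_lt_iff.mpr ((Valuation.ne_zero_iff v).mpr hm0)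
      have hv10 : 0 < v (xc (1 • P)) := zero_lt_iff.mpr ((Valuation.ne_zero_iff v).mpr h10)
      -- distinct valuations
      have hvne : val (xc (m • P)) ≠ val (xc (1 • P)) := by
        intro h0
        rw [← H.eq_iff hm0 h10] at h0
        have f1 : v (xc (m • P) - xc (1 • P)) ≤ v (xc (1 • P)) := v_sub_le h0.le le_rfl
        have f2 : v (xc ((m + 1) • P) + xc ((m - 1) • P)) < 1 := v_add_lt (hlt _ np) (hlt _ nn)
        have f3 : v (xc (m • P) - xc (1 • P)) ^ 2 *
            v (xc ((m + 1) • P) + xc ((m - 1) • P)) < v (xc (1 • P)) ^ 2 := by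
          calc _ ≤ v (xc (1 • P)) ^ 2 * v (xc ((m + 1) • P) + xc ((m - 1) • P)) :=
                mul_le_mul_left (pow_le_pow_left' f1 2) _
            _ < v (xc (1 • P)) ^ 2 * 1 := mul_lt_mul_of_pos_left f2 (pow_pos hv10 2)
            _ = _ := mul_one _
        rw [hsum, h0, sq] at f3
        exact lt_irrefl _ f3
      have hne2 : 2 * val (xc (m • P)) + 2 * val (xc (1 • P)) ≠ val W.a₆ := by
        intro h0
        have g0 : v (xc (m • P)) ^ 2 * v (xc (1 • P)) ^ 2 = v W.a₆ := by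
          rw [← map_pow, ← map_pow, ← map_mul, H.eq_iff (mul_ne_zero (pow_ne_zero 2 hm0)
            (pow_ne_zero 2 h10)) hM.a₆0, H.mul (pow_ne_zero 2 hm0) (pow_ne_zero 2 h10), H.pow hm0,
            H.pow h10]
          exact_mod_cast h0
        have g1 : v (xc (m • P) - xc (1 • P)) ^ 2 *
            (v (xc ((m + 1) • P)) * v (xc ((m - 1) • P))) ≤ v W.a₆ := by
          rw [← map_mul, ← map_pow, ← map_mul, hprod]
          refine v_sub_le (v_sub_le (v_sub_le ?_ ?_) ?_) hM.b₈_eq.le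
          · rw [map_mul, map_pow, map_pow, g0]
          · exact v_mul_le'' hM.b₄_le (v_mul_le' (hlt m nm).le (hlt 1 n1).le)
          · exact v_mul_le'' hM.b₆_le (v_add_le (hlt m nm).le (hlt 1 n1).le)
        have gen : ∀ a b : K, v (xc (m • P) - xc (1 • P)) ^ 2 * (v a * v b) ≤ v W.a₆ →
            v (xc (m • P) - xc (1 • P)) ^ 2 * v (a + b) = v (xc (m • P)) * v (xc (1 • P)) →
            v b ≤ v a → v b ^ 2 ≤ v W.a₆ := by
          intro a b k1 k2 k3
          have k4 : v (xc (m • P)) * v (xc (1 • P)) ≤ v (xc (m • P) - xc (1 • P)) ^ 2 * v a := by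
            rw [← k2]
            exact mul_le_mul_right ((v.map_add _ _).trans (max_le le_rfl k3)) _
          have k5 : v (xc (m • P)) * v (xc (1 • P)) * v b ≤
              v (xc (m • P)) * v (xc (1 • P)) * (v (xc (m • P)) * v (xc (1 • P))) := by
            calc v (xc (m • P)) * v (xc (1 • P)) * v b
                ≤ v (xc (m • P) - xc (1 • P)) ^ 2 * v a * v b := mul_le_mul_left k4 _
              _ = v (xc (m • P) - xc (1 • P)) ^ 2 * (v a * v b) := mul_assoc _ _ _
              _ ≤ v W.a₆ := k1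
              _ = _ := by rw [← g0, sq, sq]; ac_rfl
          have k6 := le_of_mul_le_mul_left k5 (mul_pos hvm0 hv10)
          calc v b ^ 2 ≤ (v (xc (m • P)) * v (xc (1 • P))) ^ 2 := pow_le_pow_left' k6 2
            _ = v W.a₆ := by rw [← g0, mul_pow]
        rcases le_total (v (xc ((m + 1) • P))) (v (xc ((m - 1) • P))) with hle | hle
        · refine absurd (hmid _ np) (not_lt.mpr (gen _ _ ?_ ?_ hle))
          · rw [mul_comm (v (xc ((m - 1) • P)))]; exact g1
          · rw [add_comm]; exact hsum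
        · exact absurd (hmid _ nn) (not_lt.mpr (gen _ _ g1 hsum hle))
      have hm1 := hvx m nm
      have h1 := hvx 1 n1
      have h3 := hM.val_add_sub H (hne0 m nm) (hne0 1 n1) hm0 h10 hm1.1 h1.1 hvne hne2
        (by rw [e1]; exact hx0 _ np) (by rw [e2]; exact hx0 _ nn)
      rw [e1, e2] at h3
      exact h3)
    (by
      have e : (p - 1) • P = - (1 • P) := by
        rw [eq_neg_iff_add_eq_zero, ← add_smul]
        have : p - 1 + 1 = p := by omega
        rw [this, hP]
      change val (xc ((p - 1) • P)) = val (xc (1 • P))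
      rw [e, one_smul]
      rcases P with _ | ⟨x, y, h⟩
      · rfl
      · rfl)
  simp only [one_smul] at hs
  have n1 := hsmall 1 le_rfl (by omega)
  have hx10 := hx0 1 n1
  have h1 := hvx 1 n1
  rw [one_smul] at hx10 h1
  obtain ⟨k, hk⟩ := hS2 hx10
  rw [hk, hn] at hs
  rw [hk, hn] at h1
  have hs' : (p : ℤ) * k = s * n := by exact_mod_cast hs
  have hk0 : 0 < k := by exact_mod_cast h1.1
  have hk2 : 2 * k < n := by exact_mod_cast h1.2
  have hpz : Prime (p : ℤ) := Nat.prime_iff_prime_int.mp hp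
  rcases hpz.dvd_or_dvd (Dvd.intro k hs') with h3 | h3
  · exfalso
    obtain ⟨s', rfl⟩ := h3
    have h4 : k = s' * n := by
      have hp0 : (p : ℤ) ≠ 0 := by exact_mod_cast hp.ne_zero
      apply mul_left_cancel₀ hp0
      rw [hs', mul_assoc]
    have hn0 : 0 < n := by linarith
    have h5 : 0 < s' := by
      by_contra hle
      rw [not_lt] at hle
      nlinarith
    nlinarith
  · exact h3

end Fermat.Agent.EC
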